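import Mathlib
import Fermat.Prelude.Def_AlgebraicGeometry_NeronModelPropertyBundleCarrier
import Fermat.Agent.AbelianTorsion.Product

/-!
# Fibre powers of a curve over a field and their images

`power c g` is the `g`-fold fibre power of `c : C ⟶ S`; its points are `g`-tuples of points of `C`.
Over an algebraically closed field an integral scheme is geometrically integral, hence so are all
its powers.  The target of a map from a proper geometrically integral scheme which is surjective on
rational points is proper and geometrically connected, once it is separated and of finite type.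

Main results: `geometricallyIntegral_of_isIntegral`,
`isProper_and_geometricallyConnected_of_points`.
-/

set_option autoImplicit false

noncomputable section

universe u

open CategoryTheory CategoryTheory.Limits AlgebraicGeometry NeronModelInfra

namespace FLTAgent.RelPicard

variable {C S : Scheme.{u}} (c : C ⟶ S)

/-- The fibre powers of `c`, together with their structure maps. -/
def powerAux : ℕ → Σ X : Scheme.{u}, X ⟶ S
  | 0 => ⟨S, 𝟙 S⟩
  | g + 1 => ⟨pullback c (powerAux g).2, pullback.snd c (powerAux g).2 ≫ (powerAux g).2⟩

/-- The `g`-fold fibre power of `c`. -/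
def power (g : ℕ) : Scheme.{u} := (powerAux c g).1

/-- The structure map of the fibre power. -/
def powerHom (g : ℕ) : power c g ⟶ S := (powerAux c g).2

/-- The projections of the fibre power. -/
def powerProj : ∀ g : ℕ, Fin g → (power c g ⟶ C)
  | 0 => Fin.elim0
  | g + 1 => Fin.cons (pullback.fst c (powerHom c g)) fun i =>
      pullback.snd c (powerHom c g) ≫ powerProj g i

theorem powerProj_comp : ∀ (g : ℕ) (i : Fin g), powerProj c g i ≫ c = powerHom c g := by
  intro g
  induction g with
  | zero => exact fun i => i.elim0
  | succ g ih =>
    intro i
    refine Fin.cases ?_ (fun i => ?_) i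
    · exact pullback.condition
    · show (pullback.snd c (powerHom c g) ≫ powerProj c g i) ≫ c = _
      rw [Category.assoc, ih i]
      rfl

/-- The point of the fibre power given by a tuple of points. -/
def powerLift {T : Scheme.{u}} (t : T ⟶ S) :
    ∀ g : ℕ, (Fin g → SchemeHomOver t c) → SchemeHomOver t (powerHom c g)
  | 0, _ => ⟨t, Category.comp_id t⟩
  | g + 1, x => ⟨pullback.lift (x 0).1 (powerLift t g fun i => x i.succ).1
      ((x 0).2.trans (powerLift t g fun i => x i.succ).2.symm),
      by
        exact (pullback.lift_snd_assoc (f := c) (g := powerHom c g) _ _ _ _).trans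
          (powerLift t g fun i => x i.succ).2⟩

theorem powerLift_proj {T : Scheme.{u}} (t : T ⟶ S) :
    ∀ (g : ℕ) (x : Fin g → SchemeHomOver t c) (i : Fin g),
      (powerLift c t g x).1 ≫ powerProj c g i = (x i).1 := by
  intro g
  induction g with
  | zero => exact fun _ i => i.elim0
  | succ g ih =>
    intro x i
    refine Fin.cases ?_ (fun i => ?_) i
    · exact pullback.lift_fst _ _ _
    · exact (pullback.lift_snd_assoc (f := c) (g := powerHom c g) _ _ _ _).trans
        (ih (fun i => x i.succ) i)

instance powerHom_isProper [IsProper c] : ∀ g, IsProper (powerHom c g) := by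
  intro g
  induction g with
  | zero => exact inferInstanceAs (IsProper (𝟙 S))
  | succ g ih => exact inferInstanceAs (IsProper (pullback.snd c (powerHom c g) ≫ powerHom c g))

instance powerHom_locallyOfFiniteType [LocallyOfFiniteType c] :
    ∀ g, LocallyOfFiniteType (powerHom c g) := by
  intro g
  induction g with
  | zero => exact inferInstanceAs (LocallyOfFiniteType (𝟙 S))
  | succ g ih => exact inferInstanceAs
      (LocallyOfFiniteType (pullback.snd c (powerHom c g) ≫ powerHom c g))

section Field

variable {k : Type u} [Field k] [IsAlgClosed k]

/-- An integral scheme over an algebraically closed field is geometrically integral. -/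
theorem geometricallyIntegral_of_isIntegral {X : Scheme.{u}}
    (f : X ⟶ Spec (CommRingCat.of k)) [IsIntegral X] : GeometricallyIntegral f := by
  constructor
  intro K _ y Z fst snd hP
  have := FLTAgent.AbelianTorsion.isIntegral_pullback f y
  exact AlgebraicGeometry.IsIntegral.of_isIso hP.isoPullback.inv

variable {D : Scheme.{u}} (d : D ⟶ Spec (CommRingCat.of k))

instance power_isIntegral [IsIntegral D] : ∀ g, IsIntegral (power d g) := by
  intro g
  induction g with
  | zero => exact inferInstanceAs (IsIntegral (Spec (CommRingCat.of k)))
  | succ g ih => exact FLTAgent.AbelianTorsion.isIntegral_pullback d (powerHom d g)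

instance powerHom_geometricallyIntegral [IsIntegral D] (g : ℕ) :
    GeometricallyIntegral (powerHom d g) :=
  geometricallyIntegral_of_isIntegral (powerHom d g)

variable {P J : Scheme.{u}} {p : P ⟶ Spec (CommRingCat.of k)} {j : J ⟶ Spec (CommRingCat.of k)}

/-- A map from a proper scheme to a separated scheme of finite type which hits every rational
point is surjective. -/
theorem surjective_of_points [IsProper p] [IsSeparated j] [LocallyOfFiniteType j]
    (f : SchemeHomOver p j)
    (hf : ∀ y : SchemeHomOver (𝟙 (Spec (CommRingCat.of k))) j,
      ∃ x : SchemeHomOver (𝟙 (Spec (CommRingCat.of k))) p, x.1 ≫ f.1 = y.1) :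
    AlgebraicGeometry.Surjective f.1 := by
  obtain ⟨f, rfl⟩ := f
  have : UniversallyClosed f := .of_comp_of_isSeparated f j
  have : JacobsonSpace J := LocallyOfFiniteType.jacobsonSpace j
  have hsub : closedPoints J ⊆ Set.range f := fun z hz => by
    obtain ⟨x, hx⟩ := hf ⟨pointOfClosedPoint j z hz, pointOfClosedPoint_comp j z hz⟩
    refine ⟨x.1 (IsLocalRing.closedPoint k), ?_⟩
    exact (Scheme.Hom.comp_apply x.1 f _).symm.trans
      ((congrArg (fun m : Spec (CommRingCat.of k) ⟶ J => m (IsLocalRing.closedPoint k)) hx).trans
        (pointOfClosedPoint_apply j z hz _))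
  refine ⟨fun z => ?_⟩
  have h1 := closure_mono hsub
  rw [closure_closedPoints, f.isClosedMap.isClosed_range.closure_eq] at h1
  exact h1 (Set.mem_univ z)

omit [IsAlgClosed k] in
/-- The image of a proper scheme is proper. -/
theorem isProper_of_surjective [IsProper p] [IsSeparated j] [LocallyOfFiniteType j]
    (f : SchemeHomOver p j) [AlgebraicGeometry.Surjective f.1] : IsProper j := by
  have : UniversallyClosed (f.1 ≫ j) := by rw [f.2]; infer_instance
  have : UniversallyClosed j := .of_comp_surjective f.1 j
  exact ⟨⟩

omit [IsAlgClosed k] in
/-- The image of a geometrically integral scheme is geometrically connected. -/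
theorem geometricallyConnected_of_surjective [GeometricallyIntegral p]
    (f : SchemeHomOver p j) [AlgebraicGeometry.Surjective f.1] : GeometricallyConnected j := by
  obtain ⟨f, rfl⟩ := f
  refine ⟨geometrically_iff_of_isClosedUnderIsomorphisms.mpr fun K _ y => ?_⟩
  let φ := pullback.map (f ≫ j) y j y f (𝟙 _) (𝟙 _) (by simp) (by simp)
  have : IsIntegral (pullback (f ≫ j) y) :=
    GeometricallyIntegral.geometrically_isIntegral _ _ _ (IsPullback.of_hasPullback (f ≫ j) y)
  have hφ : Function.Surjective φ := by
    rw [← Set.range_eq_univ, Scheme.Pullback.range_map, Surjective.surj.range_eq,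
      Scheme.Hom.id_base]
    simp
  exact hφ.connectedSpace φ.continuous

/-- A separated scheme of finite type receiving a map from a proper integral scheme which hits every
rational point is proper and geometrically connected. -/
theorem isProper_and_geometricallyConnected_of_points [IsProper p] [IsIntegral P] [IsSeparated j]
    [LocallyOfFiniteType j] (f : SchemeHomOver p j)
    (hf : ∀ y : SchemeHomOver (𝟙 (Spec (CommRingCat.of k))) j,
      ∃ x : SchemeHomOver (𝟙 (Spec (CommRingCat.of k))) p, x.1 ≫ f.1 = y.1) :
    IsProper j ∧ GeometricallyConnected j := by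
  have := surjective_of_points f hf
  have := geometricallyIntegral_of_isIntegral p
  exact ⟨isProper_of_surjective f, geometricallyConnected_of_surjective f⟩

end Field

end FLTAgent.RelPicard
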