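import Fermat.Agent.RelPicard.Defs
import Fermat.Agent.RelPicard.Products

/-!
# Classes joined to the trivial one and degree zero

A class on a curve over a field is linked to the trivial class when both occur in a family over a
geometrically integral base.  If degrees are constant in families then linked classes have degree
zero; conversely a product of point classes is linked to the trivial class over the fibre power.

Main declarations: `PicLinked`, `deg_eq_zero_of_linked`, `picLinked_prod`.
-/

set_option autoImplicit false

universe u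

open CategoryTheory CategoryTheory.Limits AlgebraicGeometry AlgebraicGeometry.RelPicard
  NeronModelInfra

noncomputable section

namespace FLTAgent.RelPicard

section Linked

variable {K : Type u} [Field K] {A : Scheme.{u}}

/-- A class joined to the trivial one by a family over a geometrically integral base. -/
def PicLinked (a : A ⟶ Spec (CommRingCat.of K)) (L : Pic A) : Prop :=
  ∃ (T' : Scheme.{u}) (h : T' ⟶ Spec (CommRingCat.of K)) (_ : LocallyOfFiniteType h)
    (_ : GeometricallyIntegral h) (M : Pic (pullback a h))
    (t₀ t₁ : SchemeHomOver (𝟙 (Spec (CommRingCat.of K))) h),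
    Pic.map (baseChangeSnd a t₀) M = 1 ∧
      Pic.map (baseChangeSnd a t₁) M = Pic.map (pullback.fst a (𝟙 (Spec (CommRingCat.of K)))) L

end Linked

section Comparison

variable {k : Type u} [CommRing k] {C : Scheme.{u}} (c : C ⟶ Spec (CommRingCat.of k)) {K : Type u}
  [CommRing K] (t : Spec (CommRingCat.of K) ⟶ Spec (CommRingCat.of k)) {T' : Scheme.{u}}
  (h : T' ⟶ Spec (CommRingCat.of K))

/-- A base change in two steps. -/
def twoStep : pullback (pullback.snd c t) h ⟶ pullback c (h ≫ t) :=
  pullback.lift (pullback.fst (pullback.snd c t) h ≫ pullback.fst c t)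
    (pullback.snd (pullback.snd c t) h)
    (by
      rw [Category.assoc, pullback.condition (f := c) (g := t), ← Category.assoc,
        pullback.condition (f := pullback.snd c t) (g := h), Category.assoc])

/-- The inverse of `twoStep`. -/
def twoStepInv : pullback c (h ≫ t) ⟶ pullback (pullback.snd c t) h :=
  pullback.lift
    (pullback.lift (pullback.fst c (h ≫ t)) (pullback.snd c (h ≫ t) ≫ h)
      (by rw [Category.assoc, pullback.condition (f := c) (g := h ≫ t)]))
    (pullback.snd c (h ≫ t)) (pullback.lift_snd _ _ _)

theorem twoStep_inv : twoStep c t h ≫ twoStepInv c t h = 𝟙 _ := by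
  refine pullback.hom_ext (pullback.hom_ext ?_ ?_) ?_
  · simp only [twoStep, twoStepInv, Category.assoc, Category.id_comp]
    rw [pullback.lift_fst_assoc, pullback.lift_fst, pullback.lift_fst]
  · simp only [twoStep, twoStepInv, Category.assoc, Category.id_comp]
    rw [pullback.lift_fst_assoc, pullback.lift_snd, pullback.lift_snd_assoc, pullback.condition]
  · simp only [twoStep, twoStepInv, Category.assoc, Category.id_comp]
    rw [pullback.lift_snd, pullback.lift_snd]

/-- A rational point of the new base is a point over `t` of the composed base. -/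
def pointOver (s : SchemeHomOver (𝟙 (Spec (CommRingCat.of K))) h) : SchemeHomOver t (h ≫ t) :=
  ⟨s.1, by rw [← Category.assoc, s.2, Category.id_comp]⟩

theorem baseChangeSnd_twoStep (s : SchemeHomOver (𝟙 (Spec (CommRingCat.of K))) h) :
    baseChangeSnd (pullback.snd c t) s ≫ twoStep c t h =
      pullback.fst (pullback.snd c t) (𝟙 _) ≫ baseChangeSnd c (pointOver t h s) := by
  refine pullback.hom_ext ?_ ?_
  · simp only [twoStep, baseChangeSnd, pointOver, Category.assoc]
    rw [pullback.lift_fst, pullback.lift_fst_assoc, pullback.lift_fst, Category.comp_id,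
      Category.comp_id]
  · simp only [twoStep, baseChangeSnd, pointOver, Category.assoc]
    rw [pullback.lift_snd, pullback.lift_snd, pullback.lift_snd,
      ← Category.assoc (pullback.fst _ _), pullback.condition, Category.comp_id]

theorem fst_baseChangeSnd_twoStepInv (s : SchemeHomOver (𝟙 (Spec (CommRingCat.of K))) h) :
    pullback.fst (pullback.snd c t) (𝟙 _) ≫ baseChangeSnd c (pointOver t h s) ≫ twoStepInv c t h =
      baseChangeSnd (pullback.snd c t) s := by
  rw [← Category.assoc, ← baseChangeSnd_twoStep, Category.assoc, twoStep_inv, Category.comp_id]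

/-- The trivial base change to the field itself is injective on classes. -/
theorem map_fst_injective : Function.Injective
    (Pic.map (pullback.fst (pullback.snd c t) (𝟙 (Spec (CommRingCat.of K))))) := by
  intro L L' e
  have h1 : pullback.lift (𝟙 (pullback c t)) (pullback.snd c t) (by simp) ≫
      pullback.fst (pullback.snd c t) (𝟙 _) = 𝟙 _ := pullback.lift_fst _ _ _
  have e' := congrArg (Pic.map (pullback.lift (𝟙 (pullback c t)) (pullback.snd c t) (by simp))) e
  rwa [← Pic.map_comp, ← Pic.map_comp, h1, Pic.map_id, Pic.map_id] at e'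

end Comparison

variable {k : Type u} [Field k] {C : Scheme.{u}} {c : C ⟶ Spec (CommRingCat.of k)}

/-- The constant point given by the section. -/
def constPoint (ε : SchemeHomOver (𝟙 (Spec (CommRingCat.of k))) c) {T : Scheme.{u}}
    (t : T ⟶ Spec (CommRingCat.of k)) : SchemeHomOver t c :=
  postComp ε ⟨t, Category.comp_id t⟩

theorem postComp_constPoint (ε : SchemeHomOver (𝟙 (Spec (CommRingCat.of k))) c) {T T' : Scheme.{u}}
    {t : T ⟶ Spec (CommRingCat.of k)} {t' : T' ⟶ Spec (CommRingCat.of k)}
    (ψ : SchemeHomOver t' t) : postComp (constPoint ε t) ψ = constPoint ε t' := by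
  refine Subtype.ext ?_
  simp only [constPoint, postComp]
  rw [← Category.assoc, ψ.2]

variable {K : Type u} [Field K] {t : Spec (CommRingCat.of K) ⟶ Spec (CommRingCat.of k)}

/-- If degrees are constant on integral bases, a linked class has degree zero. -/
theorem CurveCover.deg_eq_zero_of_linked (D : CurveCover k c)
    (hconst : ∀ {T : Scheme.{u}} [IsIntegral T] (w : T ⟶ Spec (CommRingCat.of k))
      (M : Pic (pullback c w)) (s₀ s₁ : SchemeHomOver t w),
      D.deg t (Pic.map (baseChangeSnd c s₀) M) = D.deg t (Pic.map (baseChangeSnd c s₁) M))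
    (hone : D.deg t 1 = 0) {L : Pic (pullback c t)} (hL : PicLinked (pullback.snd c t) L) :
    D.deg t L = 0 := by
  obtain ⟨T', h, hft, hgi, M, t₀, t₁, h₀, h₁⟩ := hL
  have : IsIntegral T' := GeometricallyIntegral.isIntegral_of_subsingleton h
  have hs : ∀ s : SchemeHomOver (𝟙 (Spec (CommRingCat.of K))) h,
      Pic.map (pullback.fst (pullback.snd c t) (𝟙 _))
          (Pic.map (baseChangeSnd c (pointOver t h s)) (Pic.map (twoStepInv c t h) M)) =
        Pic.map (baseChangeSnd (pullback.snd c t) s) M := fun s => by
    rw [← Pic.map_comp, ← Pic.map_comp, Category.assoc, fst_baseChangeSnd_twoStepInv]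
  have e₀ : Pic.map (baseChangeSnd c (pointOver t h t₀)) (Pic.map (twoStepInv c t h) M) = 1 :=
    map_fst_injective c t (by rw [hs, h₀, map_one])
  have e₁ : Pic.map (baseChangeSnd c (pointOver t h t₁)) (Pic.map (twoStepInv c t h) M) = L :=
    map_fst_injective c t (by rw [hs, h₁])
  have e := hconst (h ≫ t) (Pic.map (twoStepInv c t h) M) (pointOver t h t₀) (pointOver t h t₁)
  rw [e₀, e₁, hone] at e
  exact e.symm

variable [IsAlgClosed k]

/-- A quotient of a product of point classes is linked to the trivial class. -/
theorem picLinked_prod [IsProper c] [IsIntegral C]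
    (ε : SchemeHomOver (𝟙 (Spec (CommRingCat.of k))) c)
    (P : ∀ {T : Scheme.{u}} {w : T ⟶ Spec (CommRingCat.of k)},
      SchemeHomOver w c → Pic (pullback c w))
    (hP : ∀ {T T' : Scheme.{u}} {w : T ⟶ Spec (CommRingCat.of k)}
      {w' : T' ⟶ Spec (CommRingCat.of k)} (ψ : SchemeHomOver w' w) (s : SchemeHomOver w c),
      Pic.map (baseChangeSnd c ψ) (P s) = P (postComp s ψ))
    {g : ℕ} (p : Fin g → SchemeHomOver t c) :
    PicLinked (pullback.snd c t) ((∏ i, P (p i)) * (P (constPoint ε t) ^ g)⁻¹) := by
  set h := pullback.fst t (powerHom c g) with hdef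
  let q : Fin g → SchemeHomOver (h ≫ t) c := fun i =>
    ⟨pullback.snd t (powerHom c g) ≫ powerProj c g i, by
      rw [Category.assoc, powerProj_comp, hdef, pullback.condition]⟩
  let pt : (Fin g → SchemeHomOver t c) → SchemeHomOver (𝟙 (Spec (CommRingCat.of K))) h := fun x =>
    ⟨pullback.lift (𝟙 _) (powerLift c t g x).1
      (by rw [Category.id_comp, (powerLift c t g x).2]), pullback.lift_fst _ _ _⟩
  let M : Pic (pullback c (h ≫ t)) :=
    (∏ i, P (q i)) * (P (constPoint ε (h ≫ t)) ^ g)⁻¹
  have hM : ∀ x, Pic.map (baseChangeSnd (pullback.snd c t) (pt x))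
      (Pic.map (twoStep c t h) M) = Pic.map (pullback.fst (pullback.snd c t) (𝟙 _))
        ((∏ i, P (x i)) * (P (constPoint ε t) ^ g)⁻¹) := fun x => by
    rw [← Pic.map_comp, baseChangeSnd_twoStep, Pic.map_comp]
    refine congrArg _ ?_
    simp only [M, map_mul, map_inv, map_pow, map_prod, hP, postComp_constPoint]
    congr 1
    refine Finset.prod_congr rfl fun i _ => congrArg P (Subtype.ext ?_)
    show pullback.lift _ (powerLift c t g x).1 _ ≫ pullback.snd t (powerHom c g) ≫
      powerProj c g i = _
    rw [pullback.lift_snd_assoc, powerLift_proj]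
  refine ⟨_, h, inferInstance, inferInstance, Pic.map (twoStep c t h) M,
    pt fun _ => constPoint ε t, pt p, ?_, hM p⟩
  rw [hM, Finset.prod_const, Finset.card_univ, Fintype.card_fin, mul_inv_cancel, map_one]

end FLTAgent.RelPicard

end
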