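import Mathlib

/-!
# Pairs of projective modules over `R[X]` and `R[Y]` glued over the Laurent polynomials

The two-term complex computing the cohomology of a vector bundle on the projective line, presented
by idempotent matrices, so that base change is application of a ring map to the coefficients.

Main declarations: `PairData`, `diff`, `h0`, `H1`, `PairData.map`.
-/

set_option autoImplicit false

universe u

open Polynomial

noncomputable section

namespace FLTAgent.RelPicard

/-- The inclusion of polynomials in the coordinate at zero. -/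
def inX (R : Type u) [CommRing R] : R[X] →+* LaurentPolynomial R :=
  eval₂RingHom LaurentPolynomial.C (LaurentPolynomial.T 1)

/-- The inclusion of polynomials in the coordinate at infinity. -/
def inY (R : Type u) [CommRing R] : R[X] →+* LaurentPolynomial R :=
  eval₂RingHom LaurentPolynomial.C (LaurentPolynomial.T (-1))

theorem laurent_map_C_mul_T {R S : Type u} [CommRing R] [CommRing S] (f : R →+* S) (r : R) (n : ℤ) :
    AddMonoidAlgebra.mapRingHom ℤ f (LaurentPolynomial.C r * LaurentPolynomial.T n) =
      LaurentPolynomial.C (f r) * LaurentPolynomial.T n := by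
  rw [← LaurentPolynomial.single_eq_C_mul_T, ← LaurentPolynomial.single_eq_C_mul_T]
  exact AddMonoidAlgebra.mapRingHom_single _ _ _

theorem inX_map {R S : Type u} [CommRing R] [CommRing S] (f : R →+* S) (p : R[X]) :
    AddMonoidAlgebra.mapRingHom ℤ f (inX R p) = inX S (p.map f) := by
  induction p using Polynomial.induction_on' with
  | add p q hp hq => simp only [map_add, Polynomial.map_add, hp, hq]
  | monomial n r =>
    rw [Polynomial.map_monomial, inX, inX, coe_eval₂RingHom, coe_eval₂RingHom, eval₂_monomial,
      eval₂_monomial, LaurentPolynomial.T_pow, LaurentPolynomial.T_pow, laurent_map_C_mul_T]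

theorem inY_map {R S : Type u} [CommRing R] [CommRing S] (f : R →+* S) (p : R[X]) :
    AddMonoidAlgebra.mapRingHom ℤ f (inY R p) = inY S (p.map f) := by
  induction p using Polynomial.induction_on' with
  | add p q hp hq => simp only [map_add, Polynomial.map_add, hp, hq]
  | monomial n r =>
    rw [Polynomial.map_monomial, inY, inY, coe_eval₂RingHom, coe_eval₂RingHom, eval₂_monomial,
      eval₂_monomial, LaurentPolynomial.T_pow, LaurentPolynomial.T_pow, laurent_map_C_mul_T]

/-- Two idempotent matrices glued over the Laurent polynomials. -/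
structure PairData (R : Type u) [CommRing R] where
  a : ℕ
  b : ℕ
  e : Matrix (Fin a) (Fin a) R[X]
  e' : Matrix (Fin b) (Fin b) R[X]
  G : Matrix (Fin b) (Fin a) (LaurentPolynomial R)
  H : Matrix (Fin a) (Fin b) (LaurentPolynomial R)
  e_idem : e * e = e
  e'_idem : e' * e' = e'
  GH : G * H = e'.map (inY R)
  HG : H * G = e.map (inX R)
  G_left : e'.map (inY R) * G = G
  H_left : e.map (inX R) * H = H

namespace PairData

variable {R S : Type u} [CommRing R] [CommRing S] (P : PairData R)

/-- The vectors on the chart at zero. -/
def M : Submodule R (Fin P.a → R[X]) :=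
  (LinearMap.range (Matrix.mulVecLin P.e)).restrictScalars R

/-- The vectors on the chart at infinity. -/
def M' : Submodule R (Fin P.b → R[X]) :=
  (LinearMap.range (Matrix.mulVecLin P.e')).restrictScalars R

/-- The vectors on the overlap, in the frame of the chart at infinity. -/
def W : Submodule R (Fin P.b → LaurentPolynomial R) :=
  (LinearMap.range (Matrix.mulVecLin (P.e'.map (inY R)))).restrictScalars R

theorem mulVec_mem_W (w : Fin P.b → LaurentPolynomial R) :
    (P.e'.map (inY R)).mulVec w ∈ P.W :=
  LinearMap.mem_range_self (Matrix.mulVecLin (P.e'.map (inY R))) w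

/-- The difference map whose kernel and cokernel are the cohomology of the twist by `-n` at
infinity: `(m, m') ↦ G m - Y ^ n m'`. -/
def diff (n : ℤ) : (P.M × P.M') →ₗ[R] P.W where
  toFun p := ⟨(P.e'.map (inY R)).mulVec
      (P.G.mulVec (fun i => inX R (p.1.1 i)) -
        (fun i => LaurentPolynomial.T (-n) * inY R (p.2.1 i))), P.mulVec_mem_W _⟩
  map_add' p p' := Subtype.ext (by
    show _ = (P.e'.map (inY R)).mulVec _ + (P.e'.map (inY R)).mulVec _
    rw [← Matrix.mulVec_add]
    show (P.e'.map (inY R)).mulVec _ = _
    refine congrArg ((P.e'.map (inY R)).mulVec) ?_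
    have h : (fun i => inX R ((p + p').1.1 i)) =
        (fun i => inX R (p.1.1 i)) + fun i => inX R (p'.1.1 i) :=
      funext fun i => map_add (inX R) _ _
    rw [h, Matrix.mulVec_add]
    funext i
    simp only [Prod.snd_add, Submodule.coe_add, Pi.add_apply, Pi.sub_apply, map_add, mul_add]
    abel)
  map_smul' t p := Subtype.ext (by
    have hX : ∀ f : R[X], inX R (t • f) = LaurentPolynomial.C t * inX R f := fun f => by
      rw [smul_eq_C_mul, map_mul]; simp [inX]
    have hY : ∀ f : R[X], inY R (t • f) = LaurentPolynomial.C t * inY R f := fun f => by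
      rw [smul_eq_C_mul, map_mul]; simp [inY]
    have hs : ∀ v : Fin P.b → LaurentPolynomial R,
        t • v = LaurentPolynomial.C t • v := fun v => funext fun i => by
      rw [Pi.smul_apply, Pi.smul_apply, smul_eq_mul, Algebra.smul_def]
      rfl
    show (P.e'.map (inY R)).mulVec _ = t • (P.e'.map (inY R)).mulVec _
    rw [hs, ← Matrix.mulVec_smul]
    refine congrArg _ ?_
    rw [smul_sub, ← Matrix.mulVec_smul]
    have h1 : (fun i => inX R ((t • p).1.1 i)) = LaurentPolynomial.C t • fun i => inX R (p.1.1 i) :=
      funext fun i => hX _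
    rw [h1]
    refine congrArg (P.G.mulVec _ - ·) (funext fun i => ?_)
    simp only [Prod.smul_snd, SetLike.val_smul, Pi.smul_apply, smul_eq_mul, hY]
    ring)

/-- Sections. -/
def h0 (n : ℤ) : Submodule R (P.M × P.M') := LinearMap.ker (P.diff n)

/-- The first cohomology module. -/
abbrev H1 (n : ℤ) : Type u := P.W ⧸ LinearMap.range (P.diff n)

/-- Base change along a map of coefficient rings. -/
def map (f : R →+* S) : PairData S where
  a := P.a
  b := P.b
  e := P.e.map (Polynomial.mapRingHom f)
  e' := P.e'.map (Polynomial.mapRingHom f)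
  G := P.G.map (AddMonoidAlgebra.mapRingHom ℤ f)
  H := P.H.map (AddMonoidAlgebra.mapRingHom ℤ f)
  e_idem := by rw [← Matrix.map_mul, P.e_idem]
  e'_idem := by rw [← Matrix.map_mul, P.e'_idem]
  GH := by
    rw [← Matrix.map_mul, P.GH, Matrix.map_map, Matrix.map_map]
    exact congrArg P.e'.map (funext fun p => inY_map f p)
  HG := by
    rw [← Matrix.map_mul, P.HG, Matrix.map_map, Matrix.map_map]
    exact congrArg P.e.map (funext fun p => inX_map f p)
  G_left := by
    conv_rhs => rw [← P.G_left, Matrix.map_mul, Matrix.map_map]
    rw [Matrix.map_map]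
    exact congrArg (fun F => P.e'.map F * _) (funext fun p => (inY_map f p).symm)
  H_left := by
    conv_rhs => rw [← P.H_left, Matrix.map_mul, Matrix.map_map]
    rw [Matrix.map_map]
    exact congrArg (fun F => P.e.map F * _) (funext fun p => (inX_map f p).symm)

end PairData

end FLTAgent.RelPicard
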