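import Mathlib
import Fermat.Agent.RelPicard.PairData

/-!
# The pair of a projective module on the two charts

Restriction of scalars of matrices along bases over the polynomial rings turns idempotent matrices
over the rings of the two charts, glued over the overlap, into a `PairData`.

Main declarations: `blockTo`, `GluedIdem`, `GluedIdem.toPair`.
-/

set_option autoImplicit false

universe u v

open Matrix Polynomial

noncomputable section

namespace FLTAgent.RelPicard

section Block

variable {L : Type u} [CommRing L] {T : Type v} [CommRing T] [Algebra L T]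
  {ι κ μ : Type*} [Fintype ι] [Fintype κ] [Fintype μ] {m n o : Type*}

/-- The matrix over the scalars of a matrix over the algebra, in a source and a target basis. -/
def blockTo (b : Module.Basis ι L T) (b' : Module.Basis κ L T) (e : Matrix m n T) :
    Matrix (m × κ) (n × ι) L :=
  Matrix.of fun x y => b'.repr (e x.1 y.1 * b y.2) x.2

omit [Fintype ι] [Fintype μ] in
theorem blockTo_mul [Fintype n] (b : Module.Basis ι L T) (b' : Module.Basis κ L T)
    (b'' : Module.Basis μ L T) (e : Matrix m n T) (f : Matrix n o T) :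
    blockTo b' b'' e * blockTo b b' f = blockTo b b'' (e * f) := by
  ext ⟨i, k⟩ ⟨l, a⟩
  simp only [Matrix.mul_apply, blockTo, Matrix.of_apply, Fintype.sum_prod_type]
  rw [Finset.sum_mul, map_sum, Finsupp.finsetSum_apply]
  refine Finset.sum_congr rfl fun j _ => ?_
  rw [mul_assoc]
  conv_rhs => rw [← b'.sum_repr (f j l * b a), Finset.mul_sum]
  simp [mul_comm, map_sum, Finsupp.finsetSum_apply]

/-- The coordinates of a vector. -/
def blockVec (b : Module.Basis ι L T) (v : m → T) : m × ι → L := fun x => b.repr (v x.1) x.2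

theorem blockVec_bijective (b : Module.Basis ι L T) :
    Function.Bijective (blockVec (m := m) b) :=
  ⟨fun v w h => funext fun i => b.repr.injective (Finsupp.ext fun k => congrFun h (i, k)),
    fun w => ⟨fun i => b.equivFun.symm fun k => w (i, k), funext fun x => by
      show b.repr (b.equivFun.symm fun k => w (x.1, k)) x.2 = w x
      rw [← b.equivFun_apply, LinearEquiv.apply_symm_apply]⟩⟩

omit [Fintype κ] in
theorem blockTo_mulVec [Fintype n] (b : Module.Basis ι L T) (b' : Module.Basis κ L T)
    (e : Matrix m n T) (v : n → T) :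
    blockTo b b' e *ᵥ blockVec b v = blockVec b' (e *ᵥ v) := by
  funext ⟨i, k⟩
  simp only [Matrix.mulVec, dotProduct, blockTo, blockVec, Matrix.of_apply, Fintype.sum_prod_type]
  rw [map_sum, Finsupp.finsetSum_apply]
  refine Finset.sum_congr rfl fun j _ => ?_
  conv_rhs => rw [← b.sum_repr (v j), Finset.mul_sum]
  simp [map_sum, Finsupp.finsetSum_apply, mul_comm]

variable {L' : Type*} [CommRing L'] {T' : Type*} [CommRing T'] [Algebra L' T']

theorem repr_map_of_basis (g : L →+* L') (f : T →+* T')
    (hfg : ∀ a, f (algebraMap L T a) = algebraMap L' T' (g a)) (b : Module.Basis ι L T)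
    (b' : Module.Basis ι L' T') (hb : ∀ i, f (b i) = b' i) (t : T) (i : ι) :
    b'.repr (f t) i = g (b.repr t i) := by
  classical
  conv_lhs => rw [← b.sum_repr t, map_sum]
  have : ∀ j, f (b.repr t j • b j) = g (b.repr t j) • b' j := fun j => by
    rw [Algebra.smul_def, map_mul, hfg, hb, Algebra.smul_def]
  simp only [this, Module.Basis.repr_sum_self]

omit [Fintype ι] in
/-- Naturality in the scalars. -/
theorem blockTo_map (g : L →+* L') (f : T →+* T')
    (hfg : ∀ a, f (algebraMap L T a) = algebraMap L' T' (g a)) (b : Module.Basis ι L T)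
    (b₁ : Module.Basis κ L T) (b' : Module.Basis ι L' T') (b₁' : Module.Basis κ L' T')
    (hb : ∀ i, f (b i) = b' i) (hb₁ : ∀ i, f (b₁ i) = b₁' i) (e : Matrix m n T) :
    (blockTo b b₁ e).map g = blockTo b' b₁' (e.map f) := by
  ext x y
  simp only [Matrix.map_apply, blockTo, Matrix.of_apply, ← hb, ← map_mul]
  exact (repr_map_of_basis g f hfg b₁ b₁' hb₁ _ _).symm

end Block

section Pair

variable {R : Type u} [CommRing R]
  {A B W : Type u} [CommRing A] [CommRing B] [CommRing W]
  [Algebra R[X] A] [Algebra R[X] B] [Algebra (LaurentPolynomial R) W] {r s : ℕ}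
  (bA : Module.Basis (Fin r) R[X] A) (bB : Module.Basis (Fin s) R[X] B)
  (bX : Module.Basis (Fin r) (LaurentPolynomial R) W)
  (bY : Module.Basis (Fin s) (LaurentPolynomial R) W)

/-- Rank-preserving reindexing of blocks. -/
abbrev blockFin {L T : Type*} [CommRing L] [CommRing T] [Algebra L T] {p q m n : ℕ}
    (b : Module.Basis (Fin p) L T) (b' : Module.Basis (Fin q) L T)
    (e : Matrix (Fin m) (Fin n) T) : Matrix (Fin (m * q)) (Fin (n * p)) L :=
  Matrix.reindex finProdFinEquiv finProdFinEquiv (blockTo b b' e)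

theorem blockFin_mul {L T : Type*} [CommRing L] [CommRing T] [Algebra L T] {p q t m n o : ℕ}
    (b : Module.Basis (Fin p) L T) (b' : Module.Basis (Fin q) L T)
    (b'' : Module.Basis (Fin t) L T) (e : Matrix (Fin m) (Fin n) T)
    (f : Matrix (Fin n) (Fin o) T) :
    blockFin b' b'' e * blockFin b b' f = blockFin b b'' (e * f) := by
  simp only [blockFin, Matrix.reindex_apply, Matrix.submatrix_mul_equiv, blockTo_mul]

theorem blockFin_map {L T L' T' : Type*} [CommRing L] [CommRing T] [Algebra L T] [CommRing L']
    [CommRing T'] [Algebra L' T'] {p q m n : ℕ} (g : L →+* L') (f : T →+* T')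
    (hfg : ∀ a, f (algebraMap L T a) = algebraMap L' T' (g a))
    (b : Module.Basis (Fin p) L T) (b₁ : Module.Basis (Fin q) L T)
    (b' : Module.Basis (Fin p) L' T') (b₁' : Module.Basis (Fin q) L' T')
    (hb : ∀ i, f (b i) = b' i) (hb₁ : ∀ i, f (b₁ i) = b₁' i) (e : Matrix (Fin m) (Fin n) T) :
    (blockFin b b₁ e).map g = blockFin b' b₁' (e.map f) := by
  simp only [blockFin, Matrix.reindex_apply, ← Matrix.submatrix_map,
    blockTo_map g f hfg b b₁ b' b₁' hb hb₁]

/-- Idempotent matrices on the two charts with inverse transition matrices on the overlap. -/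
structure GluedIdem (φ : A →+* W) (ψ : B →+* W) where
  a : ℕ
  b : ℕ
  e : Matrix (Fin a) (Fin a) A
  e' : Matrix (Fin b) (Fin b) B
  G : Matrix (Fin b) (Fin a) W
  H : Matrix (Fin a) (Fin b) W
  e_idem : e * e = e
  e'_idem : e' * e' = e'
  GH : G * H = e'.map ψ
  HG : H * G = e.map φ
  G_left : e'.map ψ * G = G
  H_left : e.map φ * H = H

variable {φ : A →+* W} {ψ : B →+* W}
  (hφ : ∀ p, φ (algebraMap R[X] A p) = algebraMap (LaurentPolynomial R) W (inX R p))
  (hψ : ∀ p, ψ (algebraMap R[X] B p) = algebraMap (LaurentPolynomial R) W (inY R p))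
  (hbX : ∀ i, φ (bA i) = bX i) (hbY : ∀ i, ψ (bB i) = bY i)

include hφ hψ hbX hbY

/-- The pair of glued idempotents. -/
def GluedIdem.toPair (D : GluedIdem φ ψ) : PairData R where
  a := D.a * r
  b := D.b * s
  e := blockFin bA bA D.e
  e' := blockFin bB bB D.e'
  G := blockFin bX bY D.G
  H := blockFin bY bX D.H
  e_idem := by rw [blockFin_mul, D.e_idem]
  e'_idem := by rw [blockFin_mul, D.e'_idem]
  GH := by rw [blockFin_mul, D.GH, blockFin_map (inY R) ψ hψ bB bB bY bY hbY hbY]
  HG := by rw [blockFin_mul, D.HG, blockFin_map (inX R) φ hφ bA bA bX bX hbX hbX]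
  G_left := by rw [blockFin_map (inY R) ψ hψ bB bB bY bY hbY hbY, blockFin_mul, D.G_left]
  H_left := by rw [blockFin_map (inX R) φ hφ bA bA bX bX hbX hbX, blockFin_mul, D.H_left]

end Pair

end FLTAgent.RelPicard
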