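import Mathlib
import Fermat.Agent.RelPicard.AffineSectionsPair

/-!
# The members of the pair of glued idempotents in the rings of the charts

Vectors of the chart rings fixed by the idempotents are the modules of the pair, and the difference
map is `(v, v') ↦ G φ(v) - Y ^ n ψ(v')`.

Main results: `mem_M_iff`, `mem_M'_iff`, `mem_W_iff`, `diff_apply`.
-/

set_option autoImplicit false

universe u

open Matrix Polynomial

noncomputable section

namespace FLTAgent.RelPicard

section Coords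

variable {L : Type*} [CommRing L] {T : Type*} [CommRing T] [Algebra L T] {p q m n : ℕ}

/-- The coordinates of a vector, reindexed. -/
def blockFinVec (b : Module.Basis (Fin p) L T) (v : Fin m → T) : Fin (m * p) → L :=
  blockVec b v ∘ finProdFinEquiv.symm

theorem blockFinVec_bijective (b : Module.Basis (Fin p) L T) :
    Function.Bijective (blockFinVec (m := m) b) :=
  (Equiv.arrowCongr finProdFinEquiv (Equiv.refl L)).bijective.comp (blockVec_bijective b)

theorem blockFinVec_sub (b : Module.Basis (Fin p) L T) (v w : Fin m → T) :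
    blockFinVec b (v - w) = blockFinVec b v - blockFinVec b w :=
  funext fun i => by simp [blockFinVec, blockVec]

theorem blockFinVec_smul (b : Module.Basis (Fin p) L T) (l : L) (v : Fin m → T) :
    blockFinVec b (l • v) = l • blockFinVec b v :=
  funext fun i => by simp [blockFinVec, blockVec]

theorem blockFin_mulVec (b : Module.Basis (Fin p) L T) (b' : Module.Basis (Fin q) L T)
    (e : Matrix (Fin m) (Fin n) T) (v : Fin n → T) :
    blockFin b b' e *ᵥ blockFinVec b v = blockFinVec b' (e *ᵥ v) := by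
  rw [blockFin, Matrix.reindex_apply, Matrix.submatrix_mulVec_equiv, blockFinVec, blockFinVec,
    Function.comp_assoc, Equiv.symm_symm, Equiv.symm_comp_self, Function.comp_id, blockTo_mulVec]

theorem blockFinVec_map {L' T' : Type*} [CommRing L'] [CommRing T'] [Algebra L' T'] (g : L →+* L')
    (f : T →+* T') (hfg : ∀ a, f (algebraMap L T a) = algebraMap L' T' (g a))
    (b : Module.Basis (Fin p) L T) (b' : Module.Basis (Fin p) L' T') (hb : ∀ i, f (b i) = b' i)
    (v : Fin m → T) : blockFinVec b' (f ∘ v) = g ∘ blockFinVec b v :=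
  funext fun _ => repr_map_of_basis g f hfg b b' hb _ _

theorem mem_range_mulVecLin_iff {A : Type*} [CommRing A] {e : Matrix (Fin m) (Fin m) A}
    (he : e * e = e) {v : Fin m → A} : v ∈ LinearMap.range e.mulVecLin ↔ e *ᵥ v = v := by
  refine ⟨?_, fun h => ⟨v, h⟩⟩
  rintro ⟨w, rfl⟩
  rw [Matrix.mulVecLin_apply, Matrix.mulVec_mulVec, he]

end Coords

namespace PairData

variable {R : Type u} [CommRing R] (P : PairData R)

theorem mem_M_iff {v : Fin P.a → R[X]} : v ∈ P.M ↔ P.e *ᵥ v = v :=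
  mem_range_mulVecLin_iff P.e_idem

theorem mem_M'_iff {v : Fin P.b → R[X]} : v ∈ P.M' ↔ P.e' *ᵥ v = v :=
  mem_range_mulVecLin_iff P.e'_idem

theorem mem_W_iff {w : Fin P.b → LaurentPolynomial R} :
    w ∈ P.W ↔ P.e'.map (inY R) *ᵥ w = w :=
  mem_range_mulVecLin_iff (by rw [← Matrix.map_mul, P.e'_idem])

end PairData

namespace GluedIdem

variable {R : Type u} [CommRing R]
  {A B W : Type u} [CommRing A] [CommRing B] [CommRing W]
  [Algebra R[X] A] [Algebra R[X] B] [Algebra (LaurentPolynomial R) W] {r s : ℕ}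
  {bA : Module.Basis (Fin r) R[X] A} {bB : Module.Basis (Fin s) R[X] B}
  {bX : Module.Basis (Fin r) (LaurentPolynomial R) W}
  {bY : Module.Basis (Fin s) (LaurentPolynomial R) W} {φ : A →+* W} {ψ : B →+* W}
  (hφ : ∀ p, φ (algebraMap R[X] A p) = algebraMap (LaurentPolynomial R) W (inX R p))
  (hψ : ∀ p, ψ (algebraMap R[X] B p) = algebraMap (LaurentPolynomial R) W (inY R p))
  (hbX : ∀ i, φ (bA i) = bX i) (hbY : ∀ i, ψ (bB i) = bY i) (D : GluedIdem φ ψ)

theorem mem_M_iff (v : Fin D.a → A) :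
    blockFinVec bA v ∈ (D.toPair bA bB bX bY hφ hψ hbX hbY).M ↔ D.e *ᵥ v = v := by
  refine (D.toPair bA bB bX bY hφ hψ hbX hbY).mem_M_iff.trans ?_
  show blockFin bA bA D.e *ᵥ blockFinVec bA v = blockFinVec bA v ↔ _
  rw [blockFin_mulVec]
  exact (blockFinVec_bijective bA).1.eq_iff

theorem mem_M'_iff (v : Fin D.b → B) :
    blockFinVec bB v ∈ (D.toPair bA bB bX bY hφ hψ hbX hbY).M' ↔ D.e' *ᵥ v = v := by
  refine (D.toPair bA bB bX bY hφ hψ hbX hbY).mem_M'_iff.trans ?_
  show blockFin bB bB D.e' *ᵥ blockFinVec bB v = blockFinVec bB v ↔ _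
  rw [blockFin_mulVec]
  exact (blockFinVec_bijective bB).1.eq_iff

theorem mem_W_iff (w : Fin D.b → W) :
    blockFinVec bY w ∈ (D.toPair bA bB bX bY hφ hψ hbX hbY).W ↔ D.e'.map ψ *ᵥ w = w := by
  refine (D.toPair bA bB bX bY hφ hψ hbX hbY).mem_W_iff.trans ?_
  show (blockFin bB bB D.e').map (inY R) *ᵥ blockFinVec bY w = blockFinVec bY w ↔ _
  rw [blockFin_map (inY R) ψ hψ bB bB bY bY hbY hbY, blockFin_mulVec]
  exact (blockFinVec_bijective bY).1.eq_iff

theorem diff_apply (k : ℤ) (v : Fin D.a → A) (v' : Fin D.b → B) (hv : D.e *ᵥ v = v)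
    (hv' : D.e' *ᵥ v' = v') :
    ((D.toPair bA bB bX bY hφ hψ hbX hbY).diff k
      (⟨_, (D.mem_M_iff hφ hψ hbX hbY v).mpr hv⟩,
        ⟨_, (D.mem_M'_iff hφ hψ hbX hbY v').mpr hv'⟩)).1 =
      blockFinVec bY (D.G *ᵥ (φ ∘ v) - (LaurentPolynomial.T (-k) : LaurentPolynomial R) •
        (ψ ∘ v')) := by
  show (blockFin bB bB D.e').map (inY R) *ᵥ
      (blockFin bX bY D.G *ᵥ (inX R ∘ blockFinVec bA v) -
        (LaurentPolynomial.T (-k) : LaurentPolynomial R) • (inY R ∘ blockFinVec bB v')) = _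
  rw [← blockFinVec_map (inX R) φ hφ bA bX hbX, ← blockFinVec_map (inY R) ψ hψ bB bY hbY,
    blockFin_mulVec, ← blockFinVec_smul, ← blockFinVec_sub,
    blockFin_map (inY R) ψ hψ bB bB bY bY hbY hbY, blockFin_mulVec]
  congr 1
  rw [Matrix.mulVec_sub, Matrix.mulVec_mulVec, D.G_left, Matrix.mulVec_smul]
  congr 2
  funext i
  exact (RingHom.map_mulVec ψ D.e' v' i).symm.trans (congrArg ψ (congrFun hv' i))

end GluedIdem

end FLTAgent.RelPicard
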