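import Mathlib.Algebra.Module.LinearMap.Index
import Mathlib.LinearAlgebra.Prod
import Mathlib.RingTheory.Finiteness.Basic

/-!
# Maps with finite dimensional kernel and cokernel

Closure of this class under composition, cancellation and products, and additivity of the index.

Main declarations: `FinIndex`, `index_comp`, `index_of_square`.
-/

set_option autoImplicit false

noncomputable section

namespace FLTAgent.RelPicard

open LinearMap Function Module

variable {k : Type*} [Field k] {A B C D : Type*} [AddCommGroup A] [Module k A] [AddCommGroup B]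
  [Module k B] [AddCommGroup C] [Module k C] [AddCommGroup D] [Module k D]

/-- Kernel and cokernel are finite dimensional. -/
structure FinIndex (f : A →ₗ[k] B) : Prop where
  ker : FiniteDimensional k f.ker
  coker : FiniteDimensional k (B ⧸ f.range)

namespace FinIndex

variable {f : A →ₗ[k] B} {g : B →ₗ[k] C}

theorem of_injective (hf : Injective f) [FiniteDimensional k (B ⧸ f.range)] : FinIndex f := by
  refine ⟨?_, inferInstance⟩
  rw [LinearMap.ker_eq_bot.mpr hf]
  infer_instance

theorem of_surjective (hf : Surjective f) [FiniteDimensional k f.ker] : FinIndex f := by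
  refine ⟨inferInstance, ?_⟩
  have : Subsingleton (B ⧸ f.range) :=
    Submodule.Quotient.subsingleton_iff.mpr (LinearMap.range_eq_top.mpr hf)
  infer_instance

theorem of_linearEquiv (e : A ≃ₗ[k] B) : FinIndex (e : A →ₗ[k] B) := by
  have : Subsingleton (B ⧸ (e : A →ₗ[k] B).range) :=
    Submodule.Quotient.subsingleton_iff.mpr (LinearMap.range_eq_top.mpr e.surjective)
  exact of_injective e.injective

theorem comp (hg : FinIndex g) (hf : FinIndex f) : FinIndex (g ∘ₗ f) := by
  have := hf.ker; have := hf.coker; have := hg.ker; have := hg.coker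
  refine ⟨?_, ?_⟩
  · rw [ker_comp]; infer_instance
  · rw [range_comp]; infer_instance

theorem index_comp (hg : FinIndex g) (hf : FinIndex f) :
    (g ∘ₗ f).index = g.index + f.index := by
  have := hf.ker; have := hf.coker; have := hg.ker; have := hg.coker
  exact LinearMap.index_comp g

/-- Cancellation of the first map. -/
theorem of_comp_left (hgf : FinIndex (g ∘ₗ f)) (hf : FinIndex f) : FinIndex g := by
  have := hgf.ker; have := hgf.coker; have := hf.coker
  refine ⟨?_, ?_⟩
  · let φ : g.ker →ₗ[k] B ⧸ f.range := f.range.mkQ ∘ₗ g.ker.subtype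
    let ψ : (g ∘ₗ f).ker →ₗ[k] g.ker := f.restrict (fun x hx => hx)
    have hex : Exact ψ φ := by
      intro y
      simp only [φ, LinearMap.coe_comp, Function.comp_apply, Submodule.coe_subtype,
        Submodule.mkQ_apply, Submodule.Quotient.mk_eq_zero]
      constructor
      · rintro ⟨x, hx⟩
        exact ⟨⟨x, show g (f x) = 0 by rw [hx]; exact y.2⟩, Subtype.ext hx⟩
      · rintro ⟨x, rfl⟩
        exact ⟨x.1, rfl⟩
    have : FiniteDimensional k φ.ker := by
      rw [LinearMap.exact_iff.mp hex]; infer_instance
    have : Module.Finite k (g.ker ⧸ φ.ker) := Module.Finite.equiv φ.quotKerEquivRange.symm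
    exact Module.Finite.of_submodule_quotient φ.ker
  · exact Module.Finite.of_surjective (Submodule.factor (LinearMap.range_comp_le_range f g))
      (Submodule.factor_surjective _)

end FinIndex

/-- The index of a map fitting in a commutative square. -/
theorem index_of_square {f : A →ₗ[k] B} {f' : C →ₗ[k] D} {a : A →ₗ[k] C} {b : B →ₗ[k] D}
    (ha : FinIndex a) (hb : FinIndex b) (hf : FinIndex f) (h : f' ∘ₗ a = b ∘ₗ f) :
    FinIndex f' ∧ f'.index + a.index = b.index + f.index := by
  have h1 : FinIndex f' := FinIndex.of_comp_left (h ▸ hb.comp hf) ha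
  exact ⟨h1, by rw [← h1.index_comp ha, h, hb.index_comp hf]⟩

/-- The cokernel of a product of two maps is the product of the cokernels. -/
def cokerProdMap (f : A →ₗ[k] B) (g : C →ₗ[k] D) :
    ((B × D) ⧸ (f.prodMap g).range) ≃ₗ[k] (B ⧸ f.range) × (D ⧸ g.range) :=
  (Submodule.quotEquivOfEq _ _ (by
    rw [LinearMap.range_prodMap]
    ext ⟨x, y⟩
    simp)).trans
    ((f.range.mkQ.prodMap g.range.mkQ).quotKerEquivOfSurjective
      (Prod.map_surjective.mpr ⟨Submodule.mkQ_surjective _, Submodule.mkQ_surjective _⟩))

/-- The kernel of a product of two maps. -/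
def kerProdMap (f : A →ₗ[k] B) (g : C →ₗ[k] D) : (f.prodMap g).ker ≃ₗ[k] f.ker × g.ker where
  toFun x := (⟨x.1.1, congrArg Prod.fst x.2⟩, ⟨x.1.2, congrArg Prod.snd x.2⟩)
  invFun x := ⟨(x.1.1, x.2.1), Prod.ext x.1.2 x.2.2⟩
  left_inv _ := rfl
  right_inv _ := rfl
  map_add' _ _ := rfl
  map_smul' _ _ := rfl

theorem FinIndex.prodMap {f : A →ₗ[k] B} {g : C →ₗ[k] D} (hf : FinIndex f) (hg : FinIndex g) :
    FinIndex (f.prodMap g) := by
  have := hf.ker; have := hf.coker; have := hg.ker; have := hg.coker
  exact ⟨Module.Finite.equiv (kerProdMap f g).symm, Module.Finite.equiv (cokerProdMap f g).symm⟩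

theorem FinIndex.index_prodMap {f : A →ₗ[k] B} {g : C →ₗ[k] D} (hf : FinIndex f) (hg : FinIndex g) :
    (f.prodMap g).index = f.index + g.index := by
  have := hf.ker; have := hf.coker; have := hg.ker; have := hg.coker
  simp only [LinearMap.index_eq_finrank_sub, (kerProdMap f g).finrank_eq,
    (cokerProdMap f g).finrank_eq, Module.finrank_prod]
  push_cast
  ring

end FLTAgent.RelPicard

end
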