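import Mathlib
import Fermat.Agent.RelPicard.PairData

/-!
# Cohomology of glued pairs

The first cohomology of a pair is finite and commutes with every base change; the sections are
finite projective and commute with base change when the first cohomology vanishes. Vanishing at a
point spreads to a neighbourhood of the point.

Main results: `isBaseChange_mapH1`, `isBaseChange_mapH0`, `exists_bijective_near`.
-/

set_option autoImplicit false

universe u

open Polynomial TensorProduct

noncomputable section

namespace FLTAgent.RelPicard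

/-! ## General facts -/

section General

variable {R S : Type u} [CommRing R] [CommRing S] [Algebra R S]

/-- A linear map carrying a basis to a basis is a base change. -/
theorem isBaseChange_of_bases {V V' : Type u} [AddCommGroup V] [Module R V] [AddCommGroup V']
    [Module R V'] [Module S V'] [IsScalarTower R S V'] {ι : Type*} (b : Module.Basis ι R V)
    (c : Module.Basis ι S V') (f : V →ₗ[R] V') (h : ∀ i, f (b i) = c i) : IsBaseChange S f := by
  refine IsBaseChange.of_equiv ((b.baseChange S).equiv c (Equiv.refl ι)) fun x => ?_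
  have key : (((b.baseChange S).equiv c (Equiv.refl ι)).toLinearMap.restrictScalars R).comp
      (TensorProduct.mk R S V 1) = f := b.ext fun i => by
    simp only [LinearMap.comp_apply, LinearMap.restrictScalars_apply, TensorProduct.mk_apply,
      LinearEquiv.coe_coe]
    rw [← Module.Basis.baseChange_apply S b i, Module.Basis.equiv_apply, Equiv.refl_apply, h]
  exact LinearMap.congr_fun key x

/-- The image of an idempotent commutes with base change. -/
theorem isBaseChange_summand {V V' : Type u} [AddCommGroup V] [Module R V] [AddCommGroup V']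
    [Module R V'] [Module S V'] [IsScalarTower R S V'] {f : V →ₗ[R] V'} (hf : IsBaseChange S f)
    {p : Submodule R V} {q : Submodule S V'} (π : V →ₗ[R] V) (π' : V' →ₗ[S] V')
    (hπ : ∀ x, π x ∈ p) (hπp : ∀ x ∈ p, π x = x) (hπq : ∀ y ∈ q, π' y = y)
    (hcomm : ∀ x, f (π x) = π' (f x)) (g : p →ₗ[R] q) (hg : ∀ x, (g x : V') = f x) :
    IsBaseChange S g := by
  let π₀ : V →ₗ[R] p := π.codRestrict p hπ
  have sq : q.subtype ∘ₗ g.liftBaseChange S =
      hf.equiv.toLinearMap ∘ₗ p.subtype.baseChange S := by
    refine TensorProduct.AlgebraTensorModule.ext fun s x => ?_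
    simp [hg]
  have left : (π₀.baseChange S) ∘ₗ (p.subtype.baseChange S) = LinearMap.id := by
    refine TensorProduct.AlgebraTensorModule.ext fun s x => ?_
    simp only [LinearMap.comp_apply, LinearMap.baseChange_tmul, LinearMap.id_apply]
    exact congrArg (s ⊗ₜ[R] ·) (Subtype.ext (hπp x x.2))
  have inj : Function.Injective (g.liftBaseChange S) := by
    intro t t' htt
    have h1 := LinearMap.congr_fun sq t
    have h2 := LinearMap.congr_fun sq t'
    simp only [LinearMap.comp_apply, htt] at h1 h2
    have h3 : p.subtype.baseChange S t = p.subtype.baseChange S t' :=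
      hf.equiv.injective (h1.symm.trans h2)
    have h4 := congrArg (π₀.baseChange S) h3
    rwa [← LinearMap.comp_apply, ← LinearMap.comp_apply, left] at h4
  have proj : hf.equiv.toLinearMap ∘ₗ (p.subtype.baseChange S ∘ₗ π₀.baseChange S) =
      π' ∘ₗ hf.equiv.toLinearMap := by
    refine TensorProduct.AlgebraTensorModule.ext fun s x => ?_
    simp [π₀, hcomm]
  have surj : Function.Surjective (g.liftBaseChange S) := by
    intro y
    refine ⟨π₀.baseChange S (hf.equiv.symm y), Subtype.ext ?_⟩
    have h1 := LinearMap.congr_fun sq (π₀.baseChange S (hf.equiv.symm y))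
    have h2 := LinearMap.congr_fun proj (hf.equiv.symm y)
    simp only [LinearMap.comp_apply, LinearEquiv.coe_coe, LinearEquiv.apply_symm_apply] at h1 h2
    exact h1.trans (h2.trans (hπq y y.2))
  exact IsBaseChange.of_equiv (LinearEquiv.ofBijective _ ⟨inj, surj⟩)
    fun _ => (LinearMap.liftBaseChange_tmul S _ _ _).trans (one_smul S _)

/-- A finite module whose base change to a field vanishes is killed by an element which is not
zero in the field. -/
theorem exists_annihilating_of_subsingleton_tensor {N : Type u} [AddCommGroup N] [Module R N]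
    [Module.Finite R N] (K : Type u) [Field K] [Algebra R K] (hN : Subsingleton (K ⊗[R] N)) :
    ∃ h : R, algebraMap R K h ≠ 0 ∧ ∀ x : N, h • x = 0 := by
  let I : Ideal R := RingHom.ker (algebraMap R K)
  have hI : I.IsPrime := RingHom.ker_isPrime _
  have hns : (⟨I, hI⟩ : PrimeSpectrum R) ∉ Module.support R N := by
    rw [Module.mem_support_iff_nontrivial_residueField_tensorProduct]
    intro hnt
    let φ : I.ResidueField →+* K := Ideal.ResidueField.lift I (algebraMap R K) le_rfl
      fun x hx => Ne.isUnit fun h0 => hx h0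
    let : Algebra I.ResidueField K := φ.toAlgebra
    have : IsScalarTower R I.ResidueField K := IsScalarTower.of_algebraMap_eq fun x =>
      (Ideal.ResidueField.lift_algebraMap I (algebraMap R K) le_rfl _ x).symm
    have : Nontrivial (I.ResidueField ⊗[R] N) := hnt
    have : Nontrivial (K ⊗[I.ResidueField] (I.ResidueField ⊗[R] N)) :=
      Module.FaithfullyFlat.lTensor_nontrivial I.ResidueField K _
    have : Nontrivial (K ⊗[R] N) :=
      (TensorProduct.AlgebraTensorModule.cancelBaseChange R I.ResidueField K K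
        N).symm.toEquiv.nontrivial
    exact not_subsingleton _ hN
  rw [Module.support_eq_zeroLocus, PrimeSpectrum.mem_zeroLocus, Set.not_subset] at hns
  obtain ⟨h, hann, hh⟩ := hns
  exact ⟨h, fun h0 => hh h0, fun x => Module.mem_annihilator.mp hann x⟩

/-- A base change of a module killed by a unit of the new ring vanishes. -/
theorem subsingleton_of_isBaseChange {N N' : Type u} [AddCommMonoid N] [Module R N]
    [AddCommMonoid N'] [Module R N'] [Module S N'] [IsScalarTower R S N'] {f : N →ₗ[R] N'}
    (hf : IsBaseChange S f) {h : R} (hu : IsUnit (algebraMap R S h)) (hN : ∀ x : N, h • x = 0) :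
    Subsingleton N' := by
  refine subsingleton_of_forall_eq 0 fun y => ?_
  refine hf.inductionOn y _ rfl (fun m => ?_) (fun s n hn => by rw [hn, smul_zero])
    fun a b ha hb => by rw [ha, hb, add_zero]
  refine hu.smul_eq_zero.mp ?_
  rw [algebraMap_smul, ← map_smul, hN, map_zero]

/-- A base change of the zero module is zero. -/
theorem subsingleton_of_isBaseChange_of_subsingleton {N N' : Type u} [AddCommMonoid N] [Module R N]
    [AddCommMonoid N'] [Module R N'] [Module S N'] [IsScalarTower R S N'] {f : N →ₗ[R] N'}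
    (hf : IsBaseChange S f) [Subsingleton N] : Subsingleton N' :=
  subsingleton_of_isBaseChange (h := 1) hf (by simp) fun x => Subsingleton.elim _ _

end General

/-! ## Coefficient supports of Laurent polynomials -/

section Laurent

variable {R : Type u} [CommRing R]

theorem inX_apply_eq_toLaurent (p : R[X]) : inX R p = toLaurent p := by
  induction p using Polynomial.induction_on' with
  | add p q hp hq => simp only [map_add, hp, hq]
  | monomial n r =>
    rw [inX, coe_eval₂RingHom, eval₂_monomial, LaurentPolynomial.T_pow,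
      ← C_mul_X_pow_eq_monomial, toLaurent_C_mul_X_pow, mul_one]

theorem inY_apply_eq_invert (p : R[X]) : inY R p = LaurentPolynomial.invert (toLaurent p) := by
  induction p using Polynomial.induction_on' with
  | add p q hp hq => simp only [map_add, hp, hq]
  | monomial n r =>
    rw [inY, coe_eval₂RingHom, eval₂_monomial, LaurentPolynomial.T_pow,
      ← C_mul_X_pow_eq_monomial, toLaurent_C_mul_X_pow, map_mul, LaurentPolynomial.invert_C,
      LaurentPolynomial.invert_T, mul_neg, mul_one]

theorem coeff_inX_natCast (p : R[X]) (j : ℕ) : (inX R p).coeff (j : ℤ) = p.coeff j := by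
  rw [inX_apply_eq_toLaurent, LaurentPolynomial.coeff_toLaurent]
  exact Finsupp.mapDomain_apply Nat.castEmbedding.injective _ j

theorem coeff_inX_neg (p : R[X]) {k : ℤ} (hk : k < 0) : (inX R p).coeff k = 0 := by
  rw [inX_apply_eq_toLaurent, LaurentPolynomial.coeff_toLaurent]
  refine Finsupp.mapDomain_of_notMem_range _ _ ?_
  rintro ⟨j, rfl⟩
  simp only [Nat.castEmbedding_apply] at hk
  omega

theorem coeff_inY (p : R[X]) (j : ℕ) : (inY R p).coeff (-j : ℤ) = p.coeff j := by
  rw [inY_apply_eq_invert, LaurentPolynomial.invert_apply, neg_neg, ← inX_apply_eq_toLaurent,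
    coeff_inX_natCast]

theorem coeff_inY_pos (p : R[X]) {k : ℤ} (hk : 0 < k) : (inY R p).coeff k = 0 := by
  rw [inY_apply_eq_invert, LaurentPolynomial.invert_apply, ← inX_apply_eq_toLaurent,
    coeff_inX_neg p (neg_lt_zero.mpr hk)]

theorem exists_add_of_coeff_mul_ne_zero {f g : LaurentPolynomial R} {k : ℤ}
    (h : (f * g).coeff k ≠ 0) : ∃ i j : ℤ, f.coeff i ≠ 0 ∧ g.coeff j ≠ 0 ∧ i + j = k := by
  classical
  obtain ⟨i, hi, j, hj, hij⟩ := Finset.mem_add.mp
    (AddMonoidAlgebra.support_coeff_mul_subset f g (Finsupp.mem_support_iff.mpr h))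
  exact ⟨i, j, Finsupp.mem_support_iff.mp hi, Finsupp.mem_support_iff.mp hj, hij⟩

theorem exists_of_coeff_T_mul_ne_zero {f : LaurentPolynomial R} {m k : ℤ}
    (h : (LaurentPolynomial.T m * f).coeff k ≠ 0) : f.coeff (k - m) ≠ 0 := by
  obtain ⟨i, j, hi, hj, rfl⟩ := exists_add_of_coeff_mul_ne_zero h
  rcases eq_or_ne m i with rfl | hne
  · rwa [add_sub_cancel_left]
  · exact absurd (by rw [LaurentPolynomial.T_apply, if_neg hne]) hi

/-- A Laurent polynomial without negative powers is a polynomial. -/
theorem exists_inX_eq {f : LaurentPolynomial R} (hf : ∀ k, f.coeff k ≠ 0 → 0 ≤ k) :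
    ∃ p : R[X], inX R p = f := by
  refine ⟨∑ k ∈ f.coeff.support, monomial k.toNat (f.coeff k), ?_⟩
  apply AddMonoidAlgebra.coeff_injective
  rw [map_sum, AddMonoidAlgebra.coeff_sum]
  conv_rhs => rw [← Finsupp.sum_single f.coeff]
  refine Finset.sum_congr rfl fun k hk => ?_
  rw [inX_apply_eq_toLaurent, ← C_mul_X_pow_eq_monomial, toLaurent_C_mul_X_pow,
    ← LaurentPolynomial.single_eq_C_mul_T, AddMonoidAlgebra.coeff_single,
    Int.toNat_of_nonneg (hf k (Finsupp.mem_support_iff.mp hk))]

theorem mulVec_coeff_ne_zero {m l : ℕ} (A : Matrix (Fin m) (Fin l) (LaurentPolynomial R))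
    (v : Fin l → LaurentPolynomial R) {i : Fin m} {k : ℤ} (h : (A.mulVec v i).coeff k ≠ 0) :
    ∃ (t : Fin l) (i₁ j₁ : ℤ), (A i t).coeff i₁ ≠ 0 ∧ (v t).coeff j₁ ≠ 0 ∧ i₁ + j₁ = k := by
  rw [Matrix.mulVec, dotProduct, AddMonoidAlgebra.coeff_sum, Finsupp.finsetSum_apply] at h
  obtain ⟨t, -, ht⟩ := Finset.exists_ne_zero_of_sum_ne_zero h
  exact ⟨t, exists_add_of_coeff_mul_ne_zero ht⟩

end Laurent

/-! ## Coefficientwise base change -/

section Components

variable (R S : Type u) [CommRing R] [CommRing S] [Algebra R S]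

/-- Coefficientwise base change of polynomials. -/
def polyBaseChange : R[X] →ₗ[R] S[X] := (Polynomial.mapAlgHom (Algebra.ofId R S)).toLinearMap

@[simp]
theorem polyBaseChange_apply (p : R[X]) : polyBaseChange R S p = p.map (algebraMap R S) := rfl

/-- Coefficientwise base change of Laurent polynomials. -/
def laurentBaseChange : LaurentPolynomial R →ₗ[R] LaurentPolynomial S where
  toFun := AddMonoidAlgebra.mapRingHom ℤ (algebraMap R S)
  map_add' := map_add _
  map_smul' r x := by
    rw [RingHom.id_apply, Algebra.smul_def, Algebra.smul_def, map_mul,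
      LaurentPolynomial.algebraMap_apply, LaurentPolynomial.algebraMap_apply,
      Algebra.algebraMap_self, RingHom.id_apply, ← LaurentPolynomial.single_eq_C,
      ← LaurentPolynomial.single_eq_C, AddMonoidAlgebra.mapRingHom_single]

@[simp]
theorem laurentBaseChange_apply (x : LaurentPolynomial R) :
    laurentBaseChange R S x = AddMonoidAlgebra.mapRingHom ℤ (algebraMap R S) x := rfl

theorem isBaseChange_poly : IsBaseChange S (polyBaseChange R S) :=
  isBaseChange_of_bases (Polynomial.basisMonomials R) (Polynomial.basisMonomials S) _ fun i => by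
    simp [Polynomial.coe_basisMonomials]

theorem isBaseChange_laurent : IsBaseChange S (laurentBaseChange R S) :=
  isBaseChange_of_bases (AddMonoidAlgebra.basis ℤ R) (AddMonoidAlgebra.basis ℤ S) _ fun i => by
    rw [AddMonoidAlgebra.basis_apply, AddMonoidAlgebra.basis_apply, laurentBaseChange_apply,
      AddMonoidAlgebra.mapRingHom_single, map_one]

end Components

namespace PairData

variable {R : Type u} [CommRing R] (P : PairData R)

/-! ## The difference map -/

theorem mulVec_of_mem_M {v : Fin P.a → R[X]} (hv : v ∈ P.M) : P.e.mulVec v = v := by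
  obtain ⟨w, rfl⟩ := hv
  rw [Matrix.mulVecLin_apply, Matrix.mulVec_mulVec, P.e_idem]

theorem mulVec_of_mem_M' {v : Fin P.b → R[X]} (hv : v ∈ P.M') : P.e'.mulVec v = v := by
  obtain ⟨w, rfl⟩ := hv
  rw [Matrix.mulVecLin_apply, Matrix.mulVec_mulVec, P.e'_idem]

theorem mulVec_of_mem_W {v : Fin P.b → LaurentPolynomial R} (hv : v ∈ P.W) :
    (P.e'.map (inY R)).mulVec v = v := by
  obtain ⟨w, rfl⟩ := hv
  rw [Matrix.mulVecLin_apply, Matrix.mulVec_mulVec, ← Matrix.map_mul, P.e'_idem]

theorem map_inX_mulVec (v : Fin P.a → R[X]) :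
    (fun i => inX R (P.e.mulVec v i)) = (P.e.map (inX R)).mulVec fun i => inX R (v i) :=
  funext fun i => RingHom.map_mulVec (inX R) P.e v i

theorem map_inY_mulVec (v : Fin P.b → R[X]) :
    (fun i => inY R (P.e'.mulVec v i)) = (P.e'.map (inY R)).mulVec fun i => inY R (v i) :=
  funext fun i => RingHom.map_mulVec (inY R) P.e' v i

theorem diff_val (n : ℤ) (p : P.M × P.M') :
    (P.diff n p : Fin P.b → LaurentPolynomial R) =
      P.G.mulVec (fun i => inX R (p.1.1 i)) -
        (LaurentPolynomial.T (-n) : LaurentPolynomial R) • fun i => inY R (p.2.1 i) := by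
  show (P.e'.map (inY R)).mulVec _ = _
  rw [Matrix.mulVec_sub, Matrix.mulVec_mulVec, P.G_left]
  refine congrArg (P.G.mulVec _ - ·) ?_
  conv_rhs => rw [← P.mulVec_of_mem_M' p.2.2, P.map_inY_mulVec, ← Matrix.mulVec_smul]
  rfl

theorem mem_h0_iff (n : ℤ) (p : P.M × P.M') :
    p ∈ P.h0 n ↔ P.G.mulVec (fun i => inX R (p.1.1 i)) =
      (LaurentPolynomial.T (-n) : LaurentPolynomial R) • fun i => inY R (p.2.1 i) := by
  rw [h0, LinearMap.mem_ker, Subtype.ext_iff, P.diff_val, Submodule.coe_zero, sub_eq_zero]

/-- The power `k` of the variable in coordinate `j`, projected to the overlap. -/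
def gen (k : ℤ) (j : Fin P.b) : P.W :=
  ⟨(P.e'.map (inY R)).mulVec (Pi.single j (LaurentPolynomial.T k)), P.mulVec_mem_W _⟩

theorem span_gen : Submodule.span R (Set.range fun q : ℤ × Fin P.b => P.gen q.1 q.2) = ⊤ := by
  rw [eq_top_iff]
  rintro ⟨w, hw⟩ -
  let pr : (Fin P.b → LaurentPolynomial R) →ₗ[R] P.W :=
    ((Matrix.mulVecLin (P.e'.map (inY R))).restrictScalars R).codRestrict P.W fun v =>
      P.mulVec_mem_W v
  have hpr : pr w = ⟨w, hw⟩ := Subtype.ext (P.mulVec_of_mem_W hw)
  let b := Pi.basis fun _ : Fin P.b => AddMonoidAlgebra.basis ℤ R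
  have hb : pr.range ≤ Submodule.span R (Set.range fun q : ℤ × Fin P.b => P.gen q.1 q.2) := by
    rw [LinearMap.range_eq_map, ← b.span_eq, Submodule.map_span_le]
    rintro _ ⟨⟨j, k⟩, rfl⟩
    refine Submodule.subset_span ⟨(k, j), ?_⟩
    refine Subtype.ext ?_
    simp only [b, Pi.basis_apply, AddMonoidAlgebra.basis_apply]
    rfl
  exact hb ⟨w, hpr⟩

theorem gen_mem_range_of_le (n : ℤ) {k : ℤ} (hk : k ≤ -n) (j : Fin P.b) :
    P.gen k j ∈ LinearMap.range (P.diff n) := by
  refine ⟨-(0, ⟨P.e'.mulVec (Pi.single j (X ^ (-n - k).toNat)), LinearMap.mem_range_self _ _⟩),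
    Subtype.ext ?_⟩
  rw [map_neg, Submodule.coe_neg, P.diff_val]
  have h0 : (fun i => inX R ((0 : P.M).1 i)) = 0 := funext fun i => map_zero _
  rw [h0, Matrix.mulVec_zero, zero_sub, neg_neg]
  show (LaurentPolynomial.T (-n) : LaurentPolynomial R) • (fun i => inY R (P.e'.mulVec _ i)) = _
  rw [P.map_inY_mulVec, ← Matrix.mulVec_smul]
  refine congrArg ((P.e'.map (inY R)).mulVec) (funext fun i => ?_)
  rw [Pi.smul_apply, smul_eq_mul]
  rcases eq_or_ne i j with rfl | hne
  · rw [Pi.single_eq_same, Pi.single_eq_same, inY, coe_eval₂RingHom, eval₂_X_pow,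
      LaurentPolynomial.T_pow, ← LaurentPolynomial.T_add, mul_neg, mul_one,
      Int.toNat_of_nonneg (by omega)]
    congr 1
    omega
  · rw [Pi.single_eq_of_ne hne, Pi.single_eq_of_ne hne, map_zero, mul_zero]

/-- A common bound on the exponents of the gluing matrices. -/
theorem exists_bound : ∃ D : ℕ, (∀ i j k, (P.G i j).coeff k ≠ 0 → k.natAbs ≤ D) ∧
    ∀ i j k, (P.H i j).coeff k ≠ 0 → k.natAbs ≤ D := by
  refine ⟨max (Finset.univ.sup fun q : Fin P.b × Fin P.a =>
      (P.G q.1 q.2).coeff.support.sup Int.natAbs)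
    (Finset.univ.sup fun q : Fin P.a × Fin P.b => (P.H q.1 q.2).coeff.support.sup Int.natAbs),
    fun i j k hk => le_max_of_le_left ?_, fun i j k hk => le_max_of_le_right ?_⟩
  · exact le_trans (Finset.le_sup (f := Int.natAbs) (Finsupp.mem_support_iff.mpr hk))
      (Finset.le_sup (f := fun q : Fin P.b × Fin P.a =>
        (P.G q.1 q.2).coeff.support.sup Int.natAbs) (Finset.mem_univ (i, j)))
  · exact le_trans (Finset.le_sup (f := Int.natAbs) (Finsupp.mem_support_iff.mpr hk))
      (Finset.le_sup (f := fun q : Fin P.a × Fin P.b =>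
        (P.H q.1 q.2).coeff.support.sup Int.natAbs) (Finset.mem_univ (i, j)))

theorem gen_mem_range_of_ge (n : ℤ) {D : ℕ} (hD : ∀ i j k, (P.H i j).coeff k ≠ 0 → k.natAbs ≤ D)
    {k : ℤ} (hk : (D : ℤ) ≤ k) (j : Fin P.b) : P.gen k j ∈ LinearMap.range (P.diff n) := by
  have hpos : ∀ i, ∃ p : R[X], inX R p = P.H.mulVec (Pi.single j (LaurentPolynomial.T k)) i := by
    refine fun i => exists_inX_eq fun l hl => ?_
    obtain ⟨t, i₁, j₁, hi, hj, hl'⟩ := mulVec_coeff_ne_zero _ _ hl
    rcases eq_or_ne t j with rfl | hne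
    · rw [Pi.single_eq_same, LaurentPolynomial.T_apply] at hj
      have hkj : k = j₁ := by
        by_contra h
        exact hj (if_neg h)
      have := hD _ _ _ hi
      omega
    · rw [Pi.single_eq_of_ne hne] at hj
      exact absurd rfl hj
  choose v hv using hpos
  refine ⟨(⟨P.e.mulVec v, LinearMap.mem_range_self _ _⟩, 0), Subtype.ext ?_⟩
  rw [P.diff_val]
  have h0 : (fun i => inY R ((0 : P.M').1 i)) = 0 := funext fun i => map_zero _
  rw [h0, smul_zero, sub_zero]
  show P.G.mulVec (fun i => inX R (P.e.mulVec v i)) = _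
  rw [P.map_inX_mulVec, funext hv, Matrix.mulVec_mulVec, Matrix.mulVec_mulVec, ← P.HG,
    ← Matrix.mul_assoc, P.GH, P.G_left, P.GH]
  rfl

/-- The first cohomology is finitely generated. -/
instance finite_H1 (n : ℤ) : Module.Finite R (P.H1 n) := by
  obtain ⟨D, -, hD⟩ := P.exists_bound
  refine ⟨Submodule.fg_def.mpr ⟨(fun q : ℤ × Fin P.b =>
    (Submodule.Quotient.mk (P.gen q.1 q.2) : P.H1 n)) '' (Set.Icc (-n) (D : ℤ) ×ˢ Set.univ),
    ((Set.finite_Icc _ _).prod Set.finite_univ).image _, ?_⟩⟩
  have hs := congrArg (Submodule.map (LinearMap.range (P.diff n)).mkQ) P.span_gen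
  rw [Submodule.map_top, Submodule.range_mkQ, Submodule.map_span] at hs
  rw [eq_top_iff, ← hs, Submodule.span_le]
  rintro _ ⟨_, ⟨⟨k, j⟩, rfl⟩, rfl⟩
  rcases le_or_gt k (-n) with h | h
  · rw [SetLike.mem_coe, Submodule.mkQ_apply,
      (Submodule.Quotient.mk_eq_zero _).mpr (P.gen_mem_range_of_le n h j)]
    exact zero_mem _
  rcases le_or_gt (D : ℤ) k with h' | h'
  · rw [SetLike.mem_coe, Submodule.mkQ_apply,
      (Submodule.Quotient.mk_eq_zero _).mpr (P.gen_mem_range_of_ge n hD h' j)]
    exact zero_mem _
  exact Submodule.subset_span ⟨(k, j), ⟨⟨h.le, h'.le⟩, Set.mem_univ _⟩, rfl⟩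

/-- With enough twist the first cohomology vanishes. -/
theorem exists_forall_le_diff_surjective :
    ∃ n₀ : ℤ, ∀ n ≤ n₀, Function.Surjective (P.diff n) := by
  obtain ⟨D, -, hD⟩ := P.exists_bound
  refine ⟨-(D : ℤ), fun n hn => ?_⟩
  rw [← LinearMap.range_eq_top, eq_top_iff, ← P.span_gen, Submodule.span_le]
  rintro _ ⟨⟨k, j⟩, rfl⟩
  rcases le_or_gt k (-n) with h | h
  · exact P.gen_mem_range_of_le n h j
  · exact P.gen_mem_range_of_ge n hD (by omega) j

theorem diff_surjective_iff (n : ℤ) :
    Function.Surjective (P.diff n) ↔ Subsingleton (P.H1 n) := by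
  rw [← LinearMap.range_eq_top, Submodule.Quotient.subsingleton_iff]

theorem diff_bijective_iff (n : ℤ) :
    Function.Bijective (P.diff n) ↔ Subsingleton (P.H1 n) ∧ Subsingleton (P.h0 n) := by
  rw [Function.Bijective, P.diff_surjective_iff, ← LinearMap.ker_eq_bot, ← h0,
    Submodule.subsingleton_iff_eq_bot, and_comm]

/-! ## Sections -/

theorem exists_fg_h0_le (n : ℤ) :
    ∃ Q : Submodule R (P.M × P.M'), Q.FG ∧ P.h0 n ≤ Q := by
  classical
  obtain ⟨D, hG, hH⟩ := P.exists_bound
  let prX : (Fin P.a → R[X]) →ₗ[R] P.M :=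
    ((Matrix.mulVecLin P.e).restrictScalars R).codRestrict P.M fun v =>
      LinearMap.mem_range_self (Matrix.mulVecLin P.e) v
  let prY : (Fin P.b → R[X]) →ₗ[R] P.M' :=
    ((Matrix.mulVecLin P.e').restrictScalars R).codRestrict P.M' fun v =>
      LinearMap.mem_range_self (Matrix.mulVecLin P.e') v
  let N : ℕ := ((D : ℤ) - n).toNat + 1
  let QX : Submodule R (Fin P.a → R[X]) := Submodule.pi Set.univ fun _ => degreeLT R N
  let QY : Submodule R (Fin P.b → R[X]) := Submodule.pi Set.univ fun _ => degreeLT R N
  have : Module.Finite R (degreeLT R N) :=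
    Module.Finite.equiv (Polynomial.degreeLTEquiv R N).symm
  have fgX : QX.FG := Submodule.fg_pi fun _ => Module.Finite.iff_fg.mp inferInstance
  have fgY : QY.FG := Submodule.fg_pi fun _ => Module.Finite.iff_fg.mp inferInstance
  refine ⟨(QX.map prX).prod (QY.map prY), (fgX.map _).prod (fgY.map _), ?_⟩
  rintro ⟨m, m'⟩ hm
  rw [P.mem_h0_iff] at hm
  have hmX : (fun i => inX R (m.1 i)) =
      (LaurentPolynomial.T (-n) : LaurentPolynomial R) • P.H.mulVec fun i => inY R (m'.1 i) := by
    conv_lhs => rw [← P.mulVec_of_mem_M m.2, P.map_inX_mulVec, ← P.HG, ← Matrix.mulVec_mulVec]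
    rw [hm, Matrix.mulVec_smul]
  have hX : ∀ (i : Fin P.a) (l : ℕ), N ≤ l → (m.1 i).coeff l = 0 := by
    intro i l hl
    by_contra hne
    rw [← coeff_inX_natCast, show inX R (m.1 i) = _ from congrFun hmX i, Pi.smul_apply, smul_eq_mul]
      at hne
    obtain ⟨t, i₁, j₁, hi, hj, hij⟩ :=
      mulVec_coeff_ne_zero _ _ (exists_of_coeff_T_mul_ne_zero hne)
    have hj₁ : j₁ ≤ 0 := le_of_not_gt fun hpos => hj (coeff_inY_pos _ hpos)
    have := hH _ _ _ hi
    omega
  have hY : ∀ (i : Fin P.b) (l : ℕ), N ≤ l → (m'.1 i).coeff l = 0 := by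
    intro i l hl
    by_contra hne
    have h1 : inY R (m'.1 i) =
        LaurentPolynomial.T n * P.G.mulVec (fun i => inX R (m.1 i)) i := by
      rw [congrFun hm i, Pi.smul_apply, smul_eq_mul, ← mul_assoc, ← LaurentPolynomial.T_add,
        add_neg_cancel, LaurentPolynomial.T_zero, one_mul]
    rw [← coeff_inY, h1] at hne
    obtain ⟨t, i₁, j₁, hi, hj, hij⟩ :=
      mulVec_coeff_ne_zero _ _ (exists_of_coeff_T_mul_ne_zero hne)
    have hj₁ : 0 ≤ j₁ := le_of_not_gt fun hneg => hj (coeff_inX_neg _ hneg)
    have := hG _ _ _ hi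
    omega
  have hdeg : ∀ p : R[X], (∀ l, N ≤ l → p.coeff l = 0) → p ∈ degreeLT R N := fun p hp =>
    mem_degreeLT.mpr ((degree_lt_iff_coeff_zero p N).mpr hp)
  exact ⟨⟨m.1, fun i _ => hdeg _ (hX i), Subtype.ext (P.mulVec_of_mem_M m.2)⟩,
    ⟨m'.1, fun i _ => hdeg _ (hY i), Subtype.ext (P.mulVec_of_mem_M' m'.2)⟩⟩

instance projective_W : Module.Projective R P.W := by
  have : Module.Free R (Fin P.b → LaurentPolynomial R) :=
    Module.Free.of_basis (Pi.basis fun _ => AddMonoidAlgebra.basis ℤ R)
  exact Module.Projective.of_split P.W.subtype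
    (((Matrix.mulVecLin (P.e'.map (inY R))).restrictScalars R).codRestrict P.W fun v =>
      P.mulVec_mem_W v)
    (LinearMap.ext fun x => Subtype.ext (P.mulVec_of_mem_W x.2))

instance projective_M : Module.Projective R P.M :=
  Module.Projective.of_split P.M.subtype
    (((Matrix.mulVecLin P.e).restrictScalars R).codRestrict P.M fun v =>
      LinearMap.mem_range_self (Matrix.mulVecLin P.e) v)
    (LinearMap.ext fun x => Subtype.ext (P.mulVec_of_mem_M x.2))

instance projective_M' : Module.Projective R P.M' :=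
  Module.Projective.of_split P.M'.subtype
    (((Matrix.mulVecLin P.e').restrictScalars R).codRestrict P.M' fun v =>
      LinearMap.mem_range_self (Matrix.mulVecLin P.e') v)
    (LinearMap.ext fun x => Subtype.ext (P.mulVec_of_mem_M' x.2))

/-- When the first cohomology vanishes the sections form a direct summand. -/
theorem exists_retraction_h0 {n : ℤ} (hs : Function.Surjective (P.diff n)) :
    ∃ r : P.M × P.M' →ₗ[R] P.h0 n, r ∘ₗ (P.h0 n).subtype = LinearMap.id := by
  obtain ⟨s, hs'⟩ := Module.projective_lifting_property (P.diff n) LinearMap.id hs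
  have hmem : ∀ x : P.M × P.M',
      (LinearMap.id - s ∘ₗ P.diff n : P.M × P.M' →ₗ[R] P.M × P.M') x ∈ P.h0 n := fun x => by
    show P.diff n (x - s (P.diff n x)) = 0
    rw [map_sub, ← LinearMap.comp_apply, hs', LinearMap.id_apply, sub_self]
  refine ⟨(LinearMap.id - s ∘ₗ P.diff n).codRestrict _ hmem,
    LinearMap.ext fun x => Subtype.ext ?_⟩
  show x.1 - s (P.diff n x.1) = x.1
  rw [(LinearMap.mem_ker.mp x.2 : P.diff n x.1 = 0), map_zero, sub_zero]

theorem projective_h0 {n : ℤ} (hs : Function.Surjective (P.diff n)) :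
    Module.Projective R (P.h0 n) := by
  obtain ⟨r, hr⟩ := P.exists_retraction_h0 hs
  exact Module.Projective.of_split (P.h0 n).subtype r hr

theorem finite_h0 {n : ℤ} (hs : Function.Surjective (P.diff n)) :
    Module.Finite R (P.h0 n) := by
  obtain ⟨r, hr⟩ := P.exists_retraction_h0 hs
  obtain ⟨Q, hQ, hle⟩ := P.exists_fg_h0_le n
  have : Module.Finite R Q := Module.Finite.iff_fg.mpr hQ
  exact Module.Finite.of_surjective (r ∘ₗ Q.subtype)
    fun x => ⟨⟨x.1, hle x.2⟩, LinearMap.congr_fun hr x⟩

/-! ## Base change -/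

theorem map_map {S T : Type u} [CommRing S] [CommRing T] (f : R →+* S) (g : S →+* T) :
    (P.map f).map g = P.map (g.comp f) := by
  unfold map
  congr 1 <;> simp only [Matrix.map_map] <;>
    refine congrArg _ (funext fun p => ?_)
  all_goals first
    | exact Polynomial.map_map f g p
    | exact (RingHom.congr_fun (AddMonoidAlgebra.mapRingHom_comp g f) p).symm

variable (S : Type u) [CommRing S] [Algebra R S]

/-- Base change of the vectors on the chart at zero. -/
def mapM : P.M →ₗ[R] (P.map (algebraMap R S)).M where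
  toFun v := ⟨fun i => (v.1 i).map (algebraMap R S), fun i => (v.1 i).map (algebraMap R S), by
    rw [Matrix.mulVecLin_apply]
    funext i
    conv_rhs => rw [← P.mulVec_of_mem_M v.2]
    exact (RingHom.map_mulVec (Polynomial.mapRingHom (algebraMap R S)) P.e v.1 i).symm⟩
  map_add' v w := Subtype.ext (funext fun i => map_add (polyBaseChange R S) _ _)
  map_smul' r v := Subtype.ext (funext fun i => map_smul (polyBaseChange R S) r _)

/-- Base change of the vectors on the chart at infinity. -/
def mapM' : P.M' →ₗ[R] (P.map (algebraMap R S)).M' where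
  toFun v := ⟨fun i => (v.1 i).map (algebraMap R S), fun i => (v.1 i).map (algebraMap R S), by
    rw [Matrix.mulVecLin_apply]
    funext i
    conv_rhs => rw [← P.mulVec_of_mem_M' v.2]
    exact (RingHom.map_mulVec (Polynomial.mapRingHom (algebraMap R S)) P.e' v.1 i).symm⟩
  map_add' v w := Subtype.ext (funext fun i => map_add (polyBaseChange R S) _ _)
  map_smul' r v := Subtype.ext (funext fun i => map_smul (polyBaseChange R S) r _)

theorem laurent_mulVec (v : Fin P.b → LaurentPolynomial R) :
    (fun i => laurentBaseChange R S ((P.e'.map (inY R)).mulVec v i)) =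
      ((P.map (algebraMap R S)).e'.map (inY S)).mulVec fun i => laurentBaseChange R S (v i) := by
  funext i
  rw [laurentBaseChange_apply, RingHom.map_mulVec, Matrix.map_map]
  show _ = (((P.e'.map (Polynomial.mapRingHom (algebraMap R S)))).map (inY S)).mulVec _ i
  rw [Matrix.map_map]
  exact congrArg (fun A => Matrix.mulVec A _ i)
    (congrArg P.e'.map (funext fun p => inY_map (algebraMap R S) p))

/-- Base change of the vectors on the overlap. -/
def mapW : P.W →ₗ[R] (P.map (algebraMap R S)).W where
  toFun v := ⟨fun i => laurentBaseChange R S (v.1 i),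
    fun i => laurentBaseChange R S (v.1 i), by
    rw [Matrix.mulVecLin_apply, ← P.laurent_mulVec S, P.mulVec_of_mem_W v.2]
    rfl⟩
  map_add' v w := Subtype.ext (funext fun i => map_add (laurentBaseChange R S) _ _)
  map_smul' r v := Subtype.ext (funext fun i => map_smul (laurentBaseChange R S) r _)

theorem isBaseChange_mapM : IsBaseChange S (P.mapM S) :=
  isBaseChange_summand ((isBaseChange_poly R S).finitePow (Fin P.a))
    ((Matrix.mulVecLin P.e).restrictScalars R)
    ((Matrix.mulVecLin (P.map (algebraMap R S)).e).restrictScalars S)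
    (fun x => LinearMap.mem_range_self (Matrix.mulVecLin P.e) x)
    (fun _ hx => P.mulVec_of_mem_M hx) (fun _ hy => (P.map (algebraMap R S)).mulVec_of_mem_M hy)
    (fun x => funext fun i => RingHom.map_mulVec (Polynomial.mapRingHom (algebraMap R S)) P.e x i)
    _ fun _ => rfl

theorem isBaseChange_mapM' : IsBaseChange S (P.mapM' S) :=
  isBaseChange_summand ((isBaseChange_poly R S).finitePow (Fin P.b))
    ((Matrix.mulVecLin P.e').restrictScalars R)
    ((Matrix.mulVecLin (P.map (algebraMap R S)).e').restrictScalars S)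
    (fun x => LinearMap.mem_range_self (Matrix.mulVecLin P.e') x)
    (fun _ hx => P.mulVec_of_mem_M' hx) (fun _ hy => (P.map (algebraMap R S)).mulVec_of_mem_M' hy)
    (fun x => funext fun i => RingHom.map_mulVec (Polynomial.mapRingHom (algebraMap R S)) P.e' x i)
    _ fun _ => rfl

theorem isBaseChange_mapW : IsBaseChange S (P.mapW S) :=
  isBaseChange_summand ((isBaseChange_laurent R S).finitePow (Fin P.b))
    ((Matrix.mulVecLin (P.e'.map (inY R))).restrictScalars R)
    ((Matrix.mulVecLin ((P.map (algebraMap R S)).e'.map (inY S))).restrictScalars S)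
    (fun x => P.mulVec_mem_W x)
    (fun _ hx => P.mulVec_of_mem_W hx) (fun _ hy => (P.map (algebraMap R S)).mulVec_of_mem_W hy)
    (fun x => P.laurent_mulVec S x)
    _ fun _ => rfl

theorem mapW_diff (n : ℤ) (p : P.M × P.M') :
    P.mapW S (P.diff n p) =
      (P.map (algebraMap R S)).diff n ((P.mapM S).prodMap (P.mapM' S) p) := by
  refine Subtype.ext (funext fun (i : Fin P.b) => ?_)
  show AddMonoidAlgebra.mapRingHom ℤ (algebraMap R S) ((P.diff n p).1 i) = _
  rw [(P.map (algebraMap R S)).diff_val, P.diff_val, Pi.sub_apply, map_sub,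
    RingHom.map_mulVec, Pi.smul_apply, smul_eq_mul, map_mul, inY_map]
  refine congrArg₂ (· - ·) ?_ (congrArg₂ (· * ·) ?_ rfl)
  · exact congrArg (fun v => Matrix.mulVec _ v i) (funext fun j => inX_map _ _)
  · exact (AddMonoidAlgebra.mapRingHom_single _ _ _).trans (by rw [map_one]; rfl)

/-- Base change of the first cohomology. -/
def mapH1 (n : ℤ) : P.H1 n →ₗ[R] (P.map (algebraMap R S)).H1 n :=
  Submodule.liftQ _
    ((LinearMap.range ((P.map (algebraMap R S)).diff n)).mkQ.restrictScalars R ∘ₗ P.mapW S)
    (by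
      rintro _ ⟨p, rfl⟩
      rw [LinearMap.mem_ker, LinearMap.comp_apply, P.mapW_diff]
      exact (Submodule.Quotient.mk_eq_zero _).mpr (LinearMap.mem_range_self _ _))

/-- The first cohomology commutes with base change. -/
theorem isBaseChange_mapH1 (n : ℤ) : IsBaseChange S (P.mapH1 S n) :=
  IsBaseChange.of_right_exact S ((P.mapM S).prodMap (P.mapM' S)) (P.mapW S) _
    (f := P.diff n) (g := (LinearMap.range (P.diff n)).mkQ)
    (f' := (P.map (algebraMap R S)).diff n)
    (g' := (LinearMap.range ((P.map (algebraMap R S)).diff n)).mkQ)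
    (LinearMap.ext fun p => P.mapW_diff S n p) (LinearMap.ext fun _ => rfl)
    (IsBaseChange.prodMap _ _ (P.isBaseChange_mapM S) (P.isBaseChange_mapM' S))
    (P.isBaseChange_mapW S)
    (LinearMap.exact_map_mkQ_range _) (Submodule.mkQ_surjective _)
    (LinearMap.exact_map_mkQ_range _) (Submodule.mkQ_surjective _)

/-- Base change of the sections. -/
def mapH0 (n : ℤ) : P.h0 n →ₗ[R] (P.map (algebraMap R S)).h0 n where
  toFun x := ⟨(P.mapM S).prodMap (P.mapM' S) x.1, by
    rw [h0, LinearMap.mem_ker, ← P.mapW_diff, (LinearMap.mem_ker.mp x.2 : P.diff n x.1 = 0),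
      map_zero]⟩
  map_add' x y := Subtype.ext (map_add _ _ _)
  map_smul' r x := Subtype.ext (map_smul _ r _)

theorem isBaseChange_mapH0_of_exact {n : ℤ}
    (hinj : Function.Injective ((P.h0 n).subtype.lTensor S))
    (hex : Function.Exact ((P.h0 n).subtype.lTensor S) ((P.diff n).lTensor S)) :
    IsBaseChange S (P.mapH0 S n) := by
  let χ := (IsBaseChange.prodMap _ _ (P.isBaseChange_mapM S) (P.isBaseChange_mapM' S)).equiv
  let ψ := (P.isBaseChange_mapW S).equiv
  have sq : ((P.map (algebraMap R S)).h0 n).subtype ∘ₗ (P.mapH0 S n).liftBaseChange S =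
      χ.toLinearMap ∘ₗ (P.h0 n).subtype.baseChange S := by
    refine TensorProduct.AlgebraTensorModule.ext fun s x => ?_
    simp [χ, mapH0]
  have sq' : (P.map (algebraMap R S)).diff n ∘ₗ χ.toLinearMap =
      ψ.toLinearMap ∘ₗ (P.diff n).baseChange S := by
    refine TensorProduct.AlgebraTensorModule.ext fun s x => ?_
    simp only [χ, ψ, LinearMap.comp_apply, LinearEquiv.coe_coe, IsBaseChange.equiv_tmul,
      LinearMap.baseChange_tmul, map_smul, P.mapW_diff]
  have inj : Function.Injective ((P.mapH0 S n).liftBaseChange S) := by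
    intro t t' htt
    refine hinj (χ.injective ?_)
    have h1 := LinearMap.congr_fun sq t
    have h2 := LinearMap.congr_fun sq t'
    simp only [LinearMap.comp_apply, htt] at h1 h2
    exact h1.symm.trans h2
  have surj : Function.Surjective ((P.mapH0 S n).liftBaseChange S) := by
    intro y
    have h1 := LinearMap.congr_fun sq' (χ.symm y.1)
    simp only [LinearMap.comp_apply, LinearEquiv.coe_coe, LinearEquiv.apply_symm_apply,
      (LinearMap.mem_ker.mp y.2 : (P.map (algebraMap R S)).diff n y.1 = 0)] at h1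
    obtain ⟨t, ht⟩ := (hex _).mp (ψ.map_eq_zero_iff.mp h1.symm)
    refine ⟨t, Subtype.ext ?_⟩
    exact (LinearMap.congr_fun sq t).trans ((congrArg χ ht).trans (χ.apply_symm_apply _))
  exact IsBaseChange.of_equiv (LinearEquiv.ofBijective _ ⟨inj, surj⟩)
    fun _ => (LinearMap.liftBaseChange_tmul S _ _ _).trans (one_smul S _)

/-- When the first cohomology vanishes the sections commute with base change. -/
theorem isBaseChange_mapH0 {n : ℤ} (hs : Function.Surjective (P.diff n)) :
    IsBaseChange S (P.mapH0 S n) := by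
  refine P.isBaseChange_mapH0_of_exact S ?_
    (lTensor_exact S (LinearMap.exact_subtype_ker_map _) hs)
  obtain ⟨r, hr⟩ := P.exists_retraction_h0 hs
  refine Function.LeftInverse.injective (g := r.lTensor S) fun t => ?_
  rw [← LinearMap.comp_apply, ← LinearMap.lTensor_comp, hr, LinearMap.lTensor_id,
    LinearMap.id_apply]

/-- The sections commute with flat base change. -/
theorem isBaseChange_mapH0_of_flat [Module.Flat R S] (n : ℤ) :
    IsBaseChange S (P.mapH0 S n) :=
  P.isBaseChange_mapH0_of_exact S
    (Module.Flat.lTensor_preserves_injective_linearMap _ (P.h0 n).injective_subtype)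
    (Module.Flat.lTensor_exact S (LinearMap.exact_subtype_ker_map _))

variable {S}

/-- Vanishing of the first cohomology is preserved by every base change. -/
theorem surjective_map {T : Type u} [CommRing T] (f : R →+* T) {n : ℤ}
    (hs : Function.Surjective (P.diff n)) : Function.Surjective ((P.map f).diff n) := by
  let : Algebra R T := f.toAlgebra
  have := (P.diff_surjective_iff n).mp hs
  exact ((P.map f).diff_surjective_iff n).mpr
    (subsingleton_of_isBaseChange_of_subsingleton (P.isBaseChange_mapH1 T n))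

/-- Vanishing of the first cohomology at a point spreads to a neighbourhood. -/
theorem exists_surjective_near {K : Type u} [Field K] (f : R →+* K) {n : ℤ}
    (hs : Function.Surjective ((P.map f).diff n)) :
    ∃ h : R, f h ≠ 0 ∧ ∀ (T : Type u) [CommRing T] (g : R →+* T), IsUnit (g h) →
      Function.Surjective ((P.map g).diff n) := by
  let : Algebra R K := f.toAlgebra
  have : Subsingleton ((P.map (algebraMap R K)).H1 n) :=
    ((P.map f).diff_surjective_iff n).mp hs
  obtain ⟨h, hh, hN⟩ := exists_annihilating_of_subsingleton_tensor (N := P.H1 n) K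
    (P.isBaseChange_mapH1 K n).equiv.subsingleton
  refine ⟨h, hh, fun T _ g hu => ?_⟩
  let : Algebra R T := g.toAlgebra
  exact ((P.map g).diff_surjective_iff n).mpr
    (subsingleton_of_isBaseChange (P.isBaseChange_mapH1 T n) hu hN)

/-- For sections of a pair without first cohomology, vanishing at a point spreads to a
neighbourhood. -/
theorem exists_bijective_near_of_surjective {K : Type u} [Field K] (f : R →+* K) {n : ℤ}
    (hs : Function.Surjective (P.diff n)) (hb : Function.Bijective ((P.map f).diff n)) :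
    ∃ h : R, f h ≠ 0 ∧ ∀ (T : Type u) [CommRing T] (g : R →+* T), IsUnit (g h) →
      Function.Bijective ((P.map g).diff n) := by
  let : Algebra R K := f.toAlgebra
  have := P.finite_h0 hs
  have h0K : Subsingleton ((P.map (algebraMap R K)).h0 n) :=
    (((P.map f).diff_bijective_iff n).mp hb).2
  have hK := (P.isBaseChange_mapH0 K hs).equiv.subsingleton
  obtain ⟨h, hh, hN⟩ := exists_annihilating_of_subsingleton_tensor (N := P.h0 n) K hK
  refine ⟨h, hh, fun T _ g hu => ?_⟩
  let : Algebra R T := g.toAlgebra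
  have h0T := subsingleton_of_isBaseChange (P.isBaseChange_mapH0 T hs) hu hN
  exact ((P.map (algebraMap R T)).diff_bijective_iff n).mpr
    ⟨((P.map (algebraMap R T)).diff_surjective_iff n).mp (P.surjective_map _ hs), h0T⟩

/-- An isomorphism at a point spreads to a neighbourhood. -/
theorem exists_bijective_near {K : Type u} [Field K] (f : R →+* K) {n : ℤ}
    (hb : Function.Bijective ((P.map f).diff n)) :
    ∃ h : R, f h ≠ 0 ∧ ∀ (T : Type u) [CommRing T] (g : R →+* T), IsUnit (g h) →
      Function.Bijective ((P.map g).diff n) := by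
  obtain ⟨h, hh, hnear⟩ := P.exists_surjective_near f hb.2
  let ι : R →+* Localization.Away h := algebraMap R (Localization.Away h)
  let f' : Localization.Away h →+* K :=
    IsLocalization.Away.lift h (g := f) (Ne.isUnit hh)
  have hf' : f'.comp ι = f := IsLocalization.Away.lift_comp h _
  have hι : Function.Surjective ((P.map ι).diff n) :=
    hnear _ ι (IsLocalization.Away.algebraMap_isUnit h)
  obtain ⟨h', hh', hnear'⟩ := (P.map ι).exists_bijective_near_of_surjective f' hι
    (by rw [P.map_map, hf']; exact hb)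
  obtain ⟨k, a, ha⟩ := IsLocalization.Away.surj h h'
  have hfa : f a ≠ 0 := by
    rw [← hf', RingHom.comp_apply, ← ha, map_mul, map_pow]
    exact mul_ne_zero hh' (pow_ne_zero _ (by rwa [← RingHom.comp_apply, hf']))
  refine ⟨h * a, by rw [map_mul]; exact mul_ne_zero hh hfa, fun T _ g hu => ?_⟩
  rw [map_mul] at hu
  have hgh : IsUnit (g h) := isUnit_of_mul_isUnit_left hu
  have hga : IsUnit (g a) := isUnit_of_mul_isUnit_right hu
  let g' : Localization.Away h →+* T := IsLocalization.Away.lift h hgh
  have hg' : g'.comp ι = g := IsLocalization.Away.lift_comp h hgh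
  have hu' : IsUnit (g' h') := by
    rw [← hg', RingHom.comp_apply, ← ha, map_mul] at hga
    exact isUnit_of_mul_isUnit_left hga
  have key := hnear' T g' hu'
  rwa [P.map_map, hg'] at key

section Field

variable {K L : Type u} [Field K] [Field L] (P₀ : PairData K) (f : K →+* L)

theorem finrank_H1_map (n : ℤ) :
    Module.finrank L ((P₀.map f).H1 n) = Module.finrank K (P₀.H1 n) := by
  let : Algebra K L := f.toAlgebra
  exact (P₀.isBaseChange_mapH1 L n).equiv.finrank_eq.symm.trans Module.finrank_baseChange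

theorem finrank_h0_map (n : ℤ) :
    Module.finrank L ((P₀.map f).h0 n) = Module.finrank K (P₀.h0 n) := by
  let : Algebra K L := f.toAlgebra
  have : Module.Free K (P₀.h0 n) := Module.Free.of_divisionRing K (P₀.h0 n)
  exact (P₀.isBaseChange_mapH0_of_flat L n).equiv.finrank_eq.symm.trans Module.finrank_baseChange

end Field

end PairData

end FLTAgent.RelPicard
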