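import Fermat.Agent.RelPicard.PairData
import Fermat.Agent.RelPicard.PairCohomology
import Fermat.Agent.RelPicard.AffineSectionsPairCoords
import Fermat.Agent.RelPicard.FredholmIndex
import Mathlib.RingTheory.Spectrum.Prime.FreeLocus
import Mathlib.RingTheory.TensorProduct.IsBaseChangePi

/-!
# The index of a pair under twisting, and its local constancy

Twisting by one point at infinity changes the index by the rank of the idempotent at infinity;
over a base ring this rank is locally constant.

Main results: `chi_succ`, `exists_locallyConstant_chi`; used by `DegreeFamily`.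
-/

set_option autoImplicit false

universe u

open Polynomial Module Matrix

noncomputable section

namespace FLTAgent.RelPicard

section Idempotent

variable {R : Type u} [CommRing R] {b : ℕ}

/-- The range of an idempotent matrix is finite projective. -/
theorem finite_projective_range {E : Matrix (Fin b) (Fin b) R} (hE : E * E = E) :
    Module.Finite R (LinearMap.range E.mulVecLin) ∧
      Module.Projective R (LinearMap.range E.mulVecLin) := by
  have : Module.Finite R (LinearMap.range E.mulVecLin) := Module.Finite.range E.mulVecLin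
  refine ⟨inferInstance, Module.Projective.of_split (LinearMap.range E.mulVecLin).subtype
    E.mulVecLin.rangeRestrict (LinearMap.ext fun v => Subtype.ext ?_)⟩
  exact (mem_range_mulVecLin_iff hE).mp v.2

variable {S : Type u} [CommRing S] [Algebra R S]

/-- The base change map between ranges of an idempotent matrix. -/
def rangeMap (E : Matrix (Fin b) (Fin b) R) :
    LinearMap.range E.mulVecLin →ₗ[R] LinearMap.range (E.map (algebraMap R S)).mulVecLin where
  toFun v := ⟨fun i => algebraMap R S (v.1 i), by
    obtain ⟨w, hw⟩ := v.2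
    refine ⟨fun i => algebraMap R S (w i), ?_⟩
    rw [← hw]
    exact funext fun i => (RingHom.map_mulVec (algebraMap R S) E w i).symm⟩
  map_add' v w := Subtype.ext (funext fun i => map_add _ _ _)
  map_smul' r v := Subtype.ext (funext fun i => by
    show algebraMap R S (r * v.1 i) = r • algebraMap R S (v.1 i)
    rw [map_mul, ← Algebra.smul_def])

theorem isBaseChange_rangeMap {E : Matrix (Fin b) (Fin b) R} (hE : E * E = E) :
    IsBaseChange S (rangeMap (S := S) E) := by
  have hpow := IsBaseChange.finitePow (R := R) (S := S) (Fin b)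
    (IsBaseChange.linearMap R S)
  set E' := E.map (algebraMap R S) with hE'
  refine IsBaseChange.of_lift_unique _ fun Q _ _ _ _ q => ?_
  let L : (Fin b → S) →ₗ[S] Q := hpow.lift (q ∘ₗ E.mulVecLin.rangeRestrict)
  have hL : ∀ x : Fin b → R, L (fun i => algebraMap R S (x i)) =
      q (E.mulVecLin.rangeRestrict x) := fun x => by
    exact hpow.lift_eq (q ∘ₗ E.mulVecLin.rangeRestrict) x
  have hmap : ∀ x : Fin b → R,
      E'.mulVecLin (fun i => algebraMap R S (x i)) = fun i => algebraMap R S (E.mulVec x i) :=
    fun x => funext fun i => (RingHom.map_mulVec (algebraMap R S) E x i).symm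
  refine ⟨L ∘ₗ (LinearMap.range E'.mulVecLin).subtype, LinearMap.ext fun v => ?_, fun L' hL' => ?_⟩
  · refine (hL v.1).trans (congrArg q (Subtype.ext ?_))
    exact (mem_range_mulVecLin_iff hE).mp v.2
  · have key : L' ∘ₗ E'.mulVecLin.rangeRestrict = L := by
      refine hpow.algHom_ext _ _ fun x => ?_
      refine Eq.trans ?_ (hL x).symm
      have h1 := LinearMap.congr_fun hL' (E.mulVecLin.rangeRestrict x)
      refine Eq.trans (congrArg L' (Subtype.ext ?_)) h1
      exact hmap x
    refine LinearMap.ext fun v => ?_
    have hv : E'.mulVecLin.rangeRestrict v.1 = v :=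
      Subtype.ext ((mem_range_mulVecLin_iff (by rw [← Matrix.map_mul, hE])).mp v.2)
    show L' v = L v.1
    rw [← key, LinearMap.comp_apply, hv]

/-- The point of the spectrum under a map to a field. -/
def fieldPoint {K : Type u} [Field K] (f : R →+* K) : PrimeSpectrum R :=
  ⟨RingHom.ker f, RingHom.ker_isPrime f⟩

theorem rankAtStalk_fieldPoint {K : Type u} [Field K] [Algebra R K] {M N : Type u} [AddCommGroup M]
    [Module R M] [Module.Finite R M] [Module.Projective R M] [AddCommGroup N] [Module R N]
    [Module K N] [IsScalarTower R K N] {g : M →ₗ[R] N} (hg : IsBaseChange K g) :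
    Module.finrank K N = Module.rankAtStalk M (fieldPoint (algebraMap R K)) := by
  have : Module.Finite K N := Module.Finite.equiv hg.equiv
  rw [← show (⊥ : PrimeSpectrum K).comap (algebraMap R K) = fieldPoint (algebraMap R K) from
      PrimeSpectrum.ext (RingHom.ker_eq_comap_bot (algebraMap R K)).symm,
    ← Module.rankAtStalk_isBaseChange hg]
  exact (congrFun (Module.rankAtStalk_eq_finrank_of_free (R := K) (M := N)) _).symm

/-- The rank of an idempotent at the points of the spectrum. -/
theorem finrank_range_map {E : Matrix (Fin b) (Fin b) R} (hE : E * E = E) {K : Type u} [Field K]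
    (f : R →+* K) :
    Module.finrank K (LinearMap.range (E.map f).mulVecLin) =
      Module.rankAtStalk (LinearMap.range E.mulVecLin) (fieldPoint f) := by
  let := f.toAlgebra
  have := (finite_projective_range hE).1
  have := (finite_projective_range hE).2
  exact rankAtStalk_fieldPoint (isBaseChange_rangeMap hE)

theorem isLocallyConstant_rankAtStalk_range {E : Matrix (Fin b) (Fin b) R} (hE : E * E = E) :
    IsLocallyConstant (Module.rankAtStalk (R := R) (LinearMap.range E.mulVecLin)) := by
  have := (finite_projective_range hE).1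
  have := (finite_projective_range hE).2
  have := Module.finitePresentation_of_projective R (LinearMap.range E.mulVecLin)
  exact Module.isLocallyConstant_rankAtStalk

end Idempotent

namespace PairData

variable {R : Type u} [CommRing R] (P : PairData R)

/-- The idempotent at infinity. -/
def e₀ : Matrix (Fin P.b) (Fin P.b) R := P.e'.map (evalRingHom 0)

theorem e₀_idem : P.e₀ * P.e₀ = P.e₀ := by rw [e₀, ← Matrix.map_mul, P.e'_idem]

theorem e₀_map {S : Type u} [CommRing S] (f : R →+* S) : (P.map f).e₀ = P.e₀.map f := by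
  ext i j
  show ((P.e' i j).map f).eval 0 = f ((P.e' i j).eval 0)
  simp [← Polynomial.coeff_zero_eq_eval_zero]

/-- Multiplication by the coordinate at infinity. -/
def mulY : P.M' →ₗ[R] P.M' where
  toFun v := ⟨fun i => X * v.1 i, P.mem_M'_iff.mpr (by
    rw [show (fun i => X * v.1 i) = (X : R[X]) • v.1 from rfl, Matrix.mulVec_smul,
      P.mem_M'_iff.mp v.2])⟩
  map_add' v w := Subtype.ext (funext fun i => mul_add _ _ _)
  map_smul' r v := Subtype.ext (funext fun i => mul_smul_comm r (X : R[X]) (v.1 i))

theorem mulY_injective : Function.Injective P.mulY := fun v w h => by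
  refine Subtype.ext (funext fun i => ?_)
  have h' : X * v.1 i = X * w.1 i := congrFun (congrArg Subtype.val h) i
  exact (isRegular_X.left : IsLeftRegular (X : R[X])) h'

theorem diff_succ (n : ℤ) : P.diff (n + 1) = P.diff n ∘ₗ LinearMap.id.prodMap P.mulY := by
  refine LinearMap.ext fun p => Subtype.ext ?_
  show (P.e'.map (inY R)).mulVec _ = (P.e'.map (inY R)).mulVec _
  refine congrArg _ (congrArg (fun z => P.G.mulVec (fun i => inX R (p.1.1 i)) - z) ?_)
  funext i
  show _ = LaurentPolynomial.T (-n) * inY R (X * p.2.1 i)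
  rw [map_mul, show inY R X = LaurentPolynomial.T (-1) from eval₂_X _ _, ← mul_assoc,
    ← LaurentPolynomial.T_add, neg_add]

/-- The value at infinity of a section on the chart at infinity. -/
def evalY : P.M' →ₗ[R] LinearMap.range P.e₀.mulVecLin where
  toFun v := ⟨fun i => (v.1 i).eval 0, (mem_range_mulVecLin_iff P.e₀_idem).mpr (funext fun i => by
    conv_rhs => rw [← P.mem_M'_iff.mp v.2]
    exact (RingHom.map_mulVec (evalRingHom (0 : R)) P.e' v.1 i).symm)⟩
  map_add' v w := Subtype.ext (funext fun i => eval_add)
  map_smul' r v := Subtype.ext (funext fun i => eval_smul _ _ _)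

theorem ker_evalY : LinearMap.ker P.evalY = LinearMap.range P.mulY := by
  refine le_antisymm (fun v hv => ?_) ?_
  · have h0 : ∀ i, (v.1 i).coeff 0 = 0 := fun i => by
      rw [coeff_zero_eq_eval_zero]
      exact congrFun (congrArg Subtype.val hv) i
    have hX : ∀ i, X * (v.1 i).divX = v.1 i := fun i => by
      conv_rhs => rw [← X_mul_divX_add (v.1 i), h0, map_zero, add_zero]
    have hw : P.e' *ᵥ (fun i => (v.1 i).divX) = fun i => (v.1 i).divX := funext fun i =>
      (isRegular_X.left : IsLeftRegular (X : R[X])) (by
        show X * (P.e' *ᵥ fun i => (v.1 i).divX) i = X * (v.1 i).divX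
        rw [hX, ← smul_eq_mul, ← Pi.smul_apply, ← Matrix.mulVec_smul,
          show (X : R[X]) • (fun i => (v.1 i).divX) = v.1 from funext hX, P.mem_M'_iff.mp v.2])
    exact ⟨⟨_, P.mem_M'_iff.mpr hw⟩, Subtype.ext (funext hX)⟩
  · rintro _ ⟨w, rfl⟩
    refine Subtype.ext (funext fun i => ?_)
    show (X * w.1 i).eval 0 = 0
    simp

theorem evalY_surjective : Function.Surjective P.evalY := by
  intro u
  refine ⟨⟨P.e' *ᵥ fun i => C (u.1 i), P.mem_M'_iff.mpr ?_⟩, Subtype.ext (funext fun i => ?_)⟩
  · rw [Matrix.mulVec_mulVec, P.e'_idem]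
  · show evalRingHom 0 ((P.e' *ᵥ fun i => C (u.1 i)) i) = u.1 i
    rw [RingHom.map_mulVec]
    have hu := congrFun ((mem_range_mulVecLin_iff P.e₀_idem).mp u.2) i
    refine Eq.trans ?_ hu
    simp [e₀, Function.comp_def]

section Field

variable {K : Type u} [Field K] (P : PairData K)

/-- The rank at infinity. -/
def rho : ℕ := Module.finrank K (LinearMap.range P.e₀.mulVecLin)

/-- The index of the twist by `-n` at infinity. -/
def chi (n : ℤ) : ℤ :=
  (Module.finrank K (LinearMap.ker (P.diff n)) : ℤ) - Module.finrank K (P.H1 n)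

theorem chi_eq_index {n : ℤ} (h : FinIndex (P.diff n)) : P.chi n = (P.diff n).index := by
  have := h.ker
  have := h.coker
  rw [LinearMap.index_eq_finrank_sub]
  rfl

/-- The cokernel of multiplication by the coordinate at infinity. -/
def cokerMulY : (P.M' ⧸ LinearMap.range P.mulY) ≃ₗ[K] LinearMap.range P.e₀.mulVecLin :=
  (Submodule.quotEquivOfEq _ _ P.ker_evalY.symm).trans
    (P.evalY.quotKerEquivOfSurjective P.evalY_surjective)

theorem finIndex_mulY : FinIndex P.mulY := by
  have : FiniteDimensional K (P.M' ⧸ LinearMap.range P.mulY) :=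
    Module.Finite.equiv P.cokerMulY.symm
  exact FinIndex.of_injective P.mulY_injective

theorem index_mulY : P.mulY.index = -(P.rho : ℤ) := by
  have := P.finIndex_mulY.ker
  have := P.finIndex_mulY.coker
  rw [LinearMap.index_eq_finrank_sub, LinearMap.ker_eq_bot.mpr P.mulY_injective, finrank_bot,
    P.cokerMulY.finrank_eq, rho]
  simp

theorem finIndex_succ_iff (n : ℤ) : FinIndex (P.diff (n + 1)) ↔ FinIndex (P.diff n) := by
  have hid : FinIndex (LinearMap.id : P.M →ₗ[K] P.M) :=
    FinIndex.of_linearEquiv (LinearEquiv.refl K _)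
  have hm := hid.prodMap P.finIndex_mulY
  rw [P.diff_succ n]
  exact ⟨fun h => h.of_comp_left hm, fun h => h.comp hm⟩

theorem chi_succ {n : ℤ} (h : FinIndex (P.diff n)) : P.chi (n + 1) = P.chi n - P.rho := by
  have hid : FinIndex (LinearMap.id : P.M →ₗ[K] P.M) :=
    FinIndex.of_linearEquiv (LinearEquiv.refl K _)
  rw [P.chi_eq_index ((P.finIndex_succ_iff n).mpr h), P.chi_eq_index h, P.diff_succ n,
    h.index_comp (hid.prodMap P.finIndex_mulY), FinIndex.index_prodMap hid P.finIndex_mulY,
    P.index_mulY]
  have := hid.ker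
  have := hid.coker
  have h0 : (LinearMap.id : P.M →ₗ[K] P.M).index = 0 := by
    have : Subsingleton (P.M ⧸ LinearMap.range (LinearMap.id : P.M →ₗ[K] P.M)) :=
      Submodule.Quotient.subsingleton_iff.mpr LinearMap.range_id
    rw [LinearMap.index_eq_finrank_sub, LinearMap.ker_id, finrank_bot,
      Module.finrank_zero_of_subsingleton]
    simp
  rw [h0]
  ring

theorem finIndex_and_chi {n₀ : ℤ} (h : FinIndex (P.diff n₀)) (n : ℤ) :
    FinIndex (P.diff n) ∧ P.chi n = P.chi n₀ - (n - n₀) * P.rho := by
  induction n using Int.inductionOn' (b := n₀) with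
  | zero => exact ⟨h, by simp⟩
  | succ m _ ih =>
    refine ⟨(P.finIndex_succ_iff m).mpr ih.1, ?_⟩
    rw [P.chi_succ ih.1, ih.2]
    ring
  | pred m _ ih =>
    have hm : FinIndex (P.diff (m - 1)) := by
      rw [← P.finIndex_succ_iff (m - 1), sub_add_cancel]
      exact ih.1
    refine ⟨hm, ?_⟩
    have := P.chi_succ hm
    rw [sub_add_cancel, ih.2] at this
    linear_combination -this

end Field

/-- The index at the points of the base is a locally constant function on the spectrum. -/
theorem exists_locallyConstant_chi :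
    ∃ φ : PrimeSpectrum R → ℤ, IsLocallyConstant φ ∧
      ∀ (K : Type u) [Field K] (f : R →+* K),
        FinIndex ((P.map f).diff 0) ∧ (P.map f).chi 0 = φ (fieldPoint f) := by
  obtain ⟨n₀, hn₀⟩ := P.exists_forall_le_diff_surjective
  have hs := hn₀ n₀ le_rfl
  have := P.finite_h0 hs
  have := P.projective_h0 hs
  have := Module.finitePresentation_of_projective R (P.h0 n₀)
  have h1 : IsLocallyConstant (Module.rankAtStalk (R := R) (P.h0 n₀)) :=
    Module.isLocallyConstant_rankAtStalk
  refine ⟨fun p => (Module.rankAtStalk (P.h0 n₀) p : ℤ) +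
      n₀ * Module.rankAtStalk (LinearMap.range P.e₀.mulVecLin) p,
    (h1.prodMk (isLocallyConstant_rankAtStalk_range P.e₀_idem)).comp
      (fun q : ℕ × ℕ => (q.1 : ℤ) + n₀ * q.2), fun K _ f => ?_⟩
  let := f.toAlgebra
  have hbc := P.isBaseChange_mapH0 K hs
  have hk : Module.finrank K ((P.map (algebraMap R K)).h0 n₀) =
      Module.rankAtStalk (P.h0 n₀) (fieldPoint (algebraMap R K)) :=
    rankAtStalk_fieldPoint (M := ↥(P.h0 n₀)) (N := ↥((P.map (algebraMap R K)).h0 n₀))
      (g := P.mapH0 K n₀) hbc
  have : FiniteDimensional K (LinearMap.ker ((P.map f).diff n₀)) := Module.Finite.equiv hbc.equiv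
  have hsK := P.surjective_map f hs
  have hF : FinIndex ((P.map f).diff n₀) := FinIndex.of_surjective hsK
  obtain ⟨hF0, hchi⟩ := (P.map f).finIndex_and_chi hF 0
  refine ⟨hF0, ?_⟩
  have hH1 : Subsingleton ((P.map f).H1 n₀) :=
    Submodule.Quotient.subsingleton_iff.mpr (LinearMap.range_eq_top.mpr hsK)
  have hn : (P.map f).chi n₀ = Module.rankAtStalk (P.h0 n₀) (fieldPoint f) := by
    rw [chi, Module.finrank_zero_of_subsingleton (M := (P.map f).H1 n₀)]
    simp only [Nat.cast_zero, sub_zero]
    exact congrArg Nat.cast hk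
  have hr : (P.map f).rho =
      Module.rankAtStalk (LinearMap.range P.e₀.mulVecLin) (fieldPoint f) := by
    unfold rho
    rw [P.e₀_map f]
    exact finrank_range_map P.e₀_idem f
  rw [hchi, hn, hr]
  push_cast
  ring

end PairData

end FLTAgent.RelPicard
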