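import Fermat.Agent.RelPicard.Cover

/-!
# Line bundle classes as cocycles of units

A cocycle has one open neighbourhood for each point, so classes form a small type.

Main declarations: `Cocycle`, `Equiv`, `Pic`, `Pic.map`, the sections `Sec` with `resSec`,
`mulSec` and `pullSec`.
-/

set_option autoImplicit false

universe u

open CategoryTheory AlgebraicGeometry TopologicalSpace

noncomputable section

namespace FLTAgent.RelPicard

variable {X Y Z : Scheme.{u}}

theorem res_res {U V W : X.Opens} (h : W ≤ V) (h' : V ≤ U) (a : Γ(X, U)) :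
    res h (res h' a) = res (h.trans h') a := by
  rw [res, res, res, ← CommRingCat.comp_apply, ← X.presheaf.map_comp]
  rfl

theorem res_self {U : X.Opens} (h : U ≤ U) (a : Γ(X, U)) : res h a = a := by
  rw [res, show (homOfLE h).op = 𝟙 _ from rfl, X.presheaf.map_id]
  rfl

/-- Restriction of units. -/
def resU {U W : X.Opens} (h : W ≤ U) : Γ(X, U)ˣ →* Γ(X, W)ˣ :=
  Units.map (res h).toMonoidHom

theorem coe_resU {U W : X.Opens} (h : W ≤ U) (a : Γ(X, U)ˣ) : (resU h a : Γ(X, W)) = res h a := rfl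

theorem resU_resU {U V W : X.Opens} (h : W ≤ V) (h' : V ≤ U) (a : Γ(X, U)ˣ) :
    resU h (resU h' a) = resU (h.trans h') a :=
  Units.ext (res_res h h' _)

/-- Pullback of functions. -/
def pull (f : X ⟶ Y) {U : Y.Opens} {W : X.Opens} (h : W ≤ f ⁻¹ᵁ U) : Γ(Y, U) →+* Γ(X, W) :=
  (f.appLE U W h).hom

theorem res_pull (f : X ⟶ Y) {U : Y.Opens} {W W' : X.Opens} (h' : W' ≤ W) (h : W ≤ f ⁻¹ᵁ U)
    (a : Γ(Y, U)) : res h' (pull f h a) = pull f (h'.trans h) a := by
  rw [res, pull, pull, ← CommRingCat.comp_apply, Scheme.Hom.appLE_map]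

theorem pull_res (f : X ⟶ Y) {U U' : Y.Opens} {W : X.Opens} (h' : U' ≤ U) (h : W ≤ f ⁻¹ᵁ U')
    (a : Γ(Y, U)) :
    pull f h (res h' a) = pull f (h.trans
      ((TopologicalSpace.Opens.map f.base).map (homOfLE h')).le) a := by
  rw [res, pull, pull, ← CommRingCat.comp_apply, Scheme.Hom.map_appLE]

theorem pull_pull (f : X ⟶ Y) (g : Y ⟶ Z) {U : Z.Opens} {V : Y.Opens} {W : X.Opens}
    (h : W ≤ f ⁻¹ᵁ V) (h' : V ≤ g ⁻¹ᵁ U) (a : Γ(Z, U)) :
    pull f h (pull g h' a) = pull (f ≫ g)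
      (h.trans ((TopologicalSpace.Opens.map f.base).map (homOfLE h')).le) a := by
  rw [pull, pull, pull, ← CommRingCat.comp_apply, Scheme.Hom.appLE_comp_appLE]

theorem pull_id {U W : X.Opens} (h : W ≤ U) (a : Γ(X, U)) : pull (𝟙 X) h a = res h a := by
  simp [pull, res, Scheme.Hom.appLE]
  rfl

theorem pull_congr {f g : X ⟶ Y} (e : f = g) {U : Y.Opens} {W : X.Opens} (h : W ≤ f ⁻¹ᵁ U)
    (h' : W ≤ g ⁻¹ᵁ U) (a : Γ(Y, U)) : pull f h a = pull g h' a := by
  subst e; rfl

theorem le_preimage_inf (f : X ⟶ Y) (U V : Y.Opens) : f ⁻¹ᵁ U ⊓ f ⁻¹ᵁ V ≤ f ⁻¹ᵁ (U ⊓ V) :=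
  fun _ hp => hp

/-- Pullback of units. -/
def pullU (f : X ⟶ Y) {U : Y.Opens} {W : X.Opens} (h : W ≤ f ⁻¹ᵁ U) : Γ(Y, U)ˣ →* Γ(X, W)ˣ :=
  Units.map (pull f h).toMonoidHom

theorem coe_pullU (f : X ⟶ Y) {U : Y.Opens} {W : X.Opens} (h : W ≤ f ⁻¹ᵁ U) (a : Γ(Y, U)ˣ) :
    (pullU f h a : Γ(X, W)) = pull f h a := rfl

variable (X) in
/-- A multiplicative cocycle with a neighbourhood for each point; `g x y` compares the frame at
`y` with the frame at `x`: `frame y = g x y • frame x`, so coordinates satisfy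
`s x = g x y * s y`. -/
structure Cocycle : Type u where
  nbhd : X → X.Opens
  mem : ∀ x, x ∈ nbhd x
  g : ∀ x y, Γ(X, nbhd x ⊓ nbhd y)ˣ
  cocycle : ∀ x y z (W : X.Opens) (hx : W ≤ nbhd x) (hy : W ≤ nbhd y) (hz : W ≤ nbhd z),
    resU (le_inf hx hy) (g x y) * resU (le_inf hy hz) (g y z) = resU (le_inf hx hz) (g x z)

namespace Cocycle

/-- The transition function on an open set inside both neighbourhoods. -/
def gOn (c : Cocycle X) (x y : X) {W : X.Opens} (hx : W ≤ c.nbhd x) (hy : W ≤ c.nbhd y) :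
    Γ(X, W)ˣ :=
  resU (le_inf hx hy) (c.g x y)

theorem resU_gOn (c : Cocycle X) (x y : X) {W W' : X.Opens} (h : W' ≤ W) (hx : W ≤ c.nbhd x)
    (hy : W ≤ c.nbhd y) : resU h (c.gOn x y hx hy) = c.gOn x y (h.trans hx) (h.trans hy) :=
  resU_resU _ _ _

theorem gOn_mul (c : Cocycle X) (x y z : X) {W : X.Opens} (hx : W ≤ c.nbhd x) (hy : W ≤ c.nbhd y)
    (hz : W ≤ c.nbhd z) : c.gOn x y hx hy * c.gOn y z hy hz = c.gOn x z hx hz :=
  c.cocycle x y z W hx hy hz

theorem gOn_self (c : Cocycle X) (x : X) {W : X.Opens} (hx : W ≤ c.nbhd x) :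
    c.gOn x x hx hx = 1 := by
  have h := c.gOn_mul x x x hx hx hx
  rwa [mul_eq_left] at h

/-- Equivalence of cocycles: a change of frames on smaller neighbourhoods. -/
def Equiv (c d : Cocycle X) : Prop :=
  ∃ (V : X → X.Opens) (_ : ∀ x, x ∈ V x) (hc : ∀ x, V x ≤ c.nbhd x) (hd : ∀ x, V x ≤ d.nbhd x)
    (h : ∀ x, Γ(X, V x)ˣ), ∀ x y (W : X.Opens) (hx : W ≤ V x) (hy : W ≤ V y),
      d.gOn x y (hx.trans (hd x)) (hy.trans (hd y)) * resU hy (h y) =
        resU hx (h x) * c.gOn x y (hx.trans (hc x)) (hy.trans (hc y))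

/-- The cocycle of the trivial bundle. -/
@[reducible] protected def one : Cocycle X where
  nbhd _ := ⊤
  mem _ := trivial
  g _ _ := 1
  cocycle x y z W hx hy hz := by simp only [map_one, mul_one]

/-- The tensor product. -/
@[reducible] protected def mul (c d : Cocycle X) : Cocycle X where
  nbhd x := c.nbhd x ⊓ d.nbhd x
  mem x := ⟨c.mem x, d.mem x⟩
  g x y := c.gOn x y (inf_le_left.trans inf_le_left) (inf_le_right.trans inf_le_left) *
    d.gOn x y (inf_le_left.trans inf_le_right) (inf_le_right.trans inf_le_right)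
  cocycle x y z W hx hy hz := by
    simp only [map_mul, resU_gOn]
    rw [mul_mul_mul_comm, c.gOn_mul, d.gOn_mul]

/-- The dual. -/
@[reducible] protected def inv (c : Cocycle X) : Cocycle X where
  nbhd := c.nbhd
  mem := c.mem
  g x y := (c.g x y)⁻¹
  cocycle x y z W hx hy hz := by
    simp only [map_inv]
    rw [← mul_inv, c.cocycle x y z W hx hy hz]

theorem gOn_one (x y : X) {W : X.Opens} (hx : W ≤ Cocycle.one.nbhd x)
    (hy : W ≤ Cocycle.one.nbhd y) : Cocycle.one.gOn x y hx hy = 1 :=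
  map_one (resU (le_inf hx hy))

theorem gOn_mul_cocycle (c d : Cocycle X) (x y : X) {W : X.Opens}
    (hx : W ≤ (c.mul d).nbhd x) (hy : W ≤ (c.mul d).nbhd y) :
    (c.mul d).gOn x y hx hy = c.gOn x y (hx.trans inf_le_left) (hy.trans inf_le_left) *
      d.gOn x y (hx.trans inf_le_right) (hy.trans inf_le_right) := by
  show resU _ (c.gOn x y (W := (c.nbhd x ⊓ d.nbhd x) ⊓ (c.nbhd y ⊓ d.nbhd y))
    (inf_le_left.trans inf_le_left) (inf_le_right.trans inf_le_left) *
      d.gOn x y (inf_le_left.trans inf_le_right) (inf_le_right.trans inf_le_right)) = _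
  rw [map_mul, resU_gOn, resU_gOn]

theorem gOn_inv_cocycle (c : Cocycle X) (x y : X) {W : X.Opens} (hx : W ≤ c.inv.nbhd x)
    (hy : W ≤ c.inv.nbhd y) : c.inv.gOn x y hx hy = (c.gOn x y hx hy)⁻¹ :=
  map_inv (resU (le_inf hx hy)) (c.g x y)

theorem Equiv.refl (c : Cocycle X) : Equiv c c :=
  ⟨c.nbhd, c.mem, fun _ => le_rfl, fun _ => le_rfl, fun _ => 1, fun x y W hx hy => by
    simp only [map_one, mul_one, one_mul]⟩

theorem Equiv.symm {c d : Cocycle X} (e : Equiv c d) : Equiv d c := by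
  obtain ⟨V, hV, hc, hd, h, H⟩ := e
  refine ⟨V, hV, hd, hc, fun x => (h x)⁻¹, fun x y W hx hy => ?_⟩
  rw [map_inv, map_inv, eq_inv_mul_iff_mul_eq, ← mul_assoc, ← eq_mul_inv_iff_mul_eq, inv_inv,
    H x y W hx hy]

theorem Equiv.trans {a b c : Cocycle X} (e : Equiv a b) (e' : Equiv b c) : Equiv a c := by
  obtain ⟨V, hV, ha, hb, h, H⟩ := e
  obtain ⟨V', hV', hb', hc, h', H'⟩ := e'
  refine ⟨fun x => V x ⊓ V' x, fun x => ⟨hV x, hV' x⟩, fun x => inf_le_left.trans (ha x),
    fun x => inf_le_right.trans (hc x),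
    fun x => resU inf_le_right (h' x) * resU inf_le_left (h x), fun x y W hx hy => ?_⟩
  simp only [map_mul, resU_resU]
  have h1 := H x y W (hx.trans inf_le_left) (hy.trans inf_le_left)
  have h2 := H' x y W (hx.trans inf_le_right) (hy.trans inf_le_right)
  rw [← mul_assoc, h2, mul_assoc, h1, mul_assoc]

variable (X) in
instance setoid : Setoid (Cocycle X) :=
  ⟨Equiv, Equiv.refl, Equiv.symm, Equiv.trans⟩

/-- Cocycles with the same transition functions on smaller neighbourhoods are equivalent. -/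
theorem Equiv.of_eq {c d : Cocycle X} (V : X → X.Opens) (hV : ∀ x, x ∈ V x)
    (hc : ∀ x, V x ≤ c.nbhd x) (hd : ∀ x, V x ≤ d.nbhd x)
    (h : ∀ x y (W : X.Opens) (hx : W ≤ V x) (hy : W ≤ V y),
      c.gOn x y (hx.trans (hc x)) (hy.trans (hc y)) = d.gOn x y (hx.trans (hd x))
        (hy.trans (hd y))) :
    Equiv c d :=
  ⟨V, hV, hc, hd, fun _ => 1, fun x y W hx hy => by
    rw [map_one, map_one, one_mul, mul_one, h x y W hx hy]⟩

theorem Equiv.mul {a a' b b' : Cocycle X} (e : Equiv a a') (e' : Equiv b b') :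
    Equiv (a.mul b) (a'.mul b') := by
  obtain ⟨V, hV, ha, ha', h, H⟩ := e
  obtain ⟨V', hV', hb, hb', h', H'⟩ := e'
  refine ⟨fun x => V x ⊓ V' x, fun x => ⟨hV x, hV' x⟩, fun x => inf_le_inf (ha x) (hb x),
    fun x => inf_le_inf (ha' x) (hb' x),
    fun x => resU inf_le_left (h x) * resU inf_le_right (h' x), fun x y W hx hy => ?_⟩
  simp only [gOn_mul_cocycle, map_mul, resU_resU]
  rw [mul_mul_mul_comm, H x y W (hx.trans inf_le_left) (hy.trans inf_le_left),
    H' x y W (hx.trans inf_le_right) (hy.trans inf_le_right), mul_mul_mul_comm]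

theorem Equiv.inv {a a' : Cocycle X} (e : Equiv a a') : Equiv a.inv a'.inv := by
  obtain ⟨V, hV, ha, ha', h, H⟩ := e
  refine ⟨V, hV, ha, ha', fun x => (h x)⁻¹, fun x y W hx hy => ?_⟩
  simp only [gOn_inv_cocycle, map_inv, ← mul_inv, H x y W hx hy]

theorem resU_pullU_gOn (f : X ⟶ Y) (c : Cocycle Y) (a b : Y) {W W' : X.Opens} {W₀ : Y.Opens}
    (h : W ≤ W') (h' : W' ≤ f ⁻¹ᵁ (c.nbhd a ⊓ c.nbhd b)) (h₀ : W ≤ f ⁻¹ᵁ W₀)
    (ha : W₀ ≤ c.nbhd a) (hb : W₀ ≤ c.nbhd b) :
    resU h (pullU f h' (c.g a b)) = pullU f h₀ (c.gOn a b ha hb) :=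
  Units.ext (by
    show res h (pull f h' (c.g a b : Γ(Y, c.nbhd a ⊓ c.nbhd b))) =
      pull f h₀ (res (le_inf ha hb) (c.g a b : Γ(Y, c.nbhd a ⊓ c.nbhd b)))
    rw [res_pull, pull_res])

/-- The pullback along a morphism. -/
@[reducible] def pullback (f : X ⟶ Y) (c : Cocycle Y) : Cocycle X where
  nbhd x := f ⁻¹ᵁ c.nbhd (f.base x)
  mem x := c.mem _
  g x y := pullU f (W := f ⁻¹ᵁ c.nbhd (f.base x) ⊓ f ⁻¹ᵁ c.nbhd (f.base y))
    (U := c.nbhd (f.base x) ⊓ c.nbhd (f.base y)) (le_preimage_inf f _ _) (c.g (f.base x) (f.base y))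
  cocycle x y z W hx hy hz := by
    let W₀ : Y.Opens := c.nbhd (f.base x) ⊓ c.nbhd (f.base y) ⊓ c.nbhd (f.base z)
    have hW : W ≤ f ⁻¹ᵁ W₀ := fun p hp => ⟨⟨hx hp, hy hp⟩, hz hp⟩
    have h1 : W₀ ≤ c.nbhd (f.base x) := inf_le_left.trans inf_le_left
    have h2 : W₀ ≤ c.nbhd (f.base y) := inf_le_left.trans inf_le_right
    have h3 : W₀ ≤ c.nbhd (f.base z) := inf_le_right
    rw [resU_pullU_gOn f c _ _ _ _ hW h1 h2, resU_pullU_gOn f c _ _ _ _ hW h2 h3,
      resU_pullU_gOn f c _ _ _ _ hW h1 h3, ← map_mul, c.gOn_mul]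

theorem gOn_pullback (f : X ⟶ Y) (c : Cocycle Y) (x y : X) {W : X.Opens} {W₀ : Y.Opens}
    (h₀ : W ≤ f ⁻¹ᵁ W₀) (hx : W ≤ (c.pullback f).nbhd x) (hy : W ≤ (c.pullback f).nbhd y)
    (hx₀ : W₀ ≤ c.nbhd (f.base x)) (hy₀ : W₀ ≤ c.nbhd (f.base y)) :
    (c.pullback f).gOn x y hx hy = pullU f h₀ (c.gOn (f.base x) (f.base y) hx₀ hy₀) :=
  resU_pullU_gOn f c _ _ _ _ h₀ hx₀ hy₀

theorem Equiv.pullback (f : X ⟶ Y) {c d : Cocycle Y} (e : Equiv c d) :
    Equiv (c.pullback f) (d.pullback f) := by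
  obtain ⟨V, hV, hc, hd, h, H⟩ := e
  refine ⟨fun x => f ⁻¹ᵁ V (f.base x), fun x => hV _, fun x _ hp => hc _ hp, fun x _ hp => hd _ hp,
    fun x => pullU f le_rfl (h (f.base x)), fun x y W hx hy => ?_⟩
  have hW : W ≤ f ⁻¹ᵁ (V (f.base x) ⊓ V (f.base y)) := le_inf hx hy
  rw [gOn_pullback f d x y hW _ _ (inf_le_left.trans (hd _)) (inf_le_right.trans (hd _)),
    gOn_pullback f c x y hW _ _ (inf_le_left.trans (hc _)) (inf_le_right.trans (hc _))]
  have hres : ∀ (z : X) (hz : W ≤ f ⁻¹ᵁ V (f.base z))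
    (hz' : V (f.base x) ⊓ V (f.base y) ≤ V (f.base z)),
      resU hz (pullU f le_rfl (h (f.base z))) = pullU f hW (resU hz' (h (f.base z))) :=
    fun z hz hz' => Units.ext (by simp only [coe_resU, coe_pullU]; rw [res_pull, pull_res])
  rw [hres x hx inf_le_left, hres y hy inf_le_right, ← map_mul, ← map_mul, H]

end Cocycle

variable (X) in
/-- Line bundle classes. -/
def Pic : Type u := Quotient (Cocycle.setoid X)

namespace Pic

/-- The class of a cocycle. -/
def mk (c : Cocycle X) : Pic X := Quotient.mk (Cocycle.setoid X) c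

theorem mk_surjective : Function.Surjective (mk : Cocycle X → Pic X) := Quotient.mk_surjective

theorem mk_eq_mk {c d : Cocycle X} : mk c = mk d ↔ Cocycle.Equiv c d := Quotient.eq

instance : One (Pic X) := ⟨mk Cocycle.one⟩
instance : Mul (Pic X) :=
  ⟨Quotient.map₂ Cocycle.mul fun _ _ h _ _ h' => Cocycle.Equiv.mul h h'⟩
instance : Inv (Pic X) := ⟨Quotient.map Cocycle.inv fun _ _ h => Cocycle.Equiv.inv h⟩

theorem one_def : (1 : Pic X) = mk Cocycle.one := rfl
theorem mk_mul (c d : Cocycle X) : mk c * mk d = mk (c.mul d) := rfl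
theorem mk_inv (c : Cocycle X) : (mk c)⁻¹ = mk c.inv := rfl

instance : CommGroup (Pic X) where
  mul_assoc a b c := by
    obtain ⟨a, rfl⟩ := mk_surjective a
    obtain ⟨b, rfl⟩ := mk_surjective b
    obtain ⟨c, rfl⟩ := mk_surjective c
    refine mk_eq_mk.mpr (Cocycle.Equiv.of_eq (fun x => a.nbhd x ⊓ b.nbhd x ⊓ c.nbhd x)
      (fun x => ⟨⟨a.mem x, b.mem x⟩, c.mem x⟩) (fun x => le_rfl) (fun x => (inf_assoc _ _ _).le)
      fun x y W hx hy => ?_)
    simp only [Cocycle.gOn_mul_cocycle, mul_assoc]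
  one_mul a := by
    obtain ⟨a, rfl⟩ := mk_surjective a
    refine mk_eq_mk.mpr (Cocycle.Equiv.of_eq a.nbhd a.mem (fun x => le_inf le_top le_rfl)
      (fun x => le_rfl) fun x y W hx hy => ?_)
    simp only [Cocycle.gOn_mul_cocycle, Cocycle.gOn_one, one_mul]
  mul_one a := by
    obtain ⟨a, rfl⟩ := mk_surjective a
    refine mk_eq_mk.mpr (Cocycle.Equiv.of_eq a.nbhd a.mem (fun x => le_inf le_rfl le_top)
      (fun x => le_rfl) fun x y W hx hy => ?_)
    simp only [Cocycle.gOn_mul_cocycle, Cocycle.gOn_one, mul_one]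
  inv_mul_cancel a := by
    obtain ⟨a, rfl⟩ := mk_surjective a
    refine mk_eq_mk.mpr (Cocycle.Equiv.of_eq a.nbhd a.mem (fun x => le_inf le_rfl le_rfl)
      (fun x => le_top) fun x y W hx hy => ?_)
    rw [Cocycle.gOn_mul_cocycle, Cocycle.gOn_one, Cocycle.gOn_inv_cocycle, inv_mul_cancel]
  mul_comm a b := by
    obtain ⟨a, rfl⟩ := mk_surjective a
    obtain ⟨b, rfl⟩ := mk_surjective b
    refine mk_eq_mk.mpr (Cocycle.Equiv.of_eq (fun x => a.nbhd x ⊓ b.nbhd x)
      (fun x => ⟨a.mem x, b.mem x⟩) (fun x => le_rfl) (fun x => (inf_comm _ _).le)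
      fun x y W hx hy => ?_)
    simp only [Cocycle.gOn_mul_cocycle]
    exact mul_comm _ _

/-- Pullback of classes. -/
def map (f : X ⟶ Y) : Pic Y →* Pic X where
  toFun := Quotient.map (Cocycle.pullback f) fun _ _ h => Cocycle.Equiv.pullback f h
  map_one' := mk_eq_mk.mpr (Cocycle.Equiv.of_eq (fun _ => ⊤) (fun _ => trivial)
    (fun _ _ _ => trivial) (fun _ => le_rfl) fun x y W hx hy => by
      refine (Cocycle.gOn_pullback f Cocycle.one x y (W₀ := ⊤) (fun _ _ => trivial) _ _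
        le_rfl le_rfl).trans ?_
      exact (congrArg (pullU f _) (Cocycle.gOn_one _ _ _ _)).trans
        ((map_one _).trans (Cocycle.gOn_one x y _ _).symm))
  map_mul' a b := by
    obtain ⟨a, rfl⟩ := mk_surjective a
    obtain ⟨b, rfl⟩ := mk_surjective b
    refine mk_eq_mk.mpr (Cocycle.Equiv.of_eq
      (fun x => f ⁻¹ᵁ (a.nbhd (f.base x) ⊓ b.nbhd (f.base x))) (fun x => ⟨a.mem _, b.mem _⟩)
      (fun x => le_rfl) (fun x => le_rfl) fun x y W hx hy => ?_)
    set W₀ : Y.Opens := a.nbhd (f.base x) ⊓ b.nbhd (f.base x) ⊓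
      (a.nbhd (f.base y) ⊓ b.nbhd (f.base y))
    have hW : W ≤ f ⁻¹ᵁ W₀ := le_inf hx hy
    rw [Cocycle.gOn_pullback f (a.mul b) x y hW _ _ inf_le_left inf_le_right,
      Cocycle.gOn_mul_cocycle, Cocycle.gOn_mul_cocycle, map_mul,
      Cocycle.gOn_pullback f a x y hW _ _ (inf_le_left.trans inf_le_left)
        (inf_le_right.trans inf_le_left),
      Cocycle.gOn_pullback f b x y hW _ _ (inf_le_left.trans inf_le_right)
        (inf_le_right.trans inf_le_right)]

theorem map_mk (f : X ⟶ Y) (c : Cocycle Y) : map f (mk c) = mk (c.pullback f) := rfl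

theorem map_id (a : Pic X) : map (𝟙 X) a = a := by
  obtain ⟨a, rfl⟩ := mk_surjective a
  refine mk_eq_mk.mpr (Cocycle.Equiv.of_eq a.nbhd a.mem (fun x => le_rfl) (fun x => le_rfl)
    fun x y W hx hy => ?_)
  refine (Cocycle.gOn_pullback (𝟙 X) a x y (W₀ := W) (fun _ h => h) _ _ hx hy).trans ?_
  exact Units.ext ((pull_id le_rfl _).trans (res_self _ _))

theorem map_comp (f : X ⟶ Y) (g : Y ⟶ Z) (a : Pic Z) : map (f ≫ g) a = map f (map g a) := by
  obtain ⟨a, rfl⟩ := mk_surjective a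
  refine mk_eq_mk.mpr (Cocycle.Equiv.of_eq (fun x => (f ≫ g) ⁻¹ᵁ a.nbhd ((f ≫ g).base x))
    (fun x => a.mem _) (fun x => le_rfl) (fun x => le_rfl) fun x y W hx hy => ?_)
  set W₀ : Z.Opens := a.nbhd (g.base (f.base x)) ⊓ a.nbhd (g.base (f.base y))
  have hW : W ≤ f ⁻¹ᵁ (g ⁻¹ᵁ W₀) := le_inf hx hy
  refine (Cocycle.gOn_pullback (f ≫ g) a x y (W₀ := W₀) hW _ _ inf_le_left inf_le_right).trans ?_
  refine Eq.trans ?_ (Cocycle.gOn_pullback f (a.pullback g) x y hW _ _ (fun _ h => h.1)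
    (fun _ h => h.2)).symm
  refine Eq.trans ?_ (congrArg (pullU f hW) (Cocycle.gOn_pullback g a (f.base x) (f.base y)
    (le_refl (g ⁻¹ᵁ W₀)) _ _ inf_le_left inf_le_right).symm)
  exact Units.ext (pull_pull f g _ _ _).symm

theorem map_congr {f g : X ⟶ Y} (e : f = g) : map f = map g := by rw [e]

end Pic

namespace Cocycle

/-- The sections over an open set: coordinates in the frames of the cocycle. -/
def sections (c : Cocycle X) (W : X.Opens) : AddSubgroup (∀ x, Γ(X, W ⊓ c.nbhd x)) where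
  carrier := {s | ∀ x y (V : X.Opens) (hV : V ≤ W) (hx : V ≤ c.nbhd x) (hy : V ≤ c.nbhd y),
    res (le_inf hV hx) (s x) = c.gOn x y hx hy * res (le_inf hV hy) (s y)}
  add_mem' {s t} hs ht x y V hV hx hy := by
    simp only [Pi.add_apply, map_add, mul_add, hs x y V hV hx hy, ht x y V hV hx hy]
  zero_mem' x y V hV hx hy := by simp only [Pi.zero_apply, map_zero, mul_zero]
  neg_mem' {s} hs x y V hV hx hy := by
    simp only [Pi.neg_apply, map_neg, mul_neg, hs x y V hV hx hy]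

/-- The type of sections over an open set. -/
abbrev Sec (c : Cocycle X) (W : X.Opens) : Type u := c.sections W

instance (c : Cocycle X) (W : X.Opens) : SMul Γ(X, W) (c.Sec W) :=
  ⟨fun a s => ⟨fun x => res inf_le_left a * s.1 x, fun x y V hV hx hy => by
    simp only [map_mul, res_res, s.2 x y V hV hx hy]
    ring⟩⟩

theorem smul_apply (c : Cocycle X) {W : X.Opens} (a : Γ(X, W)) (s : c.Sec W) (x : X) :
    (a • s).1 x = res inf_le_left a * s.1 x := rfl

instance (c : Cocycle X) (W : X.Opens) : Module Γ(X, W) (c.Sec W) where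
  one_smul s := Subtype.ext (funext fun x => by rw [smul_apply, map_one, one_mul])
  mul_smul a b s := Subtype.ext (funext fun x => by
    simp only [smul_apply, map_mul, mul_assoc])
  smul_zero a := Subtype.ext (funext fun x => mul_zero _)
  smul_add a s t := Subtype.ext (funext fun x => mul_add _ _ _)
  add_smul a b s := Subtype.ext (funext fun x => by
    show res inf_le_left (a + b) * s.1 x = _
    rw [map_add, add_mul]
    rfl)
  zero_smul s := Subtype.ext (funext fun x => by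
    show res inf_le_left (0 : Γ(X, W)) * s.1 x = 0
    rw [map_zero, zero_mul])

/-- Restriction of sections. -/
def resSec (c : Cocycle X) {W W' : X.Opens} (h : W' ≤ W) : c.Sec W →+ c.Sec W' where
  toFun s := ⟨fun x => res (inf_le_inf_right _ h) (s.1 x), fun x y V hV hx hy => by
    simp only [res_res, s.2 x y V (hV.trans h) hx hy]⟩
  map_zero' := Subtype.ext (funext fun x => map_zero _)
  map_add' s t := Subtype.ext (funext fun x => map_add _ _ _)

theorem resSec_smul (c : Cocycle X) {W W' : X.Opens} (h : W' ≤ W) (a : Γ(X, W)) (s : c.Sec W) :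
    c.resSec h (a • s) = res h a • c.resSec h s :=
  Subtype.ext (funext fun x => by
    show res _ (res inf_le_left a * s.1 x) = res inf_le_left (res h a) * res _ (s.1 x)
    rw [map_mul, res_res, res_res])

/-- The product of sections of two bundles is a section of the tensor product. -/
def mulSec (c d : Cocycle X) {W : X.Opens} (s : c.Sec W) (t : d.Sec W) : (c.mul d).Sec W :=
  ⟨fun x => res (inf_le_inf_left _ inf_le_left) (s.1 x) *
    res (inf_le_inf_left _ inf_le_right) (t.1 x),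
    fun x y V hV hx hy => by
      simp only [map_mul, res_res, gOn_mul_cocycle, Units.val_mul,
        s.2 x y V hV (hx.trans inf_le_left) (hy.trans inf_le_left),
        t.2 x y V hV (hx.trans inf_le_right) (hy.trans inf_le_right)]
      ring⟩

/-- Pullback of sections. -/
def pullSec (f : X ⟶ Y) (c : Cocycle Y) {W : Y.Opens} {W' : X.Opens} (h : W' ≤ f ⁻¹ᵁ W) :
    c.Sec W →+ (c.pullback f).Sec W' where
  toFun s := ⟨fun x => pull f (U := W ⊓ c.nbhd (f.base x))
      ((inf_le_inf_right _ h).trans (le_preimage_inf f W (c.nbhd (f.base x)))) (s.1 (f.base x)),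
      fun x y V hV hx hy => by
    set V₀ : Y.Opens := W ⊓ c.nbhd (f.base x) ⊓ c.nbhd (f.base y)
    have hV₀ : V ≤ f ⁻¹ᵁ V₀ := le_inf (le_inf (hV.trans h) hx) hy
    rw [gOn_pullback f c x y hV₀ hx hy (inf_le_left.trans inf_le_right) inf_le_right, coe_pullU]
    dsimp only
    rw [res_pull, res_pull]
    have := congrArg (pull f hV₀)
      (s.2 (f.base x) (f.base y) V₀ (inf_le_left.trans inf_le_left) (inf_le_left.trans inf_le_right)
        inf_le_right)
    rw [map_mul, pull_res, pull_res] at this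
    exact this⟩
  map_zero' := Subtype.ext (funext fun x => map_zero _)
  map_add' s t := Subtype.ext (funext fun x => map_add _ _ _)

theorem pullSec_smul (f : X ⟶ Y) (c : Cocycle Y) {W : Y.Opens} {W' : X.Opens}
    (h : W' ≤ f ⁻¹ᵁ W) (a : Γ(Y, W)) (s : c.Sec W) :
    c.pullSec f h (a • s) = pull f h a • c.pullSec f h s :=
  Subtype.ext (funext fun x => by
    show pull f _ (res inf_le_left a * s.1 (f.base x)) = res inf_le_left (pull f h a) * pull f _ _
    rw [map_mul, pull_res, res_pull])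

/-- The frame at a point, as a section over its neighbourhood. -/
def frame (c : Cocycle X) (x : X) : c.Sec (c.nbhd x) :=
  ⟨fun y => (c.gOn y x inf_le_right inf_le_left : Γ(X, c.nbhd x ⊓ c.nbhd y)ˣ),
    fun y z V hV hy hz => by
      simp only [← coe_resU, resU_gOn, ← Units.val_mul, c.gOn_mul]⟩

end Cocycle

end FLTAgent.RelPicard
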