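import Fermat.Agent.RelPicard.Cover
import Fermat.Prelude.Def_AlgebraicGeometry_RelativePicardFunctor
import Mathlib.RingTheory.TensorProduct.IsBaseChangeFree

/-!
# The two-chart cover of the product of a curve with an affine scheme

The charts `UT`, `VT` with functions `xT`, `yT` and bases `wUT`, `wVT` over the polynomial rings
(`bijective_polyComb_UT`, by base change from the curve), and their compatibility with the change
of base `mapT`.
-/

set_option autoImplicit false

universe u

open CategoryTheory CategoryTheory.Limits AlgebraicGeometry TopologicalSpace NeronModelInfra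
  AlgebraicGeometry.RelPicard
open scoped Polynomial

noncomputable section

namespace FLTAgent.RelPicard

/-- Combinations with polynomial coefficients, as a linear map. -/
def combMap (K : Type u) {A : Type u} [CommRing K] [CommRing A] [Algebra K A] (z : A) {r : ℕ}
    (w : Fin r → A) : (Fin r → K[X]) →ₗ[K] A where
  toFun p := ∑ i, (p i).eval₂ (algebraMap K A) z * w i
  map_add' p p' := by simp [Polynomial.eval₂_add, add_mul, Finset.sum_add_distrib]
  map_smul' a p := by
    rw [RingHom.id_apply, Finset.smul_sum]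
    refine Finset.sum_congr rfl fun i _ => ?_
    rw [Pi.smul_apply, Polynomial.smul_eq_C_mul, Polynomial.eval₂_mul, Polynomial.eval₂_C,
      mul_assoc, Algebra.smul_def]

theorem combMap_basis (K : Type u) {A : Type u} [CommRing K] [CommRing A] [Algebra K A] (z : A)
    {r : ℕ} (w : Fin r → A) (j : Σ _ : Fin r, ℕ) :
    combMap K z w (Pi.basis (fun _ : Fin r => Polynomial.basisMonomials K) j) =
      z ^ j.2 * w j.1 := by
  obtain ⟨i, n⟩ := j
  show ∑ l : Fin r, ((Pi.basis (fun _ : Fin r => Polynomial.basisMonomials K) ⟨i, n⟩ :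
    Fin r → K[X]) l).eval₂ (algebraMap K A) z * w l = z ^ n * w i
  rw [Finset.sum_eq_single i]
  · simp [Pi.basis_apply, Polynomial.eval₂_monomial]
  · intro l _ hl
    simp [Pi.basis_apply, Pi.single_eq_of_ne hl]
  · simp

/-- Bases over polynomial algebras survive base change. -/
theorem bijective_combMap_baseChange {K R A B : Type u} [CommRing K] [CommRing R] [CommRing A]
    [CommRing B] [Algebra K R] [Algebra K A] [Algebra R B] [Algebra A B] [Algebra K B]
    [IsScalarTower K R B] [IsScalarTower K A B] [hP : Algebra.IsPushout K R A B] {r : ℕ} (z : A)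
    (w : Fin r → A) (hb : Function.Bijective (combMap K z w)) :
    Function.Bijective (combMap R (algebraMap A B z) fun i => algebraMap A B (w i)) := by
  let bK := (Pi.basis fun _ : Fin r => Polynomial.basisMonomials K).map
    (LinearEquiv.ofBijective (combMap K z w) hb)
  let bR := Pi.basis fun _ : Fin r => Polynomial.basisMonomials R
  let bB := hP.out.basis bK
  have key : combMap R (algebraMap A B z) (fun i => algebraMap A B (w i)) =
      (bR.equiv bB (Equiv.refl _)).toLinearMap := by
    refine bR.ext fun j => ?_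
    rw [LinearEquiv.coe_coe, Module.Basis.equiv_apply, Equiv.refl_apply, IsBaseChange.basis_apply,
      Module.Basis.map_apply, LinearEquiv.ofBijective_apply, combMap_basis, combMap_basis,
      AlgHom.toLinearMap_apply, IsScalarTower.coe_toAlgHom', map_mul, map_pow]
  rw [key]
  exact LinearEquiv.bijective _

/-- Bases over polynomial rings survive pushouts of rings. -/
theorem bijective_combination_of_isPushout {K A R B : CommRingCat.{u}} {α : K ⟶ A} {β : K ⟶ R}
    {γ : A ⟶ B} {δ : R ⟶ B} (h : IsPushout α β γ δ) {r : ℕ} (z : A) (w : Fin r → A)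
    (hb : Function.Bijective fun p : Fin r → K[X] => ∑ i, (p i).eval₂ α.hom z * w i) :
    Function.Bijective fun p : Fin r → R[X] => ∑ i, (p i).eval₂ δ.hom (γ.hom z) * γ.hom (w i) := by
  let : Algebra K A := α.hom.toAlgebra
  let : Algebra K R := β.hom.toAlgebra
  let : Algebra A B := γ.hom.toAlgebra
  let : Algebra R B := δ.hom.toAlgebra
  let : Algebra K B := (δ.hom.comp β.hom).toAlgebra
  have : IsScalarTower K R B := IsScalarTower.of_algebraMap_eq fun _ => rfl
  have : IsScalarTower K A B := IsScalarTower.of_algebraMap_eq fun x =>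
    (congrArg (fun g : K ⟶ B => g.hom x) h.w).symm
  have : Algebra.IsPushout K R A B := CommRingCat.isPushout_iff_isPushout.mp h.flip
  exact bijective_combMap_baseChange (K := K) (R := R) (A := A) (B := B) z w hb

theorem bijective_map_coeff {R S : Type u} [CommRing R] [CommRing S] {e : R →+* S}
    (he : Function.Bijective e) {r : ℕ} :
    Function.Bijective fun (p : Fin r → R[X]) i => (p i).map e :=
  Function.Bijective.piMap fun _ => ⟨Polynomial.map_injective e he.1,
    Polynomial.map_surjective e he.2⟩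

theorem polyComb_eq_combination {R : Type u} [CommRing R] {X : Scheme.{u}}
    (c : X ⟶ Spec (CommRingCat.of R)) (U : X.Opens) (z : Γ(X, U)) {r : ℕ}
    (w : Fin r → Γ(X, U)) (p : Fin r → R[X]) :
    polyComb c U z w p = ∑ i, ((p i).map (Scheme.ΓSpecIso (CommRingCat.of R)).inv.hom).eval₂
      (c.appLE ⊤ U le_top).hom z * w i := by
  simp only [polyComb, scalarHom, Polynomial.eval₂_map]
  rfl

theorem bijective_polyComb_iff {R : Type u} [CommRing R] {X : Scheme.{u}}
    (c : X ⟶ Spec (CommRingCat.of R)) (U : X.Opens) (z : Γ(X, U)) {r : ℕ}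
    (w : Fin r → Γ(X, U)) :
    Function.Bijective (polyComb c U z w) ↔
      Function.Bijective fun p : Fin r → Γ(Spec (CommRingCat.of R), ⊤)[X] =>
      ∑ i, (p i).eval₂ (c.appLE ⊤ U le_top).hom z * w i := by
  rw [show polyComb c U z w = (fun p : Fin r → Γ(Spec (CommRingCat.of R), ⊤)[X] =>
      ∑ i, (p i).eval₂ (c.appLE ⊤ U le_top).hom z * w i) ∘
        fun p i => (p i).map (Scheme.ΓSpecIso (CommRingCat.of R)).inv.hom from
    funext fun p => polyComb_eq_combination c U z w p]
  exact Function.Bijective.of_comp_iff _ (bijective_map_coeff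
    (ConcreteCategory.bijective_of_isIso (Scheme.ΓSpecIso (CommRingCat.of R)).inv))

theorem bijective_scalarHom_iff {R : Type u} [CommRing R] {X : Scheme.{u}}
    (c : X ⟶ Spec (CommRingCat.of R)) (U : X.Opens) :
    Function.Bijective (scalarHom c U) ↔ Function.Bijective (c.appLE ⊤ U le_top).hom :=
  Function.Bijective.of_comp_iff (c.appLE ⊤ U le_top).hom
    (ConcreteCategory.bijective_of_isIso (Scheme.ΓSpecIso (CommRingCat.of R)).inv)

theorem congr_appLE {X Y : Scheme.{u}} {g g' : X ⟶ Y} (h : g = g') (V : Y.Opens) (W : X.Opens)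
    {e : W ≤ g ⁻¹ᵁ V} (e' : W ≤ g' ⁻¹ᵁ V) : g.appLE V W e = g'.appLE V W e' := by
  subst h; rfl

theorem appLE_scalarHom {R : Type u} [CommRing R] {X Y : Scheme.{u}}
    (c : X ⟶ Spec (CommRingCat.of R)) {S : Type u} [CommRing S] (c' : Y ⟶ Spec (CommRingCat.of S))
    (g : Y ⟶ X) (f : R →+* S) (h : g ≫ c = c' ≫ Spec.map (CommRingCat.ofHom f))
    {U : X.Opens} {U' : Y.Opens} (hU : U' ≤ g ⁻¹ᵁ U) (a : R) :
    (g.appLE U U' hU).hom (scalarHom c U a) = scalarHom c' U' (f a) := by
  have e : (Scheme.ΓSpecIso (CommRingCat.of R)).inv ≫ c.appLE ⊤ U le_top ≫ g.appLE U U' hU =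
      CommRingCat.ofHom f ≫ (Scheme.ΓSpecIso (CommRingCat.of S)).inv ≫ c'.appLE ⊤ U' le_top := by
    refine (congrArg ((Scheme.ΓSpecIso (CommRingCat.of R)).inv ≫ ·)
      ((g.appLE_comp_appLE c ⊤ U U' le_top hU).trans ((congr_appLE h ⊤ U' le_top).trans
        (Scheme.Hom.comp_appLE _ _ _ _ _)))).trans ?_
    exact ((Category.assoc _ _ _).symm.trans
      (congrArg (· ≫ _) (Scheme.ΓSpecIso_inv_naturality (CommRingCat.ofHom f)).symm)).trans
        (Category.assoc _ _ _)
  exact congrArg (fun φ : CommRingCat.of R ⟶ Γ(Y, U') => φ.hom a) e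

theorem map_polyComb {R : Type u} [CommRing R] {X Y : Scheme.{u}}
    (c : X ⟶ Spec (CommRingCat.of R)) {S : Type u} [CommRing S] (c' : Y ⟶ Spec (CommRingCat.of S))
    (g : Y ⟶ X) (f : R →+* S) (h : g ≫ c = c' ≫ Spec.map (CommRingCat.ofHom f))
    {U : X.Opens} {U' : Y.Opens} (hU : U' ≤ g ⁻¹ᵁ U) (z : Γ(X, U)) {r : ℕ}
    (w : Fin r → Γ(X, U)) (p : Fin r → R[X]) :
    (g.appLE U U' hU).hom (polyComb c U z w p) =
      polyComb c' U' ((g.appLE U U' hU).hom z) (fun i => (g.appLE U U' hU).hom (w i))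
        (fun i => (p i).map f) := by
  simp only [polyComb, map_sum, map_mul, Polynomial.hom_eval₂, Polynomial.eval₂_map]
  refine Finset.sum_congr rfl fun i _ => ?_
  rw [show (g.appLE U U' hU).hom.comp (scalarHom c U) = (scalarHom c' U').comp f from
    RingHom.ext fun a => appLE_scalarHom c c' g f h hU a]

namespace CurveCover

variable {k : Type u} [Field k] {C : Scheme.{u}} {c : C ⟶ Spec (CommRingCat.of k)}
  (D : CurveCover k c) {R : Type u} [CommRing R]
  (t : Spec (CommRingCat.of R) ⟶ Spec (CommRingCat.of k))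

/-- The chart of `x` on the product. -/
def UT : (pullback c t).Opens := pullback.fst c t ⁻¹ᵁ D.U

/-- The chart of `y` on the product. -/
def VT : (pullback c t).Opens := pullback.fst c t ⁻¹ᵁ D.V

/-- The function `x` on the product. -/
def xT : Γ(pullback c t, D.UT t) := ((pullback.fst c t).app D.U).hom D.x

/-- The function `y` on the product. -/
def yT : Γ(pullback c t, D.VT t) := ((pullback.fst c t).app D.V).hom D.y

/-- The basis of the chart of `x` on the product. -/
def wUT (i : Fin D.r) : Γ(pullback c t, D.UT t) := ((pullback.fst c t).app D.U).hom (D.wU i)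

/-- The basis of the chart of `y` on the product. -/
def wVT (i : Fin D.r) : Γ(pullback c t, D.VT t) := ((pullback.fst c t).app D.V).hom (D.wV i)

instance isAffineHom_fst : IsAffineHom (pullback.fst c t) :=
  MorphismProperty.of_isPullback (P := @IsAffineHom)
    (IsPullback.of_hasPullback c t).flip inferInstance

theorem isAffineOpen_UT : IsAffineOpen (D.UT t) := D.isAffineU.preimage (pullback.fst c t)

theorem isAffineOpen_VT : IsAffineOpen (D.VT t) := D.isAffineV.preimage (pullback.fst c t)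

theorem UT_sup_VT : D.UT t ⊔ D.VT t = ⊤ := by
  show pullback.fst c t ⁻¹ᵁ D.U ⊔ pullback.fst c t ⁻¹ᵁ D.V = ⊤
  rw [← Scheme.Hom.preimage_sup, D.cover, Scheme.Hom.preimage_top]

theorem basicOpen_xT : (pullback c t).basicOpen (D.xT t) = D.UT t ⊓ D.VT t := by
  show (pullback c t).basicOpen (((pullback.fst c t).app D.U).hom D.x) =
    pullback.fst c t ⁻¹ᵁ D.U ⊓ pullback.fst c t ⁻¹ᵁ D.V
  rw [← Scheme.Hom.preimage_inf, ← D.basicOpen_x, Scheme.preimage_basicOpen]

theorem basicOpen_yT : (pullback c t).basicOpen (D.yT t) = D.UT t ⊓ D.VT t := by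
  show (pullback c t).basicOpen (((pullback.fst c t).app D.V).hom D.y) =
    pullback.fst c t ⁻¹ᵁ D.U ⊓ pullback.fst c t ⁻¹ᵁ D.V
  rw [← Scheme.Hom.preimage_inf, ← D.basicOpen_y, Scheme.preimage_basicOpen]

theorem app_res {X Y : Scheme.{u}} (p : X ⟶ Y) {U W : Y.Opens} (h : W ≤ U) (a : Γ(Y, U)) :
    res (p.preimage_mono h) ((p.app U).hom a) = (p.app W).hom (res h a) :=
  (congrArg (fun φ => φ.hom a) (p.naturality (homOfLE h).op)).symm

theorem xT_mul_yT : res (inf_le_left : D.UT t ⊓ D.VT t ≤ D.UT t) (D.xT t) *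
    res (inf_le_right : D.UT t ⊓ D.VT t ≤ D.VT t) (D.yT t) = 1 := by
  have h := congrArg ((pullback.fst c t).app (D.U ⊓ D.V)).hom D.x_mul_y
  rw [map_mul, map_one, ← app_res, ← app_res] at h
  exact h

theorem isPushout_chart (W : C.Opens) (hW : IsAffineOpen W) :
    IsPushout (c.appLE ⊤ W le_top) (t.appLE ⊤ ⊤ le_top)
      ((pullback.fst c t).appLE W (pullback.fst c t ⁻¹ᵁ W) le_rfl)
      ((pullback.snd c t).appLE ⊤ (pullback.fst c t ⁻¹ᵁ W) le_top) :=
  (isIso_pushoutSection_iff (IsPullback.of_hasPullback c t) (US := ⊤) (UT := ⊤) (UX := W)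
    le_top le_top (by simp)).mp
      (isIso_pushoutSection_of_isAffineOpen _ _ _ _ (isAffineOpen_top _) (isAffineOpen_top _) hW)

theorem bijective_polyComb_chart (W : C.Opens) (hW : IsAffineOpen W) {r : ℕ} (z : Γ(C, W))
    (w : Fin r → Γ(C, W)) (hb : Function.Bijective (polyComb c W z w)) :
    Function.Bijective (polyComb (pullback.snd c t) (pullback.fst c t ⁻¹ᵁ W)
      (((pullback.fst c t).app W).hom z) fun i => ((pullback.fst c t).app W).hom (w i)) := by
  rw [bijective_polyComb_iff] at hb ⊢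
  have h := bijective_combination_of_isPushout (isPushout_chart t W hW) z w hb
  rwa [Scheme.Hom.appLE_eq_app] at h

theorem bijective_polyComb_UT :
    Function.Bijective (polyComb (pullback.snd c t) (D.UT t) (D.xT t) (D.wUT t)) :=
  bijective_polyComb_chart t D.U D.isAffineU D.x D.wU D.basisU

theorem bijective_polyComb_VT :
    Function.Bijective (polyComb (pullback.snd c t) (D.VT t) (D.yT t) (D.wVT t)) :=
  bijective_polyComb_chart t D.V D.isAffineV D.y D.wV D.basisV

/-- Functions on the overlap have denominators powers of `x`. -/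
theorem exists_overlap_eq (z : Γ(pullback c t, D.UT t ⊓ D.VT t)) :
    ∃ (a : Γ(pullback c t, D.UT t)) (n : ℕ), z = res inf_le_left a *
      res (inf_le_right : D.UT t ⊓ D.VT t ≤ D.VT t) (D.yT t) ^ n := by
  let : Algebra Γ(pullback c t, D.UT t) Γ(pullback c t, D.UT t ⊓ D.VT t) :=
    (res (inf_le_left : D.UT t ⊓ D.VT t ≤ D.UT t)).toAlgebra
  have : IsLocalization.Away (D.xT t) Γ(pullback c t, D.UT t ⊓ D.VT t) :=
    (D.isAffineOpen_UT t).isLocalization_of_eq_basicOpen (D.xT t) (homOfLE inf_le_left)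
      (D.basicOpen_xT t).symm
  obtain ⟨n, a, h⟩ := IsLocalization.Away.surj (D.xT t) z
  refine ⟨a, n, ?_⟩
  rw [show res inf_le_left a = algebraMap Γ(pullback c t, D.UT t) _ a from rfl, ← h,
    RingHom.algebraMap_toAlgebra, mul_assoc,
    ← mul_pow, D.xT_mul_yT, one_pow, mul_one]

section Naturality

variable {S : Type u} [CommRing S] (f : R →+* S)

/-- The change of the base of the product along a ring map. -/
def mapT : pullback c (Spec.map (CommRingCat.ofHom f) ≫ t) ⟶ pullback c t :=
  baseChangeSnd c (⟨Spec.map (CommRingCat.ofHom f), rfl⟩ :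
    SchemeHomOver (Spec.map (CommRingCat.ofHom f) ≫ t) t)

theorem mapT_fst : mapT (c := c) t f ≫ pullback.fst c t = pullback.fst c _ :=
  (pullback.lift_fst _ _ _).trans (Category.comp_id _)

theorem mapT_snd :
    mapT (c := c) t f ≫ pullback.snd c t = pullback.snd c _ ≫ Spec.map (CommRingCat.ofHom f) :=
  pullback.lift_snd _ _ _

theorem mapT_preimage (W : C.Opens) :
    mapT (c := c) t f ⁻¹ᵁ (pullback.fst c t ⁻¹ᵁ W) =
      pullback.fst c (Spec.map (CommRingCat.ofHom f) ≫ t) ⁻¹ᵁ W := by
  rw [← Scheme.Hom.comp_preimage, mapT_fst]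

theorem mapT_app (W : C.Opens) (a : Γ(C, W)) :
    ((mapT (c := c) t f).appLE (pullback.fst c t ⁻¹ᵁ W)
      (pullback.fst c (Spec.map (CommRingCat.ofHom f) ≫ t) ⁻¹ᵁ W) (mapT_preimage t f W).ge).hom
        (((pullback.fst c t).app W).hom a) =
      ((pullback.fst c (Spec.map (CommRingCat.ofHom f) ≫ t)).app W).hom a := by
  have e : (pullback.fst c t).app W ≫ (mapT (c := c) t f).appLE (pullback.fst c t ⁻¹ᵁ W)
      (pullback.fst c (Spec.map (CommRingCat.ofHom f) ≫ t) ⁻¹ᵁ W) (mapT_preimage t f W).ge =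
      (pullback.fst c (Spec.map (CommRingCat.ofHom f) ≫ t)).app W := by
    rw [Scheme.Hom.app_eq_appLE, Scheme.Hom.app_eq_appLE, Scheme.Hom.appLE_comp_appLE]
    exact congr_appLE (mapT_fst t f) _ _ _
  exact congrArg (fun φ => φ.hom a) e

theorem mapT_preimage_UT : mapT t f ⁻¹ᵁ D.UT t = D.UT _ := mapT_preimage t f D.U

theorem mapT_preimage_VT : mapT t f ⁻¹ᵁ D.VT t = D.VT _ := mapT_preimage t f D.V

theorem mapT_xT : ((mapT t f).appLE (D.UT t) (D.UT _) (D.mapT_preimage_UT t f).ge).hom (D.xT t) =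
    D.xT (Spec.map (CommRingCat.ofHom f) ≫ t) := mapT_app t f D.U D.x

theorem mapT_yT : ((mapT t f).appLE (D.VT t) (D.VT _) (D.mapT_preimage_VT t f).ge).hom (D.yT t) =
    D.yT (Spec.map (CommRingCat.ofHom f) ≫ t) := mapT_app t f D.V D.y

theorem mapT_wUT (i : Fin D.r) :
    ((mapT t f).appLE (D.UT t) (D.UT _) (D.mapT_preimage_UT t f).ge).hom (D.wUT t i) =
      D.wUT (Spec.map (CommRingCat.ofHom f) ≫ t) i := mapT_app t f D.U (D.wU i)

theorem mapT_wVT (i : Fin D.r) :
    ((mapT t f).appLE (D.VT t) (D.VT _) (D.mapT_preimage_VT t f).ge).hom (D.wVT t i) =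
      D.wVT (Spec.map (CommRingCat.ofHom f) ≫ t) i := mapT_app t f D.V (D.wV i)

theorem mapT_polyComb_UT (p : Fin D.r → R[X]) :
    ((mapT t f).appLE (D.UT t) (D.UT _) (D.mapT_preimage_UT t f).ge).hom
        (polyComb (pullback.snd c t) (D.UT t) (D.xT t) (D.wUT t) p) =
      polyComb (pullback.snd c (Spec.map (CommRingCat.ofHom f) ≫ t)) (D.UT _) (D.xT _) (D.wUT _)
        (fun i => (p i).map f) := by
  rw [map_polyComb _ (pullback.snd c (Spec.map (CommRingCat.ofHom f) ≫ t)) _ f (mapT_snd t f),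
    D.mapT_xT]
  simp only [D.mapT_wUT]

theorem mapT_polyComb_VT (p : Fin D.r → R[X]) :
    ((mapT t f).appLE (D.VT t) (D.VT _) (D.mapT_preimage_VT t f).ge).hom
        (polyComb (pullback.snd c t) (D.VT t) (D.yT t) (D.wVT t) p) =
      polyComb (pullback.snd c (Spec.map (CommRingCat.ofHom f) ≫ t)) (D.VT _) (D.yT _) (D.wVT _)
        (fun i => (p i).map f) := by
  rw [map_polyComb _ (pullback.snd c (Spec.map (CommRingCat.ofHom f) ≫ t)) _ f (mapT_snd t f),
    D.mapT_yT]
  simp only [D.mapT_wVT]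

end Naturality

end CurveCover

end FLTAgent.RelPicard
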