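import Fermat.Prelude.Def_AlgebraicGeometry_RelativePicardFunctor
import Fermat.Agent.RelPicard.Cocycle
import Fermat.Agent.RelPicard.ProductCover

/-!
# The pulled back cover, cohomology of classes, degree, and the functor to be represented

`SecOver` regards sections of a cocycle as modules over the base ring; `CurveCover.diff` is the
difference map of the two charts, with `h0`, `h1`, `chi` and `deg` on a fibre.  `relFunctor` is the
functor of classes rigidified along a section (`rigPic`) of degree zero on geometric fibres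
(`DegZero`).
-/

set_option autoImplicit false

universe u

open CategoryTheory CategoryTheory.Limits AlgebraicGeometry AlgebraicGeometry.RelPicard
  NeronModelInfra

noncomputable section

namespace FLTAgent.RelPicard

variable {k : Type u} [Field k] {C : Scheme.{u}} {c : C ⟶ Spec (CommRingCat.of k)}

namespace CurveCover

variable (D : CurveCover k c) {R : Type u} [CommRing R]
  (t : Spec (CommRingCat.of R) ⟶ Spec (CommRingCat.of k))

/-- The overlap on the product. -/
abbrev WT : (pullback c t).Opens := D.UT t ⊓ D.VT t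

/-- `1 / x` as a unit on the overlap. -/
def yUnit : Γ(pullback c t, D.WT t)ˣ :=
  ⟨res inf_le_right (D.yT t), res inf_le_left (D.xT t),
    by rw [mul_comm]; exact D.xT_mul_yT t, D.xT_mul_yT t⟩

end CurveCover

/-- Sections of a cocycle, to be regarded as a module over the base ring. -/
def SecOver {X : Scheme.{u}} {R : Type u} [CommRing R] (_ : X ⟶ Spec (CommRingCat.of R))
    (N : Cocycle X) (W : X.Opens) : Type u := N.Sec W

instance {X : Scheme.{u}} {R : Type u} [CommRing R] (π : X ⟶ Spec (CommRingCat.of R))
    (N : Cocycle X) (W : X.Opens) : AddCommGroup (SecOver π N W) :=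
  inferInstanceAs (AddCommGroup (N.Sec W))

instance {X : Scheme.{u}} {R : Type u} [CommRing R] (π : X ⟶ Spec (CommRingCat.of R))
    (N : Cocycle X) (W : X.Opens) : Module R (SecOver π N W) :=
  Module.compHom (N.Sec W) (scalarHom π W)

theorem res_scalarHom {X : Scheme.{u}} {R : Type u} [CommRing R]
    (π : X ⟶ Spec (CommRingCat.of R)) {U W : X.Opens} (h : W ≤ U) (a : R) :
    res h (scalarHom π U a) = scalarHom π W a :=
  res_pull π h le_top _

/-- Restriction as a linear map over the base. -/
def secRes {X : Scheme.{u}} {R : Type u} [CommRing R] (π : X ⟶ Spec (CommRingCat.of R))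
    (N : Cocycle X) {W W' : X.Opens} (h : W' ≤ W) : SecOver π N W →ₗ[R] SecOver π N W' where
  toFun s := N.resSec h s
  map_add' := map_add (N.resSec h)
  map_smul' a s := (N.resSec_smul h (scalarHom π W a) s).trans
    (congrArg (fun b : Γ(X, W') => (b • N.resSec h s : N.Sec W')) (res_scalarHom π h a))

/-- Multiplication by a function as a linear map over the base. -/
def secMul {X : Scheme.{u}} {R : Type u} [CommRing R] (π : X ⟶ Spec (CommRingCat.of R))
    (N : Cocycle X) {W : X.Opens} (b : Γ(X, W)) : SecOver π N W →ₗ[R] SecOver π N W where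
  toFun s := (b • (show N.Sec W from s) : N.Sec W)
  map_add' s t := smul_add b (show N.Sec W from s) (show N.Sec W from t)
  map_smul' a s := smul_comm b (scalarHom π W a) (show N.Sec W from s)

section Cohomology

variable (D : CurveCover k c) {R : Type u} [CommRing R]
  (t : Spec (CommRingCat.of R) ⟶ Spec (CommRingCat.of k))

/-- The complex computing the cohomology of the class of `N` twisted by `-n` at infinity:
`(s, s') ↦ s - y ^ n s'`. -/
def CurveCover.diff (N : Cocycle (pullback c t)) (n : ℤ) :
    (SecOver (pullback.snd c t) N (D.UT t) × SecOver (pullback.snd c t) N (D.VT t)) →ₗ[R]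
      SecOver (pullback.snd c t) N (D.WT t) :=
  secRes (pullback.snd c t) N inf_le_left ∘ₗ LinearMap.fst R _ _ -
    secMul (pullback.snd c t) N
      ((D.yUnit t ^ n : Γ(pullback c t, D.WT t)ˣ) : Γ(pullback c t, D.WT t)) ∘ₗ
      secRes (pullback.snd c t) N inf_le_right ∘ₗ LinearMap.snd R _ _

theorem CurveCover.diff_apply (N : Cocycle (pullback c t)) (n : ℤ)
    (p : SecOver (pullback.snd c t) N (D.UT t) × SecOver (pullback.snd c t) N (D.VT t)) :
    (show N.Sec (D.WT t) from D.diff t N n p) = N.resSec inf_le_left p.1 -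
      ((D.yUnit t ^ n : Γ(pullback c t, D.WT t)ˣ) : Γ(pullback c t, D.WT t)) •
        N.resSec inf_le_right p.2 := rfl

end Cohomology

section Degree

variable (D : CurveCover k c) {K : Type u} [Field K]
  (t : Spec (CommRingCat.of K) ⟶ Spec (CommRingCat.of k))

/-- Dimension of the sections of the twist by `-n` at infinity. -/
def CurveCover.h0 (N : Cocycle (pullback c t)) (n : ℤ) : ℕ :=
  Module.finrank K (LinearMap.ker (D.diff t N n))

/-- Dimension of the first cohomology of the twist by `-n` at infinity. -/
def CurveCover.h1 (N : Cocycle (pullback c t)) (n : ℤ) : ℕ :=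
  Module.finrank K (SecOver (pullback.snd c t) N (D.WT t) ⧸ LinearMap.range (D.diff t N n))

/-- The Euler characteristic of a cocycle on a fibre. -/
def CurveCover.chi (N : Cocycle (pullback c t)) : ℤ := (D.h0 t N 0 : ℤ) - D.h1 t N 0

/-- The degree of a class on a fibre, normalised at the trivial class. -/
def CurveCover.deg (L : Pic (pullback c t)) : ℤ :=
  D.chi t (Quotient.out (s := Cocycle.setoid _) L) - D.chi t Cocycle.one

end Degree

section Functor

variable (c) (ε : SchemeHomOver (𝟙 (Spec (CommRingCat.of k))) c)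

/-- Classes trivial along the section. -/
def rigPic {T : Scheme.{u}} (t : T ⟶ Spec (CommRingCat.of k)) : Subgroup (Pic (pullback c t)) :=
  (Pic.map (rigSection c t ε)).ker

theorem rigPic_map {T T' : Scheme.{u}} {t : T ⟶ Spec (CommRingCat.of k)}
    {t' : T' ⟶ Spec (CommRingCat.of k)} (ψ : SchemeHomOver t' t) {L : Pic (pullback c t)}
    (hL : L ∈ rigPic c ε t) : Pic.map (baseChangeSnd c ψ) L ∈ rigPic c ε t' := by
  rw [rigPic, MonoidHom.mem_ker, ← Pic.map_comp, rigSection_baseChangeSnd c ε ψ, Pic.map_comp,
    MonoidHom.mem_ker.mp hL, map_one]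

variable {c}

/-- Degree zero on every geometric fibre. -/
def CurveCover.DegZero (D : CurveCover k c) {T : Scheme.{u}} {t : T ⟶ Spec (CommRingCat.of k)}
    (L : Pic (pullback c t)) : Prop :=
  ∀ (K : Type u) [Field K] [IsAlgClosed K] (s : Spec (CommRingCat.of K) ⟶ T),
    D.deg (s ≫ t) (Pic.map (baseChangeSnd c (⟨s, rfl⟩ : SchemeHomOver (s ≫ t) t)) L) = 0

/-- Transport of the degree along equal structure morphisms. -/
theorem CurveCover.deg_congr (D : CurveCover k c) {K : Type u} [Field K]
    {t t' : Spec (CommRingCat.of K) ⟶ Spec (CommRingCat.of k)} (h : t = t') {T : Scheme.{u}}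
    {u : T ⟶ Spec (CommRingCat.of k)} (L : Pic (pullback c u)) (s : SchemeHomOver t u) :
    D.deg t (Pic.map (baseChangeSnd c s) L) =
      D.deg t' (Pic.map (baseChangeSnd c (⟨s.1, s.2.trans h⟩ : SchemeHomOver t' u)) L) := by
  subst h; rfl

theorem CurveCover.DegZero.map (D : CurveCover k c) {T T' : Scheme.{u}}
    {t : T ⟶ Spec (CommRingCat.of k)} {t' : T' ⟶ Spec (CommRingCat.of k)}
    (ψ : SchemeHomOver t' t) {L : Pic (pullback c t)} (hL : D.DegZero L) :
    D.DegZero (Pic.map (baseChangeSnd c ψ) L) := by
  intro K _ _ s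
  have h : s ≫ t' = (s ≫ ψ.1) ≫ t := by rw [Category.assoc, ψ.2]
  rw [← Pic.map_comp, baseChangeSnd_comp]
  refine (D.deg_congr h L _).trans ?_
  exact hL K (s ≫ ψ.1)

/-- Rigidified classes of degree zero. -/
def CurveCover.relClasses (D : CurveCover k c) {T : Scheme.{u}}
    (t : T ⟶ Spec (CommRingCat.of k)) : Type u :=
  {L : Pic (pullback c t) // L ∈ rigPic c ε t ∧ D.DegZero L}

/-- Pullback of rigidified classes of degree zero. -/
def CurveCover.relMap (D : CurveCover k c) {T T' : Scheme.{u}} {t : T ⟶ Spec (CommRingCat.of k)}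
    {t' : T' ⟶ Spec (CommRingCat.of k)} (ψ : SchemeHomOver t' t) (L : D.relClasses ε t) :
    D.relClasses ε t' :=
  ⟨Pic.map (baseChangeSnd c ψ) L.1, rigPic_map c ε ψ L.2.1, L.2.2.map D ψ⟩

/-- The functor to be represented. -/
def CurveCover.relFunctor (D : CurveCover k c) :
    (Over (Spec (CommRingCat.of k)))ᵒᵖ ⥤ Type u where
  obj T := D.relClasses ε T.unop.hom
  map {T T'} f := TypeCat.ofHom (D.relMap ε ⟨f.unop.left, Over.w f.unop⟩)
  map_id T := TypeCat.homEquiv.injective (funext fun L => Subtype.ext (by
    show Pic.map (baseChangeSnd c (⟨𝟙 _, Category.id_comp _⟩ :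
      SchemeHomOver T.unop.hom T.unop.hom)) L.1 = L.1
    rw [baseChangeSnd_id, Pic.map_id]))
  map_comp {T T' T''} f g := TypeCat.homEquiv.injective (funext fun L => Subtype.ext (by
    show Pic.map (baseChangeSnd c _) L.1 = Pic.map (baseChangeSnd c _)
      (Pic.map (baseChangeSnd c _) L.1)
    rw [← Pic.map_comp, baseChangeSnd_comp]
    rfl))

end Functor

end FLTAgent.RelPicard
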