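import Fermat.Agent.RelPicard.AffineSections
import Fermat.Agent.RelPicard.Defs

/-!
# Equivalent cocycles have the same sections and the same cohomology

An equivalence of cocycles multiplies the coordinates by units on a covering, so it gives linear
bijections of sections commuting with restriction; hence the degree of a class is computed by any
representative.

Main declarations: `IsoData`, `secEquiv`, `CurveCover.deg_mk`.
-/

set_option autoImplicit false

universe u

open CategoryTheory CategoryTheory.Limits AlgebraicGeometry TopologicalSpace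

noncomputable section

namespace FLTAgent.RelPicard

variable {X : Scheme.{u}}

namespace Cocycle

/-- An equivalence of cocycles as data. -/
structure IsoData (c d : Cocycle X) : Type u where
  V : X → X.Opens
  mem : ∀ x, x ∈ V x
  le_src : ∀ x, V x ≤ c.nbhd x
  le_tgt : ∀ x, V x ≤ d.nbhd x
  h : ∀ x, Γ(X, V x)ˣ
  comm : ∀ x y (W : X.Opens) (hx : W ≤ V x) (hy : W ≤ V y),
    d.gOn x y (hx.trans (le_tgt x)) (hy.trans (le_tgt y)) * resU hy (h y) =
      resU hx (h x) * c.gOn x y (hx.trans (le_src x)) (hy.trans (le_src y))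

theorem Equiv.nonempty_isoData {c d : Cocycle X} (e : Equiv c d) : Nonempty (IsoData c d) := by
  obtain ⟨V, hV, hc, hd, h, H⟩ := e
  exact ⟨⟨V, hV, hc, hd, h, H⟩⟩

namespace IsoData

variable {c d : Cocycle X} (e : IsoData c d)

/-- The inverse data. -/
def symm : IsoData d c where
  V := e.V
  mem := e.mem
  le_src := e.le_tgt
  le_tgt := e.le_src
  h x := (e.h x)⁻¹
  comm x y W hx hy := by
    rw [map_inv, map_inv, eq_inv_mul_iff_mul_eq, ← mul_assoc, ← eq_mul_inv_iff_mul_eq, inv_inv,
      e.comm x y W hx hy]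

theorem exists_map {W : X.Opens} (s : c.Sec W) :
    ∃ t : d.Sec W, ∀ z, d.coordOn z (inf_le_right.trans (e.le_tgt z))
        (d.resSec (inf_le_left : W ⊓ e.V z ≤ W) t) =
      res inf_le_right (e.h z : Γ(X, e.V z)) *
        c.coordOn z (inf_le_right.trans (e.le_src z))
          (c.resSec (inf_le_left : W ⊓ e.V z ≤ W) s) := by
  let f : ∀ z, Γ(X, W ⊓ e.V z) := fun z => res inf_le_right (e.h z : Γ(X, e.V z)) *
    c.coordOn z (inf_le_right.trans (e.le_src z)) (c.resSec (inf_le_left : W ⊓ e.V z ≤ W) s)
  obtain ⟨t, ht⟩ := d.exists_glueSec_iSup (fun z => W ⊓ e.V z) (fun z => inf_le_left)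
    (fun p hp => Opens.mem_iSup.mpr ⟨p, hp, e.mem p⟩)
    (fun z => f z • d.frameOn z (inf_le_right.trans (e.le_tgt z))) fun z z' => by
      refine d.coordOn_injective z
        (inf_le_left.trans (inf_le_right.trans (e.le_tgt z))) ?_
      rw [d.coordOn_change z z' _ (inf_le_right.trans (inf_le_right.trans (e.le_tgt z')))
        (d.resSec inf_le_right _)]
      rw [d.coordOn_resSec z inf_le_left (inf_le_right.trans (e.le_tgt z)),
        d.coordOn_resSec z' inf_le_right (inf_le_right.trans (e.le_tgt z')), LinearMap.map_smul,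
        LinearMap.map_smul, coordOn_frameOn, coordOn_frameOn, smul_eq_mul, smul_eq_mul, mul_one,
        mul_one]
      simp only [f, map_mul, res_res]
      rw [← c.coordOn_resSec z inf_le_left, ← c.coordOn_resSec z' inf_le_right, c.resSec_resSec,
        c.resSec_resSec, c.coordOn_change z z'
          (inf_le_left.trans (inf_le_right.trans (e.le_src z)))
          (inf_le_right.trans (inf_le_right.trans (e.le_src z'))), ← mul_assoc, ← mul_assoc]
      refine congrArg (· * _) ?_
      have hc := congrArg Units.val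
        (e.comm z z' ((W ⊓ e.V z) ⊓ (W ⊓ e.V z'))
          (inf_le_left.trans inf_le_right) (inf_le_right.trans inf_le_right))
      simp only [Units.val_mul, coe_resU] at hc
      exact hc.symm
  refine ⟨t, fun z => ?_⟩
  rw [ht z, map_smul, coordOn_frameOn, smul_eq_mul, mul_one]

/-- The map on sections. -/
def mapSec {W : X.Opens} (s : c.Sec W) : d.Sec W := (e.exists_map s).choose

theorem coordOn_mapSec {W P : X.Opens} (hP : P ≤ W) (z : X) (hz : P ≤ e.V z) (s : c.Sec W) :
    d.coordOn z (hz.trans (e.le_tgt z)) (d.resSec hP (e.mapSec s)) =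
      res hz (e.h z : Γ(X, e.V z)) *
        c.coordOn z (hz.trans (e.le_src z)) (c.resSec hP s) := by
  have h := congrArg (res (le_inf hP hz)) ((e.exists_map s).choose_spec z)
  rw [map_mul, res_res, ← coordOn_resSec, ← coordOn_resSec, resSec_resSec, resSec_resSec] at h
  exact h

theorem ext_coord {W : X.Opens} {t t' : d.Sec W}
    (h : ∀ (z : X), d.coordOn z (inf_le_right.trans (e.le_tgt z))
        (d.resSec (inf_le_left : W ⊓ e.V z ≤ W) t) =
      d.coordOn z (inf_le_right.trans (e.le_tgt z))
        (d.resSec (inf_le_left : W ⊓ e.V z ≤ W) t')) : t = t' :=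
  d.sec_ext_cover (fun z => W ⊓ e.V z) (fun _ => inf_le_left)
    (fun p hp => Opens.mem_iSup.mpr ⟨p, hp, e.mem p⟩) fun z => d.coordOn_injective z _ (h z)

theorem coordOn_mapSec_inf {W : X.Opens} (z : X) (s : c.Sec W) :
    d.coordOn z (inf_le_right.trans (e.le_tgt z))
        (d.resSec (inf_le_left : W ⊓ e.V z ≤ W) (e.mapSec s)) =
      res inf_le_right (e.h z : Γ(X, e.V z)) *
        c.coordOn z (inf_le_right.trans (e.le_src z))
          (c.resSec (inf_le_left : W ⊓ e.V z ≤ W) s) :=
  e.coordOn_mapSec inf_le_left z inf_le_right s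

theorem mapSec_add {W : X.Opens} (s s' : c.Sec W) :
    e.mapSec (s + s') = e.mapSec s + e.mapSec s' :=
  e.ext_coord fun z => by
    rw [e.coordOn_mapSec_inf z, map_add, map_add, mul_add, map_add (d.resSec _), map_add,
      e.coordOn_mapSec_inf z, e.coordOn_mapSec_inf z]

theorem mapSec_smul {W : X.Opens} (a : Γ(X, W)) (s : c.Sec W) :
    e.mapSec (a • s) = a • e.mapSec s :=
  e.ext_coord fun z => by
    rw [e.coordOn_mapSec_inf z, resSec_smul, LinearMap.map_smul, resSec_smul, LinearMap.map_smul,
      e.coordOn_mapSec_inf z, smul_eq_mul, smul_eq_mul, mul_left_comm]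

theorem mapSec_resSec {W W' : X.Opens} (h : W' ≤ W) (s : c.Sec W) :
    e.mapSec (c.resSec h s) = d.resSec h (e.mapSec s) :=
  e.ext_coord fun z => by
    rw [e.coordOn_mapSec_inf z, d.resSec_resSec, c.resSec_resSec]
    exact (e.coordOn_mapSec (inf_le_left.trans h) z inf_le_right s).symm

theorem coordOn_symm_mapSec {W : X.Opens} (z : X) (t : d.Sec W) :
    c.coordOn z (inf_le_right.trans (e.le_src z))
        (c.resSec (inf_le_left : W ⊓ e.V z ≤ W) (e.symm.mapSec t)) =
      res inf_le_right (((e.h z)⁻¹ : Γ(X, e.V z)ˣ) : Γ(X, e.V z)) *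
        d.coordOn z (inf_le_right.trans (e.le_tgt z))
          (d.resSec (inf_le_left : W ⊓ e.V z ≤ W) t) :=
  e.symm.coordOn_mapSec_inf z t

theorem mapSec_symm {W : X.Opens} (t : d.Sec W) : e.mapSec (e.symm.mapSec t) = t :=
  e.ext_coord fun z => by
    rw [e.coordOn_mapSec_inf z, e.coordOn_symm_mapSec z, ← mul_assoc, ← map_mul, Units.mul_inv,
      map_one, one_mul]

theorem symm_mapSec {W : X.Opens} (s : c.Sec W) : e.symm.mapSec (e.mapSec s) = s :=
  e.symm.ext_coord fun z =>
    (e.coordOn_symm_mapSec z _).trans (by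
      rw [e.coordOn_mapSec_inf z, ← mul_assoc, ← map_mul, Units.inv_mul, map_one, one_mul]
      rfl)

end IsoData

end Cocycle

variable {R : Type u} [CommRing R] (π : X ⟶ Spec (CommRingCat.of R))

/-- The bijection of sections of equivalent cocycles. -/
def secEquiv {c d : Cocycle X} (e : Cocycle.IsoData c d) (W : X.Opens) :
    SecOver π c W ≃ₗ[R] SecOver π d W where
  toFun s := e.mapSec s
  map_add' := e.mapSec_add
  map_smul' a s := e.mapSec_smul (scalarHom π W a) s
  invFun t := e.symm.mapSec t
  left_inv := e.symm_mapSec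
  right_inv := e.mapSec_symm

theorem secEquiv_secRes {c d : Cocycle X} (e : Cocycle.IsoData c d) {W W' : X.Opens} (h : W' ≤ W)
    (s : SecOver π c W) :
    secEquiv π e W' (secRes π c h s) = secRes π d h (secEquiv π e W s) :=
  e.mapSec_resSec h s

theorem secEquiv_secMul {c d : Cocycle X} (e : Cocycle.IsoData c d) {W : X.Opens} (b : Γ(X, W))
    (s : SecOver π c W) : secEquiv π e W (secMul π c b s) = secMul π d b (secEquiv π e W s) :=
  e.mapSec_smul b s

section Curve

variable {k : Type u} [Field k] {C : Scheme.{u}} {c : C ⟶ Spec (CommRingCat.of k)}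
  (D : CurveCover k c)

theorem diff_secEquiv {R : Type u} [CommRing R]
    (t : Spec (CommRingCat.of R) ⟶ Spec (CommRingCat.of k))
    {N N' : Cocycle (pullback c t)} (e : Cocycle.IsoData N N') (n : ℤ) :
    D.diff t N' n ∘ₗ ((secEquiv (pullback.snd c t) e (D.UT t)).prodCongr
        (secEquiv (pullback.snd c t) e (D.VT t))).toLinearMap =
      (secEquiv (pullback.snd c t) e (D.WT t)).toLinearMap ∘ₗ D.diff t N n := by
  refine LinearMap.ext fun p => ?_
  simp only [CurveCover.diff, LinearMap.sub_apply, LinearMap.coe_comp, Function.comp_apply,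
    LinearEquiv.coe_coe, map_sub, secEquiv_secRes, secEquiv_secMul, LinearEquiv.prodCongr_apply,
    LinearMap.fst_apply, LinearMap.snd_apply]

variable {K : Type u} [Field K] (t : Spec (CommRingCat.of K) ⟶ Spec (CommRingCat.of k))
  {N N' : Cocycle (pullback c t)}

theorem CurveCover.h0_congr (e : N.Equiv N') (n : ℤ) : D.h0 t N n = D.h0 t N' n := by
  obtain ⟨e⟩ := e.nonempty_isoData
  set a := (secEquiv (pullback.snd c t) e (D.UT t)).prodCongr
    (secEquiv (pullback.snd c t) e (D.VT t))
  have h : (LinearMap.ker (D.diff t N n)).map a.toLinearMap = LinearMap.ker (D.diff t N' n) := by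
    rw [← LinearEquiv.ker_comp (secEquiv (pullback.snd c t) e (D.WT t)) (D.diff t N n),
      ← diff_secEquiv, LinearMap.ker_comp,
      Submodule.map_comap_eq_of_surjective a.surjective]
  exact (LinearEquiv.ofSubmodules a _ _ h).finrank_eq

theorem CurveCover.h1_congr (e : N.Equiv N') (n : ℤ) : D.h1 t N n = D.h1 t N' n := by
  obtain ⟨e⟩ := e.nonempty_isoData
  refine LinearEquiv.finrank_eq (Submodule.Quotient.equiv _ _
    (secEquiv (pullback.snd c t) e (D.WT t)) ?_)
  have h := congrArg LinearMap.range (diff_secEquiv D t e n)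
  rw [LinearMap.range_comp_of_range_eq_top _ (LinearEquiv.range _), LinearMap.range_comp] at h
  exact h.symm

theorem CurveCover.chi_congr (e : N.Equiv N') : D.chi t N = D.chi t N' := by
  rw [CurveCover.chi, CurveCover.chi, D.h0_congr t e, D.h1_congr t e]

/-- The degree of a class is computed by any representative. -/
theorem CurveCover.deg_mk (N : Cocycle (pullback c t)) :
    D.deg t (Pic.mk N) = D.chi t N - D.chi t Cocycle.one := by
  show D.chi t _ - _ = _
  rw [D.chi_congr t (N' := N)]
  exact Pic.mk_eq_mk.mp (Quotient.out_eq (Pic.mk N))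

theorem CurveCover.deg_one : D.deg t 1 = 0 := by
  rw [Pic.one_def, D.deg_mk, sub_self]

end Curve

end FLTAgent.RelPicard

end
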