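import Fermat.Agent.RelPicard.AffineSectionsDictionary
import Fermat.Agent.RelPicard.SecEquiv
import Fermat.Agent.RelPicard.PairIndex

/-!
# The degree in families

The degree at the geometric points of a family is the value of a locally constant function on the
base; in particular it does not change under field extensions and is constant on an integral base.

Main declarations: `IsPairModel`, `degAt`, `isLocallyConstant_degAt`,
`deg_eq_deg_of_isIntegral`, `h_pullback_mapT`.
-/

set_option autoImplicit false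

universe u

open CategoryTheory CategoryTheory.Limits AlgebraicGeometry AlgebraicGeometry.RelPicard
  NeronModelInfra

noncomputable section

namespace FLTAgent.RelPicard

variable {k : Type u} [Field k] {C : Scheme.{u}} {c : C ⟶ Spec (CommRingCat.of k)}

namespace CurveCover

variable (D : CurveCover k c)

/-- A pair computing the cohomology of a cocycle after every base change. -/
def IsPairModel {R : Type u} [CommRing R]
    (t : Spec (CommRingCat.of R) ⟶ Spec (CommRingCat.of k)) (N : Cocycle (pullback c t))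
    (P : PairData R) : Prop :=
  ∀ (S : Type u) [CommRing S] (f : R →+* S),
    ∃ (e : ((P.map f).M × (P.map f).M') ≃ₗ[S]
        (SecOver (pullback.snd c (Spec.map (CommRingCat.ofHom f) ≫ t)) (N.pullback (mapT t f))
            (D.UT (Spec.map (CommRingCat.ofHom f) ≫ t)) ×
          SecOver (pullback.snd c (Spec.map (CommRingCat.ofHom f) ≫ t)) (N.pullback (mapT t f))
            (D.VT (Spec.map (CommRingCat.ofHom f) ≫ t))))
      (e' : (P.map f).W ≃ₗ[S]
        SecOver (pullback.snd c (Spec.map (CommRingCat.ofHom f) ≫ t)) (N.pullback (mapT t f))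
          (D.WT (Spec.map (CommRingCat.ofHom f) ≫ t))),
      ∀ n : ℤ, D.diff (Spec.map (CommRingCat.ofHom f) ≫ t) (N.pullback (mapT t f)) n ∘ₗ
        e.toLinearMap =
        e'.toLinearMap ∘ₗ (P.map f).diff n

end CurveCover

theorem equiv_one_pullback {X Y : Scheme.{u}} (g : X ⟶ Y) :
    (Cocycle.one.pullback g).Equiv Cocycle.one :=
  Pic.mk_eq_mk.mp ((Pic.map_mk g Cocycle.one).symm.trans (map_one (Pic.map g)))

section Square

variable {K A B A' B' : Type u} [CommRing K] [AddCommGroup A] [Module K A] [AddCommGroup B]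
  [Module K B] [AddCommGroup A'] [Module K A'] [AddCommGroup B'] [Module K B']
  {f : A →ₗ[K] B} {f' : A' →ₗ[K] B'} (e : A ≃ₗ[K] A') (e' : B ≃ₗ[K] B')
  (h : f' ∘ₗ e.toLinearMap = e'.toLinearMap ∘ₗ f)

include h in
theorem apply_square (x : A) : f' (e x) = e' (f x) := LinearMap.congr_fun h x

include h in
theorem ker_equiv_of_square : Nonempty (LinearMap.ker f ≃ₗ[K] LinearMap.ker f') := by
  refine ⟨e.ofSubmodules _ _ (le_antisymm ?_ fun y hy => ⟨e.symm y, ?_, e.apply_symm_apply y⟩)⟩
  · rintro _ ⟨x, hx, rfl⟩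
    exact (apply_square e e' h x).trans (by rw [LinearMap.mem_ker.mp hx, map_zero])
  · refine e'.injective ?_
    rw [← apply_square e e' h, LinearEquiv.apply_symm_apply, LinearMap.mem_ker.mp hy, map_zero]

include h in
theorem coker_equiv_of_square :
    Nonempty ((B ⧸ LinearMap.range f) ≃ₗ[K] B' ⧸ LinearMap.range f') := by
  refine ⟨Submodule.Quotient.equiv _ _ e' (le_antisymm ?_ ?_)⟩
  · rintro _ ⟨_, ⟨x, rfl⟩, rfl⟩
    exact ⟨e x, apply_square e e' h x⟩
  · rintro _ ⟨y, rfl⟩
    exact ⟨f (e.symm y), ⟨_, rfl⟩, (apply_square e e' h (e.symm y)).symm.trans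
      (by rw [e.apply_symm_apply])⟩

include h in
theorem bijective_iff_of_square : Function.Bijective f' ↔ Function.Bijective f := by
  have : (f' : A' → B') = e' ∘ f ∘ e.symm := funext fun y => by
    simpa using apply_square e e' h (e.symm y)
  rw [this, e'.bijective.of_comp_iff', Function.Bijective.of_comp_iff _ e.symm.bijective]

end Square

namespace CurveCover

variable (D : CurveCover k c) {R : Type u} [CommRing R]
  {t : Spec (CommRingCat.of R) ⟶ Spec (CommRingCat.of k)} {N : Cocycle (pullback c t)}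
  {P : PairData R}

section Model

variable {D}

theorem IsPairModel.finrank (hP : D.IsPairModel t N P) {K : Type u} [Field K] (f : R →+* K)
    (n : ℤ) :
    D.h0 _ (N.pullback (mapT t f)) n = Module.finrank K ((P.map f).h0 n) ∧
      D.h1 _ (N.pullback (mapT t f)) n = Module.finrank K ((P.map f).H1 n) := by
  obtain ⟨e, e', h⟩ := hP K f
  obtain ⟨e₀⟩ := ker_equiv_of_square e e' (h n)
  obtain ⟨e₁⟩ := coker_equiv_of_square e e' (h n)
  exact ⟨e₀.finrank_eq.symm, e₁.finrank_eq.symm⟩

theorem IsPairModel.chi (hP : D.IsPairModel t N P) {K : Type u} [Field K] (f : R →+* K) :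
    D.chi _ (N.pullback (mapT t f)) = (P.map f).chi 0 := by
  rw [CurveCover.chi, (hP.finrank f 0).1, (hP.finrank f 0).2]
  rfl

theorem IsPairModel.bijective_iff (hP : D.IsPairModel t N P) {S : Type u} [CommRing S]
    (f : R →+* S) (n : ℤ) :
    Function.Bijective (D.diff _ (N.pullback (mapT t f)) n) ↔
      Function.Bijective ((P.map f).diff n) := by
  obtain ⟨e, e', h⟩ := hP S f
  exact bijective_iff_of_square e e' (h n)

theorem IsPairModel.exists_bijective_diff_near (hP : D.IsPairModel t N P) (n : ℤ) {K : Type u}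
    [Field K] (f : R →+* K) (hb : Function.Bijective (D.diff _ (N.pullback (mapT t f)) n)) :
    ∃ h : R, f h ≠ 0 ∧ ∀ (S : Type u) [CommRing S] (g : R →+* S), IsUnit (g h) →
      Function.Bijective (D.diff _ (N.pullback (mapT t g)) n) := by
  obtain ⟨h, hh, H⟩ := P.exists_bijective_near f ((hP.bijective_iff f n).mp hb)
  exact ⟨h, hh, fun S _ g hu => (hP.bijective_iff g n).mpr (H S g hu)⟩

end Model

/-- Every cocycle has a pair model. -/
theorem exists_isPairModel (t : Spec (CommRingCat.of R) ⟶ Spec (CommRingCat.of k))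
    (N : Cocycle (pullback c t)) : ∃ P, D.IsPairModel t N P :=
  (D.exists_pairData t N).imp fun _ h _S _ f => h f

/-- The Euler characteristic at the field points of an affine base. -/
theorem exists_locallyConstant_chi (t : Spec (CommRingCat.of R) ⟶ Spec (CommRingCat.of k))
    (N : Cocycle (pullback c t)) :
    ∃ φ : PrimeSpectrum R → ℤ, IsLocallyConstant φ ∧ ∀ (K : Type u) [Field K] (f : R →+* K),
      D.chi _ (N.pullback (mapT t f)) = φ (fieldPoint f) := by
  obtain ⟨P, hP⟩ := D.exists_isPairModel t N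
  obtain ⟨φ, hφ, h⟩ := P.exists_locallyConstant_chi
  exact ⟨φ, hφ, fun K _ f => (hP.chi f).trans (h K f).2⟩

/-- The degree at the field points of an affine base. -/
theorem exists_locallyConstant_deg (t : Spec (CommRingCat.of R) ⟶ Spec (CommRingCat.of k))
    (L : Pic (pullback c t)) :
    ∃ φ : PrimeSpectrum R → ℤ, IsLocallyConstant φ ∧ ∀ (K : Type u) [Field K] (f : R →+* K),
      D.deg _ (Pic.map (mapT t f) L) = φ (fieldPoint f) := by
  obtain ⟨N, rfl⟩ := Pic.mk_surjective L
  obtain ⟨φ, hφ, h⟩ := D.exists_locallyConstant_chi t N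
  obtain ⟨ψ, hψ, h'⟩ := D.exists_locallyConstant_chi t Cocycle.one
  refine ⟨fun p => φ p - ψ p, (hφ.prodMk hψ).comp (fun q : ℤ × ℤ => q.1 - q.2), fun K _ f => ?_⟩
  have hone := equiv_one_pullback (mapT (c := c) t f)
  rw [Pic.map_mk, D.deg_mk, h K f, ← D.chi_congr _ hone, h' K f]

section Global

/-- The degree at a field point, computed in two steps. -/
theorem deg_map_comp {K : Type u} [Field K] {T T' : Scheme.{u}}
    {w : T ⟶ Spec (CommRingCat.of k)} (L : Pic (pullback c w))
    (s : Spec (CommRingCat.of K) ⟶ T) (g : Spec (CommRingCat.of K) ⟶ T') (j : T' ⟶ T)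
    (e : s = g ≫ j) :
    D.deg (s ≫ w) (Pic.map (baseChangeSnd c (⟨s, rfl⟩ : SchemeHomOver (s ≫ w) w)) L) =
      D.deg (g ≫ j ≫ w) (Pic.map (baseChangeSnd c (⟨g, rfl⟩ : SchemeHomOver (g ≫ j ≫ w) (j ≫ w)))
        (Pic.map (baseChangeSnd c (⟨j, rfl⟩ : SchemeHomOver (j ≫ w) w)) L)) := by
  subst e
  rw [← Pic.map_comp, baseChangeSnd_comp]
  refine (D.deg_congr (Category.assoc g j w) L ⟨g ≫ j, rfl⟩).trans ?_
  rfl

variable {T : Scheme.{u}} {w : T ⟶ Spec (CommRingCat.of k)} (L : Pic (pullback c w))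

/-- The degree at a point, computed over its residue field. -/
def degAt (x : T) : ℤ :=
  D.deg (T.fromSpecResidueField x ≫ w)
    (Pic.map (baseChangeSnd c
      (⟨T.fromSpecResidueField x, rfl⟩ : SchemeHomOver (T.fromSpecResidueField x ≫ w) w)) L)

/-- On an affine open the degree at field points is given by a locally constant function. -/
theorem exists_locallyConstant_deg_open {U : T.Opens} (hU : IsAffineOpen U) :
    ∃ φ : PrimeSpectrum Γ(T, U) → ℤ, IsLocallyConstant φ ∧
      ∀ (K : Type u) [Field K] (s : Spec (CommRingCat.of K) ⟶ T),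
        s (IsLocalRing.closedPoint K) ∈ U → ∃ p : PrimeSpectrum Γ(T, U),
          hU.fromSpec p = s (IsLocalRing.closedPoint K) ∧
          D.deg (s ≫ w) (Pic.map (baseChangeSnd c (⟨s, rfl⟩ : SchemeHomOver (s ≫ w) w)) L) =
            φ p := by
  let j : Spec (CommRingCat.of Γ(T, U)) ⟶ T := hU.fromSpec
  obtain ⟨φ, hφ, h⟩ := D.exists_locallyConstant_deg (j ≫ w)
    (Pic.map (baseChangeSnd c (⟨j, rfl⟩ : SchemeHomOver (j ≫ w) w)) L)
  refine ⟨φ, hφ, fun K _ s hs => ?_⟩
  have hr : Set.range s ⊆ Set.range j := by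
    rintro _ ⟨y, rfl⟩
    rw [show Set.range j = (U : Set T) from hU.range_fromSpec]
    rwa [Subsingleton.elim y (IsLocalRing.closedPoint K)]
  obtain ⟨f, hf⟩ : ∃ f : Γ(T, U) →+* K,
      Spec.map (CommRingCat.ofHom f) = IsOpenImmersion.lift j s hr :=
    ⟨(Spec.preimage (IsOpenImmersion.lift j s hr)).hom, Spec.map_preimage _⟩
  have hsj : s = Spec.map (CommRingCat.ofHom f) ≫ j := by
    rw [hf, IsOpenImmersion.lift_fac]
  refine ⟨fieldPoint f, ?_, ?_⟩
  · subst hsj
    show j (fieldPoint f) = j (Spec.map (CommRingCat.ofHom f) (IsLocalRing.closedPoint K))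
    refine congrArg j (PrimeSpectrum.ext ?_)
    show RingHom.ker f = (IsLocalRing.closedPoint K).asIdeal.comap f
    rw [show (IsLocalRing.closedPoint K).asIdeal = ⊥ from IsLocalRing.maximalIdeal_eq_bot,
      ← RingHom.ker_eq_comap_bot]
  · rw [D.deg_map_comp L s (Spec.map (CommRingCat.ofHom f)) j hsj]
    exact h K f

/-- The degree at a field point is the degree at its image. -/
theorem deg_eq_degAt {K : Type u} [Field K] (s : Spec (CommRingCat.of K) ⟶ T) :
    D.deg (s ≫ w) (Pic.map (baseChangeSnd c (⟨s, rfl⟩ : SchemeHomOver (s ≫ w) w)) L) =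
      D.degAt L (s (IsLocalRing.closedPoint K)) := by
  obtain ⟨U, hU, hx, -⟩ := exists_isAffineOpen_mem_and_subset (X := T)
    (x := s (IsLocalRing.closedPoint K)) (U := ⊤) trivial
  obtain ⟨φ, -, h⟩ := D.exists_locallyConstant_deg_open L hU
  obtain ⟨p, hp, hd⟩ := h K s hx
  have hpt := T.fromSpecResidueField_apply (s (IsLocalRing.closedPoint K))
    (IsLocalRing.closedPoint (T.residueField (s (IsLocalRing.closedPoint K))))
  obtain ⟨q, hq, hd'⟩ := h (T.residueField (s (IsLocalRing.closedPoint K)))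
    (T.fromSpecResidueField (s (IsLocalRing.closedPoint K))) (by rw [hpt]; exact hx)
  rw [hd, show p = q from hU.fromSpec.isOpenEmbedding.injective (hp.trans (hpt.symm.trans hq.symm))]
  exact hd'.symm

/-- The degree is locally constant. -/
theorem isLocallyConstant_degAt : IsLocallyConstant (D.degAt L) := by
  refine IsLocallyConstant.iff_exists_open _ |>.mpr fun x => ?_
  obtain ⟨U, hU, hx, -⟩ := exists_isAffineOpen_mem_and_subset (X := T) (x := x) (U := ⊤) trivial
  obtain ⟨φ, hφ, h⟩ := D.exists_locallyConstant_deg_open L hU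
  have key : ∀ y ∈ U, ∃ p, hU.fromSpec p = y ∧ D.degAt L y = φ p := fun y hy => by
    have hpt := T.fromSpecResidueField_apply y (IsLocalRing.closedPoint (T.residueField y))
    obtain ⟨p, hp, hd⟩ := h (T.residueField y) (T.fromSpecResidueField y) (by rw [hpt]; exact hy)
    exact ⟨p, hp.trans hpt, hd⟩
  obtain ⟨p, hp, hd⟩ := key x hx
  obtain ⟨O, hO, hpO, hconst⟩ := (IsLocallyConstant.iff_exists_open φ).mp hφ p
  refine ⟨hU.fromSpec '' O, hU.fromSpec.isOpenEmbedding.isOpenMap O hO, ⟨p, hpO, hp⟩, ?_⟩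
  rintro y ⟨q, hq, rfl⟩
  obtain ⟨q', hq', hd'⟩ := key (hU.fromSpec q) (by
    rw [← SetLike.mem_coe, ← hU.range_fromSpec]; exact Set.mem_range_self q)
  rw [hd', hd, hU.fromSpec.isOpenEmbedding.injective hq', hconst q hq]

/-- Over an integral base the degree is the same at all field points. -/
theorem deg_eq_deg_of_isIntegral [IsIntegral T] {K K' : Type u} [Field K] [Field K']
    (s : Spec (CommRingCat.of K) ⟶ T) (s' : Spec (CommRingCat.of K') ⟶ T) :
    D.deg (s ≫ w) (Pic.map (baseChangeSnd c (⟨s, rfl⟩ : SchemeHomOver (s ≫ w) w)) L) =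
      D.deg (s' ≫ w) (Pic.map (baseChangeSnd c (⟨s', rfl⟩ : SchemeHomOver (s' ≫ w) w)) L) := by
  rw [D.deg_eq_degAt, D.deg_eq_degAt]
  exact (D.isLocallyConstant_degAt L).apply_eq_of_preconnectedSpace _ _

/-- Over an integral base the degree is the same at two points with values in the same field. -/
theorem deg_map_eq_deg_map_of_isIntegral [IsIntegral T] {K : Type u} [Field K]
    (t : Spec (CommRingCat.of K) ⟶ Spec (CommRingCat.of k)) (s₀ s₁ : SchemeHomOver t w) :
    D.deg t (Pic.map (baseChangeSnd c s₀) L) = D.deg t (Pic.map (baseChangeSnd c s₁) L) := by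
  rw [D.deg_congr s₀.2.symm L s₀, D.deg_congr s₁.2.symm L s₁]
  exact D.deg_eq_deg_of_isIntegral L s₀.1 s₁.1

end Global

section Field

variable {K K' : Type u} [Field K] [Field K']
    (t : Spec (CommRingCat.of K) ⟶ Spec (CommRingCat.of k))
  (f : K →+* K')

/-- The cohomology is invariant under extensions of the field. -/
theorem h_pullback_mapT (N : Cocycle (pullback c t)) (n : ℤ) :
    D.h0 _ (N.pullback (mapT t f)) n = D.h0 _ (N.pullback (mapT t (RingHom.id K))) n ∧
      D.h1 _ (N.pullback (mapT t f)) n = D.h1 _ (N.pullback (mapT t (RingHom.id K))) n := by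
  obtain ⟨P, hP⟩ := D.exists_isPairModel t N
  rw [(hP.finrank f n).1, (hP.finrank f n).2, (hP.finrank (RingHom.id K) n).1,
    (hP.finrank (RingHom.id K) n).2]
  refine ⟨?_, ?_⟩
  · rw [← PairData.finrank_h0_map (P.map (RingHom.id K)) f n, P.map_map, RingHom.comp_id]
  · rw [← PairData.finrank_H1_map (P.map (RingHom.id K)) f n, P.map_map, RingHom.comp_id]

theorem h_congr {t t' : Spec (CommRingCat.of K) ⟶ Spec (CommRingCat.of k)} (e : t' = t)
    (N : Cocycle (pullback c t)) (ψ : SchemeHomOver t' t) (hψ : ψ.1 = 𝟙 _) (n : ℤ) :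
    D.h0 t' (N.pullback (baseChangeSnd c ψ)) n = D.h0 t N n ∧
      D.h1 t' (N.pullback (baseChangeSnd c ψ)) n = D.h1 t N n := by
  subst e
  obtain rfl : ψ = ⟨𝟙 _, Category.id_comp _⟩ := Subtype.ext hψ
  have heq :
    (N.pullback (baseChangeSnd c (⟨𝟙 _, Category.id_comp _⟩ : SchemeHomOver t' t'))).Equiv N :=
    Pic.mk_eq_mk.mp (((Pic.map_mk _ N).symm.trans (by rw [baseChangeSnd_id, Pic.map_id])))
  exact ⟨D.h0_congr _ heq n, D.h1_congr _ heq n⟩

theorem h_mapT_id (N : Cocycle (pullback c t)) (n : ℤ) :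
    D.h0 _ (N.pullback (mapT t (RingHom.id K))) n = D.h0 t N n ∧
      D.h1 _ (N.pullback (mapT t (RingHom.id K))) n = D.h1 t N n := by
  refine D.h_congr (t := t) ?_ N _ ?_ n
  · rw [show CommRingCat.ofHom (RingHom.id K) = 𝟙 (CommRingCat.of K) from rfl, Spec.map_id,
      Category.id_comp]
  · exact Spec.map_id _

theorem h0_pullback (N : Cocycle (pullback c t)) (n : ℤ) :
    D.h0 _ (N.pullback (mapT t f)) n = D.h0 t N n :=
  (D.h_pullback_mapT t f N n).1.trans (D.h_mapT_id t N n).1

theorem h1_pullback (N : Cocycle (pullback c t)) (n : ℤ) :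
    D.h1 _ (N.pullback (mapT t f)) n = D.h1 t N n :=
  (D.h_pullback_mapT t f N n).2.trans (D.h_mapT_id t N n).2

/-- The genus is invariant under extensions of the field. -/
theorem h1_one_pullback (n : ℤ) :
    D.h1 (Spec.map (CommRingCat.ofHom f) ≫ t) Cocycle.one n = D.h1 t Cocycle.one n := by
  exact (D.h1_congr _ (equiv_one_pullback (mapT (c := c) t f)).symm n).trans
    (D.h1_pullback t f Cocycle.one n)

end Field

end CurveCover

end FLTAgent.RelPicard
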