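import Fermat.Agent.RelPicard.Defs

/-!
# Rigidification of classes along the section

Classes on the spectrum of a local ring are trivial, so removing the pullback of the restriction
along the section does not change a class on the fibres.

Main declarations: `rigidify`, `rigidify_mem`, `CurveCover.toRelClasses`.
-/

set_option autoImplicit false

universe u

open CategoryTheory CategoryTheory.Limits AlgebraicGeometry AlgebraicGeometry.RelPicard
  NeronModelInfra TopologicalSpace

noncomputable section

namespace FLTAgent.RelPicard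

/-- A scheme with a point all of whose neighbourhoods are everything has no nontrivial classes. -/
theorem Pic.eq_one_of_forall_mem {X : Scheme.{u}} (p : X) (hp : ∀ U : X.Opens, p ∈ U → U = ⊤)
    (L : Pic X) : L = 1 := by
  obtain ⟨N, rfl⟩ := Pic.mk_surjective L
  have htop : ∀ W : X.Opens, W ≤ N.nbhd p := fun W => le_top.trans (hp _ (N.mem p)).ge
  refine Pic.mk_eq_mk.mpr ⟨N.nbhd, N.mem, fun _ => le_rfl, fun _ => le_top,
    fun x => N.gOn p x (htop _) le_rfl, fun x y W hx hy => ?_⟩
  rw [Cocycle.resU_gOn, Cocycle.resU_gOn, Cocycle.gOn_one, one_mul, Cocycle.gOn_mul]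

/-- The spectrum of a local ring has no nontrivial classes. -/
theorem Pic.eq_one_of_isLocalRing (R : Type u) [CommRing R] [IsLocalRing R]
    (L : Pic (Spec (CommRingCat.of R))) : L = 1 :=
  Pic.eq_one_of_forall_mem (IsLocalRing.closedPoint R)
    (fun U hU => (IsLocalRing.closedPoint_mem_iff U).mp hU) L

instance Pic.subsingleton_of_isLocalRing (R : Type u) [CommRing R] [IsLocalRing R] :
    Subsingleton (Pic (Spec (CommRingCat.of R))) :=
  ⟨fun L L' => by rw [Pic.eq_one_of_isLocalRing R L, Pic.eq_one_of_isLocalRing R L']⟩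

section Rigidify

variable {k : Type u} [Field k] {C : Scheme.{u}} (c : C ⟶ Spec (CommRingCat.of k))
  (ε : SchemeHomOver (𝟙 (Spec (CommRingCat.of k))) c)
  {T : Scheme.{u}} (t : T ⟶ Spec (CommRingCat.of k))

/-- A class divided by the pullback of its restriction along the section. -/
def rigidify : Pic (pullback c t) →* Pic (pullback c t) where
  toFun L := L * (Pic.map (pullback.snd c t) (Pic.map (rigSection c t ε) L))⁻¹
  map_one' := by rw [map_one, map_one, inv_one, mul_one]
  map_mul' L L' := by rw [map_mul, map_mul, mul_inv, mul_mul_mul_comm]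

theorem rigidify_apply (L : Pic (pullback c t)) :
    rigidify c ε t L = L * (Pic.map (pullback.snd c t) (Pic.map (rigSection c t ε) L))⁻¹ := rfl

theorem map_rigSection_map_snd (M : Pic T) :
    Pic.map (rigSection c t ε) (Pic.map (pullback.snd c t) M) = M := by
  rw [← Pic.map_comp, show rigSection c t ε ≫ pullback.snd c t = 𝟙 T from pullback.lift_snd _ _ _,
    Pic.map_id]

theorem rigidify_mem (L : Pic (pullback c t)) : rigidify c ε t L ∈ rigPic c ε t := by
  rw [rigPic, MonoidHom.mem_ker, rigidify_apply, map_mul, map_inv, map_rigSection_map_snd,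
    mul_inv_cancel]

theorem rigidify_of_mem {L : Pic (pullback c t)} (hL : L ∈ rigPic c ε t) :
    rigidify c ε t L = L := by
  rw [rigidify_apply, MonoidHom.mem_ker.mp hL, map_one, inv_one, mul_one]

variable {t} {T' : Scheme.{u}} {t' : T' ⟶ Spec (CommRingCat.of k)}

omit ε in
theorem map_baseChangeSnd_map_snd (ψ : SchemeHomOver t' t) (M : Pic T) :
    Pic.map (baseChangeSnd c ψ) (Pic.map (pullback.snd c t) M) =
      Pic.map (pullback.snd c t') (Pic.map ψ.1 M) := by
  rw [← Pic.map_comp, ← Pic.map_comp,
    show baseChangeSnd c ψ ≫ pullback.snd c t =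
      pullback.snd c t' ≫ ψ.1 from pullback.lift_snd _ _ _]

theorem map_rigidify (ψ : SchemeHomOver t' t) (L : Pic (pullback c t)) :
    Pic.map (baseChangeSnd c ψ) (rigidify c ε t L) =
      rigidify c ε t' (Pic.map (baseChangeSnd c ψ) L) := by
  rw [rigidify_apply, rigidify_apply, map_mul, map_inv, map_baseChangeSnd_map_snd,
    ← Pic.map_comp ψ.1 (rigSection c t ε), ← Pic.map_comp (rigSection c t' ε) (baseChangeSnd c ψ),
    rigSection_baseChangeSnd c ε ψ]

/-- Over a base without nontrivial classes rigidification does nothing. -/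
theorem map_rigidify_eq_map [Subsingleton (Pic T')] (ψ : SchemeHomOver t' t)
    (L : Pic (pullback c t)) :
    Pic.map (baseChangeSnd c ψ) (rigidify c ε t L) = Pic.map (baseChangeSnd c ψ) L := by
  rw [rigidify_apply, map_mul, map_inv, map_baseChangeSnd_map_snd,
    Subsingleton.elim (Pic.map ψ.1 _) (1 : Pic T'),
    map_one, inv_one, mul_one]

variable {c}

theorem CurveCover.degZero_rigidify_iff (D : CurveCover k c) (L : Pic (pullback c t)) :
    D.DegZero (rigidify c ε t L) ↔ D.DegZero L := by
  refine forall_congr' fun K => forall_congr' fun _ => forall_congr' fun _ =>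
    forall_congr' fun s => ?_
  rw [map_rigidify_eq_map]

/-- The rigidified class of a class of degree zero. -/
def CurveCover.toRelClasses (D : CurveCover k c) (L : Pic (pullback c t)) (hL : D.DegZero L) :
    D.relClasses ε t :=
  ⟨rigidify c ε t L, rigidify_mem c ε t L, (D.degZero_rigidify_iff ε L).mpr hL⟩

theorem CurveCover.relMap_toRelClasses (D : CurveCover k c) (ψ : SchemeHomOver t' t)
    (L : Pic (pullback c t)) (hL : D.DegZero L) :
    D.relMap ε ψ (D.toRelClasses ε L hL) =
      D.toRelClasses ε (Pic.map (baseChangeSnd c ψ) L) (hL.map D ψ) :=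
  Subtype.ext (map_rigidify c ε ψ L)

end Rigidify

end FLTAgent.RelPicard

end
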