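import Fermat.Agent.RelPicard.DegreeEffective
import Fermat.Agent.RelPicard.DegreeFamily
import Fermat.Agent.RelPicard.CutDegree
import Fermat.Agent.RelPicard.Rigidify

/-!
# The Abel family and the degree criterion

Tuples of `g` points give rigidified classes of degree zero; the universal tuple on the fibre power
gives a family over a proper integral base which reaches every rational class.  Over an
algebraically closed field the classes linked to the trivial one are exactly those of degree zero.

`picLinked_iff_deg_eq_zero` is the degree criterion and `exists_class_family` the family;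
both are used by S25.
-/

set_option autoImplicit false

universe u

open CategoryTheory CategoryTheory.Limits AlgebraicGeometry AlgebraicGeometry.RelPicard
  NeronModelInfra

noncomputable section

namespace FLTAgent.RelPicard

variable {k : Type u} [Field k] [IsAlgClosed k] {C : Scheme.{u}} (c : C ⟶ Spec (CommRingCat.of k))
  [IsProper c] [SmoothOfRelativeDimension 1 c] [IsIntegral C]
  (ε : SchemeHomOver (𝟙 (Spec (CommRingCat.of k))) c)

/-- The class of a tuple of points divided by that of the section. -/
def abelProd {T : Scheme.{u}} (t : T ⟶ Spec (CommRingCat.of k)) {g : ℕ}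
    (s : Fin g → SchemeHomOver t c) : Pic (pullback c t) :=
  (∏ i, pointClass c (s i)) * (pointClass c (constPoint ε t) ^ g)⁻¹

theorem map_abelProd {T T' : Scheme.{u}} {t : T ⟶ Spec (CommRingCat.of k)}
    {t' : T' ⟶ Spec (CommRingCat.of k)} (ψ : SchemeHomOver t' t) {g : ℕ}
    (s : Fin g → SchemeHomOver t c) :
    Pic.map (baseChangeSnd c ψ) (abelProd c ε t s) =
      abelProd c ε t' fun i => postComp (s i) ψ := by
  simp only [abelProd, map_mul, map_inv, map_pow, map_prod, map_pointClass, postComp_constPoint]

variable {c} (D : CurveCover k c)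

section Point

variable {K : Type u} [Field K] (t : Spec (CommRingCat.of K) ⟶ Spec (CommRingCat.of k))

theorem CurveCover.deg_abelProd {g : ℕ} (s : Fin g → SchemeHomOver t c) :
    D.deg t (abelProd c ε t s) = 0 := by
  have h := D.deg_mul_pointClass_pow (constPoint ε t) (abelProd c ε t s) g
  have e : abelProd c ε t s * pointClass c (constPoint ε t) ^ g =
      1 * ∏ i, pointClass c (s i) := by
    rw [abelProd, inv_mul_cancel_right, one_mul]
  rw [e, D.deg_mul_prod_pointClass, D.deg_one, Finset.card_univ, Fintype.card_fin] at h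
  omega

omit [IsAlgClosed k] [IsProper c] [SmoothOfRelativeDimension 1 c] [IsIntegral C] in
theorem CurveCover.deg_eq_zero_of_picLinked {L : Pic (pullback c t)}
    (hL : PicLinked (pullback.snd c t) L) : D.deg t L = 0 :=
  D.deg_eq_zero_of_linked (fun _ M s₀ s₁ => D.deg_map_eq_deg_map_of_isIntegral M t s₀ s₁)
    (D.deg_one t) hL

end Point

theorem CurveCover.degZero_abelProd {T : Scheme.{u}} (t : T ⟶ Spec (CommRingCat.of k)) {g : ℕ}
    (s : Fin g → SchemeHomOver t c) : D.DegZero (abelProd c ε t s) := by
  intro K _ _ x
  rw [map_abelProd]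
  exact D.deg_abelProd ε _ _

/-- The rigidified class of a tuple of points. -/
def CurveCover.abelClass {T : Scheme.{u}} (t : T ⟶ Spec (CommRingCat.of k)) {g : ℕ}
    (s : Fin g → SchemeHomOver t c) : D.relClasses ε t :=
  D.toRelClasses ε (abelProd c ε t s) (D.degZero_abelProd ε t s)

theorem CurveCover.abelClass_val {T : Scheme.{u}} (t : T ⟶ Spec (CommRingCat.of k)) {g : ℕ}
    (s : Fin g → SchemeHomOver t c) :
    (D.abelClass ε t s).1 = rigidify c ε t (abelProd c ε t s) := rfl

theorem CurveCover.relMap_abelClass {T T' : Scheme.{u}} {t : T ⟶ Spec (CommRingCat.of k)}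
    {t' : T' ⟶ Spec (CommRingCat.of k)} (ψ : SchemeHomOver t' t) {g : ℕ}
    (s : Fin g → SchemeHomOver t c) :
    D.relMap ε ψ (D.abelClass ε t s) = D.abelClass ε t' fun i => postComp (s i) ψ :=
  Subtype.ext ((map_rigidify c ε ψ _).trans (by rw [map_abelProd, abelClass_val]))

section Point

variable {K : Type u} [Field K] [IsAlgClosed K]
    (t : Spec (CommRingCat.of K) ⟶ Spec (CommRingCat.of k))

/-- Linked to the trivial class is the same as degree zero. -/
theorem CurveCover.picLinked_iff_deg_eq_zero (L : Pic (pullback c t)) :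
    PicLinked (pullback.snd c t) L ↔ D.deg t L = 0 := by
  refine ⟨D.deg_eq_zero_of_picLinked t, fun hL => ?_⟩
  have := infinite_points c
  obtain ⟨ε⟩ : Nonempty (SchemeHomOver (𝟙 (Spec (CommRingCat.of k))) c) := inferInstance
  obtain ⟨P, rfl⟩ := D.exists_eq_prod_pointClass_div L hL (constPoint ε t)
  exact picLinked_prod ε (fun s => pointClass c s) (fun ψ s => map_pointClass c ψ s) P

end Point

/-- The fibrewise criterion. -/
theorem CurveCover.degZero_iff_picLinked {T : Scheme.{u}} {t : T ⟶ Spec (CommRingCat.of k)}
    (L : Pic (pullback c t)) :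
    D.DegZero L ↔ ∀ (K : Type u) [Field K] [IsAlgClosed K] (s : Spec (CommRingCat.of K) ⟶ T),
      PicLinked (pullback.snd c (s ≫ t))
        (Pic.map (baseChangeSnd c (⟨s, rfl⟩ : SchemeHomOver (s ≫ t) t)) L) :=
  forall_congr' fun _ => forall_congr' fun _ => forall_congr' fun _ => forall_congr' fun s =>
    (D.picLinked_iff_deg_eq_zero (s ≫ t) _).symm

/-- Every class at a geometric point comes from a tuple of points. -/
theorem CurveCover.exists_abelClass_eq {K : Type u} [Field K] [IsAlgClosed K]
    (t : Spec (CommRingCat.of K) ⟶ Spec (CommRingCat.of k)) (L : D.relClasses ε t) :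
    ∃ s : Fin (D.genus t) → SchemeHomOver t c, D.abelClass ε t s = L := by
  have hL : D.deg t L.1 = 0 := by
    have h := L.2.2 K (𝟙 _)
    rw [D.deg_congr (Category.id_comp t) L.1] at h
    rwa [baseChangeSnd_id, Pic.map_id] at h
  obtain ⟨s, hs⟩ := D.exists_eq_prod_pointClass_div L.1 hL (constPoint ε t)
  exact ⟨s, Subtype.ext (by rw [abelClass_val, abelProd, ← hs, rigidify_of_mem c ε t L.2.1])⟩

/-- The tuple of projections of the fibre power. -/
def powerPoints (g : ℕ) (i : Fin g) : SchemeHomOver (powerHom c g) c :=
  ⟨powerProj c g i, powerProj_comp c g i⟩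

/-- Every rational class is a value of the Abel family on the fibre power. -/
theorem CurveCover.exists_relMap_abelClass_eq
    (L : D.relClasses ε (𝟙 (Spec (CommRingCat.of k)))) :
    ∃ x : SchemeHomOver (𝟙 (Spec (CommRingCat.of k))) (powerHom c (D.genus (𝟙 _))),
      D.relMap ε x (D.abelClass ε _ (powerPoints (D.genus (𝟙 _)))) = L := by
  obtain ⟨s, rfl⟩ := D.exists_abelClass_eq ε _ L
  refine ⟨powerLift c _ _ s, (D.relMap_abelClass ε _ _).trans ?_⟩
  exact congrArg _ (funext fun i => Subtype.ext (powerLift_proj c _ _ s i))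

/-- A proper integral family of classes reaching every rational class. -/
theorem CurveCover.exists_class_family :
    ∃ (P : Scheme.{u}) (p : P ⟶ Spec (CommRingCat.of k)) (_ : IsProper p) (_ : IsIntegral P)
      (a : D.relClasses ε p), ∀ L : D.relClasses ε (𝟙 (Spec (CommRingCat.of k))),
        ∃ x : SchemeHomOver (𝟙 (Spec (CommRingCat.of k))) p, D.relMap ε x a = L :=
  ⟨_, powerHom c (D.genus (𝟙 _)), inferInstance, inferInstance, _,
    D.exists_relMap_abelClass_eq ε⟩

end FLTAgent.RelPicard

end
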