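import Mathlib

/-!
# Rank one modules presented by sections and cosections

A rank one frame of a module is a finite family of elements `σ` and linear forms `τ` with
`∑ τ i m • σ i = m` and `∑ τ i (σ i) = 1`, for a module on which linear forms commute.  It presents
the module as the image of the idempotent matrix `τ i (σ j)`.  Such a frame exists as soon as,
over a coefficient ring over which ring and module are free of the same rank, the determinants of
the maps `a ↦ a • m` generate the unit ideal.

Main declarations: `IsRankOneIdem`, `RankOneFrame`, `nonempty_frame_of_det`.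
-/

set_option autoImplicit false

universe u v w

open Matrix

noncomputable section

namespace FLTAgent.RelPicard

/-- An idempotent matrix of rank one. -/
structure IsRankOneIdem {A : Type u} [CommRing A] {n : ℕ}
    (e : Matrix (Fin n) (Fin n) A) : Prop where
  idem : e * e = e
  trace : ∑ i, e i i = 1
  minor : ∀ i j k l, e i j * e k l = e i l * e k j

namespace IsRankOneIdem

variable {A : Type u} [CommRing A] {n : ℕ} {e : Matrix (Fin n) (Fin n) A}

theorem map (h : IsRankOneIdem e) {B : Type v} [CommRing B] (f : A →+* B) :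
    IsRankOneIdem (e.map f) where
  idem := by rw [← Matrix.map_mul, h.idem]
  trace := by simp only [Matrix.map_apply, ← map_sum, h.trace, map_one]
  minor i j k l := by simp only [Matrix.map_apply, ← map_mul, h.minor i j k l]

end IsRankOneIdem

variable {A : Type u} [CommRing A] {M : Type v} [AddCommGroup M] [Module A M]

/-- Sections and cosections of a module of rank one. -/
structure RankOneFrame (A : Type u) [CommRing A] (M : Type v) [AddCommGroup M] [Module A M] :
    Type (max u v) where
  n : ℕ
  σ : Fin n → M
  τ : Fin n → M →ₗ[A] A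
  sum_smul : ∀ m, ∑ i, τ i m • σ i = m
  sum_one : ∑ i, τ i (σ i) = 1
  swap : ∀ (φ : M →ₗ[A] A) (m m' : M), φ m • m' = φ m' • m

namespace RankOneFrame

variable (F : RankOneFrame A M)

/-- The idempotent matrix of a frame. -/
def mat : Matrix (Fin F.n) (Fin F.n) A := Matrix.of fun i j => F.τ i (F.σ j)

theorem mat_apply (i j : Fin F.n) : F.mat i j = F.τ i (F.σ j) := rfl

theorem mat_mulVec (v : Fin F.n → A) : F.mat *ᵥ v = fun i => F.τ i (∑ j, v j • F.σ j) := by
  funext i
  simp [Matrix.mulVec, dotProduct, mat_apply, map_sum, mul_comm]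

theorem isRankOneIdem : IsRankOneIdem F.mat where
  idem := by
    ext i k
    rw [Matrix.mul_apply, mat_apply]
    conv_rhs => rw [← F.sum_smul (F.σ k)]
    simp [mat_apply, map_sum, mul_comm]
  trace := F.sum_one
  minor i j k l := by
    have := congrArg (F.τ k) (F.swap (F.τ i) (F.σ j) (F.σ l))
    simpa [mat_apply] using this

/-- The coordinates of an element. -/
def coords : M →ₗ[A] Fin F.n → A := LinearMap.pi F.τ

theorem coords_injective : Function.Injective F.coords := fun m m' h => by
  rw [← F.sum_smul m, ← F.sum_smul m']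
  exact Finset.sum_congr rfl fun i _ => congrArg (· • F.σ i) (congrFun h i)

theorem mem_range_coords {v : Fin F.n → A} : v ∈ LinearMap.range F.coords ↔ F.mat *ᵥ v = v := by
  refine ⟨?_, fun h => ⟨∑ j, v j • F.σ j, (F.mat_mulVec v).symm.trans h⟩⟩
  rintro ⟨m, rfl⟩
  rw [mat_mulVec]
  funext i
  exact congrArg (F.τ i) (F.sum_smul m)

end RankOneFrame

section DetCriterion

variable {P : Type w} [CommRing P] [Algebra P A] [Module P M] [IsScalarTower P A M]
  {ι : Type*} [Fintype ι] [DecidableEq ι] (bA : Module.Basis ι P A) (bM : Module.Basis ι P M)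

/-- The determinant of `a ↦ a • m`. -/
def detAt (m : M) : P :=
  (LinearMap.toMatrix bA bM ((LinearMap.toSpanSingleton A M m).restrictScalars P)).det

/-- The adjugate of `a ↦ a • m`. -/
def adjAt (m : M) : M →ₗ[P] A :=
  Matrix.toLin bM bA
    (LinearMap.toMatrix bA bM ((LinearMap.toSpanSingleton A M m).restrictScalars P)).adjugate

theorem adjAt_smul (m x : M) : adjAt bA bM m x • m = detAt bA bM m • x := by
  set T := (LinearMap.toSpanSingleton A M m).restrictScalars P
  have h : T ∘ₗ adjAt bA bM m = detAt bA bM m • LinearMap.id := by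
    conv_lhs => rw [← Matrix.toLin_toMatrix bA bM T, adjAt, ← Matrix.toLin_mul,
      Matrix.mul_adjugate, map_smul, Matrix.toLin_one]
    rfl
  exact congrArg (fun f : M →ₗ[P] M => f x) h

theorem adjAt_of_smul (m : M) (a : A) :
    adjAt bA bM m (a • m) = detAt bA bM m • a := by
  set T := (LinearMap.toSpanSingleton A M m).restrictScalars P
  have h : adjAt bA bM m ∘ₗ T = detAt bA bM m • LinearMap.id := by
    conv_lhs => rw [← Matrix.toLin_toMatrix bA bM T, adjAt, ← Matrix.toLin_mul,
      Matrix.adjugate_mul, map_smul, Matrix.toLin_one]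
    rfl
  exact congrArg (fun f : A →ₗ[P] A => f a) h

theorem adjAt_semilinear (m : M) (a : A) (x : M) :
    detAt bA bM m • adjAt bA bM m (a • x) = a * (detAt bA bM m • adjAt bA bM m x) := by
  rw [← adjAt_of_smul bA bM m (adjAt bA bM m (a • x)), adjAt_smul, smul_comm,
    ← adjAt_smul bA bM m x, ← mul_smul, adjAt_of_smul]
  rw [mul_smul_comm]

/-- `det (a ↦ a • m)` times the adjugate is linear over `A`. -/
def formAt (m : M) : M →ₗ[A] A where
  toFun x := detAt bA bM m • adjAt bA bM m x
  map_add' x y := by rw [map_add, smul_add]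
  map_smul' a x := adjAt_semilinear bA bM m a x

theorem formAt_smul (m x : M) : formAt bA bM m x • m = detAt bA bM m ^ 2 • x := by
  show (detAt bA bM m • adjAt bA bM m x) • m = _
  rw [smul_assoc, adjAt_smul, ← mul_smul, sq]

theorem formAt_self (m : M) : formAt bA bM m m = algebraMap P A (detAt bA bM m ^ 2) := by
  show detAt bA bM m • adjAt bA bM m m = _
  have h := adjAt_of_smul bA bM m 1
  rw [one_smul] at h
  rw [h, ← mul_smul, ← sq, Algebra.algebraMap_eq_smul_one]

include bA bM in
/-- The determinant criterion: generators of determinant one give a frame. -/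
theorem nonempty_frame_of_det
    (h : ∀ p : Ideal P, p.IsMaximal → ∃ m, detAt bA bM m ∉ p) :
    Nonempty (RankOneFrame A M) := by
  classical
  have htop : Ideal.span (Set.range (detAt bA bM)) = ⊤ := by
    by_contra hne
    obtain ⟨p, hp, hle⟩ := Ideal.exists_le_maximal _ hne
    obtain ⟨m, hm⟩ := h p hp
    exact hm (hle (Ideal.subset_span ⟨m, rfl⟩))
  have h2 := (Ideal.eq_top_iff_one _).mp (Ideal.span_pow_eq_top _ htop 2)
  rw [← Set.range_comp, Ideal.span, Finsupp.mem_span_range_iff_exists_finsupp] at h2
  obtain ⟨c, hc⟩ := h2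
  let e := c.support.equivFin
  have hsum : ∀ F : M → A, ∑ i : Fin c.support.card, F (e.symm i : M) = ∑ m ∈ c.support, F m :=
    fun F => by rw [e.symm.sum_comp (fun x : c.support => F x), Finset.sum_coe_sort c.support F]
  have hsumM : ∀ F : M → M, ∑ i : Fin c.support.card, F (e.symm i : M) = ∑ m ∈ c.support, F m :=
    fun F => by rw [e.symm.sum_comp (fun x : c.support => F x), Finset.sum_coe_sort c.support F]
  have hc' : ∑ m ∈ c.support, c m * detAt bA bM m ^ 2 = 1 := hc
  refine ⟨⟨c.support.card, fun i => (e.symm i : M),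
    fun i => algebraMap P A (c (e.symm i)) • formAt bA bM (e.symm i : M), fun x => ?_, ?_,
    fun φ x y => ?_⟩⟩
  · simp only [LinearMap.smul_apply, algebraMap_smul, smul_assoc, formAt_smul]
    rw [hsumM fun m => c m • detAt bA bM m ^ 2 • x]
    simp only [← mul_smul, ← Finset.sum_smul, hc', one_smul]
  · simp only [LinearMap.smul_apply, smul_eq_mul, formAt_self]
    rw [hsum fun m => algebraMap P A (c m) * algebraMap P A (detAt bA bM m ^ 2)]
    simp only [← map_mul, ← map_sum, hc', map_one]
  · have hann : ∀ m, detAt bA bM m ^ 4 • (φ x • y - φ y • x) = 0 := fun m => by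
      have hs : ∀ z, detAt bA bM m ^ 2 • φ z = formAt bA bM m z * φ m := fun z => by
        rw [← φ.map_smul_of_tower, ← formAt_smul, map_smul, smul_eq_mul]
      have key : ∀ z w, detAt bA bM m ^ 4 • (φ z • w) =
          (formAt bA bM m z * φ m * formAt bA bM m w) • m := fun z w => by
        rw [show detAt bA bM m ^ 4 = detAt bA bM m ^ 2 * detAt bA bM m ^ 2 by ring, mul_smul,
          smul_comm (detAt bA bM m ^ 2) (φ z) w, ← smul_assoc, hs, ← formAt_smul bA bM m w,
          ← mul_smul]
      rw [smul_sub, key, key, sub_eq_zero]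
      congr 1
      ring
    have hle : (⊤ : Ideal P) ≤
        LinearMap.ker (LinearMap.toSpanSingleton P M (φ x • y - φ y • x)) := by
      rw [← Ideal.span_pow_eq_top _ htop 4, Ideal.span_le]
      rintro _ ⟨_, ⟨m, rfl⟩, rfl⟩
      exact hann m
    have h1 := hle (Submodule.mem_top (x := (1 : P)))
    rw [LinearMap.mem_ker, LinearMap.toSpanSingleton_apply, one_smul, sub_eq_zero] at h1
    exact h1

end DetCriterion

end FLTAgent.RelPicard
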