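import Fermat.Agent.RelPicard.CocycleSections
import Fermat.Agent.RelPicard.AffineSectionsFrame

/-!
# Sections of a line bundle over an affine open

Over an affine open finitely many sections `σ` of a cocycle and `τ` of its dual pair to `1`.  So the
sections form the image of the idempotent matrix of their pairings, compatibly with restriction
and pullback.

Main declarations: `pair`, `SecFrame`, `nonempty_secFrame`, `SecFrame.pull`; used for the
glued idempotents of a class.
-/

set_option autoImplicit false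

universe u

open CategoryTheory AlgebraicGeometry TopologicalSpace

noncomputable section

namespace FLTAgent.RelPicard

variable {X Y : Scheme.{u}}

theorem eq_of_res_cover {ι : Type*} {W : X.Opens} (V : ι → X.Opens) (hV : ∀ i, V i ≤ W)
    (hc : W ≤ ⨆ i, V i) {a b : Γ(X, W)} (h : ∀ i, res (hV i) a = res (hV i) b) : a = b :=
  X.sheaf.eq_of_locally_eq' V W (fun i => homOfLE (hV i)) hc a b h

theorem exists_res_glue {ι : Type*} {W : X.Opens} (V : ι → X.Opens) (hV : ∀ i, V i ≤ W)
    (hc : W ≤ ⨆ i, V i) (a : ∀ i, Γ(X, V i))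
    (h : ∀ i j, res (inf_le_left : V i ⊓ V j ≤ V i) (a i) = res inf_le_right (a j)) :
    ∃ s : Γ(X, W), ∀ i, res (hV i) s = a i :=
  (X.sheaf.existsUnique_gluing' V W (fun i => homOfLE (hV i)) hc a h).exists

theorem res_basicOpen_kill {U V : X.Opens} (hV : IsAffineOpen V) (hVU : V ≤ U) (f : Γ(X, U))
    (a : Γ(X, V)) (h : res (inf_le_left : V ⊓ X.basicOpen f ≤ V) a = 0) :
    ∃ m : ℕ, res hVU f ^ m * a = 0 := by
  have hle : X.basicOpen (res hVU f) ≤ V ⊓ X.basicOpen f := (X.basicOpen_res f _).le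
  have := hV.isLocalization_basicOpen (res hVU f)
  have h0 : algebraMap Γ(X, V) Γ(X, X.basicOpen (res hVU f)) a = 0 := by
    show res (X.basicOpen_le _) a = 0
    rw [← res_res hle inf_le_left, h, map_zero]
  obtain ⟨⟨_, m, rfl⟩, hm⟩ :=
    (IsLocalization.map_eq_zero_iff (Submonoid.powers (res hVU f)) _ a).mp h0
  exact ⟨m, hm⟩

theorem res_basicOpen_extend {U V : X.Opens} (hV : IsAffineOpen V) (hVU : V ≤ U) (f : Γ(X, U))
    (b : Γ(X, V ⊓ X.basicOpen f)) :
    ∃ (n : ℕ) (a : Γ(X, V)),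
      res inf_le_left a = res (inf_le_left.trans hVU) f ^ n * b := by
  have hle : X.basicOpen (res hVU f) ≤ V ⊓ X.basicOpen f := (X.basicOpen_res f _).le
  have hge : V ⊓ X.basicOpen f ≤ X.basicOpen (res hVU f) := (X.basicOpen_res f _).ge
  have := hV.isLocalization_basicOpen (res hVU f)
  obtain ⟨n, a, ha⟩ := IsLocalization.Away.surj (res hVU f) (res hle b)
  refine ⟨n, a, ?_⟩
  have e := congrArg (res hge) ha
  rw [map_mul, map_pow, res_res, res_self] at e
  rw [mul_comm]
  refine Eq.trans ?_ (e.symm.trans ?_)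
  · exact (res_res hge (X.basicOpen_le _) a).symm
  · congr 2
    exact (res_res hge (X.basicOpen_le _) _).trans (res_res _ _ f)

namespace Cocycle

variable (c : Cocycle X)

/-- The coordinate of a section in the frame at `p`. -/
def coordOn (p : X) {W : X.Opens} (hp : W ≤ c.nbhd p) : c.Sec W →ₗ[Γ(X, W)] Γ(X, W) where
  toFun s := res (le_inf le_rfl hp) (s.1 p)
  map_add' s t := by rw [AddSubgroup.coe_add, Pi.add_apply, map_add]
  map_smul' a s := by
    show res _ (res inf_le_left a * s.1 p) = a * _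
    rw [map_mul, res_res, res_self]

/-- The frame at `p` on a smaller open set. -/
def frameOn (p : X) {W : X.Opens} (hp : W ≤ c.nbhd p) : c.Sec W := c.resSec hp (c.frame p)

theorem frameOn_apply (p : X) {W : X.Opens} (hp : W ≤ c.nbhd p) (x : X) :
    (c.frameOn p hp).1 x =
      (c.gOn x p (inf_le_right : W ⊓ c.nbhd x ≤ c.nbhd x) (inf_le_left.trans hp) :
        Γ(X, W ⊓ c.nbhd x)) := by
  show res _ ((c.gOn x p (inf_le_right : c.nbhd p ⊓ c.nbhd x ≤ c.nbhd x) inf_le_left :
    Γ(X, c.nbhd p ⊓ c.nbhd x)ˣ) : Γ(X, c.nbhd p ⊓ c.nbhd x)) = _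
  rw [← coe_resU, resU_gOn]

theorem coordOn_frameOn (p : X) {W : X.Opens} (hp : W ≤ c.nbhd p) :
    c.coordOn p hp (c.frameOn p hp) = 1 := by
  show res _ ((c.frameOn p hp).1 p) = 1
  rw [frameOn_apply, ← coe_resU, resU_gOn, gOn_self, Units.val_one]

theorem coordOn_smul_frameOn (p : X) {W : X.Opens} (hp : W ≤ c.nbhd p) (s : c.Sec W) :
    c.coordOn p hp s • c.frameOn p hp = s := by
  refine Subtype.ext (funext fun x => ?_)
  rw [smul_apply, frameOn_apply]
  have h := s.2 x p (W ⊓ c.nbhd x) inf_le_left inf_le_right (inf_le_left.trans hp)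
  rw [res_self] at h
  rw [h, coordOn, LinearMap.coe_mk, AddHom.coe_mk, res_res, mul_comm]

theorem coordOn_injective (p : X) {W : X.Opens} (hp : W ≤ c.nbhd p) :
    Function.Injective (c.coordOn p hp) := fun s t h => by
  rw [← c.coordOn_smul_frameOn p hp s, h, c.coordOn_smul_frameOn]

theorem coordOn_resSec (p : X) {W W' : X.Opens} (h : W' ≤ W) (hp : W ≤ c.nbhd p) (s : c.Sec W) :
    c.coordOn p (h.trans hp) (c.resSec h s) = res h (c.coordOn p hp s) := by
  show res _ (res _ (s.1 p)) = res h (res _ (s.1 p))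
  rw [res_res, res_res]

theorem coordOn_change (p q : X) {W : X.Opens} (hp : W ≤ c.nbhd p) (hq : W ≤ c.nbhd q)
    (s : c.Sec W) : c.coordOn p hp s = c.gOn p q hp hq * c.coordOn q hq s :=
  s.2 p q W le_rfl hp hq

theorem resSec_self {W : X.Opens} (h : W ≤ W) (s : c.Sec W) : c.resSec h s = s :=
  Subtype.ext (funext fun _ => res_self _ _)

theorem sec_ext_cover {ι : Type*} {W : X.Opens} (V : ι → X.Opens) (hV : ∀ i, V i ≤ W)
    (hc : W ≤ ⨆ i, V i) {s t : c.Sec W} (h : ∀ i, c.resSec (hV i) s = c.resSec (hV i) t) :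
    s = t :=
  Subtype.ext (funext fun x => eq_of_res_cover (fun i => V i ⊓ c.nbhd x)
    (fun i => inf_le_inf_right _ (hV i))
    (by rw [← iSup_inf_eq]; exact inf_le_inf_right _ hc)
    fun i => congrFun (congrArg Subtype.val (h i)) x)

theorem exists_glueSec_iSup {ι : Type*} {W : X.Opens} (V : ι → X.Opens) (hV : ∀ i, V i ≤ W)
    (hc : W ≤ ⨆ i, V i) (s : ∀ i, c.Sec (V i))
    (h : ∀ i j, c.resSec (inf_le_left : V i ⊓ V j ≤ V i) (s i) = c.resSec inf_le_right (s j)) :
    ∃ t : c.Sec W, ∀ i, c.resSec (hV i) t = s i := by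
  have hcx : ∀ x, W ⊓ c.nbhd x ≤ ⨆ i, V i ⊓ c.nbhd x := fun x => by
    rw [← iSup_inf_eq]; exact inf_le_inf_right _ hc
  choose t ht using fun x => exists_res_glue (fun i => V i ⊓ c.nbhd x)
    (fun i => inf_le_inf_right _ (hV i)) (hcx x) (fun i => (s i).1 x) fun i j => by
      have e := congrArg (res (le_inf (inf_le_inf inf_le_left inf_le_left)
        (inf_le_left.trans inf_le_right) : (V i ⊓ c.nbhd x) ⊓ (V j ⊓ c.nbhd x) ≤
          (V i ⊓ V j) ⊓ c.nbhd x)) (congrFun (congrArg Subtype.val (h i j)) x)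
      simp only [resSec, AddMonoidHom.coe_mk, ZeroHom.coe_mk, res_res] at e
      exact e
  refine ⟨⟨t, fun x y O hO hx hy => ?_⟩, fun i => Subtype.ext (funext fun x => ht x i)⟩
  refine eq_of_res_cover (fun i => V i ⊓ O) (fun i => inf_le_right)
    (by rw [← iSup_inf_eq]; exact le_inf (hO.trans hc) le_rfl) fun i => ?_
  have e := (s i).2 x y (V i ⊓ O) inf_le_left (inf_le_right.trans hx) (inf_le_right.trans hy)
  rw [← ht x i, ← ht y i, res_res, res_res] at e
  rw [map_mul, res_res, res_res, ← coe_resU, resU_gOn]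
  exact e

theorem nbhd_cover (W : X.Opens) : W ≤ ⨆ x, W ⊓ c.nbhd x := fun p hp =>
  TopologicalSpace.Opens.mem_iSup.mpr ⟨p, hp, c.mem p⟩

theorem exists_pair {W : X.Opens} (t : c.inv.Sec W) (s : c.Sec W) :
    ∃ a : Γ(X, W), ∀ x, res (inf_le_left : W ⊓ c.nbhd x ≤ W) a = t.1 x * s.1 x :=
  exists_res_glue (fun x => W ⊓ c.nbhd x) (fun _ => inf_le_left) (c.nbhd_cover W)
    (fun x => t.1 x * s.1 x) fun x y => by
      set O : X.Opens := (W ⊓ c.nbhd x) ⊓ (W ⊓ c.nbhd y)
      have hs := s.2 x y O (inf_le_left.trans inf_le_left) (inf_le_left.trans inf_le_right)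
        (inf_le_right.trans inf_le_right)
      have ht := t.2 x y O (inf_le_left.trans inf_le_left) (inf_le_left.trans inf_le_right)
        (inf_le_right.trans inf_le_right)
      rw [gOn_inv_cocycle] at ht
      rw [map_mul, map_mul, hs, ht, mul_mul_mul_comm, Units.inv_mul, one_mul]

/-- The pairing of sections of a cocycle with sections of its dual. -/
def pair {W : X.Opens} (t : c.inv.Sec W) (s : c.Sec W) : Γ(X, W) := (c.exists_pair t s).choose

theorem res_pair {W : X.Opens} (t : c.inv.Sec W) (s : c.Sec W) (x : X) :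
    res (inf_le_left : W ⊓ c.nbhd x ≤ W) (c.pair t s) = t.1 x * s.1 x :=
  (c.exists_pair t s).choose_spec x

theorem eq_pair {W : X.Opens} {t : c.inv.Sec W} {s : c.Sec W} {a : Γ(X, W)}
    (h : ∀ x, res (inf_le_left : W ⊓ c.nbhd x ≤ W) a = t.1 x * s.1 x) : a = c.pair t s :=
  eq_of_res_cover (fun x => W ⊓ c.nbhd x) (fun _ => inf_le_left) (c.nbhd_cover W) fun x =>
    (h x).trans (c.res_pair t s x).symm

theorem smul_pair {W : X.Opens} (a : Γ(X, W)) (t : c.inv.Sec W) (s : c.Sec W) :
    c.pair (a • t) s = a * c.pair t s :=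
  (c.eq_pair fun x => by rw [map_mul, res_pair, smul_apply, mul_assoc]).symm

/-- Pairing with a section of the dual, as a linear form. -/
def pairL {W : X.Opens} (t : c.inv.Sec W) : c.Sec W →ₗ[Γ(X, W)] Γ(X, W) where
  toFun := c.pair t
  map_add' s s' := (c.eq_pair fun x => by
    rw [map_add, res_pair, res_pair, AddSubgroup.coe_add, Pi.add_apply, mul_add]).symm
  map_smul' a s := (c.eq_pair fun x => by
    rw [RingHom.id_apply, smul_eq_mul, map_mul, res_pair, smul_apply, mul_left_comm]).symm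

theorem pair_smul {W : X.Opens} (a : Γ(X, W)) (t : c.inv.Sec W) (s : c.Sec W) :
    c.pair t (a • s) = a * c.pair t s :=
  (c.pairL t).map_smul a s

theorem pair_resSec {W W' : X.Opens} (h : W' ≤ W) (t : c.inv.Sec W) (s : c.Sec W) :
    c.pair (c.inv.resSec h t) (c.resSec h s) = res h (c.pair t s) := by
  refine (c.eq_pair fun x => ?_).symm
  rw [res_res, ← res_res (inf_le_inf_right _ h) inf_le_left, res_pair, map_mul]
  rfl

theorem pair_eq_coordOn {p : X} {W : X.Opens} (hp : W ≤ c.nbhd p) (t : c.inv.Sec W) (s : c.Sec W) :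
    c.pair t s = c.inv.coordOn p hp t * c.coordOn p hp s := by
  have h := congrArg (res (le_inf le_rfl hp)) (c.res_pair t s p)
  rwa [res_res, res_self, map_mul] at h

section Affine

theorem exists_trivializing {U : X.Opens} (hU : IsAffineOpen U) :
    ∃ G : Finset Γ(X, U), Ideal.span (G : Set Γ(X, U)) = ⊤ ∧
      ∀ g ∈ G, ∃ p, X.basicOpen g ≤ c.nbhd p := by
  classical
  set S : Set Γ(X, U) := {g | ∃ p, X.basicOpen g ≤ c.nbhd p}
  have hcov : U ≤ ⨆ g : S, X.basicOpen g.1 := fun x hx => by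
    obtain ⟨g, hg, hxg⟩ := hU.exists_basicOpen_le (V := c.nbhd x) ⟨x, c.mem x⟩ hx
    exact TopologicalSpace.Opens.mem_iSup.mpr ⟨⟨g, x, hg⟩, hxg⟩
  obtain ⟨G, hG, h1⟩ := Submodule.mem_span_finite_of_mem_span
    ((Ideal.eq_top_iff_one _).mp (hU.self_le_iSup_basicOpen_iff.mp hcov))
  exact ⟨G, (Ideal.eq_top_iff_one _).mpr h1, fun g hg => hG hg⟩

theorem sec_kill {U V : X.Opens} (hV : IsAffineOpen V) (hVU : V ≤ U) (f : Γ(X, U))
    (s : c.Sec V) (h : c.resSec (inf_le_left : V ⊓ X.basicOpen f ≤ V) s = 0) :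
    ∃ m : ℕ, res hVU f ^ m • s = 0 := by
  classical
  obtain ⟨G, hG, hGp⟩ := c.exists_trivializing hV
  choose p hp using hGp
  have hcov : V ≤ ⨆ g : (G : Set Γ(X, V)), X.basicOpen g.1 := hV.self_le_iSup_basicOpen_iff.mpr hG
  have key : ∀ g : (G : Set Γ(X, V)), ∃ m : ℕ,
      c.resSec (X.basicOpen_le g.1) (res hVU f ^ m • s) = 0 := by
    rintro ⟨g, hg⟩
    have h0 : res (inf_le_left : X.basicOpen g ⊓ X.basicOpen f ≤ X.basicOpen g)
        (c.coordOn (p g hg) (hp g hg) (c.resSec (X.basicOpen_le g) s)) = 0 := by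
      rw [← c.coordOn_resSec (p g hg) inf_le_left (hp g hg), resSec_resSec,
        ← c.resSec_resSec (le_inf (inf_le_left.trans (X.basicOpen_le g)) inf_le_right :
            X.basicOpen g ⊓ X.basicOpen f ≤ V ⊓ X.basicOpen f)
          (inf_le_left : V ⊓ X.basicOpen f ≤ V),
        h, map_zero, map_zero]
    obtain ⟨m, hm⟩ := res_basicOpen_kill (hV.basicOpen g) ((X.basicOpen_le g).trans hVU) f _ h0
    refine ⟨m, c.coordOn_injective (p g hg) (hp g hg) ?_⟩
    rw [resSec_smul, map_smul, map_pow, res_res, smul_eq_mul, hm, map_zero]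
  choose m hm using key
  refine ⟨Finset.univ.sup m, c.sec_ext_cover (fun g : (G : Set Γ(X, V)) => X.basicOpen g.1)
    (fun g => X.basicOpen_le g.1) hcov fun g => ?_⟩
  have e := hm g
  have hle : m g ≤ Finset.univ.sup m := Finset.le_sup (Finset.mem_univ g)
  obtain ⟨d, hd⟩ := Nat.exists_eq_add_of_le' hle
  rw [resSec_smul, map_pow] at e
  rw [hd, resSec_smul, map_pow, pow_add, mul_smul, e, smul_zero, map_zero]

theorem exists_extend {U : X.Opens} (hU : IsAffineOpen U) (f : Γ(X, U))
    (s₀ : c.Sec (X.basicOpen f)) :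
    ∃ (N : ℕ) (s : c.Sec U),
      c.resSec (X.basicOpen_le f) s = res (X.basicOpen_le f) f ^ N • s₀ := by
  classical
  obtain ⟨G, hG, hGp⟩ := c.exists_trivializing hU
  choose p hp using hGp
  let I := (G : Set Γ(X, U))
  let V : I → X.Opens := fun g => X.basicOpen g.1
  have hV : ∀ g : I, V g ≤ U := fun g => X.basicOpen_le g.1
  have hcov : U ≤ ⨆ g, V g := hU.self_le_iSup_basicOpen_iff.mpr hG
  have piece : ∀ g : I, ∃ (n : ℕ) (t : c.Sec (V g)),
      c.resSec (inf_le_left : V g ⊓ X.basicOpen f ≤ V g) t =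
        res ((inf_le_left : V g ⊓ X.basicOpen f ≤ V g).trans (hV g)) f ^ n •
          c.resSec (inf_le_right : V g ⊓ X.basicOpen f ≤ X.basicOpen f) s₀ := by
    rintro ⟨g, hg⟩
    obtain ⟨n, a, ha⟩ := res_basicOpen_extend (hU.basicOpen g) (X.basicOpen_le g) f
      (c.coordOn (p g hg) (inf_le_left.trans (hp g hg)) (c.resSec inf_le_right s₀))
    refine ⟨n, a • c.frameOn (p g hg) (hp g hg),
      c.coordOn_injective (p g hg) (inf_le_left.trans (hp g hg)) ?_⟩
    refine (c.coordOn_resSec (p g hg) inf_le_left (hp g hg) _).trans ?_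
    rw [map_smul, coordOn_frameOn, smul_eq_mul, mul_one, map_smul, smul_eq_mul]
    exact ha
  choose n t ht using piece
  set N := Finset.univ.sup n
  obtain ⟨t', ht'⟩ : ∃ t' : ∀ g : I, c.Sec (V g), ∀ g,
      c.resSec (inf_le_left : V g ⊓ X.basicOpen f ≤ V g) (t' g) =
        res ((inf_le_left : V g ⊓ X.basicOpen f ≤ V g).trans (hV g)) f ^ N •
          c.resSec (inf_le_right : V g ⊓ X.basicOpen f ≤ X.basicOpen f) s₀ :=
    ⟨fun g => res (hV g) f ^ (N - n g) • t g, fun g => by
      rw [resSec_smul, map_pow, res_res, ht, ← mul_smul, ← pow_add,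
        Nat.sub_add_cancel (Finset.le_sup (f := n) (Finset.mem_univ g))]⟩
  have hover : ∀ g g' : I, ∃ m : ℕ, res (inf_le_left.trans (hV g) : V g ⊓ V g' ≤ U) f ^ m •
      (c.resSec inf_le_left (t' g) - c.resSec inf_le_right (t' g')) = 0 := fun g g' => by
    refine c.sec_kill ?_ _ f _ ?_
    · show IsAffineOpen (X.basicOpen g.1 ⊓ X.basicOpen g'.1)
      rw [← Scheme.basicOpen_mul]
      exact hU.basicOpen _
    · have e1 :=
        congrArg (c.resSec (inf_le_inf_right (X.basicOpen f) (inf_le_left : V g ⊓ V g' ≤ _)))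
        (ht' g)
      have e2 :=
        congrArg (c.resSec (inf_le_inf_right (X.basicOpen f) (inf_le_right : V g ⊓ V g' ≤ _)))
        (ht' g')
      rw [resSec_resSec, resSec_smul, map_pow, res_res, resSec_resSec] at e1 e2
      rw [map_sub, resSec_resSec, resSec_resSec, sub_eq_zero]
      exact e1.trans e2.symm
  choose m hm using hover
  set K := Finset.univ.sup fun gg : I × I => m gg.1 gg.2
  obtain ⟨s, hs⟩ := c.exists_glueSec_iSup V hV hcov
    (fun g => res (hV g) f ^ K • t' g) fun g g' => by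
    rw [resSec_smul, resSec_smul, map_pow, map_pow, res_res, res_res, ← sub_eq_zero, ← smul_sub,
      ← Nat.sub_add_cancel (show m g g' ≤ K from Finset.le_sup (f := fun gg : I × I => m gg.1 gg.2)
        (Finset.mem_univ (g, g'))), pow_add, mul_smul]
    rw [hm g g', smul_zero]
  refine ⟨K + N, s, c.sec_ext_cover (fun g => V g ⊓ X.basicOpen f) (fun g => inf_le_right) ?_
    fun g => ?_⟩
  · rw [← iSup_inf_eq]
    exact le_inf ((X.basicOpen_le f).trans hcov) le_rfl
  · rw [resSec_resSec, ← c.resSec_resSec inf_le_left (hV g), hs, resSec_smul, map_pow, res_res, ht',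
      resSec_smul, map_pow, res_res, ← mul_smul, ← pow_add]

end Affine

/-- Sections of a cocycle and of its dual over an open set pairing to one. -/
structure SecFrame (c : Cocycle X) (W : X.Opens) : Type u where
  n : ℕ
  σ : Fin n → c.Sec W
  τ : Fin n → c.inv.Sec W
  sum_pair : ∑ i, c.pair (τ i) (σ i) = 1

/-- Over an affine open a cocycle has a frame by sections. -/
theorem nonempty_secFrame {U : X.Opens} (hU : IsAffineOpen U) : Nonempty (SecFrame c U) := by
  classical
  obtain ⟨G, hG, hGp⟩ := c.exists_trivializing hU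
  choose p hp using hGp
  let I := (G : Set Γ(X, U))
  have key : ∀ g : I, ∃ (k : ℕ) (t : c.inv.Sec U) (s : c.Sec U), c.pair t s = g.1 ^ k := by
    rintro ⟨g, hg⟩
    obtain ⟨a, s, hs⟩ := c.exists_extend hU g (c.frameOn (p g hg) (hp g hg))
    obtain ⟨b, t, ht⟩ := c.inv.exists_extend hU g (c.inv.frameOn (p g hg) (hp g hg))
    have e : res (X.basicOpen_le g) (c.pair t s) = res (X.basicOpen_le g) g ^ (b + a) := by
      rw [← pair_resSec, hs, ht, smul_pair, pair_smul, c.pair_eq_coordOn (hp g hg), coordOn_frameOn,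
        coordOn_frameOn, mul_one, mul_one, pow_add]
    have e' : res (inf_le_left : U ⊓ X.basicOpen g ≤ U) (c.pair t s - g ^ (b + a)) = 0 := by
      rw [← res_res (inf_le_right : U ⊓ X.basicOpen g ≤ X.basicOpen g) (X.basicOpen_le g), map_sub,
        map_pow, e, sub_self, map_zero]
    obtain ⟨m, hm⟩ := res_basicOpen_kill hU le_rfl g _ e'
    rw [res_self, mul_sub, sub_eq_zero, ← pow_add] at hm
    exact ⟨m + (b + a), g ^ m • t, s, by rw [smul_pair, hm]⟩
  choose k t s hts using key
  set K := Finset.univ.sup k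
  have hspan : Ideal.span (Set.range fun g : I => g.1 ^ K) = ⊤ := by
    have h := Ideal.span_pow_eq_top _ hG K
    rwa [show ((fun x : Γ(X, U) => x ^ K) '' (G : Set Γ(X, U))) = Set.range fun g : I => g.1 ^ K by
      ext x; simp [I]] at h
  have h1 := (Ideal.eq_top_iff_one _).mp hspan
  rw [Ideal.span, Submodule.mem_span_range_iff_exists_fun] at h1
  obtain ⟨b, hb⟩ := h1
  let e := Fintype.equivFin I
  refine ⟨⟨Fintype.card I, fun i => s (e.symm i),
    fun i => (b (e.symm i) * (e.symm i).1 ^ (K - k (e.symm i))) • t (e.symm i), ?_⟩⟩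
  rw [← hb, ← e.symm.sum_comp]
  refine Finset.sum_congr rfl fun i _ => ?_
  rw [smul_pair, hts, smul_eq_mul, mul_assoc, ← pow_add,
    Nat.sub_add_cancel (Finset.le_sup (f := k) (Finset.mem_univ _))]

namespace SecFrame

variable {c} {W W' : X.Opens}

theorem sum_smul (F : SecFrame c W) (s : c.Sec W) : ∑ i, c.pair (F.τ i) s • F.σ i = s := by
  refine Subtype.ext (funext fun x => ?_)
  rw [AddSubmonoidClass.coe_finsetSum, Finset.sum_apply]
  have h := congrArg (res (inf_le_left : W ⊓ c.nbhd x ≤ W)) F.sum_pair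
  simp only [map_sum, map_one, res_pair] at h
  simp only [smul_apply, res_pair]
  calc ∑ i, (F.τ i).1 x * s.1 x * (F.σ i).1 x = s.1 x * ∑ i, (F.τ i).1 x * (F.σ i).1 x := by
        rw [Finset.mul_sum]; exact Finset.sum_congr rfl fun i _ => by ring
    _ = s.1 x := by rw [h, mul_one]

/-- The rank one frame of the module of sections. -/
def toFrame (F : SecFrame c W) : RankOneFrame Γ(X, W) (c.Sec W) where
  n := F.n
  σ := F.σ
  τ i := c.pairL (F.τ i)
  sum_smul := F.sum_smul
  sum_one := F.sum_pair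
  swap φ s s' := by
    have hφ : ∀ z, φ z = ∑ i, c.pair (F.τ i) z * φ (F.σ i) := fun z => by
      conv_lhs => rw [← F.sum_smul z, map_sum]
      simp only [map_smul, smul_eq_mul]
    rw [hφ s, hφ s', Finset.sum_smul, Finset.sum_smul]
    refine Finset.sum_congr rfl fun i _ => ?_
    rw [mul_comm, mul_smul, mul_comm, mul_smul]
    congr 1
    exact Subtype.ext (funext fun x => by simp only [smul_apply, res_pair]; ring)

/-- The transition matrix between two frames. -/
def trans (F F' : SecFrame c W) : Matrix (Fin F'.n) (Fin F.n) Γ(X, W) :=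
  Matrix.of fun k l => c.pair (F'.τ k) (F.σ l)

theorem trans_mul (F F' F'' : SecFrame c W) : F'.trans F'' * F.trans F' = F.trans F'' := by
  ext k m
  rw [Matrix.mul_apply]
  conv_rhs => rw [trans, Matrix.of_apply, ← F'.sum_smul (F.σ m)]
  refine Eq.trans ?_ (map_sum (c.pairL (F''.τ k)) _ _).symm
  refine Finset.sum_congr rfl fun j _ => ?_
  refine Eq.trans ?_ ((c.pairL (F''.τ k)).map_smul _ _).symm
  exact mul_comm _ _

/-- Restriction of frames. -/
def restrict (F : SecFrame c W) (h : W' ≤ W) : SecFrame c W' where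
  n := F.n
  σ i := c.resSec h (F.σ i)
  τ i := c.inv.resSec h (F.τ i)
  sum_pair := by simp only [pair_resSec, ← map_sum, F.sum_pair, map_one]

theorem trans_restrict (F F' : SecFrame c W) (h : W' ≤ W) :
    (F.restrict h).trans (F'.restrict h) = (F.trans F').map (res h) :=
  Matrix.ext fun _ _ => c.pair_resSec h _ _

end SecFrame

/-- The pullback of a section of the dual, as a section of the dual of the pullback. -/
def pullInvSec (f : X ⟶ Y) (c : Cocycle Y) {W : Y.Opens} {W' : X.Opens} (h : W' ≤ f ⁻¹ᵁ W) :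
    c.inv.Sec W →+ (c.pullback f).inv.Sec W' where
  toFun t := ⟨fun x => ((c.inv.pullSec f h t).1 x :), fun x y V hV hx hy => by
    have hg : c.inv.gOn (f.base x) (f.base y) (W := c.nbhd (f.base x) ⊓ c.nbhd (f.base y))
        inf_le_left inf_le_right =
        (c.gOn (f.base x) (f.base y) (W := c.nbhd (f.base x) ⊓ c.nbhd (f.base y))
          inf_le_left inf_le_right)⁻¹ := gOn_inv_cocycle c _ _ _ _
    have hV₀ : V ≤ f ⁻¹ᵁ (c.nbhd (f.base x) ⊓ c.nbhd (f.base y)) := le_inf hx hy
    have e := (c.inv.pullSec f h t).2 x y V hV hx hy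
    rw [gOn_pullback f c.inv x y hV₀ hx hy inf_le_left inf_le_right, hg, map_inv] at e
    rw [gOn_inv_cocycle, gOn_pullback f c x y hV₀ hx hy inf_le_left inf_le_right]
    exact e⟩
  map_zero' := Subtype.ext (funext fun x => congrFun (congrArg Subtype.val
    (map_zero (c.inv.pullSec f h))) x)
  map_add' t t' := Subtype.ext (funext fun x => congrFun (congrArg Subtype.val
    (map_add (c.inv.pullSec f h) t t')) x)

theorem pair_pullSec (f : X ⟶ Y) (c : Cocycle Y) {W : Y.Opens} {W' : X.Opens}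
    (h : W' ≤ f ⁻¹ᵁ W) (t : c.inv.Sec W) (s : c.Sec W) :
    (c.pullback f).pair (c.pullInvSec f h t) (c.pullSec f h s) = pull f h (c.pair t s) := by
  refine ((c.pullback f).eq_pair fun x => ?_).symm
  have hle : W' ⊓ f ⁻¹ᵁ c.nbhd (f.base x) ≤ f ⁻¹ᵁ (W ⊓ c.nbhd (f.base x)) :=
    (inf_le_inf_right _ h).trans (le_preimage_inf f _ _)
  rw [res_pull, ← pull_res f inf_le_left hle, res_pair, map_mul]
  rfl

/-- Pullback of frames. -/
def SecFrame.pull {c : Cocycle Y} {W : Y.Opens} (F : SecFrame c W) (f : X ⟶ Y) {W' : X.Opens}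
    (h : W' ≤ f ⁻¹ᵁ W) : SecFrame (c.pullback f) W' where
  n := F.n
  σ i := c.pullSec f h (F.σ i)
  τ i := c.pullInvSec f h (F.τ i)
  sum_pair := by simp only [pair_pullSec, ← map_sum, F.sum_pair, map_one]

theorem SecFrame.trans_pull {c : Cocycle Y} {W : Y.Opens} (F F' : SecFrame c W) (f : X ⟶ Y)
    {W' : X.Opens} (h : W' ≤ f ⁻¹ᵁ W) :
    (F.pull f h).trans (F'.pull f h) = (F.trans F').map (RelPicard.pull f h) :=
  Matrix.ext fun _ _ => c.pair_pullSec f h _ _

end Cocycle

end FLTAgent.RelPicard
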