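import Fermat.Agent.RelPicard.ProductCover
import Fermat.Agent.RelPicard.Cocycle

/-!
# The charts of the product over a square-zero surjection of rings

`chartMapU`, `chartMapV`, `chartMapW` pull functions on the charts along a change of base; for a
surjection with square-zero kernel they are surjective with square-zero kernel.
-/

set_option autoImplicit false

universe u

open CategoryTheory CategoryTheory.Limits AlgebraicGeometry TopologicalSpace
  AlgebraicGeometry.RelPicard
open scoped Polynomial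

noncomputable section

namespace FLTAgent.RelPicard.CurveCover

variable {k : Type u} [Field k] {C : Scheme.{u}} {c : C ⟶ Spec (CommRingCat.of k)}
  (D : CurveCover k c) {R S : Type u} [CommRing R] [CommRing S]
  (t : Spec (CommRingCat.of R) ⟶ Spec (CommRingCat.of k)) (f : R →+* S)

/-- Functions on the chart of `x` pulled along the change of base. -/
def chartMapU : Γ(pullback c t, D.UT t) →+*
    Γ(pullback c (Spec.map (CommRingCat.ofHom f) ≫ t), D.UT _) :=
  pull (mapT t f) (D.mapT_preimage_UT t f).ge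

/-- Functions on the chart of `y` pulled along the change of base. -/
def chartMapV : Γ(pullback c t, D.VT t) →+*
    Γ(pullback c (Spec.map (CommRingCat.ofHom f) ≫ t), D.VT _) :=
  pull (mapT t f) (D.mapT_preimage_VT t f).ge

theorem mapT_preimage_WT : mapT t f ⁻¹ᵁ (D.UT t ⊓ D.VT t) =
    D.UT (Spec.map (CommRingCat.ofHom f) ≫ t) ⊓ D.VT (Spec.map (CommRingCat.ofHom f) ≫ t) := by
  rw [Scheme.Hom.preimage_inf, D.mapT_preimage_UT, D.mapT_preimage_VT]

/-- Functions on the overlap pulled along the change of base. -/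
def chartMapW : Γ(pullback c t, D.UT t ⊓ D.VT t) →+*
    Γ(pullback c (Spec.map (CommRingCat.ofHom f) ≫ t),
      D.UT (Spec.map (CommRingCat.ofHom f) ≫ t) ⊓ D.VT (Spec.map (CommRingCat.ofHom f) ≫ t)) :=
  pull (mapT t f) (D.mapT_preimage_WT t f).ge

theorem chartMapU_polyComb (p : Fin D.r → R[X]) :
    D.chartMapU t f (polyComb (pullback.snd c t) (D.UT t) (D.xT t) (D.wUT t) p) =
      polyComb (pullback.snd c (Spec.map (CommRingCat.ofHom f) ≫ t)) (D.UT _) (D.xT _) (D.wUT _)
        (fun i => (p i).map f) :=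
  D.mapT_polyComb_UT t f p

theorem chartMapV_polyComb (p : Fin D.r → R[X]) :
    D.chartMapV t f (polyComb (pullback.snd c t) (D.VT t) (D.yT t) (D.wVT t) p) =
      polyComb (pullback.snd c (Spec.map (CommRingCat.ofHom f) ≫ t)) (D.VT _) (D.yT _) (D.wVT _)
        (fun i => (p i).map f) :=
  D.mapT_polyComb_VT t f p

theorem chartMapW_resU (a : Γ(pullback c t, D.UT t)) :
    D.chartMapW t f (res inf_le_left a) =
      res (inf_le_left : D.UT (Spec.map (CommRingCat.ofHom f) ≫ t) ⊓
        D.VT (Spec.map (CommRingCat.ofHom f) ≫ t) ≤ _) (D.chartMapU t f a) := by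
  rw [chartMapW, chartMapU, pull_res, res_pull]

theorem chartMapW_resV (b : Γ(pullback c t, D.VT t)) :
    D.chartMapW t f (res inf_le_right b) =
      res (inf_le_right : D.UT (Spec.map (CommRingCat.ofHom f) ≫ t) ⊓
        D.VT (Spec.map (CommRingCat.ofHom f) ≫ t) ≤ _) (D.chartMapV t f b) := by
  rw [chartMapW, chartMapV, pull_res, res_pull]

variable {f}

/-- An element whose coefficients are in the kernel lies in the extension of the kernel. -/
theorem mem_map_ker_of_coeff {X : Scheme.{u}} {π : X ⟶ Spec (CommRingCat.of R)} {U : X.Opens}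
    {z : Γ(X, U)} {r : ℕ} {w : Fin r → Γ(X, U)} {p : Fin r → R[X]}
    (hp : ∀ i, (p i).map f = 0) :
    polyComb π U z w p ∈ (RingHom.ker f).map (scalarHom π U) := by
  refine Ideal.sum_mem _ fun i _ => Ideal.mul_mem_right _ _ ?_
  rw [Polynomial.eval₂_eq_sum]
  refine Ideal.sum_mem _ fun n _ => Ideal.mul_mem_right _ _ (Ideal.mem_map_of_mem _ ?_)
  rw [RingHom.mem_ker, ← Polynomial.coeff_map, hp i, Polynomial.coeff_zero]

theorem mul_eq_zero_of_mem_map_ker (hsq : ∀ a b, f a = 0 → f b = 0 → a * b = 0) {A : Type u}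
    [CommRing A] (φ : R →+* A) {u v : A} (hu : u ∈ (RingHom.ker f).map φ)
    (hv : v ∈ (RingHom.ker f).map φ) : u * v = 0 := by
  have h := Ideal.mul_mem_mul hu hv
  rw [← Ideal.map_mul, show RingHom.ker f * RingHom.ker f = ⊥ from le_bot_iff.mp
    (Ideal.mul_le.mpr fun a ha b hb => Ideal.mem_bot.mpr (hsq a b ha hb)), Ideal.map_bot] at h
  exact Ideal.mem_bot.mp h

theorem chartMapU_surjective (hf : Function.Surjective f) :
    Function.Surjective (D.chartMapU t f) := by
  intro b
  obtain ⟨p, rfl⟩ := (D.bijective_polyComb_UT _).2 b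
  choose q hq using fun i => Polynomial.map_surjective f hf (p i)
  exact ⟨_, (D.chartMapU_polyComb t f q).trans (by simp only [hq])⟩

theorem chartMapV_surjective (hf : Function.Surjective f) :
    Function.Surjective (D.chartMapV t f) := by
  intro b
  obtain ⟨p, rfl⟩ := (D.bijective_polyComb_VT _).2 b
  choose q hq using fun i => Polynomial.map_surjective f hf (p i)
  exact ⟨_, (D.chartMapV_polyComb t f q).trans (by simp only [hq])⟩

theorem mem_map_ker_of_chartMapU_eq_zero {a : Γ(pullback c t, D.UT t)}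
    (h : D.chartMapU t f a = 0) :
    a ∈ (RingHom.ker f).map (scalarHom (pullback.snd c t) (D.UT t)) := by
  obtain ⟨p, rfl⟩ := (D.bijective_polyComb_UT t).2 a
  rw [D.chartMapU_polyComb] at h
  refine mem_map_ker_of_coeff fun i => congrFun ((D.bijective_polyComb_UT _).1
    (h.trans (show (0 : Γ(pullback c (Spec.map (CommRingCat.ofHom f) ≫ t), D.UT _)) =
      polyComb _ (D.UT _) (D.xT _) (D.wUT _) (fun _ => 0) by simp [polyComb]))) i

theorem mem_map_ker_of_chartMapV_eq_zero {a : Γ(pullback c t, D.VT t)}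
    (h : D.chartMapV t f a = 0) :
    a ∈ (RingHom.ker f).map (scalarHom (pullback.snd c t) (D.VT t)) := by
  obtain ⟨p, rfl⟩ := (D.bijective_polyComb_VT t).2 a
  rw [D.chartMapV_polyComb] at h
  refine mem_map_ker_of_coeff fun i => congrFun ((D.bijective_polyComb_VT _).1
    (h.trans (show (0 : Γ(pullback c (Spec.map (CommRingCat.ofHom f) ≫ t), D.VT _)) =
      polyComb _ (D.VT _) (D.yT _) (D.wVT _) (fun _ => 0) by simp [polyComb]))) i

theorem chartMapU_sq_zero (hsq : ∀ a b, f a = 0 → f b = 0 → a * b = 0)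
    (a b : Γ(pullback c t, D.UT t)) (ha : D.chartMapU t f a = 0) (hb : D.chartMapU t f b = 0) :
    a * b = 0 :=
  mul_eq_zero_of_mem_map_ker hsq _ (D.mem_map_ker_of_chartMapU_eq_zero t ha)
    (D.mem_map_ker_of_chartMapU_eq_zero t hb)

theorem chartMapV_sq_zero (hsq : ∀ a b, f a = 0 → f b = 0 → a * b = 0)
    (a b : Γ(pullback c t, D.VT t)) (ha : D.chartMapV t f a = 0) (hb : D.chartMapV t f b = 0) :
    a * b = 0 :=
  mul_eq_zero_of_mem_map_ker hsq _ (D.mem_map_ker_of_chartMapV_eq_zero t ha)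
    (D.mem_map_ker_of_chartMapV_eq_zero t hb)

theorem chartMapW_surjective (hf : Function.Surjective f) :
    Function.Surjective (D.chartMapW t f) := by
  intro z
  obtain ⟨a, n, rfl⟩ := D.exists_overlap_eq _ z
  obtain ⟨a', rfl⟩ := D.chartMapU_surjective t hf a
  refine ⟨res inf_le_left a' * res (inf_le_right : D.UT t ⊓ D.VT t ≤ D.VT t) (D.yT t) ^ n, ?_⟩
  rw [map_mul, map_pow, chartMapW_resU, chartMapW_resV,
    show D.chartMapV t f (D.yT t) = D.yT _ from D.mapT_yT t f]

theorem mem_map_ker_of_chartMapW_eq_zero {z : Γ(pullback c t, D.UT t ⊓ D.VT t)}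
    (h : D.chartMapW t f z = 0) :
    z ∈ (RingHom.ker f).map (scalarHom (pullback.snd c t) (D.UT t ⊓ D.VT t)) := by
  obtain ⟨a, n, rfl⟩ := D.exists_overlap_eq t z
  set t' := Spec.map (CommRingCat.ofHom f) ≫ t
  rw [map_mul, map_pow, chartMapW_resU, chartMapW_resV,
    show D.chartMapV t f (D.yT t) = D.yT t' from D.mapT_yT t f] at h
  have h1 : res (inf_le_left : D.UT t' ⊓ D.VT t' ≤ D.UT t') (D.chartMapU t f a) = 0 := by
    have h2 := congrArg (· * res (inf_le_left : D.UT t' ⊓ D.VT t' ≤ D.UT t') (D.xT t') ^ n) h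
    simp only [zero_mul] at h2
    rwa [mul_assoc, ← mul_pow, mul_comm (res inf_le_right _), D.xT_mul_yT, one_pow, mul_one] at h2
  let : Algebra Γ(pullback c t', D.UT t') Γ(pullback c t', D.UT t' ⊓ D.VT t') :=
    (res (inf_le_left : D.UT t' ⊓ D.VT t' ≤ D.UT t')).toAlgebra
  have : IsLocalization.Away (D.xT t') Γ(pullback c t', D.UT t' ⊓ D.VT t') :=
    (D.isAffineOpen_UT t').isLocalization_of_eq_basicOpen (D.xT t') (homOfLE inf_le_left)
      (D.basicOpen_xT t').symm
  obtain ⟨⟨_, m, rfl⟩, hm⟩ :=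
    (IsLocalization.map_eq_zero_iff (Submonoid.powers (D.xT t'))
      Γ(pullback c t', D.UT t' ⊓ D.VT t') _).mp h1
  have h3 : D.chartMapU t f (D.xT t ^ m * a) = 0 := by
    rw [map_mul, map_pow, show D.chartMapU t f (D.xT t) = D.xT t' from D.mapT_xT t f]
    exact hm
  have h4 := Ideal.mem_map_of_mem (res (inf_le_left : D.UT t ⊓ D.VT t ≤ D.UT t))
    (D.mem_map_ker_of_chartMapU_eq_zero t h3)
  rw [Ideal.map_map, show (res (inf_le_left : D.UT t ⊓ D.VT t ≤ D.UT t)).comp
    (scalarHom (pullback.snd c t) (D.UT t)) = scalarHom (pullback.snd c t) (D.UT t ⊓ D.VT t) from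
      RingHom.ext fun r => res_pull _ _ le_top _] at h4
  have h5 := Ideal.mul_mem_right
    (res (inf_le_right : D.UT t ⊓ D.VT t ≤ D.VT t) (D.yT t) ^ (m + n)) _ h4
  rw [map_mul, map_pow, pow_add, show ∀ x y z w : Γ(pullback c t, D.UT t ⊓ D.VT t),
    x * y * (z * w) = x * z * (y * w) from mul_mul_mul_comm, ← mul_pow, D.xT_mul_yT, one_pow,
    one_mul] at h5
  exact h5

theorem chartMapW_sq_zero (hsq : ∀ a b, f a = 0 → f b = 0 → a * b = 0)
    (a b : Γ(pullback c t, D.UT t ⊓ D.VT t)) (ha : D.chartMapW t f a = 0)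
    (hb : D.chartMapW t f b = 0) : a * b = 0 :=
  mul_eq_zero_of_mem_map_ker hsq _ (D.mem_map_ker_of_chartMapW_eq_zero t ha)
    (D.mem_map_ker_of_chartMapW_eq_zero t hb)

end FLTAgent.RelPicard.CurveCover
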