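import Fermat.Agent.RelPicard.ChartAlgebras
import Fermat.Agent.RelPicard.LiftingCharts

/-!
# Glued idempotents on the charts of the product as pairs, naturally in the base

`toPairData` turns glued rank one idempotents on the two charts of the product into a `PairData`
through the bases `chartBasisU`, `chartBasisV`; the evaluation maps and bases commute with change
of the base (`chartMapU_evalU`, `chartMapW_evalW`, ...).  Used by `AffineSectionsDictionary`.
-/

set_option autoImplicit false

universe u

open CategoryTheory CategoryTheory.Limits AlgebraicGeometry TopologicalSpace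
  AlgebraicGeometry.RelPicard
open scoped Polynomial

noncomputable section

namespace FLTAgent.RelPicard.CurveCover

variable {k : Type u} [Field k] {C : Scheme.{u}} {c : C ⟶ Spec (CommRingCat.of k)}
  (D : CurveCover k c) {R : Type u} [CommRing R]
  (t : Spec (CommRingCat.of R) ⟶ Spec (CommRingCat.of k))

theorem evalW_C (a : R) :
    D.evalW t (LaurentPolynomial.C a) = scalarHom (pullback.snd c t) (D.WT t) a :=
  LaurentPolynomial.eval₂_C _ _ _

theorem evalW_T (n : ℤ) :
    D.evalW t (LaurentPolynomial.T (-n)) =
      ((D.yUnit t ^ n : Γ(pullback c t, D.WT t)ˣ) : Γ(pullback c t, D.WT t)) := by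
  rw [evalW, LaurentPolynomial.eval₂_T, inv_zpow', neg_neg]

/-- The pair of glued idempotents on the charts of the product. -/
def toPairData (G : GluedIdem (res (inf_le_left : D.WT t ≤ D.UT t))
    (res (inf_le_right : D.WT t ≤ D.VT t))) : PairData R :=
  letI := D.algU t
  letI := D.algV t
  letI := D.algW t
  G.toPair (D.chartBasisU t) (D.chartBasisV t) (D.chartBasisWX t) (D.chartBasisWY t)
    (D.res_algebraMap_U t) (D.res_algebraMap_V t) (D.res_chartBasisU t) (D.res_chartBasisV t)

section Naturality

variable {S : Type u} [CommRing S] (f : R →+* S)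

theorem chartMapU_evalU (p : R[X]) :
    D.chartMapU t f (D.evalU t p) = D.evalU _ (p.map f) := by
  show ((mapT t f).appLE (D.UT t) (D.UT _) (D.mapT_preimage_UT t f).ge).hom (p.eval₂ _ (D.xT t)) =
    (p.map f).eval₂ _ _
  rw [Polynomial.hom_eval₂, Polynomial.eval₂_map, D.mapT_xT,
    show ((mapT t f).appLE (D.UT t) (D.UT _) (D.mapT_preimage_UT t f).ge).hom.comp
      (scalarHom (pullback.snd c t) (D.UT t)) = (scalarHom _ (D.UT _)).comp f from
      RingHom.ext fun a => appLE_scalarHom (pullback.snd c t)
        (pullback.snd c (Spec.map (CommRingCat.ofHom f) ≫ t)) (mapT t f) f (mapT_snd t f) _ a]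

theorem chartMapV_evalV (p : R[X]) :
    D.chartMapV t f (D.evalV t p) = D.evalV _ (p.map f) := by
  show ((mapT t f).appLE (D.VT t) (D.VT _) (D.mapT_preimage_VT t f).ge).hom (p.eval₂ _ (D.yT t)) =
    (p.map f).eval₂ _ _
  rw [Polynomial.hom_eval₂, Polynomial.eval₂_map, D.mapT_yT,
    show ((mapT t f).appLE (D.VT t) (D.VT _) (D.mapT_preimage_VT t f).ge).hom.comp
      (scalarHom (pullback.snd c t) (D.VT t)) = (scalarHom _ (D.VT _)).comp f from
      RingHom.ext fun a => appLE_scalarHom (pullback.snd c t)
        (pullback.snd c (Spec.map (CommRingCat.ofHom f) ≫ t)) (mapT t f) f (mapT_snd t f) _ a]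

theorem chartMapU_chartBasisU (i : Fin D.r) :
    letI := D.algU t; letI := D.algU (Spec.map (CommRingCat.ofHom f) ≫ t)
    D.chartMapU t f (D.chartBasisU t i) =
      D.chartBasisU (Spec.map (CommRingCat.ofHom f) ≫ t) i := by
  let := D.algU t
  let := D.algU (Spec.map (CommRingCat.ofHom f) ≫ t)
  rw [chartBasisU_apply, chartBasisU_apply]
  exact D.mapT_wUT t f i

theorem chartMapV_chartBasisV (i : Fin D.r) :
    letI := D.algV t; letI := D.algV (Spec.map (CommRingCat.ofHom f) ≫ t)
    D.chartMapV t f (D.chartBasisV t i) =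
      D.chartBasisV (Spec.map (CommRingCat.ofHom f) ≫ t) i := by
  let := D.algV t
  let := D.algV (Spec.map (CommRingCat.ofHom f) ≫ t)
  rw [chartBasisV_apply, chartBasisV_apply]
  exact D.mapT_wVT t f i

theorem chartMapW_evalW (p : LaurentPolynomial R) :
    D.chartMapW t f (D.evalW t p) =
      D.evalW (Spec.map (CommRingCat.ofHom f) ≫ t) (AddMonoidAlgebra.mapRingHom ℤ f p) := by
  suffices (D.chartMapW t f).comp (D.evalW t) =
      (D.evalW (Spec.map (CommRingCat.ofHom f) ≫ t)).comp (AddMonoidAlgebra.mapRingHom ℤ f) from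
    RingHom.congr_fun this p
  refine IsLocalization.ringHom_ext (Submonoid.powers (Polynomial.X : R[X]))
    (Polynomial.ringHom_ext (fun a => ?_) ?_)
  · show D.chartMapW t f (D.evalW t (Polynomial.toLaurent (Polynomial.C a))) =
      D.evalW _ (AddMonoidAlgebra.mapRingHom ℤ f (Polynomial.toLaurent (Polynomial.C a)))
    rw [← inX_eq_toLaurent, inX_map, ← res_evalU_eq, ← res_evalU_eq]
    exact (D.chartMapW_resU t f _).trans (congrArg _ (D.chartMapU_evalU t f _))
  · show D.chartMapW t f (D.evalW t (Polynomial.toLaurent Polynomial.X)) =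
      D.evalW _ (AddMonoidAlgebra.mapRingHom ℤ f (Polynomial.toLaurent Polynomial.X))
    rw [← inX_eq_toLaurent, inX_map, ← res_evalU_eq, ← res_evalU_eq]
    exact (D.chartMapW_resU t f _).trans (congrArg _ (D.chartMapU_evalU t f _))

end Naturality

end FLTAgent.RelPicard.CurveCover
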