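import Fermat.Agent.RelPicard.AffineSections
import Fermat.Agent.RelPicard.AffineSectionsPair

/-!
# The class of glued idempotents

Rank one idempotents on two opens covering a scheme, with inverse transition matrices on the
overlap, give a cocycle with frames on the two opens having these matrices.  A cocycle is determined
up to equivalence by these matrices.

Main declarations: `RankOneGlue`, `GluedIdem.cocycle`, `gluedIdem`,
`equiv_of_gluedIdem_eq`, `GluedIdem.map_mk_cocycle`.
-/

set_option autoImplicit false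

universe u

open CategoryTheory AlgebraicGeometry TopologicalSpace

noncomputable section

namespace FLTAgent.RelPicard

variable {X Y : Scheme.{u}}

/-- Matrix entries of rank one on an indexed family of opens. -/
structure RankOneGlue (X : Scheme.{u}) where
  ι : Type
  P : ι → X.Opens
  M : ∀ i j, Γ(X, P i ⊓ P j)
  minor : ∀ i j k (W : X.Opens) (hi : W ≤ P i) (hj : W ≤ P j) (hk : W ≤ P k),
    res (le_inf hi hj) (M i j) * res (le_inf hj hk) (M j k) =
      res (le_inf hi hk) (M i k) * res (le_inf hj hj) (M j j)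
  cover : ∀ x : X, ∃ i, x ∈ X.basicOpen (M i i)

namespace RankOneGlue

variable (G : RankOneGlue X)

/-- An entry on a smaller open set. -/
def ent (i j : G.ι) {W : X.Opens} (hi : W ≤ G.P i) (hj : W ≤ G.P j) : Γ(X, W) :=
  res (le_inf hi hj) (G.M i j)

theorem res_ent (i j : G.ι) {W W' : X.Opens} (h : W' ≤ W) (hi : W ≤ G.P i) (hj : W ≤ G.P j) :
    res h (G.ent i j hi hj) = G.ent i j (h.trans hi) (h.trans hj) := res_res _ _ _

theorem ent_mul (i j k : G.ι) {W : X.Opens} (hi : W ≤ G.P i) (hj : W ≤ G.P j) (hk : W ≤ G.P k) :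
    G.ent i j hi hj * G.ent j k hj hk = G.ent i k hi hk * G.ent j j hj hj :=
  G.minor i j k W hi hj hk

/-- The open set on which the `i`-th coordinate is a frame. -/
def N (i : G.ι) : X.Opens := X.basicOpen (G.M i i)

theorem N_le (i : G.ι) : G.N i ≤ G.P i := (X.basicOpen_le _).trans inf_le_left

/-- The diagonal entry as a unit. -/
def diag (i : G.ι) {W : X.Opens} (h : W ≤ G.N i) : Γ(X, W)ˣ :=
  resU h (X.toRingedSpace.isUnit_res_basicOpen (G.M i i)).unit

theorem coe_diag (i : G.ι) {W : X.Opens} (h : W ≤ G.N i) :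
    (G.diag i h : Γ(X, W)) = G.ent i i (h.trans (G.N_le i)) (h.trans (G.N_le i)) := by
  exact res_res h (X.basicOpen_le _) _

theorem resU_diag (i : G.ι) {W W' : X.Opens} (h' : W' ≤ W) (h : W ≤ G.N i) :
    resU h' (G.diag i h) = G.diag i (h'.trans h) := resU_resU _ _ _

/-- The transition between two frames. -/
def transition (i j : G.ι) {W : X.Opens} (hi : W ≤ G.N i) (hj : W ≤ G.N j) : Γ(X, W) :=
  G.ent i j (hi.trans (G.N_le i)) (hj.trans (G.N_le j)) * (G.diag j hj)⁻¹

theorem res_transition (i j : G.ι) {W W' : X.Opens} (h : W' ≤ W) (hi : W ≤ G.N i)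
    (hj : W ≤ G.N j) :
    res h (G.transition i j hi hj) = G.transition i j (h.trans hi) (h.trans hj) := by
  rw [transition, map_mul, res_ent, ← coe_resU, map_inv, resU_diag, transition]

theorem transition_self (i : G.ι) {W : X.Opens} (hi : W ≤ G.N i) :
    G.transition i i hi hi = 1 := by
  rw [transition, ← coe_diag G i hi, Units.mul_inv]

theorem transition_mul (i j k : G.ι) {W : X.Opens} (hi : W ≤ G.N i) (hj : W ≤ G.N j)
    (hk : W ≤ G.N k) :
    G.transition i j hi hj * G.transition j k hj hk = G.transition i k hi hk := by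
  rw [transition, transition, mul_mul_mul_comm, G.ent_mul, ← coe_diag G j hj, transition,
    mul_assoc, ← mul_assoc (G.diag j hj : Γ(X, W)), Units.mul_inv, one_mul]

/-- The chosen coordinate at a point. -/
def idx (x : X) : G.ι := (G.cover x).choose

/-- The cocycle. -/
@[reducible] def cocycle : Cocycle X where
  nbhd x := G.N (G.idx x)
  mem x := (G.cover x).choose_spec
  g x y :=
    { val := G.transition (G.idx x) (G.idx y) inf_le_left inf_le_right
      inv := G.transition (G.idx y) (G.idx x) inf_le_right inf_le_left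
      val_inv := by rw [transition_mul, transition_self]
      inv_val := by rw [transition_mul, transition_self] }
  cocycle x y z W hx hy hz := Units.ext (by
    simp only [Units.val_mul, coe_resU, res_transition, transition_mul])

theorem coe_gOn (x y : X) {W : X.Opens} (hx : W ≤ G.cocycle.nbhd x) (hy : W ≤ G.cocycle.nbhd y) :
    (G.cocycle.gOn x y hx hy : Γ(X, W)) = G.transition (G.idx x) (G.idx y) hx hy :=
  G.res_transition (G.idx x) (G.idx y) (le_inf hx hy) inf_le_left inf_le_right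

theorem coe_gOn_inv (x y : X) {W : X.Opens} (hx : W ≤ G.cocycle.nbhd x)
    (hy : W ≤ G.cocycle.nbhd y) :
    ((G.cocycle.gOn x y hx hy)⁻¹ : Γ(X, W)ˣ) = G.transition (G.idx y) (G.idx x) hy hx :=
  Units.inv_eq_of_mul_eq_one_right (by rw [coe_gOn, transition_mul, transition_self])

/-- The `l`-th column as a section. -/
def colSec (l : G.ι) {W : X.Opens} (hW : W ≤ G.P l) : G.cocycle.Sec W :=
  ⟨fun x => G.ent (G.idx x) l (inf_le_right.trans (G.N_le _)) (inf_le_left.trans hW),
    fun x y V hV hx hy => by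
      rw [res_ent, res_ent, coe_gOn, transition, mul_right_comm, G.ent_mul,
        ← coe_diag G (G.idx y) hy, mul_assoc, Units.mul_inv, mul_one]⟩

/-- The `l`-th row as a section of the dual. -/
def rowSec (l : G.ι) {W : X.Opens} (hW : W ≤ G.P l) : G.cocycle.inv.Sec W :=
  ⟨fun x => G.ent l (G.idx x) ((inf_le_left : W ⊓ G.N (G.idx x) ≤ W).trans hW)
        ((inf_le_right : W ⊓ G.N (G.idx x) ≤ G.N (G.idx x)).trans (G.N_le _)) *
      ((G.diag (G.idx x) (inf_le_right : W ⊓ G.N (G.idx x) ≤ G.N (G.idx x)))⁻¹ :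
        Γ(X, W ⊓ G.N (G.idx x))ˣ), fun x y V hV hx hy => by
    rw [Cocycle.gOn_inv_cocycle, coe_gOn_inv, map_mul, map_mul, res_ent, res_ent, ← coe_resU,
      ← coe_resU, map_inv, map_inv, resU_diag, resU_diag, transition]
    have e := G.ent_mul l (G.idx y) (G.idx x) (hV.trans hW) (hy.trans (G.N_le _))
      (hx.trans (G.N_le _))
    rw [← coe_diag G (G.idx y) hy] at e
    have hu : (G.diag (G.idx y) hy : Γ(X, V)) * ((G.diag (G.idx y) hy)⁻¹ : Γ(X, V)ˣ) = 1 :=
      Units.mul_inv _
    linear_combination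
      -(((G.diag (G.idx y) hy)⁻¹ : Γ(X, V)ˣ) : Γ(X, V)) *
          (((G.diag (G.idx x) hx)⁻¹ : Γ(X, V)ˣ) : Γ(X, V)) * e -
        G.ent l (G.idx x) (hV.trans hW) (hx.trans (G.N_le _)) *
          (((G.diag (G.idx x) hx)⁻¹ : Γ(X, V)ˣ) : Γ(X, V)) * hu⟩

theorem resSec_colSec (l : G.ι) {W W' : X.Opens} (h : W' ≤ W) (hW : W ≤ G.P l) :
    G.cocycle.resSec h (G.colSec l hW) = G.colSec l (h.trans hW) :=
  Subtype.ext (funext fun x =>
    G.res_ent (G.idx x) l (inf_le_inf_right _ h)
      ((inf_le_right : W ⊓ G.N (G.idx x) ≤ G.N (G.idx x)).trans (G.N_le _))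
      ((inf_le_left : W ⊓ G.N (G.idx x) ≤ W).trans hW))

theorem resSec_rowSec (l : G.ι) {W W' : X.Opens} (h : W' ≤ W) (hW : W ≤ G.P l) :
    G.cocycle.inv.resSec h (G.rowSec l hW) = G.rowSec l (h.trans hW) :=
  Subtype.ext (funext fun x => by
    simp only [rowSec, Cocycle.resSec, AddMonoidHom.coe_mk, ZeroHom.coe_mk]
    rw [map_mul, res_ent, ← coe_resU, map_inv, resU_diag])

theorem pair_rowSec_colSec (l m : G.ι) {W : X.Opens} (hl : W ≤ G.P l) (hm : W ≤ G.P m) :
    G.cocycle.pair (G.rowSec l hl) (G.colSec m hm) = G.ent l m hl hm := by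
  refine (G.cocycle.eq_pair fun x => ?_).symm
  show _ = G.ent l (G.idx x) ((inf_le_left : W ⊓ G.N (G.idx x) ≤ W).trans hl)
      ((inf_le_right : W ⊓ G.N (G.idx x) ≤ G.N (G.idx x)).trans (G.N_le _)) *
    ((G.diag (G.idx x) (inf_le_right : W ⊓ G.N (G.idx x) ≤ G.N (G.idx x)))⁻¹ :
        Γ(X, W ⊓ G.N (G.idx x))ˣ) *
    G.ent (G.idx x) m ((inf_le_right : W ⊓ G.N (G.idx x) ≤ G.N (G.idx x)).trans (G.N_le _))
      ((inf_le_left : W ⊓ G.N (G.idx x) ≤ W).trans hm)
  rw [res_ent, mul_right_comm, G.ent_mul, ← coe_diag G (G.idx x) inf_le_right, mul_assoc,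
    Units.mul_inv, mul_one]

/-- A family of indices with trace one gives a frame. -/
def frame {n : ℕ} (f : Fin n → G.ι) {W : X.Opens} (hf : ∀ l, W ≤ G.P (f l))
    (htr : ∑ l, G.ent (f l) (f l) (hf l) (hf l) = 1) : Cocycle.SecFrame G.cocycle W where
  n := n
  σ l := G.colSec (f l) (hf l)
  τ l := G.rowSec (f l) (hf l)
  sum_pair := by simp only [pair_rowSec_colSec, htr]

end RankOneGlue

theorem exists_mem_basicOpen_of_sum {U : X.Opens} {κ : Type*} [Fintype κ] (a : κ → Γ(X, U))
    (h : ∑ i, a i = 1) {x : X} (hx : x ∈ U) : ∃ i, x ∈ X.basicOpen (a i) := by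
  by_contra hcon
  push Not at hcon
  have hmem : ∀ i, X.presheaf.germ U x hx (a i) ∈
      IsLocalRing.maximalIdeal (X.presheaf.stalk x) := fun i hu =>
    hcon i ((X.mem_basicOpen (a i) x hx).mpr hu)
  have h1 := Ideal.sum_mem _ (fun i (_ : i ∈ Finset.univ) => hmem i)
  rw [← map_sum, h, map_one] at h1
  exact (IsLocalRing.maximalIdeal.isMaximal _).ne_top ((Ideal.eq_top_iff_one _).mpr h1)

theorem minor_mul {A : Type*} [CommRing A] {p q : Type*} {n : ℕ} {e : Matrix (Fin n) (Fin n) A}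
    (he : ∀ i j k l, e i j * e k l = e i l * e k j) (L : Matrix p (Fin n) A)
    (R : Matrix (Fin n) q A) (i : p) (j : q) (k : p) (l : q) :
    (L * e * R) i j * (L * e * R) k l = (L * e * R) i l * (L * e * R) k j := by
  have hx : ∀ i j, (L * e * R) i j = ∑ a, ∑ b, L i a * e a b * R b j := fun i j => by
    simp only [Matrix.mul_apply, Finset.sum_mul]
    exact Finset.sum_comm
  simp only [hx, Finset.sum_mul, Finset.mul_sum]
  refine Finset.sum_congr rfl fun a _ => ?_
  rw [Finset.sum_comm]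
  conv_rhs => rw [Finset.sum_comm]
  refine Finset.sum_congr rfl fun c' _ => ?_
  rw [Finset.sum_comm]
  refine Finset.sum_congr rfl fun b _ => ?_
  refine Finset.sum_congr rfl fun d _ => ?_
  linear_combination (L i c' * R b j * L k a * R d l) * he c' b a d

section TwoCharts

variable {U V : X.Opens} (D : GluedIdem (res (inf_le_left : U ⊓ V ≤ U))
  (res (inf_le_right : U ⊓ V ≤ V)))

namespace GluedIdem

/-- The chart of an index. -/
def chartOpen : Fin D.a ⊕ Fin D.b → X.Opens
  | .inl _ => U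
  | .inr _ => V

/-- The block matrix on the charts. -/
def blockEnt : ∀ i j, Γ(X, D.chartOpen i ⊓ D.chartOpen j)
  | .inl i, .inl j => res (inf_le_left : U ⊓ U ≤ U) (D.e i j)
  | .inl i, .inr j => D.H i j
  | .inr i, .inl j => res (le_inf inf_le_right inf_le_left : V ⊓ U ≤ U ⊓ V) (D.G i j)
  | .inr i, .inr j => res (inf_le_left : V ⊓ V ≤ V) (D.e' i j)

/-- The block matrix on the overlap. -/
def blockMat : Matrix (Fin D.a ⊕ Fin D.b) (Fin D.a ⊕ Fin D.b) Γ(X, U ⊓ V) :=
  Matrix.fromBlocks (D.e.map (res inf_le_left)) D.H D.G (D.e'.map (res inf_le_right))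

/-- The first idempotent on the overlap. -/
def eOverlap : Matrix (Fin D.a) (Fin D.a) Γ(X, U ⊓ V) :=
  D.e.map (res (inf_le_left : U ⊓ V ≤ U))

/-- The left factor of the block matrix. -/
def blockLeft : Matrix (Fin D.a ⊕ Fin D.b) (Fin D.a) Γ(X, U ⊓ V) :=
  Matrix.of fun i j => Sum.elim (fun i' => res inf_le_left (D.e i' j)) (fun i' => D.G i' j) i

/-- The right factor of the block matrix. -/
def blockRight : Matrix (Fin D.a) (Fin D.a ⊕ Fin D.b) Γ(X, U ⊓ V) :=
  Matrix.of fun i j => Sum.elim (fun j' => res inf_le_left (D.e i j')) (fun j' => D.H i j') j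

theorem blockMat_eq :
    D.blockMat = D.blockLeft * D.eOverlap * D.blockRight := by
  have hee : D.eOverlap * D.eOverlap =
      D.eOverlap :=
    (Matrix.map_mul.symm).trans (congrArg (Matrix.map · _) D.e_idem)
  have hGe : D.G * D.eOverlap = D.G :=
    (congrArg (D.G * ·) D.HG.symm).trans ((Matrix.mul_assoc _ _ _).symm.trans
      ((congrArg (· * D.G) D.GH).trans D.G_left))
  refine Matrix.ext fun i j => ?_
  rcases i with i | i <;> rcases j with j | j
  · have h : D.eOverlap * D.eOverlap *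
        D.eOverlap = D.eOverlap := by rw [hee, hee]
    exact (congrFun (congrFun h i) j).symm
  · have h : D.eOverlap * D.eOverlap * D.H = D.H :=
      (congrArg (· * D.H) hee).trans D.H_left
    exact (congrFun (congrFun h i) j).symm
  · have h : D.G * D.eOverlap * D.eOverlap = D.G :=
      (congrArg (· * D.eOverlap) hGe).trans hGe
    exact (congrFun (congrFun h i) j).symm
  · have h : D.G * D.eOverlap * D.H = D.e'.map (res inf_le_right) :=
      (congrArg (· * D.H) hGe).trans D.GH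
    exact (congrFun (congrFun h i) j).symm

theorem res_blockEnt (i j : Fin D.a ⊕ Fin D.b) {W : X.Opens} (hW : W ≤ U ⊓ V)
    (hij : W ≤ D.chartOpen i ⊓ D.chartOpen j) :
    res hij (D.blockEnt i j) = res hW (D.blockMat i j) := by
  rcases i with i | i <;> rcases j with j | j
  · exact (res_res _ _ _).trans (res_res hW inf_le_left (D.e i j)).symm
  · rfl
  · exact res_res _ _ _
  · exact (res_res _ _ _).trans (res_res hW inf_le_right (D.e' i j)).symm

variable (he : IsRankOneIdem D.e) (he' : IsRankOneIdem D.e') (hcov : U ⊔ V = ⊤)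

/-- The rank one family of two charts. -/
def glue : RankOneGlue X where
  ι := Fin D.a ⊕ Fin D.b
  P := D.chartOpen
  M := D.blockEnt
  minor i j k W hi hj hk := by
    by_cases hUV : W ≤ U ⊓ V
    · rw [D.res_blockEnt i j hUV, D.res_blockEnt j k hUV, D.res_blockEnt i k hUV,
        D.res_blockEnt j j hUV, ← map_mul, ← map_mul, D.blockMat_eq]
      exact congrArg (res hUV) (minor_mul (he.map (res inf_le_left)).minor _ _ i j j k)
    rcases i with i | i <;> rcases j with j | j <;> rcases k with k | k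
    · simp only [blockEnt]
      erw [res_res, res_res, res_res, res_res]
      exact (map_mul _ _ _).symm.trans ((congrArg _ (he.minor i j j k)).trans (map_mul _ _ _))
    · exact absurd (le_inf hi hk) hUV
    · exact absurd (le_inf hi hj) hUV
    · exact absurd (le_inf hi hk) hUV
    · exact absurd (le_inf hj hi) hUV
    · exact absurd (le_inf hj hi) hUV
    · exact absurd (le_inf hk hi) hUV
    · simp only [blockEnt]
      erw [res_res, res_res, res_res, res_res]
      exact (map_mul _ _ _).symm.trans ((congrArg _ (he'.minor i j j k)).trans (map_mul _ _ _))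
  cover x := by
    rcases (show x ∈ U ∨ x ∈ V from (hcov.ge trivial : x ∈ U ⊔ V)) with hx | hx
    · obtain ⟨i, hi⟩ := exists_mem_basicOpen_of_sum (fun i => D.e i i) he.trace hx
      refine ⟨.inl i, ?_⟩
      show x ∈ X.basicOpen ((X.presheaf.map (homOfLE (inf_le_left : U ⊓ U ≤ U)).op).hom (D.e i i))
      rw [Scheme.basicOpen_res]
      exact ⟨⟨hx, hx⟩, hi⟩
    · obtain ⟨i, hi⟩ := exists_mem_basicOpen_of_sum (fun i => D.e' i i) he'.trace hx
      refine ⟨.inr i, ?_⟩
      show x ∈ X.basicOpen ((X.presheaf.map (homOfLE (inf_le_left : V ⊓ V ≤ V)).op).hom (D.e' i i))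
      rw [Scheme.basicOpen_res]
      exact ⟨⟨hx, hx⟩, hi⟩

/-- The cocycle of glued idempotents. -/
def cocycle : Cocycle X := (D.glue he he' hcov).cocycle

/-- Its frame on the first open. -/
def frameU : Cocycle.SecFrame (D.cocycle he he' hcov) U :=
  (D.glue he he' hcov).frame (n := D.a) Sum.inl (fun _ => le_rfl) (by
    refine Eq.trans (Finset.sum_congr rfl fun l _ => ?_) he.trace
    exact (res_res _ _ _).trans (res_self _ _))

/-- Its frame on the second open. -/
def frameV : Cocycle.SecFrame (D.cocycle he he' hcov) V :=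
  (D.glue he he' hcov).frame (n := D.b) Sum.inr (fun _ => le_rfl) (by
    refine Eq.trans (Finset.sum_congr rfl fun l _ => ?_) he'.trace
    exact (res_res _ _ _).trans (res_self _ _))

theorem mat_frameU : (D.frameU he he' hcov).toFrame.mat = D.e := by
  ext k l
  refine ((D.glue he he' hcov).pair_rowSec_colSec (.inl k) (.inl l) (W := U) le_rfl le_rfl).trans ?_
  exact (res_res _ _ _).trans (res_self _ _)

theorem mat_frameV : (D.frameV he he' hcov).toFrame.mat = D.e' := by
  ext k l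
  refine ((D.glue he he' hcov).pair_rowSec_colSec (.inr k) (.inr l) (W := V) le_rfl le_rfl).trans ?_
  exact (res_res _ _ _).trans (res_self _ _)

theorem trans_frameU_frameV :
    ((D.frameU he he' hcov).restrict (inf_le_left : U ⊓ V ≤ U)).trans
      ((D.frameV he he' hcov).restrict (inf_le_right : U ⊓ V ≤ V)) = D.G := by
  ext k l
  refine Eq.trans ?_ (res_self le_rfl (D.G k l))
  refine Eq.trans ?_ (D.res_blockEnt (.inr k) (.inl l) le_rfl (le_inf inf_le_right inf_le_left))
  show (D.glue he he' hcov).cocycle.pair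
    ((D.glue he he' hcov).cocycle.inv.resSec (inf_le_right : U ⊓ V ≤ V)
      ((D.glue he he' hcov).rowSec (.inr k) (W := V) le_rfl))
    ((D.glue he he' hcov).cocycle.resSec (inf_le_left : U ⊓ V ≤ U)
      ((D.glue he he' hcov).colSec (.inl l) (W := U) le_rfl)) = _
  refine Eq.trans (congrArg₂ (D.glue he he' hcov).cocycle.pair
    ((D.glue he he' hcov).resSec_rowSec _ _ _) ((D.glue he he' hcov).resSec_colSec _ _ _)) ?_
  exact (D.glue he he' hcov).pair_rowSec_colSec _ _ _ _

theorem trans_frameV_frameU :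
    ((D.frameV he he' hcov).restrict (inf_le_right : U ⊓ V ≤ V)).trans
      ((D.frameU he he' hcov).restrict (inf_le_left : U ⊓ V ≤ U)) = D.H := by
  ext k l
  refine Eq.trans ?_ (res_self le_rfl (D.H k l))
  refine Eq.trans ?_ (D.res_blockEnt (.inl k) (.inr l) le_rfl (le_inf inf_le_left inf_le_right))
  show (D.glue he he' hcov).cocycle.pair
    ((D.glue he he' hcov).cocycle.inv.resSec (inf_le_left : U ⊓ V ≤ U)
      ((D.glue he he' hcov).rowSec (.inl k) (W := U) le_rfl))
    ((D.glue he he' hcov).cocycle.resSec (inf_le_right : U ⊓ V ≤ V)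
      ((D.glue he he' hcov).colSec (.inr l) (W := V) le_rfl)) = _
  refine Eq.trans (congrArg₂ (D.glue he he' hcov).cocycle.pair
    ((D.glue he he' hcov).resSec_rowSec _ _ _) ((D.glue he he' hcov).resSec_colSec _ _ _)) ?_
  exact (D.glue he he' hcov).pair_rowSec_colSec _ _ _ _

end GluedIdem

end TwoCharts

namespace Cocycle

variable {c d : Cocycle X}

/-- The glued idempotents of two frames. -/
def gluedIdem {U V : X.Opens} (F : SecFrame c U) (F' : SecFrame c V) :
    GluedIdem (res (inf_le_left : U ⊓ V ≤ U)) (res (inf_le_right : U ⊓ V ≤ V)) where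
  a := F.n
  b := F'.n
  e := F.toFrame.mat
  e' := F'.toFrame.mat
  G := (F.restrict inf_le_left).trans (F'.restrict inf_le_right)
  H := (F'.restrict inf_le_right).trans (F.restrict inf_le_left)
  e_idem := F.toFrame.isRankOneIdem.idem
  e'_idem := F'.toFrame.isRankOneIdem.idem
  GH := (SecFrame.trans_mul _ _ _).trans (SecFrame.trans_restrict F' F' _)
  HG := (SecFrame.trans_mul _ _ _).trans (SecFrame.trans_restrict F F _)
  G_left := by
    refine (congrArg (· * _) (SecFrame.trans_restrict F' F' inf_le_right).symm).trans ?_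
    exact SecFrame.trans_mul _ _ _
  H_left := by
    refine (congrArg (· * _) (SecFrame.trans_restrict F F inf_le_left).symm).trans ?_
    exact SecFrame.trans_mul _ _ _

/-- A unit section of `c⁻¹ ⊗ d` gives an equivalence. -/
theorem equiv_of_unit_sec (θ : (c.inv.mul d).Sec ⊤) (hθ : ∀ x, IsUnit (θ.1 x)) : Equiv c d := by
  refine ⟨fun x => c.nbhd x ⊓ d.nbhd x, fun x => ⟨c.mem x, d.mem x⟩, fun _ => inf_le_left,
    fun _ => inf_le_right,
    fun x => resU (le_inf le_top le_rfl) (hθ x).unit, fun x y W hx hy => ?_⟩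
  have e := θ.2 x y W le_top hx hy
  rw [gOn_mul_cocycle, gOn_inv_cocycle, Units.val_mul] at e
  refine Units.ext ?_
  simp only [Units.val_mul, coe_resU, IsUnit.unit_spec, res_res]
  rw [e]
  linear_combination (((d.gOn x y (hx.trans inf_le_right) (hy.trans inf_le_right)) : Γ(X, W)) *
    res (le_inf le_top hy) (θ.1 y)) * (-(Units.inv_mul (c.gOn x y (hx.trans inf_le_left)
      (hy.trans inf_le_left))))

/-- The section `∑ τ_i ⊗ σ'_i`. -/
def matchSec {W : X.Opens} {n : ℕ} (τ : Fin n → c.inv.Sec W) (σ' : Fin n → d.Sec W) :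
    (c.inv.mul d).Sec W :=
  ∑ i, c.inv.mulSec d (τ i) (σ' i)

theorem matchSec_apply {W : X.Opens} {n : ℕ} (τ : Fin n → c.inv.Sec W) (σ' : Fin n → d.Sec W)
    (x : X) : (matchSec τ σ').1 x = ∑ i,
      res (inf_le_inf_left _ inf_le_left) ((τ i).1 x) *
        res (inf_le_inf_left _ inf_le_right) ((σ' i).1 x) := by
  rw [matchSec, AddSubmonoidClass.coe_finsetSum, Finset.sum_apply]
  rfl

theorem resSec_matchSec {W W' : X.Opens} (h : W' ≤ W) {n : ℕ} (τ : Fin n → c.inv.Sec W)
    (σ' : Fin n → d.Sec W) : (c.inv.mul d).resSec h (matchSec τ σ') =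
      matchSec (fun i => c.inv.resSec h (τ i)) (fun i => d.resSec h (σ' i)) := by
  refine Subtype.ext (funext fun x => ?_)
  rw [resSec_apply, matchSec_apply, matchSec_apply, map_sum]
  simp only [map_mul, res_res, resSec_apply]

theorem sum_pair_smul_inv {W : X.Opens} (F : SecFrame c W) (t : c.inv.Sec W) (x : X) :
    t.1 x = ∑ i, res inf_le_left (c.pair t (F.σ i)) * (F.τ i).1 x := by
  have h := congrArg (res (inf_le_left : W ⊓ c.nbhd x ≤ W)) F.sum_pair
  simp only [map_sum, map_one, res_pair] at h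
  simp only [res_pair]
  calc t.1 x = t.1 x * ∑ i, (F.τ i).1 x * (F.σ i).1 x := by rw [h, mul_one]
    _ = _ := by rw [Finset.mul_sum]; exact Finset.sum_congr rfl fun i _ => by ring

theorem matchSec_change {W : X.Opens} {n n' : ℕ} (τ : Fin n → c.inv.Sec W)
    (σ' : Fin n' → c.Sec W) (τ' : Fin n' → c.inv.Sec W) (h' : ∑ i, c.pair (τ' i) (σ' i) = 1)
    (ρ : Fin n → d.Sec W) (ρ' : Fin n' → d.Sec W)
    (h : ∀ k, ρ' k = ∑ i, c.pair (τ i) (σ' k) • ρ i) : matchSec τ' ρ' = matchSec τ ρ := by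
  refine Subtype.ext (funext fun x => ?_)
  rw [matchSec_apply, matchSec_apply]
  simp only [h, AddSubmonoidClass.coe_finsetSum, Finset.sum_apply, smul_apply, map_sum, map_mul,
    Finset.mul_sum]
  rw [Finset.sum_comm]
  refine Finset.sum_congr rfl fun i _ => ?_
  rw [sum_pair_smul_inv ⟨n', σ', τ', h'⟩ (τ i) x, map_sum, Finset.sum_mul]
  refine Finset.sum_congr rfl fun j _ => ?_
  simp only [map_mul, res_res]
  ring

theorem isUnit_matchSec {W : X.Opens} {n : ℕ} (σ : Fin n → c.Sec W) (τ : Fin n → c.inv.Sec W)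
    (hc : ∑ i, c.pair (τ i) (σ i) = 1) (ρ : Fin n → d.Sec W) (θ : Fin n → d.inv.Sec W)
    (h : ∀ i j, d.pair (θ i) (ρ j) = c.pair (τ i) (σ j)) (x : X) :
    IsUnit ((matchSec τ ρ).1 x) := by
  refine IsUnit.of_mul_eq_one (∑ j, res (inf_le_inf_left _ inf_le_right) ((θ j).1 x) *
    res (inf_le_inf_left _ inf_le_left) ((σ j).1 x)) ?_
  rw [matchSec_apply, Finset.sum_mul_sum]
  have hd1 : ∀ i j, res (inf_le_left : W ⊓ (c.nbhd x ⊓ d.nbhd x) ≤ W) (c.pair (τ i) (σ j)) =
      res (inf_le_inf_left _ inf_le_left) ((τ i).1 x) *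
        res (inf_le_inf_left _ inf_le_left) ((σ j).1 x) := fun i j => by
    rw [← map_mul, ← c.res_pair (τ i) (σ j) x, res_res]
  have hd2 : ∀ i j, res (inf_le_left : W ⊓ (c.nbhd x ⊓ d.nbhd x) ≤ W) (d.pair (θ i) (ρ j)) =
      res (inf_le_inf_left _ inf_le_right) ((θ i).1 x) *
        res (inf_le_inf_left _ inf_le_right) ((ρ j).1 x) := fun i j => by
    rw [← map_mul, ← d.res_pair (θ i) (ρ j) x, res_res]
  have hidem := (SecFrame.toFrame ⟨n, σ, τ, hc⟩ : RankOneFrame Γ(X, W) (c.Sec W)).isRankOneIdem.idem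
  calc _ = ∑ i, ∑ j, res (inf_le_left : W ⊓ (c.nbhd x ⊓ d.nbhd x) ≤ W)
        (c.pair (τ i) (σ j) * c.pair (τ j) (σ i)) := by
        refine Finset.sum_congr rfl fun i _ => Finset.sum_congr rfl fun j _ => ?_
        rw [map_mul, hd1, ← h j i, hd2]
        ring
    _ = res (inf_le_left : W ⊓ (c.nbhd x ⊓ d.nbhd x) ≤ W) (∑ i, c.pair (τ i) (σ i)) := by
        simp only [map_sum]
        refine Finset.sum_congr rfl fun i _ => ?_
        rw [← map_sum]
        exact congrArg (res inf_le_left)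
          ((Matrix.mul_apply.symm).trans (congrFun (congrFun hidem i) i))
    _ = 1 := by rw [hc, map_one]

/-- Cocycles having frames over two opens covering the scheme with the same matrices are
equivalent. -/
theorem equiv_of_gluedIdem_eq {U V : X.Opens} (hcov : U ⊔ V = ⊤) (F : SecFrame c U)
    (F' : SecFrame c V) (E : SecFrame d U) (E' : SecFrame d V)
    (h : gluedIdem F F' = gluedIdem E E') : Equiv c d := by
  obtain ⟨n, σ, τ, hσ⟩ := F
  obtain ⟨n', σ', τ', hσ'⟩ := F'
  obtain ⟨m, ρ, θ, hρ⟩ := E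
  obtain ⟨m', ρ', θ', hρ'⟩ := E'
  unfold gluedIdem at h
  injection h with hn hn' he he' hG hH
  subst hn hn'
  have he := eq_of_heq he
  have he' := eq_of_heq he'
  have hH := eq_of_heq hH
  have hover : (c.inv.mul d).resSec (inf_le_left : U ⊓ V ≤ U) (matchSec τ ρ) =
      (c.inv.mul d).resSec (inf_le_right : U ⊓ V ≤ V) (matchSec τ' ρ') := by
    rw [resSec_matchSec, resSec_matchSec]
    refine (matchSec_change _
      (fun i => c.resSec inf_le_right (σ' i)) _
      (((SecFrame.mk _ σ' τ' hσ').restrict inf_le_right).sum_pair) _ _ fun k => ?_).symm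
    rw [← ((SecFrame.mk _ ρ θ hρ).restrict (inf_le_left : U ⊓ V ≤ U)).sum_smul
      (d.resSec inf_le_right (ρ' k))]
    exact Finset.sum_congr rfl fun i _ => congrArg (· • _) (congrFun (congrFun hH i) k).symm
  obtain ⟨Θ, hU, hV⟩ := (c.inv.mul d).exists_glueSec le_top le_top hcov.ge
    (matchSec τ ρ) (matchSec τ' ρ') hover
  refine equiv_of_unit_sec Θ fun x => ?_
  have hU' := isUnit_matchSec σ τ hσ ρ θ (fun i j => (congrFun (congrFun he i) j).symm) x
  have hV' := isUnit_matchSec σ' τ' hσ' ρ' θ' (fun i j => (congrFun (congrFun he' i) j).symm) x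
  rw [← hU, resSec_apply] at hU'
  rw [← hV, resSec_apply] at hV'
  let Us : Bool → X.Opens := fun i =>
    bif i then U ⊓ (c.nbhd x ⊓ d.nbhd x) else V ⊓ (c.nbhd x ⊓ d.nbhd x)
  refine isUnit_of_locally Us (fun i => by cases i <;> exact inf_le_inf_right _ le_top)
    (fun p hp => ?_) _ fun i => ?_
  · exact (show p ∈ U ∨ p ∈ V from (hcov.ge trivial : p ∈ U ⊔ V)).elim
      (fun h => ⟨true, h, hp.2⟩) fun h => ⟨false, h, hp.2⟩
  · cases i
    · exact hV'
    · exact hU'

theorem gluedIdem_frames {U V : X.Opens}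
    (D : GluedIdem (res (inf_le_left : U ⊓ V ≤ U)) (res (inf_le_right : U ⊓ V ≤ V)))
    (he : IsRankOneIdem D.e) (he' : IsRankOneIdem D.e') (hcov : U ⊔ V = ⊤) :
    gluedIdem (D.frameU he he' hcov) (D.frameV he he' hcov) = D := by
  obtain ⟨a, b, e, e', G, H, h1, h2, h3, h4, h5, h6⟩ := D
  refine (GluedIdem.mk.injEq ..).mpr ⟨rfl, rfl, heq_of_eq (GluedIdem.mat_frameU _ he he' hcov),
    heq_of_eq (GluedIdem.mat_frameV _ he he' hcov),
    heq_of_eq (GluedIdem.trans_frameU_frameV _ he he' hcov),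
    heq_of_eq (GluedIdem.trans_frameV_frameU _ he he' hcov)⟩

/-- A cocycle with given glued idempotents has the class of these. -/
theorem mk_eq_of_gluedIdem_eq {U V : X.Opens} (hcov : U ⊔ V = ⊤) (F : SecFrame c U)
    (F' : SecFrame c V)
    (D : GluedIdem (res (inf_le_left : U ⊓ V ≤ U)) (res (inf_le_right : U ⊓ V ≤ V)))
    (he : IsRankOneIdem D.e) (he' : IsRankOneIdem D.e') (h : gluedIdem F F' = D) :
    Pic.mk c = Pic.mk (D.cocycle he he' hcov) :=
  Pic.mk_eq_mk.mpr (equiv_of_gluedIdem_eq hcov F F' _ _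
    (h.trans (gluedIdem_frames D he he' hcov).symm))

end Cocycle

section Pullback

variable {U V : X.Opens} {U' V' : Y.Opens}

theorem pull_inf_res_left (f : Y ⟶ X) (hU : U' ≤ f ⁻¹ᵁ U) (hV : V' ≤ f ⁻¹ᵁ V) (a : Γ(X, U)) :
    pull f (((inf_le_inf hU hV).trans (le_preimage_inf f U V)) : U' ⊓ V' ≤ f ⁻¹ᵁ (U ⊓ V))
      (res (inf_le_left : U ⊓ V ≤ U) a) = res (inf_le_left : U' ⊓ V' ≤ U') (pull f hU a) :=
  (pull_res _ _ _ _).trans (res_pull _ _ _ _).symm

theorem pull_inf_res_right (f : Y ⟶ X) (hU : U' ≤ f ⁻¹ᵁ U) (hV : V' ≤ f ⁻¹ᵁ V) (a : Γ(X, V)) :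
    pull f (((inf_le_inf hU hV).trans (le_preimage_inf f U V)) : U' ⊓ V' ≤ f ⁻¹ᵁ (U ⊓ V))
      (res (inf_le_right : U ⊓ V ≤ V) a) = res (inf_le_right : U' ⊓ V' ≤ V') (pull f hV a) :=
  (pull_res _ _ _ _).trans (res_pull _ _ _ _).symm

/-- Pullback of glued idempotents. -/
def GluedIdem.pullChart (D : GluedIdem (res (inf_le_left : U ⊓ V ≤ U))
    (res (inf_le_right : U ⊓ V ≤ V))) (f : Y ⟶ X) (hU : U' ≤ f ⁻¹ᵁ U) (hV : V' ≤ f ⁻¹ᵁ V) :
    GluedIdem (res (inf_le_left : U' ⊓ V' ≤ U')) (res (inf_le_right : U' ⊓ V' ≤ V')) where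
  a := D.a
  b := D.b
  e := D.e.map (pull f hU)
  e' := D.e'.map (pull f hV)
  G := D.G.map (pull f ((inf_le_inf hU hV).trans (le_preimage_inf f U V)))
  H := D.H.map (pull f ((inf_le_inf hU hV).trans (le_preimage_inf f U V)))
  e_idem := (Matrix.map_mul.symm).trans (congrArg (Matrix.map · _) D.e_idem)
  e'_idem := (Matrix.map_mul.symm).trans (congrArg (Matrix.map · _) D.e'_idem)
  GH := (Matrix.map_mul.symm).trans ((congrArg (Matrix.map · _) D.GH).trans
    (Matrix.ext fun _ _ => pull_inf_res_right f hU hV _))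
  HG := (Matrix.map_mul.symm).trans ((congrArg (Matrix.map · _) D.HG).trans
    (Matrix.ext fun _ _ => pull_inf_res_left f hU hV _))
  G_left := by
    have h := congrArg (fun M => Matrix.map M
      (pull f ((inf_le_inf hU hV).trans (le_preimage_inf f U V)))) D.G_left
    simp only [Matrix.map_mul] at h
    refine Eq.trans (congrArg (· * D.G.map
      (pull f ((inf_le_inf hU hV).trans (le_preimage_inf f U V)))) (Matrix.ext fun i j => ?_)) h
    exact (pull_inf_res_right f hU hV (D.e' i j)).symm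
  H_left := by
    have h := congrArg (fun M => Matrix.map M
      (pull f ((inf_le_inf hU hV).trans (le_preimage_inf f U V)))) D.H_left
    simp only [Matrix.map_mul] at h
    refine Eq.trans (congrArg (· * D.H.map
      (pull f ((inf_le_inf hU hV).trans (le_preimage_inf f U V)))) (Matrix.ext fun i j => ?_)) h
    exact (pull_inf_res_left f hU hV (D.e i j)).symm

namespace Cocycle

theorem pullSec_resSec (f : Y ⟶ X) (c : Cocycle X) {W W₁ : X.Opens} {W' W₁' : Y.Opens}
    (h : W₁ ≤ W) (h' : W₁' ≤ W') (hW : W' ≤ f ⁻¹ᵁ W) (hW₁ : W₁' ≤ f ⁻¹ᵁ W₁) (s : c.Sec W) :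
    (c.pullback f).resSec h' (c.pullSec f hW s) = c.pullSec f hW₁ (c.resSec h s) :=
  Subtype.ext (funext fun _ => (res_pull _ _ _ _).trans (pull_res _ _ _ _).symm)

theorem pullInvSec_resSec (f : Y ⟶ X) (c : Cocycle X) {W W₁ : X.Opens} {W' W₁' : Y.Opens}
    (h : W₁ ≤ W) (h' : W₁' ≤ W') (hW : W' ≤ f ⁻¹ᵁ W) (hW₁ : W₁' ≤ f ⁻¹ᵁ W₁) (s : c.inv.Sec W) :
    (c.pullback f).inv.resSec h' (c.pullInvSec f hW s) =
      c.pullInvSec f hW₁ (c.inv.resSec h s) :=
  Subtype.ext (funext fun _ => (res_pull _ _ _ _).trans (pull_res _ _ _ _).symm)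

theorem gluedIdem_pull {c : Cocycle X} (F : SecFrame c U) (F' : SecFrame c V) (f : Y ⟶ X)
    (hU : U' ≤ f ⁻¹ᵁ U) (hV : V' ≤ f ⁻¹ᵁ V) :
    gluedIdem (F.pull f hU) (F'.pull f hV) = (gluedIdem F F').pullChart f hU hV := by
  refine (GluedIdem.mk.injEq ..).mpr ⟨rfl, rfl, heq_of_eq (SecFrame.trans_pull F F f hU),
    heq_of_eq (SecFrame.trans_pull F' F' f hV), heq_of_eq ?_, heq_of_eq ?_⟩
  · ext k l
    refine Eq.trans ?_ (c.pair_pullSec f _ _ _)
    exact congrArg₂ (c.pullback f).pair (pullInvSec_resSec f c _ _ hV _ _)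
      (pullSec_resSec f c _ _ hU _ _)
  · ext k l
    refine Eq.trans ?_ (c.pair_pullSec f _ _ _)
    exact congrArg₂ (c.pullback f).pair (pullInvSec_resSec f c _ _ hU _ _)
      (pullSec_resSec f c _ _ hV _ _)

end Cocycle

/-- The class of glued idempotents commutes with pullback. -/
theorem GluedIdem.map_mk_cocycle (D : GluedIdem (res (inf_le_left : U ⊓ V ≤ U))
    (res (inf_le_right : U ⊓ V ≤ V))) (he : IsRankOneIdem D.e) (he' : IsRankOneIdem D.e')
    (hcov : U ⊔ V = ⊤) (f : Y ⟶ X) (hU : U' ≤ f ⁻¹ᵁ U) (hV : V' ≤ f ⁻¹ᵁ V)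
    (hcov' : U' ⊔ V' = ⊤) :
    Pic.map f (Pic.mk (D.cocycle he he' hcov)) =
      Pic.mk ((D.pullChart f hU hV).cocycle (he.map (pull f hU)) (he'.map (pull f hV)) hcov') := by
  refine Cocycle.mk_eq_of_gluedIdem_eq hcov' ((D.frameU he he' hcov).pull f hU)
    ((D.frameV he he' hcov).pull f hV) _ _ _ ?_
  rw [Cocycle.gluedIdem_pull, Cocycle.gluedIdem_frames]

end Pullback

end FLTAgent.RelPicard
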