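import Fermat.Agent.RelPicard.AffineSectionsChartAlg
import Fermat.Agent.RelPicard.AffineSectionsPairCoords
import Fermat.Agent.RelPicard.AffineSectionsGlue

/-!
# The dictionary between cocycles on the product and pairs

The complex of a cocycle on the product is that of the pair of the glued idempotents of frames on
the two charts, and this pair commutes with change of the base.

Main results: `exists_toPairData_equiv`, `toPairData_map`, `exists_pairData`; used for the
degree in families and for frames near a fibre.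
-/

set_option autoImplicit false

universe u

open CategoryTheory CategoryTheory.Limits AlgebraicGeometry TopologicalSpace
  AlgebraicGeometry.RelPicard Matrix
open scoped Polynomial

noncomputable section

namespace FLTAgent.RelPicard

section Coords

variable {R : Type u} [CommRing R] {X : Scheme.{u}} (π : X ⟶ Spec (CommRingCat.of R))
  {N : Cocycle X} {O : X.Opens} (F : Cocycle.SecFrame N O)

theorem Cocycle.SecFrame.trans_mulVec_coords (F' : Cocycle.SecFrame N O) (s : N.Sec O) :
    F.trans F' *ᵥ F.toFrame.coords s = F'.toFrame.coords s := by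
  funext k
  show ∑ l, N.pair (F'.τ k) (F.σ l) * N.pair (F.τ l) s = N.pairL (F'.τ k) s
  conv_rhs => rw [← F.sum_smul s, map_sum]
  refine Finset.sum_congr rfl fun l _ => ?_
  rw [map_smul, smul_eq_mul, mul_comm]
  rfl

theorem Cocycle.SecFrame.coords_restrict {O' : X.Opens} (h : O' ≤ O) (s : N.Sec O) :
    (F.restrict h).toFrame.coords (N.resSec h s) = res h ∘ F.toFrame.coords s :=
  funext fun _ => N.pair_resSec h _ _

theorem Cocycle.SecFrame.mat_restrict {O' : X.Opens} (h : O' ≤ O) :
    (F.restrict h).toFrame.mat = F.toFrame.mat.map (res h) :=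
  F.trans_restrict F h

variable {L : Type u} [CommRing L] [Algebra R L] [Algebra L Γ(X, O)]
  (hsc : ∀ a : R, algebraMap L Γ(X, O) (algebraMap R L a) = scalarHom π O a)
  {p : ℕ} (b : Module.Basis (Fin p) L Γ(X, O))

/-- The coordinates of a section in a basis of the functions, over the base. -/
def secCoords : SecOver π N O →ₗ[R] (Fin (F.n * p) → L) where
  toFun s := blockFinVec b (F.toFrame.coords (show N.Sec O from s))
  map_add' s s' := by
    show blockFinVec b (F.toFrame.coords ((show N.Sec O from s) + (show N.Sec O from s'))) = _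
    rw [map_add]
    exact funext fun i => by simp [blockFinVec, blockVec]; rfl
  map_smul' a s := by
    show blockFinVec b (F.toFrame.coords (scalarHom π O a • (show N.Sec O from s))) =
      a • blockFinVec b (F.toFrame.coords (show N.Sec O from s))
    rw [map_smul, show scalarHom π O a • F.toFrame.coords (show N.Sec O from s) =
        algebraMap R L a • F.toFrame.coords (show N.Sec O from s) from
      funext fun i => by
        rw [Pi.smul_apply, Pi.smul_apply, Algebra.smul_def (algebraMap R L a), hsc]; rfl,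
      blockFinVec_smul]
    exact funext fun i => by rw [Pi.smul_apply, Pi.smul_apply, algebraMap_smul]

include hsc in
theorem exists_secEquiv {P : Submodule R (Fin (F.n * p) → L)}
    (hP : ∀ v, blockFinVec b v ∈ P ↔ F.toFrame.mat *ᵥ v = v) :
    ∃ e : SecOver π N O ≃ₗ[R] P,
      ∀ s : N.Sec O, ((e s : P) : Fin (F.n * p) → L) = blockFinVec b (F.toFrame.coords s) := by
  have hmem : ∀ s : SecOver π N O, secCoords π F hsc b s ∈ P := fun s =>
    (hP _).mpr (RankOneFrame.mem_range_coords F.toFrame |>.mp ⟨s, rfl⟩)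
  refine ⟨LinearEquiv.ofBijective ((secCoords π F hsc b).codRestrict P hmem) ⟨fun s s' h => ?_,
    fun w => ?_⟩, fun s => rfl⟩
  · exact F.toFrame.coords_injective ((blockFinVec_bijective b).1 (congrArg Subtype.val h))
  · obtain ⟨v, hv⟩ := (blockFinVec_bijective b).2 w.1
    obtain ⟨m, hm⟩ := F.toFrame.mem_range_coords.mpr ((hP v).mp (hv.symm ▸ w.2))
    exact ⟨m, Subtype.ext ((congrArg (blockFinVec b) hm).trans hv)⟩

end Coords

namespace CurveCover

variable {k : Type u} [Field k] {C : Scheme.{u}} {c : C ⟶ Spec (CommRingCat.of k)}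
  (D : CurveCover k c) {R : Type u} [CommRing R]
  (t : Spec (CommRingCat.of R) ⟶ Spec (CommRingCat.of k))

attribute [local instance] algU algV algW

/-- The complex of a cocycle is that of the pair of two frames. -/
theorem exists_toPairData_equiv (N : Cocycle (pullback c t)) (F : Cocycle.SecFrame N (D.UT t))
    (F' : Cocycle.SecFrame N (D.VT t)) :
    ∃ (e : ((D.toPairData t (Cocycle.gluedIdem F F')).M ×
          (D.toPairData t (Cocycle.gluedIdem F F')).M') ≃ₗ[R]
        (SecOver (pullback.snd c t) N (D.UT t) × SecOver (pullback.snd c t) N (D.VT t)))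
      (e' : (D.toPairData t (Cocycle.gluedIdem F F')).W ≃ₗ[R]
        SecOver (pullback.snd c t) N (D.WT t)),
      ∀ n, D.diff t N n ∘ₗ e.toLinearMap =
        e'.toLinearMap ∘ₗ (D.toPairData t (Cocycle.gluedIdem F F')).diff n := by
  set G := Cocycle.gluedIdem F F'
  have hU : ∀ a : R, algebraMap R[X] Γ(pullback c t, D.UT t) (algebraMap R R[X] a) =
      scalarHom (pullback.snd c t) (D.UT t) a := D.evalU_C t
  have hV : ∀ a : R, algebraMap R[X] Γ(pullback c t, D.VT t) (algebraMap R R[X] a) =
      scalarHom (pullback.snd c t) (D.VT t) a := fun a => Polynomial.eval₂_C _ _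
  have hW : ∀ a : R, algebraMap (LaurentPolynomial R) Γ(pullback c t, D.WT t)
      (algebraMap R (LaurentPolynomial R) a) = scalarHom (pullback.snd c t) (D.WT t) a :=
    D.evalW_C t
  obtain ⟨cU, hcU⟩ : ∃ e : SecOver (pullback.snd c t) N (D.UT t) ≃ₗ[R] (D.toPairData t G).M,
      ∀ s : N.Sec (D.UT t), (e s).1 = blockFinVec (D.chartBasisU t) (F.toFrame.coords s) :=
    exists_secEquiv (pullback.snd c t) F hU (D.chartBasisU t)
    (P := (D.toPairData t G).M) fun v =>
      GluedIdem.mem_M_iff (D.res_algebraMap_U t) (D.res_algebraMap_V t) (D.res_chartBasisU t)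
        (D.res_chartBasisV t) G v
  obtain ⟨cV, hcV⟩ : ∃ e : SecOver (pullback.snd c t) N (D.VT t) ≃ₗ[R] (D.toPairData t G).M',
      ∀ s : N.Sec (D.VT t), (e s).1 = blockFinVec (D.chartBasisV t) (F'.toFrame.coords s) :=
    exists_secEquiv (pullback.snd c t) F' hV (D.chartBasisV t)
    (P := (D.toPairData t G).M') fun v =>
      GluedIdem.mem_M'_iff (D.res_algebraMap_U t) (D.res_algebraMap_V t) (D.res_chartBasisU t)
        (D.res_chartBasisV t) G v
  obtain ⟨cW, hcW⟩ : ∃ e : SecOver (pullback.snd c t) N (D.WT t) ≃ₗ[R] (D.toPairData t G).W,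
      ∀ s : N.Sec (D.WT t), (e s).1 = blockFinVec (D.chartBasisWY t)
        ((F'.restrict (inf_le_right : D.WT t ≤ D.VT t)).toFrame.coords s) :=
    exists_secEquiv (pullback.snd c t)
    (F'.restrict (inf_le_right : D.WT t ≤ D.VT t)) hW (D.chartBasisWY t)
    (P := (D.toPairData t G).W) fun w =>
      (GluedIdem.mem_W_iff (D.res_algebraMap_U t) (D.res_algebraMap_V t) (D.res_chartBasisU t)
        (D.res_chartBasisV t) G w).trans (by rw [F'.mat_restrict]; rfl)
  refine ⟨(cU.prodCongr cV).symm, cW.symm, fun n => LinearMap.ext fun p => ?_⟩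
  obtain ⟨⟨s, s'⟩, rfl⟩ := (cU.prodCongr cV).surjective p
  simp only [LinearMap.comp_apply, LinearEquiv.coe_coe, LinearEquiv.symm_apply_apply]
  refine (cW.symm_apply_eq.mpr (Subtype.ext ?_)).symm
  have hs : G.e *ᵥ F.toFrame.coords s = F.toFrame.coords s :=
    F.toFrame.mem_range_coords.mp ⟨s, rfl⟩
  have hs' : G.e' *ᵥ F'.toFrame.coords s' = F'.toFrame.coords s' :=
    F'.toFrame.mem_range_coords.mp ⟨s', rfl⟩
  refine (Eq.trans ?_ (GluedIdem.diff_apply (D.res_algebraMap_U t) (D.res_algebraMap_V t)
    (D.res_chartBasisU t) (D.res_chartBasisV t) G n _ _ hs hs')).trans ?_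
  · exact congrArg (fun q => ((D.toPairData t G).diff n q).1)
      (Prod.ext (Subtype.ext (hcU s)) (Subtype.ext (hcV s')))
  refine Eq.trans ?_ (hcW _).symm
  congr 1
  refine Eq.trans ?_ (congrArg _ (D.diff_apply t N n (s, s')).symm)
  rw [map_sub, map_smul]
  congr 1
  · refine (congrArg (G.G *ᵥ ·) (F.coords_restrict (inf_le_left : D.WT t ≤ D.UT t) s).symm).trans ?_
    exact Cocycle.SecFrame.trans_mulVec_coords _ _ _
  · funext i
    refine (Algebra.smul_def (A := Γ(pullback c t, D.WT t))
      (LaurentPolynomial.T (-n) : LaurentPolynomial R)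
      (res (inf_le_right : D.WT t ≤ D.VT t) (F'.toFrame.coords s' i))).trans ?_
    exact congrArg₂ (· * ·) (D.evalW_T t n)
      (congrFun (F'.coords_restrict (inf_le_right : D.WT t ≤ D.VT t) s').symm i)

variable {S : Type u} [CommRing S] (f : R →+* S)

theorem chartMapW_chartBasisWX (i : Fin D.r) :
    D.chartMapW t f (D.chartBasisWX t i) =
      D.chartBasisWX (Spec.map (CommRingCat.ofHom f) ≫ t) i := by
  rw [← res_chartBasisU, ← res_chartBasisU, chartMapW_resU, chartMapU_chartBasisU]

theorem chartMapW_chartBasisWY (i : Fin D.r) :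
    D.chartMapW t f (D.chartBasisWY t i) =
      D.chartBasisWY (Spec.map (CommRingCat.ofHom f) ≫ t) i := by
  rw [← res_chartBasisV, ← res_chartBasisV, chartMapW_resV, chartMapV_chartBasisV]

/-- The pair commutes with change of the base. -/
theorem toPairData_map (G : GluedIdem (res (inf_le_left : D.WT t ≤ D.UT t))
    (res (inf_le_right : D.WT t ≤ D.VT t))) :
    (D.toPairData t G).map f = D.toPairData (Spec.map (CommRingCat.ofHom f) ≫ t)
      (G.pullChart (mapT t f) (D.mapT_preimage_UT t f).ge (D.mapT_preimage_VT t f).ge) := by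
  refine (PairData.mk.injEq ..).mpr ⟨rfl, rfl, heq_of_eq ?_, heq_of_eq ?_, heq_of_eq ?_,
    heq_of_eq ?_⟩
  · exact blockFin_map (Polynomial.mapRingHom f) (D.chartMapU t f)
      (fun a => D.chartMapU_evalU t f a) _ _ _ _ (D.chartMapU_chartBasisU t f)
      (D.chartMapU_chartBasisU t f) G.e
  · exact blockFin_map (Polynomial.mapRingHom f) (D.chartMapV t f)
      (fun a => D.chartMapV_evalV t f a) _ _ _ _ (D.chartMapV_chartBasisV t f)
      (D.chartMapV_chartBasisV t f) G.e'
  · exact blockFin_map (AddMonoidAlgebra.mapRingHom ℤ f) (D.chartMapW t f)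
      (fun a => D.chartMapW_evalW t f a) _ _ _ _ (D.chartMapW_chartBasisWX t f)
      (D.chartMapW_chartBasisWY t f) G.G
  · exact blockFin_map (AddMonoidAlgebra.mapRingHom ℤ f) (D.chartMapW t f)
      (fun a => D.chartMapW_evalW t f a) _ _ _ _ (D.chartMapW_chartBasisWY t f)
      (D.chartMapW_chartBasisWX t f) G.H

/-- The complex of a cocycle after any change of the base is the base change of one pair. -/
theorem exists_pairData (N : Cocycle (pullback c t)) :
    ∃ P : PairData R, ∀ {S : Type u} [CommRing S] (f : R →+* S),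
      ∃ (e : ((P.map f).M × (P.map f).M') ≃ₗ[S]
          (SecOver (pullback.snd c (Spec.map (CommRingCat.ofHom f) ≫ t)) (N.pullback (mapT t f))
              (D.UT _) ×
            SecOver (pullback.snd c (Spec.map (CommRingCat.ofHom f) ≫ t)) (N.pullback (mapT t f))
              (D.VT _)))
        (e' : (P.map f).W ≃ₗ[S]
          SecOver (pullback.snd c (Spec.map (CommRingCat.ofHom f) ≫ t)) (N.pullback (mapT t f))
            (D.WT _)),
        ∀ n, D.diff (Spec.map (CommRingCat.ofHom f) ≫ t) (N.pullback (mapT t f)) n ∘ₗ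
            e.toLinearMap = e'.toLinearMap ∘ₗ (P.map f).diff n := by
  obtain ⟨F⟩ := N.nonempty_secFrame (D.isAffineOpen_UT t)
  obtain ⟨F'⟩ := N.nonempty_secFrame (D.isAffineOpen_VT t)
  refine ⟨D.toPairData t (Cocycle.gluedIdem F F'), fun {S} _ f => ?_⟩
  rw [toPairData_map, ← Cocycle.gluedIdem_pull]
  exact D.exists_toPairData_equiv _ _ (F.pull (mapT t f) (D.mapT_preimage_UT t f).ge)
    (F'.pull (mapT t f) (D.mapT_preimage_VT t f).ge)

end CurveCover

end FLTAgent.RelPicard
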