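import Mathlib

/-!
# Representing a Zariski sheaf covered by representable open loci

A Zariski sheaf on schemes over `S` which is covered by finitely many open loci, each classified
by a scheme over `S`, is represented by the scheme glued from these.

Main declarations: `IsZariskiSheaf`, `ChartSystem`, `exists_representing`.
-/

set_option autoImplicit false

noncomputable section

universe u

open CategoryTheory CategoryTheory.Limits AlgebraicGeometry TopologicalSpace Opposite

namespace FLTAgent.RelPicard

variable {S : Scheme.{u}}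

/-- An open subscheme as an object over the base. -/
abbrev openObj (T : Over S) (U : T.left.Opens) : Over S := Over.mk (U.ι ≫ T.hom)

/-- The inclusion of an open subscheme. -/
def openHom (T : Over S) (U : T.left.Opens) : openObj T U ⟶ T := Over.homMk U.ι

@[simp] theorem openHom_left (T : Over S) (U : T.left.Opens) : (openHom T U).left = U.ι := rfl

/-- The inclusion of a smaller open subscheme. -/
def openLE (T : Over S) {U V : T.left.Opens} (h : U ≤ V) : openObj T U ⟶ openObj T V :=
  Over.homMk (T.left.homOfLE h) (by simp)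

@[simp] theorem openLE_comp (T : Over S) {U V : T.left.Opens} (h : U ≤ V) :
    openLE T h ≫ openHom T V = openHom T U :=
  Over.OverMorphism.ext (T.left.homOfLE_ι h)

theorem range_subset_of_preimage {X Y : Scheme.{u}} (f : X ⟶ Y) {U : Y.Opens}
    (h : ⊤ ≤ f ⁻¹ᵁ U) : Set.range f ⊆ Set.range U.ι := by
  rw [Scheme.Opens.range_ι]
  rintro _ ⟨x, rfl⟩
  exact h (show x ∈ (⊤ : X.Opens) from trivial)

/-- A map landing in an open subscheme. -/
def openLift {T' T : Over S} (f : T' ⟶ T) (U : T.left.Opens) (h : ⊤ ≤ f.left ⁻¹ᵁ U) :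
    T' ⟶ openObj T U :=
  Over.homMk (IsOpenImmersion.lift U.ι f.left (range_subset_of_preimage f.left h)) (by
    simp [IsOpenImmersion.lift_fac_assoc])

@[simp] theorem openLift_comp {T' T : Over S} (f : T' ⟶ T) (U : T.left.Opens)
    (h : ⊤ ≤ f.left ⁻¹ᵁ U) : openLift f U h ≫ openHom T U = f :=
  Over.OverMorphism.ext (IsOpenImmersion.lift_fac _ _ _)

theorem preimage_openHom (T : Over S) (U : T.left.Opens) : ⊤ ≤ (openHom T U).left ⁻¹ᵁ U :=
  U.ι_preimage_self.ge

variable (G : (Over S)ᵒᵖ ⥤ Type u)

/-- Pulling a section back. -/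
abbrev pullObj {T' T : Over S} (f : T' ⟶ T) (a : G.obj (op T)) : G.obj (op T') := G.map f.op a

theorem pullObj_id {T : Over S} (a : G.obj (op T)) : pullObj G (𝟙 T) a = a := by
  simp [pullObj]

theorem pullObj_comp {T'' T' T : Over S} (g : T'' ⟶ T') (f : T' ⟶ T) (a : G.obj (op T)) :
    pullObj G (g ≫ f) a = pullObj G g (pullObj G f a) := by
  simp [pullObj]

/-- Descent for Zariski open covers. -/
structure IsZariskiSheaf : Prop where
  separated : ∀ (T : Over S) (κ : Type u) (U : κ → T.left.Opens), ⨆ i, U i = ⊤ →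
    ∀ a b : G.obj (op T), (∀ i, pullObj G (openHom T (U i)) a =
      pullObj G (openHom T (U i)) b) → a = b
  glue : ∀ (T : Over S) (κ : Type u) (U : κ → T.left.Opens), ⨆ i, U i = ⊤ →
    ∀ s : (i : κ) → G.obj (op (openObj T (U i))),
      (∀ i i', pullObj G (openLE T (inf_le_left : U i ⊓ U i' ≤ U i)) (s i) =
        pullObj G (openLE T (inf_le_right : U i ⊓ U i' ≤ U i')) (s i')) →
      ∃ a, ∀ i, pullObj G (openHom T (U i)) a = s i

/-- Open loci covering a functor, each classified by a scheme. -/
structure ChartSystem where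
  ι : Type u
  finite : Finite ι
  Z : ι → Over S
  u : ∀ i, G.obj (op (Z i))
  locus : ι → ∀ T : Over S, G.obj (op T) → T.left.Opens
  locus_pull : ∀ (i : ι) {T' T : Over S} (f : T' ⟶ T) (a : G.obj (op T)),
    locus i T' (pullObj G f a) = f.left ⁻¹ᵁ locus i T a
  locus_u : ∀ i, locus i (Z i) (u i) = ⊤
  covers : ∀ (T : Over S) (a : G.obj (op T)), ⨆ i, locus i T a = ⊤
  classify : ∀ (i : ι) (T : Over S) (a : G.obj (op T)), locus i T a = ⊤ →
    ∃! f : T ⟶ Z i, pullObj G f (u i) = a

namespace ChartSystem

variable {G} (D : ChartSystem G)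

theorem chart_hom_ext {i : D.ι} {T : Over S} {a b : T ⟶ D.Z i}
    (h : pullObj G a (D.u i) = pullObj G b (D.u i)) : a = b :=
  (D.classify i T (pullObj G b (D.u i)) (by rw [D.locus_pull, D.locus_u]; rfl)).unique h rfl

/-- The map to a chart classifying a section in its locus. -/
def chartMap {i : D.ι} {T : Over S} (a : G.obj (op T)) (h : ⊤ ≤ D.locus i T a) : T ⟶ D.Z i :=
  (D.classify i T a (top_le_iff.mp h)).exists.choose

theorem pull_chartMap {i : D.ι} {T : Over S} (a : G.obj (op T)) (h : ⊤ ≤ D.locus i T a) :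
    pullObj G (D.chartMap a h) (D.u i) = a :=
  (D.classify i T a (top_le_iff.mp h)).exists.choose_spec

/-- The part of the chart `i` lying in the locus `j`. -/
abbrev inter (i j : D.ι) : (D.Z i).left.Opens := D.locus j (D.Z i) (D.u i)

theorem top_le_locus_inter (i j : D.ι) :
    ⊤ ≤ D.locus j _ (pullObj G (openHom (D.Z i) (D.inter i j)) (D.u i)) := by
  rw [D.locus_pull]
  exact preimage_openHom _ _

/-- The change of chart, into the target chart. -/
def transTo (i j : D.ι) : openObj (D.Z i) (D.inter i j) ⟶ D.Z j :=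
  D.chartMap _ (D.top_le_locus_inter i j)

theorem pull_transTo (i j : D.ι) :
    pullObj G (D.transTo i j) (D.u j) = pullObj G (openHom (D.Z i) (D.inter i j)) (D.u i) :=
  D.pull_chartMap _ _

theorem transTo_mem (i j : D.ι) : ⊤ ≤ (D.transTo i j).left ⁻¹ᵁ D.inter j i := by
  rw [← D.locus_pull, pull_transTo, D.locus_pull, D.locus_u]
  exact le_rfl

/-- The change of chart. -/
def trans (i j : D.ι) : openObj (D.Z i) (D.inter i j) ⟶ openObj (D.Z j) (D.inter j i) :=
  openLift (D.transTo i j) _ (D.transTo_mem i j)

theorem trans_comp (i j : D.ι) : D.trans i j ≫ openHom _ _ = D.transTo i j :=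
  openLift_comp _ _ _

theorem trans_self (i : D.ι) : D.trans i i = 𝟙 _ := by
  have h : D.trans i i ≫ openHom _ _ = openHom _ (D.inter i i) := by
    rw [D.trans_comp]
    exact D.chart_hom_ext (D.pull_transTo i i)
  refine Over.OverMorphism.ext ?_
  rw [← cancel_mono (D.inter i i).ι, Over.id_left, Category.id_comp]
  exact congrArg CommaMorphism.left h

/-- The triple overlap over the base. -/
abbrev triple (i j k : D.ι) : Over S :=
  Over.mk (pullback.fst (D.inter i j).ι (D.inter i k).ι ≫ (D.inter i j).ι ≫ (D.Z i).hom)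

/-- The first projection of a triple overlap. -/
def tripleFst (i j k : D.ι) : D.triple i j k ⟶ openObj (D.Z i) (D.inter i j) :=
  Over.homMk (pullback.fst _ _)

/-- The second projection of a triple overlap. -/
def tripleSnd (i j k : D.ι) : D.triple i j k ⟶ openObj (D.Z i) (D.inter i k) :=
  Over.homMk (pullback.snd _ _) (by
    simp [← pullback.condition_assoc])

/-- The projection of a triple overlap to its chart. -/
def tripleTo (i j k : D.ι) : D.triple i j k ⟶ D.Z i := D.tripleFst i j k ≫ openHom _ _

theorem tripleTo_eq (i j k : D.ι) : D.tripleTo i j k = D.tripleSnd i j k ≫ openHom _ _ :=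
  Over.OverMorphism.ext pullback.condition

/-- The change of chart on a triple overlap. -/
def tripleTrans (i j k : D.ι) : D.triple i j k ⟶ D.Z j := D.tripleFst i j k ≫ D.transTo i j

theorem pull_tripleTrans (i j k : D.ι) :
    pullObj G (D.tripleTrans i j k) (D.u j) = pullObj G (D.tripleTo i j k) (D.u i) := by
  rw [tripleTrans, pullObj_comp, pull_transTo, ← pullObj_comp]
  rfl

theorem tripleTrans_mem (i j k : D.ι) :
    ⊤ ≤ (D.tripleTrans i j k).left ⁻¹ᵁ D.inter j k := by
  rw [← D.locus_pull, pull_tripleTrans, D.locus_pull, tripleTo_eq]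
  intro x _
  exact preimage_openHom (D.Z i) (D.inter i k)
    (show ((D.tripleSnd i j k).left x) ∈ (⊤ : Scheme.Opens _) from trivial)

/-- The transition on triple overlaps. -/
def tripleMap (i j k : D.ι) : D.triple i j k ⟶ D.triple j k i :=
  Over.homMk
    (pullback.lift (openLift (D.tripleTrans i j k) _ (D.tripleTrans_mem i j k)).left
      ((D.tripleFst i j k ≫ D.trans i j).left) (by
        have h1 := congrArg CommaMorphism.left
          (openLift_comp (D.tripleTrans i j k) _ (D.tripleTrans_mem i j k))
        have h2 := congrArg CommaMorphism.left (D.trans_comp i j)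
        simp only [Over.comp_left, openHom_left] at h1 h2 ⊢
        rw [h1, Category.assoc, h2]
        rfl))
    (by
      have h1 := Over.w (openLift (D.tripleTrans i j k) _ (D.tripleTrans_mem i j k))
      simp only [Over.mk_hom] at h1 ⊢
      rw [pullback.lift_fst_assoc]
      exact h1)

theorem tripleMap_to (i j k : D.ι) :
    D.tripleMap i j k ≫ D.tripleTo j k i = D.tripleTrans i j k := by
  refine Over.OverMorphism.ext ?_
  have h1 := congrArg CommaMorphism.left
    (openLift_comp (D.tripleTrans i j k) _ (D.tripleTrans_mem i j k))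
  show pullback.lift _ _ _ ≫ pullback.fst _ _ ≫ _ = _
  rw [pullback.lift_fst_assoc]
  exact h1

theorem tripleMap_snd (i j k : D.ι) :
    (D.tripleMap i j k).left ≫ pullback.snd _ _ = pullback.fst _ _ ≫ (D.trans i j).left :=
  pullback.lift_snd _ _ _

theorem tripleMap_cocycle (i j k : D.ι) :
    D.tripleMap i j k ≫ D.tripleMap j k i ≫ D.tripleMap k i j = 𝟙 _ := by
  have h : (D.tripleMap i j k ≫ D.tripleMap j k i ≫ D.tripleMap k i j) ≫ D.tripleTo i j k =
      D.tripleTo i j k := by
    refine D.chart_hom_ext ?_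
    simp only [Category.assoc, tripleMap_to]
    rw [← Category.assoc, pullObj_comp, pull_tripleTrans, ← pullObj_comp,
      Category.assoc, tripleMap_to,
      pullObj_comp, pull_tripleTrans, ← pullObj_comp, tripleMap_to, pull_tripleTrans]
  refine Over.OverMorphism.ext ?_
  rw [← cancel_mono (pullback.fst (D.inter i j).ι (D.inter i k).ι ≫ (D.inter i j).ι),
    Over.id_left, Category.id_comp]
  exact congrArg CommaMorphism.left h

theorem isIso_inter_self (i : D.ι) : IsIso (D.inter i i).ι := by
  have : Epi (D.inter i i).ι.base := by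
    rw [TopCat.epi_iff_surjective, ← Set.range_eq_univ]
    exact (D.inter i i).range_ι.trans (by rw [inter, D.locus_u]; rfl)
  exact IsOpenImmersion.isIso _

/-- The gluing data of the charts. -/
def glueData : Scheme.GlueData.{u} where
  J := D.ι
  U i := (D.Z i).left
  V ij := (D.inter ij.1 ij.2).toScheme
  f i j := (D.inter i j).ι
  f_id i := D.isIso_inter_self i
  t i j := (D.trans i j).left
  t_id i := congrArg CommaMorphism.left (D.trans_self i)
  t' i j k := (D.tripleMap i j k).left
  t_fac i j k := D.tripleMap_snd i j k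
  cocycle i j k := congrArg CommaMorphism.left (D.tripleMap_cocycle i j k)
  f_open _ _ := inferInstance

/-- The structure map of the glued scheme. -/
def gluedToBase : D.glueData.glued ⟶ S :=
  Multicoequalizer.desc _ _ (fun i => (D.Z i).hom) fun ⟨i, j⟩ => by
    show (D.inter i j).ι ≫ (D.Z i).hom = ((D.trans i j).left ≫ (D.inter j i).ι) ≫ (D.Z j).hom
    rw [Category.assoc]
    exact (Over.w (D.trans i j)).symm

/-- The representing object. -/
abbrev glued : Over S := Over.mk D.gluedToBase

/-- The charts of the representing object. -/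
def toGlued (i : D.ι) : D.Z i ⟶ D.glued :=
  Over.homMk (D.glueData.ι i) (Multicoequalizer.π_desc _ _ _ _ _)

instance isOpenImmersion_toGlued (i : D.ι) : IsOpenImmersion (D.toGlued i).left :=
  D.glueData.ι_isOpenImmersion i

theorem toGlued_cancel {i : D.ι} {T : Over S} {a b : T ⟶ D.Z i}
    (h : a ≫ D.toGlued i = b ≫ D.toGlued i) : a = b := by
  refine Over.OverMorphism.ext ?_
  rw [← cancel_mono (D.toGlued i).left]
  exact congrArg CommaMorphism.left h

theorem trans_toGlued (i j : D.ι) :
    D.trans i j ≫ openHom _ _ ≫ D.toGlued j = openHom _ (D.inter i j) ≫ D.toGlued i :=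
  Over.OverMorphism.ext (D.glueData.glue_condition i j)

theorem comp_toGlued_eq {i j : D.ι} {T : Over S} {a : T ⟶ D.Z i} {b : T ⟶ D.Z j}
    (h : pullObj G a (D.u i) = pullObj G b (D.u j)) : a ≫ D.toGlued i = b ≫ D.toGlued j := by
  have ha : ⊤ ≤ a.left ⁻¹ᵁ D.inter i j := by
    rw [← D.locus_pull, h, D.locus_pull, D.locus_u]
    exact le_rfl
  have hb : openLift a _ ha ≫ D.transTo i j = b := D.chart_hom_ext (by
    rw [pullObj_comp, pull_transTo, ← pullObj_comp, openLift_comp, h])
  rw [← hb, ← D.trans_comp, Category.assoc, Category.assoc, D.trans_toGlued, ← Category.assoc,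
    openLift_comp]

theorem pull_eq_of_comp_toGlued_eq {i j : D.ι} {T : Over S} {a : T ⟶ D.Z i} {b : T ⟶ D.Z j}
    (h : a ≫ D.toGlued i = b ≫ D.toGlued j) : pullObj G a (D.u i) = pullObj G b (D.u j) := by
  have ha : ⊤ ≤ a.left ⁻¹ᵁ D.inter i j := by
    intro x _
    obtain ⟨z, hz, -⟩ := (D.glueData.ι_eq_iff i j (a.left x) (b.left x)).mp
      (congrArg (fun f : T ⟶ D.glued => f.left x) h)
    show a.left x ∈ D.inter i j
    rw [show a.left x = (D.inter i j).ι z from hz.symm]
    exact z.2
  have hb : openLift a _ ha ≫ D.transTo i j = b := D.toGlued_cancel (by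
    rw [← D.trans_comp, Category.assoc, Category.assoc, D.trans_toGlued, ← Category.assoc,
      openLift_comp, h])
  rw [← hb, pullObj_comp, pull_transTo, ← pullObj_comp, openLift_comp]

/-- The image of a chart. -/
abbrev chartRange (i : D.ι) : D.glued.left.Opens := (D.toGlued i).left.opensRange

theorem iSup_chartRange : ⨆ i, D.chartRange i = ⊤ := by
  refine top_le_iff.mp fun x _ => ?_
  obtain ⟨i, y, rfl⟩ := D.glueData.ι_jointly_surjective x
  exact Opens.mem_iSup.mpr ⟨i, y, rfl⟩

/-- The inverse of a chart on its image. -/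
def fromRange (i : D.ι) : openObj D.glued (D.chartRange i) ⟶ D.Z i :=
  Over.homMk (IsOpenImmersion.lift (D.toGlued i).left (D.chartRange i).ι
    (D.chartRange i).range_ι.subset) (by
      conv_lhs => rw [← Over.w (D.toGlued i)]
      rw [IsOpenImmersion.lift_fac_assoc]
      rfl)

theorem fromRange_toGlued (i : D.ι) :
    D.fromRange i ≫ D.toGlued i = openHom D.glued (D.chartRange i) :=
  Over.OverMorphism.ext (IsOpenImmersion.lift_fac _ _ _)

/-- A map to the glued scheme on the part landing in a chart. -/
theorem exists_lift_chart {T : Over S} (f : T ⟶ D.glued) (i : D.ι) :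
    ∃ c : openObj T (f.left ⁻¹ᵁ D.chartRange i) ⟶ D.Z i,
      c ≫ D.toGlued i = openHom T _ ≫ f := by
  have h : ⊤ ≤ (openHom T (f.left ⁻¹ᵁ D.chartRange i) ≫ f).left ⁻¹ᵁ D.chartRange i :=
    fun x hx => preimage_openHom T _ hx
  exact ⟨openLift _ _ h ≫ D.fromRange i, by
    rw [Category.assoc, fromRange_toGlued, openLift_comp]⟩

theorem exists_universal (hG : IsZariskiSheaf G) :
    ∃ v : G.obj (op D.glued), ∀ i, pullObj G (D.toGlued i) v = D.u i := by
  obtain ⟨v, hv⟩ := hG.glue D.glued D.ι D.chartRange D.iSup_chartRange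
    (fun i => pullObj G (D.fromRange i) (D.u i)) fun i j => by
      rw [← pullObj_comp, ← pullObj_comp]
      refine D.pull_eq_of_comp_toGlued_eq ?_
      rw [Category.assoc, Category.assoc, fromRange_toGlued, fromRange_toGlued, openLE_comp,
        openLE_comp]
  refine ⟨v, fun i => ?_⟩
  have h : ⊤ ≤ (D.toGlued i).left ⁻¹ᵁ D.chartRange i := fun x _ => ⟨x, rfl⟩
  have hid : openLift _ _ h ≫ D.fromRange i = 𝟙 _ := D.toGlued_cancel (by
    rw [Category.assoc, fromRange_toGlued, openLift_comp, Category.id_comp])
  conv_lhs => rw [← openLift_comp (D.toGlued i) _ h]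
  rw [pullObj_comp, hv, ← pullObj_comp, hid, pullObj_id]

theorem locus_universal {v : G.obj (op D.glued)} (hv : ∀ i, pullObj G (D.toGlued i) v = D.u i)
    (i : D.ι) : D.locus i D.glued v = D.chartRange i := by
  have h : ∀ j, (D.toGlued j).left ⁻¹ᵁ D.locus i D.glued v = D.inter j i := fun j => by
    rw [← D.locus_pull, hv]
  refine Opens.ext (Set.ext fun x => ?_)
  obtain ⟨j, y, rfl⟩ := D.glueData.ι_jointly_surjective x
  show y ∈ (D.toGlued j).left ⁻¹ᵁ D.locus i D.glued v ↔ _
  rw [h]
  constructor
  · intro hy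
    refine ⟨(D.transTo j i).left ⟨y, hy⟩, ?_⟩
    have := congrArg (fun f : openObj (D.Z j) (D.inter j i) ⟶ D.glued => f.left ⟨y, hy⟩)
      (D.trans_toGlued j i)
    rw [← Category.assoc, D.trans_comp] at this
    exact this
  · rintro ⟨z, hz⟩
    obtain ⟨w, hw, -⟩ := (D.glueData.ι_eq_iff j i y z).mp hz.symm
    rw [show y = (D.inter j i).ι w from hw.symm]
    exact w.2

theorem bijective_pull (hG : IsZariskiSheaf G) {v : G.obj (op D.glued)}
    (hv : ∀ i, pullObj G (D.toGlued i) v = D.u i) (T : Over S) :
    Function.Bijective fun f : T ⟶ D.glued => pullObj G f v := by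
  constructor
  · intro f g (hfg : pullObj G f v = pullObj G g v)
    refine Over.OverMorphism.ext (Scheme.hom_ext_of_forall _ _ fun x => ?_)
    have hx : f.left x ∈ ⨆ i, D.chartRange i := by rw [iSup_chartRange]; trivial
    obtain ⟨i, hi⟩ := Opens.mem_iSup.mp hx
    refine ⟨f.left ⁻¹ᵁ D.chartRange i, hi, ?_⟩
    have he : f.left ⁻¹ᵁ D.chartRange i = g.left ⁻¹ᵁ D.chartRange i := by
      rw [← D.locus_universal hv, ← D.locus_pull, ← D.locus_pull, hfg]
    obtain ⟨a, ha⟩ := D.exists_lift_chart f i
    obtain ⟨b, hb⟩ := D.exists_lift_chart g i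
    have hab : a = openLE T he.le ≫ b := D.chart_hom_ext (by
      rw [← hv i, ← pullObj_comp, ← pullObj_comp, ha, Category.assoc, hb,
        ← Category.assoc, openLE_comp,
        pullObj_comp, pullObj_comp, hfg])
    have key : openHom T _ ≫ f = openHom T (f.left ⁻¹ᵁ D.chartRange i) ≫ g := by
      rw [← ha, hab, Category.assoc, hb, ← Category.assoc, openLE_comp]
    exact congrArg CommaMorphism.left key
  · intro a
    set W := fun i => D.locus i T a
    have hW : IsOpenCover W := D.covers T a
    let c₀ : ∀ i, openObj T (W i) ⟶ D.Z i := fun i =>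
      D.chartMap (pullObj G (openHom T (W i)) a) (by
        rw [D.locus_pull]; exact preimage_openHom _ _)
    have hc₀ : ∀ i, pullObj G (c₀ i) (D.u i) = pullObj G (openHom T (W i)) a := fun i =>
      D.pull_chartMap _ _
    let c : ∀ i, openObj T (W i) ⟶ D.glued := fun i => c₀ i ≫ D.toGlued i
    have hc : ∀ i, pullObj G (c i) v = pullObj G (openHom T (W i)) a := fun i => by
      rw [pullObj_comp, hv, hc₀]
    let 𝒰 := T.left.openCoverOfIsOpenCover W hW
    have hcompat : ∀ i j : D.ι, pullback.fst (W i).ι (W j).ι ≫ (c i).left =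
        pullback.snd _ _ ≫ (c j).left := fun i j => by
      let P : Over S := Over.mk (pullback.fst (W i).ι (W j).ι ≫ (W i).ι ≫ T.hom)
      let p : P ⟶ openObj T (W i) := Over.homMk (pullback.fst _ _)
      let q : P ⟶ openObj T (W j) := Over.homMk (pullback.snd _ _) (by
        simp [P, ← pullback.condition_assoc])
      have hpq : p ≫ openHom T _ = q ≫ openHom T _ := Over.OverMorphism.ext pullback.condition
      have := D.comp_toGlued_eq (a := p ≫ c₀ i) (b := q ≫ c₀ j) (by
          rw [pullObj_comp, hc₀, pullObj_comp, hc₀, ← pullObj_comp, ← pullObj_comp, hpq])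
      rw [Category.assoc, Category.assoc] at this
      exact congrArg CommaMorphism.left this
    let f₀ : T.left ⟶ D.glued.left := 𝒰.glueMorphisms (fun i => (c i).left) hcompat
    have hf₀ : ∀ i, (W i).ι ≫ f₀ = (c i).left := fun i => 𝒰.ι_glueMorphisms _ hcompat i
    let f : T ⟶ D.glued := Over.homMk f₀ (𝒰.hom_ext _ _ fun i => by
      show (W i).ι ≫ f₀ ≫ _ = (W i).ι ≫ T.hom
      rw [← Category.assoc, hf₀]
      exact Over.w (c i))
    refine ⟨f, hG.separated T D.ι W (D.covers T a) _ _ fun i => ?_⟩
    rw [← pullObj_comp, show openHom T (W i) ≫ f = c i from Over.OverMorphism.ext (hf₀ i), hc]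

/-- The theorem of the charts: the functor is represented by the glued scheme. -/
theorem exists_representing (hG : IsZariskiSheaf G) :
    ∃ (J : Over S) (v : G.obj (op J)),
      (∀ T : Over S, Function.Bijective fun f : T ⟶ J => pullObj G f v) ∧
      ∃ e : ∀ i, D.Z i ⟶ J,
        (∀ i, IsOpenImmersion (e i).left ∧ pullObj G (e i) v = D.u i) ∧
        (∀ x : J.left, ∃ i, x ∈ Set.range (e i).left) ∧
        ∀ i, (D.locus i J v : Set J.left) = Set.range (e i).left := by
  obtain ⟨v, hv⟩ := D.exists_universal hG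
  refine ⟨D.glued, v, D.bijective_pull hG hv, D.toGlued,
    fun i => ⟨inferInstance, hv i⟩, fun x => ?_, fun i => ?_⟩
  · obtain ⟨i, y, rfl⟩ := D.glueData.ι_jointly_surjective x
    exact ⟨i, y, rfl⟩
  · rw [D.locus_universal hv]
    rfl

end ChartSystem

section Cover

variable {κ : Type u} {Z : κ → Over S} {J : Over S} (e : ∀ i, Z i ⟶ J)
  [∀ i, IsOpenImmersion (e i).left] (he : ∀ x : J.left, ∃ i, x ∈ Set.range (e i).left)

include he in
/-- A property local at the source holds for a scheme covered by charts having it. -/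
theorem property_of_charts (P : MorphismProperty Scheme.{u}) [IsZariskiLocalAtSource P]
    (h : ∀ i, P (Z i).hom) : P J.hom := by
  let 𝒰 : J.left.OpenCover :=
    { I₀ := κ
      X := fun i => (Z i).left
      f := fun i => (e i).left
      mem₀ := by
        rw [Scheme.presieve₀_mem_precoverage_iff]
        exact ⟨he, inferInstance⟩ }
  rw [IsZariskiLocalAtSource.iff_of_openCover (P := P) 𝒰]
  intro i
  show P ((e i).left ≫ J.hom)
  rw [Over.w (e i)]
  exact h i

include he in
theorem locallyOfFiniteType_of_charts (h : ∀ i, LocallyOfFiniteType (Z i).hom) :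
    LocallyOfFiniteType J.hom :=
  property_of_charts e he @LocallyOfFiniteType h

include he in
theorem smooth_of_charts (h : ∀ i, Smooth (Z i).hom) : Smooth J.hom :=
  property_of_charts e he @Smooth h

include he in
omit [∀ (i : κ), IsOpenImmersion (Over.Hom.left (e i))] in
theorem compactSpace_of_charts [Finite κ] [∀ i, CompactSpace (Z i).left] : CompactSpace J.left := by
  refine ⟨?_⟩
  rw [show (Set.univ : Set J.left) = ⋃ i, Set.range (e i).left from
    (Set.eq_univ_of_forall fun x => Set.mem_iUnion.mpr (he x)).symm]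
  exact isCompact_iUnion fun i => isCompact_range (e i).left.continuous

include he in
omit [∀ (i : κ), IsOpenImmersion (Over.Hom.left (e i))] in
theorem quasiCompact_of_charts [IsAffine S] [Finite κ] [∀ i, CompactSpace (Z i).left] :
    QuasiCompact J.hom :=
  (quasiCompact_iff_compactSpace J.hom).mpr (compactSpace_of_charts e he)

include he in
theorem quasiSeparated_of_charts [IsLocallyNoetherian S]
    (h : ∀ i, LocallyOfFiniteType (Z i).hom) : QuasiSeparated J.hom := by
  have := locallyOfFiniteType_of_charts e he h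
  have : IsLocallyNoetherian J.left := LocallyOfFiniteType.isLocallyNoetherian J.hom
  exact QuasiSeparated.of_quasiSeparatedSpace J.hom

end Cover

end FLTAgent.RelPicard
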