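import Fermat.Prelude.Def_AlgebraicGeometry_RelPicardAlgEquivZeroCut
import Fermat.Agent.RelPicard.Defs
import Fermat.Agent.RelPicard.Representable
import Fermat.Agent.RelPicard.Products

/-!
# Assembling the representing scheme

The representing scheme with its properties, from: the dictionary between rigidified bundles and
classes, the sheaf property, smooth charts, the separatedness of the functor and a proper integral
scheme carrying a class which reaches every rational class.

Main declarations: `ClassDictionary`, `CurveCover.IsSeparatedFunctor`, `exists_of_inputs`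
(the statement fed by the other files in S25).
-/

set_option autoImplicit false

universe u

open CategoryTheory CategoryTheory.Limits AlgebraicGeometry AlgebraicGeometry.RelPicard
  NeronModelInfra GoodReductionJacobian Opposite

noncomputable section

namespace FLTAgent.RelPicard

variable {k : Type u} [Field k] {C : Scheme.{u}} {c : C ⟶ Spec (CommRingCat.of k)}
  (D : CurveCover k c) (ε : SchemeHomOver (𝟙 (Spec (CommRingCat.of k))) c)

/-- The dictionary between rigidified line bundles and classes. -/
structure ClassDictionary where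
  toPic : ∀ {T : Scheme.{u}} (t : T ⟶ Spec (CommRingCat.of k)),
    RigidifiedLineBundle c ε t → Pic (pullback c t)
  eq_iff : ∀ {T : Scheme.{u}} (t : T ⟶ Spec (CommRingCat.of k))
    (M M' : RigidifiedLineBundle c ε t), toPic t M = toPic t M' ↔ Nonempty (M.L ≅ M'.L)
  mem : ∀ {T : Scheme.{u}} (t : T ⟶ Spec (CommRingCat.of k)) (M : RigidifiedLineBundle c ε t),
    toPic t M ∈ rigPic c ε t
  surj : ∀ {T : Scheme.{u}} (t : T ⟶ Spec (CommRingCat.of k)) (L : Pic (pullback c t)),
    L ∈ rigPic c ε t → ∃ M, toPic t M = L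
  natural : ∀ {T T' : Scheme.{u}} (t : T ⟶ Spec (CommRingCat.of k))
    (t' : T' ⟶ Spec (CommRingCat.of k)) (ψ : SchemeHomOver t' t) (M : RigidifiedLineBundle c ε t),
    toPic t' (M.pullbackAlong ψ) = Pic.map (baseChangeSnd c ψ) (toPic t M)
  unit : ∀ {T : Scheme.{u}} (t : T ⟶ Spec (CommRingCat.of k)),
    toPic t (RigidifiedLineBundle.unit t) = 1
  cut : ∀ {T : Scheme.{u}} (t : T ⟶ Spec (CommRingCat.of k)) (M : RigidifiedLineBundle c ε t),
    FibrewiseAlgEquivZero M ↔ D.DegZero (toPic t M)

variable {D ε}

/-- A representation of the functor gives the representation asked for in S25. -/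
theorem exists_designation_of_representing (B : ClassDictionary D ε)
    (J : Over (Spec (CommRingCat.of k))) (v : (D.relFunctor ε).obj (op J))
    (hv : ∀ T, Function.Bijective fun f : T ⟶ J => pullObj (D.relFunctor ε) f v) :
    ∃ (z : Spec (CommRingCat.of k) ⟶ J.left) (hz : z ≫ J.hom = 𝟙 _),
      Nonempty (RepresentsRelSubPic c ε (algEquivZeroCut c ε)
        ({ P := J.left, toBase := J.hom, zeroSection := z, zeroSection_toBase := hz } :
          RelativePic0Designation k c)) := by
  have hv' : ∀ {T : Scheme.{u}} (t : T ⟶ Spec (CommRingCat.of k)) (L : D.relClasses ε t),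
      ∃! g : SchemeHomOver t J.hom, D.relMap ε g v = L := by
    intro T t L
    obtain ⟨f, hf, hu⟩ := (hv (Over.mk t)).existsUnique L
    refine ⟨⟨f.left, Over.w f⟩, hf, fun g hg => Subtype.ext ?_⟩
    exact congrArg CommaMorphism.left (hu (Over.homMk g.1 g.2) hg)
  obtain ⟨M, hM⟩ := B.surj J.hom v.1 v.2.1
  have hMmem : FibrewiseAlgEquivZero M := (B.cut _ M).mpr (by rw [hM]; exact v.2.2)
  let t₀ := 𝟙 (Spec (CommRingCat.of k))
  have hone : D.DegZero (1 : Pic (pullback c t₀)) := by
    rw [← B.unit (ε := ε) t₀]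
    exact (B.cut _ _).mp (fibrewiseAlgEquivZero_unit t₀)
  obtain ⟨z, hz, -⟩ := hv' t₀ ⟨1, one_mem _, hone⟩
  refine ⟨z.1, z.2, ⟨{ poincare := M, poincare_mem := hMmem, univ := ?_, zero := ?_ }⟩⟩
  · intro T t N hN
    obtain ⟨g, hg, hu⟩ := hv' t ⟨B.toPic t N, B.mem t N, (B.cut t N).mp hN⟩
    refine ⟨g, (B.eq_iff t _ _).mp ?_, fun g' hg' => hu g' (Subtype.ext ?_)⟩
    · rw [B.natural, hM]
      exact congrArg Subtype.val hg
    · have h := (B.eq_iff t _ _).mpr hg'
      rw [B.natural, hM] at h
      exact h
  · refine (B.eq_iff t₀ _ _).mp ?_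
    rw [B.natural, hM, B.unit]
    exact congrArg Subtype.val hz

/-- The functor is separated: a class over a valuation ring is determined by the generic point. -/
def CurveCover.IsSeparatedFunctor (D : CurveCover k c)
    (ε : SchemeHomOver (𝟙 (Spec (CommRingCat.of k))) c) : Prop :=
  ∀ (V K : Type u) [CommRing V] [IsDomain V] [ValuationRing V] [Field K] [Algebra V K]
    [IsFractionRing V K] (t : Spec (CommRingCat.of V) ⟶ Spec (CommRingCat.of k)),
    Function.Injective (D.relMap ε (t := t)
      (⟨Spec.map (CommRingCat.ofHom (algebraMap V K)), rfl⟩ :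
        SchemeHomOver (Spec.map (CommRingCat.ofHom (algebraMap V K)) ≫ t) t))

theorem isSeparated_of_representing (hsep : D.IsSeparatedFunctor ε)
    (J : Over (Spec (CommRingCat.of k))) [QuasiSeparated J.hom]
    (v : (D.relFunctor ε).obj (op J))
    (hv : ∀ T, Function.Bijective fun f : T ⟶ J => pullObj (D.relFunctor ε) f v) :
    IsSeparated J.hom := by
  refine IsSeparated.of_valuativeCriterion _ fun S => ⟨fun a b => ?_⟩
  let T : Over (Spec (CommRingCat.of k)) := Over.mk S.i₂
  let j : Over.mk (Spec.map (CommRingCat.ofHom (algebraMap S.R S.K)) ≫ S.i₂) ⟶ T :=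
    Over.homMk (Spec.map (CommRingCat.ofHom (algebraMap S.R S.K))) rfl
  let f : T ⟶ J := Over.homMk a.l a.fac_right
  let g : T ⟶ J := Over.homMk b.l b.fac_right
  have hj : j ≫ f = j ≫ g := Over.OverMorphism.ext (a.fac_left.trans b.fac_left.symm)
  have h : pullObj (D.relFunctor ε) f v = pullObj (D.relFunctor ε) g v := by
    refine hsep S.R S.K S.i₂ ?_
    show pullObj (D.relFunctor ε) j _ = pullObj (D.relFunctor ε) j _
    rw [← pullObj_comp, ← pullObj_comp, hj]
  exact CommSq.LiftStruct.ext (congrArg CommaMorphism.left ((hv T).1 h))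

variable [IsAlgClosed k]

/-- The representing scheme with its properties. -/
theorem exists_of_inputs (B : ClassDictionary D ε) (hG : IsZariskiSheaf (D.relFunctor ε))
    (S : ChartSystem (D.relFunctor ε)) [∀ i, CompactSpace (S.Z i).left]
    (hsmooth : ∀ i, Smooth (S.Z i).hom) (hsep : D.IsSeparatedFunctor ε) {P : Scheme.{u}}
    {p : P ⟶ Spec (CommRingCat.of k)} [IsProper p] [IsIntegral P] (a : D.relClasses ε p)
    (ha : ∀ L : D.relClasses ε (𝟙 (Spec (CommRingCat.of k))),
      ∃ x : SchemeHomOver (𝟙 (Spec (CommRingCat.of k))) p, D.relMap ε x a = L) :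
    ∃ E : RelativePic0Designation k c,
      Nonempty (RepresentsRelSubPic c ε (algEquivZeroCut c ε) E) ∧
        Smooth E.toBase ∧ IsProper E.toBase ∧ GeometricallyConnected E.toBase := by
  have := S.finite
  obtain ⟨J, v, hv, e, he, hcov, -⟩ := S.exists_representing hG
  have : ∀ i, IsOpenImmersion (e i).left := fun i => (he i).1
  have hft : ∀ i, LocallyOfFiniteType (S.Z i).hom := fun i => by
    have := hsmooth i; infer_instance
  have : Smooth J.hom := smooth_of_charts e hcov hsmooth
  have : LocallyOfFiniteType J.hom := locallyOfFiniteType_of_charts e hcov hft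
  have : QuasiSeparated J.hom := quasiSeparated_of_charts e hcov hft
  have : QuasiCompact J.hom := quasiCompact_of_charts e hcov
  have : IsSeparated J.hom := isSeparated_of_representing hsep J v hv
  obtain ⟨z, hz, hR⟩ := exists_designation_of_representing B J v hv
  obtain ⟨φ, hφ⟩ := (hv (Over.mk p)).2 a
  dsimp only at hφ
  have hpts : ∀ y : SchemeHomOver (𝟙 (Spec (CommRingCat.of k))) J.hom,
      ∃ x : SchemeHomOver (𝟙 (Spec (CommRingCat.of k))) p, x.1 ≫ φ.left = y.1 := by
    intro y
    let y' : Over.mk (𝟙 (Spec (CommRingCat.of k))) ⟶ J := Over.homMk y.1 y.2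
    obtain ⟨x, hx⟩ := ha (pullObj (D.relFunctor ε) y' v)
    refine ⟨x, ?_⟩
    let x' : Over.mk (𝟙 (Spec (CommRingCat.of k))) ⟶ Over.mk p := Over.homMk x.1 x.2
    have h : x' ≫ φ = y' := (hv _).1 (by
      show pullObj _ (x' ≫ φ) v = pullObj _ y' v
      rw [pullObj_comp, hφ]
      exact hx)
    exact congrArg CommaMorphism.left h
  obtain ⟨h1, h2⟩ := isProper_and_geometricallyConnected_of_points
    (p := p) (j := J.hom) ⟨φ.left, Over.w φ⟩ hpts
  exact ⟨_, hR, ‹Smooth J.hom›, h1, h2⟩

end FLTAgent.RelPicard
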