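import Fermat.Agent.RelPicard.AffineSectionsFrame
import Fermat.Agent.RelPicard.AffineSectionsPair

/-!
# The modules of a tuple of matrices on two glued charts

An algebra with a basis over a polynomial ring, acting on coefficient vectors by matrices.  Such an
action extends to a localisation, is turned around at infinity when the degrees are bounded, and,
when its fibres are of rank one, has rank one frames glueing to a pair of idempotent matrices.

Main declarations: `MatMod`, `extendFrame`, `infinityAlg`, `glueFrames`,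
`nonempty_frame_of_fibres`; used by `ChartAlgebras` and `ChartOfCover`.
-/

set_option autoImplicit false

universe u v w

open Polynomial Matrix

noncomputable section

namespace FLTAgent.RelPicard

section Action

variable {L : Type u} [CommRing L] {T : Type v} [CommRing T] [Algebra L T] {r : ℕ}

/-- The coefficient vectors as a module over an algebra acting by matrices. -/
def MatMod (_ : T →ₐ[L] Matrix (Fin r) (Fin r) L) : Type u := Fin r → L

namespace MatMod

variable (α : T →ₐ[L] Matrix (Fin r) (Fin r) L)

instance instAddCommGroup : AddCommGroup (MatMod α) := inferInstanceAs (AddCommGroup (Fin r → L))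

instance instModule : Module L (MatMod α) := inferInstanceAs (Module L (Fin r → L))

instance instModuleAlg : Module T (MatMod α) where
  smul a m := (α a *ᵥ (show Fin r → L from m) : Fin r → L)
  one_smul m := show α 1 *ᵥ _ = m by rw [map_one]; exact Matrix.one_mulVec (show Fin r → L from m)
  mul_smul a b m := show α (a * b) *ᵥ _ = α a *ᵥ (α b *ᵥ (show Fin r → L from m)) by
    rw [map_mul, Matrix.mulVec_mulVec]
  smul_zero a := Matrix.mulVec_zero (α a)
  smul_add a m m' := Matrix.mulVec_add (α a) (show Fin r → L from m) (show Fin r → L from m')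
  add_smul a b m := show α (a + b) *ᵥ _ = _ by
    rw [map_add, Matrix.add_mulVec]; rfl
  zero_smul m := show α 0 *ᵥ _ = _ by rw [map_zero, Matrix.zero_mulVec]; rfl

instance instIsScalarTower : IsScalarTower L T (MatMod α) :=
  ⟨fun l a m => show α (l • a) *ᵥ _ = l • (α a *ᵥ (show Fin r → L from m)) by
    rw [map_smul, Matrix.smul_mulVec]⟩

/-- The coefficients of an element. -/
def vec : MatMod α ≃ₗ[L] (Fin r → L) := LinearEquiv.refl L (Fin r → L)

theorem vec_smul (a : T) (m : MatMod α) : vec α (a • m) = α a *ᵥ vec α m := rfl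

/-- The standard basis. -/
def stdBasis : Module.Basis (Fin r) L (MatMod α) := (Pi.basisFun L (Fin r)).map (vec α).symm

theorem vec_stdBasis (a : Fin r) : vec α (stdBasis α a) = Pi.single a 1 := by
  simp [stdBasis]

theorem sum_vec_smul (m : MatMod α) : ∑ a, vec α m a • stdBasis α a = m :=
  (stdBasis α).sum_repr m

end MatMod

/-- An algebra map into matrices from its values on a basis. -/
def algHomOfBasis (b : Module.Basis (Fin r) L T) {n : Type w} [Fintype n] [DecidableEq n]
    (τ : Fin r → Matrix n n L) (hone : ∑ l, b.repr 1 l • τ l = 1)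
    (hmul : ∀ i j, τ i * τ j = ∑ l, b.repr (b i * b j) l • τ l) : T →ₐ[L] Matrix n n L :=
  AlgHom.ofLinearMap (b.constr L τ) (by rw [Module.Basis.constr_apply_fintype (S := L)]; exact hone)
    (fun x y => LinearMap.congr_fun (LinearMap.congr_fun
      (show (LinearMap.mul L T).compr₂ (b.constr L τ) =
          (LinearMap.mul L (Matrix n n L)).compl₁₂ (b.constr L τ) (b.constr L τ) from
        b.ext fun i => b.ext fun j => by
          rw [LinearMap.compr₂_apply, LinearMap.mul_apply', LinearMap.compl₁₂_apply,
            LinearMap.mul_apply', b.constr_basis, b.constr_basis, hmul,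
            Module.Basis.constr_apply_fintype (S := L)]
          rfl) x) y)

theorem algHomOfBasis_basis (b : Module.Basis (Fin r) L T) {n : Type w} [Fintype n] [DecidableEq n]
    (τ : Fin r → Matrix n n L) (hone : ∑ l, b.repr 1 l • τ l = 1)
    (hmul : ∀ i j, τ i * τ j = ∑ l, b.repr (b i * b j) l • τ l) (i : Fin r) :
    algHomOfBasis b τ hone hmul (b i) = τ i :=
  b.constr_basis L τ i

variable {L' : Type u} [CommRing L'] {T' : Type v} [CommRing T'] [Algebra L' T'] {g : L →+* L'}
  {f : T →+* T'} (hfg : ∀ a, f (algebraMap L T a) = algebraMap L' T' (g a))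
  {b : Module.Basis (Fin r) L T} {b' : Module.Basis (Fin r) L' T'} (hb : ∀ i, f (b i) = b' i)

include hfg hb

/-- The extension of an action by matrices along a change of scalars. -/
def extendAlg (α : T →ₐ[L] Matrix (Fin r) (Fin r) L) : T' →ₐ[L'] Matrix (Fin r) (Fin r) L' :=
  algHomOfBasis b' (fun i => g.mapMatrix (α (b i)))
    (by
      have h : ∀ l, b'.repr 1 l = g (b.repr 1 l) := fun l => by
        rw [← map_one f]; exact repr_map_of_basis g f hfg b b' hb 1 l
      simp only [h]
      conv_rhs => rw [← map_one g.mapMatrix, ← map_one α, ← b.sum_repr 1]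
      simp only [map_sum, map_smul, RingHom.mapMatrix_apply, Matrix.map_smul' _ _ _ (map_mul g)])
    (fun i j => by
      have h : ∀ l, b'.repr (b' i * b' j) l = g (b.repr (b i * b j) l) := fun l => by
        rw [← hb, ← hb, ← map_mul f]; exact repr_map_of_basis g f hfg b b' hb _ l
      simp only [h]
      rw [← map_mul, ← map_mul α]
      conv_lhs => rw [← b.sum_repr (b i * b j)]
      simp only [map_sum, map_smul, RingHom.mapMatrix_apply, Matrix.map_smul' _ _ _ (map_mul g)])

theorem extendAlg_apply (α : T →ₐ[L] Matrix (Fin r) (Fin r) L) (x : T) :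
    extendAlg hfg hb α (f x) = g.mapMatrix (α x) := by
  rw [← b.sum_repr x, map_sum, map_sum, map_sum, map_sum]
  refine Finset.sum_congr rfl fun i _ => ?_
  rw [Algebra.smul_def, map_mul f, hfg, hb, ← Algebra.smul_def, map_smul, ← Algebra.smul_def,
    map_smul α, RingHom.mapMatrix_apply, Matrix.map_smul' _ _ _ (map_mul g)]
  exact congrArg _ (algHomOfBasis_basis b' _ _ _ i)

end Action

section Frames

variable {A : Type u} [CommRing A] {M : Type v} [AddCommGroup M] [Module A M]

/-- Swapping for the forms of a frame gives swapping for all forms. -/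
theorem swap_of_swap {n : ℕ} (σ : Fin n → M) (τ : Fin n → M →ₗ[A] A)
    (hsum : ∀ m, ∑ i, τ i m • σ i = m) (h : ∀ i m m', τ i m • m' = τ i m' • m) (φ : M →ₗ[A] A)
    (m m' : M) : φ m • m' = φ m' • m := by
  have hφ : ∀ z, φ z = ∑ i, φ (σ i) * τ i z := fun z => by
    conv_lhs => rw [← hsum z, map_sum]
    exact Finset.sum_congr rfl fun i _ => by rw [map_smul, smul_eq_mul, mul_comm]
  rw [hφ m, hφ m', Finset.sum_smul, Finset.sum_smul]
  exact Finset.sum_congr rfl fun i _ => by rw [mul_smul, mul_smul, h i m m']

/-- The transition matrix between two rank one frames. -/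
def RankOneFrame.transMat (F F' : RankOneFrame A M) : Matrix (Fin F'.n) (Fin F.n) A :=
  Matrix.of fun i j => F'.τ i (F.σ j)

theorem RankOneFrame.transMat_mul (F F' F'' : RankOneFrame A M) :
    F'.transMat F'' * F.transMat F' = F.transMat F'' := by
  ext i j
  rw [Matrix.mul_apply]
  conv_rhs => rw [transMat, Matrix.of_apply, ← F'.sum_smul (F.σ j)]
  simp [transMat, map_sum, mul_comm]

theorem RankOneFrame.transMat_self (F : RankOneFrame A M) : F.transMat F = F.mat := rfl

theorem RankOneFrame.transMat_coords (F F' : RankOneFrame A M) (m : M) :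
    F.transMat F' *ᵥ F.coords m = F'.coords m := by
  funext i
  conv_rhs => rw [coords, LinearMap.pi_apply, ← F.sum_smul m]
  simp [transMat, Matrix.mulVec, dotProduct, coords, map_sum, mul_comm]

end Frames

section Extend

variable {L : Type u} [CommRing L] {T : Type v} [CommRing T] [Algebra L T] {r : ℕ}
  {L' : Type u} [CommRing L'] {T' : Type v} [CommRing T'] [Algebra L' T'] {g : L →+* L'}
  {f : T →+* T'} (hfg : ∀ a, f (algebraMap L T a) = algebraMap L' T' (g a))
  {b : Module.Basis (Fin r) L T} {b' : Module.Basis (Fin r) L' T'} (hb : ∀ i, f (b i) = b' i)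
  {α : T →ₐ[L] Matrix (Fin r) (Fin r) L} {α' : T' →ₐ[L'] Matrix (Fin r) (Fin r) L'}
  (hα : ∀ x, α' (f x) = g.mapMatrix (α x))

/-- The change of scalars of coefficient vectors. -/
def vecMap (g : L →+* L') (α : T →ₐ[L] Matrix (Fin r) (Fin r) L)
    (α' : T' →ₐ[L'] Matrix (Fin r) (Fin r) L') (m : MatMod α) : MatMod α' :=
  (MatMod.vec α').symm (g ∘ MatMod.vec α m)

theorem vecMap_stdBasis (a : Fin r) :
    vecMap g α α' (MatMod.stdBasis α a) = MatMod.stdBasis α' a := by
  refine (MatMod.vec α').injective ?_
  rw [MatMod.vec_stdBasis, vecMap, LinearEquiv.apply_symm_apply, MatMod.vec_stdBasis]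
  funext i
  simp [Pi.single_apply, apply_ite g]

include hα in
theorem vecMap_smul (x : T) (m : MatMod α) :
    vecMap g α α' (x • m) = f x • vecMap g α α' m := by
  refine (MatMod.vec α').injective ?_
  rw [vecMap, LinearEquiv.apply_symm_apply, MatMod.vec_smul, MatMod.vec_smul, vecMap,
    LinearEquiv.apply_symm_apply, hα, RingHom.mapMatrix_apply]
  funext i
  exact g.map_mulVec _ _ i

/-- The scalar extension of a linear form. -/
def extendFormLin (τ : MatMod α →ₗ[T] T) : MatMod α' →ₗ[L'] T' :=
  (MatMod.stdBasis α').constr L' fun a => f (τ (MatMod.stdBasis α a))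

include hfg in
theorem extendFormLin_vecMap (τ : MatMod α →ₗ[T] T) (m : MatMod α) :
    extendFormLin (f := f) (α' := α') τ (vecMap g α α' m) = f (τ m) := by
  conv_rhs => rw [← MatMod.sum_vec_smul α m]
  rw [extendFormLin, Module.Basis.constr_apply_fintype, map_sum, map_sum]
  refine Finset.sum_congr rfl fun a _ => ?_
  rw [τ.map_smul_of_tower, Algebra.smul_def, Algebra.smul_def, map_mul, hfg]
  rfl

include hfg hb hα

/-- The scalar extension of a linear form is linear over the extended algebra. -/
def extendForm (τ : MatMod α →ₗ[T] T) : MatMod α' →ₗ[T'] T' where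
  toFun := extendFormLin (f := f) (α' := α') τ
  map_add' := map_add _
  map_smul' x m := by
    rw [RingHom.id_apply]
    have h : ∀ i a, extendFormLin (f := f) (α' := α') τ (b' i • MatMod.stdBasis α' a) =
        b' i * extendFormLin (f := f) (α' := α') τ (MatMod.stdBasis α' a) := fun i a => by
      rw [← hb, ← vecMap_stdBasis (g := g) (α := α), ← vecMap_smul hα,
        extendFormLin_vecMap hfg, extendFormLin_vecMap hfg, map_smul, smul_eq_mul, map_mul]
    conv_lhs => rw [← b'.sum_repr x, ← MatMod.sum_vec_smul α' m]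
    conv_rhs => rw [← b'.sum_repr x, ← MatMod.sum_vec_smul α' m]
    simp only [Finset.sum_smul, Finset.smul_sum, map_sum, smul_assoc, map_smul,
      smul_comm (b' _) (MatMod.vec α' m _), h, smul_eq_mul, Finset.sum_mul, Finset.mul_sum,
      smul_mul_assoc, mul_smul_comm]
    exact Finset.sum_congr rfl fun _ _ => Finset.sum_congr rfl fun _ _ => smul_comm _ _ _

theorem extendForm_vecMap (τ : MatMod α →ₗ[T] T) (m : MatMod α) :
    extendForm hfg hb hα τ (vecMap g α α' m) = f (τ m) := extendFormLin_vecMap hfg τ m

/-- The scalar extension of a rank one frame. -/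
def extendFrame (F : RankOneFrame T (MatMod α)) : RankOneFrame T' (MatMod α') :=
  have hsum : ∀ m, ∑ i, extendForm hfg hb hα (F.τ i) m • vecMap g α α' (F.σ i) = m := by
    intro m
    have h : ∑ i, ((LinearMap.toSpanSingleton T' (MatMod α') (vecMap g α α' (F.σ i))).comp
        (extendForm hfg hb hα (F.τ i))).restrictScalars L' = LinearMap.id := by
      refine (MatMod.stdBasis α').ext fun a => ?_
      simp only [LinearMap.coe_sum, Finset.sum_apply, LinearMap.coe_restrictScalars,
        LinearMap.comp_apply, LinearMap.toSpanSingleton_apply, LinearMap.id_apply]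
      conv_rhs => rw [← vecMap_stdBasis (g := g) (α := α), ← F.sum_smul (MatMod.stdBasis α a)]
      have hmap : ∀ z : Fin F.n → MatMod α, vecMap g α α' (∑ i, z i) =
          ∑ i, vecMap g α α' (z i) := by
        intro z
        refine (MatMod.vec α').injective ?_
        simp only [vecMap, map_sum, LinearEquiv.apply_symm_apply]
        funext c
        simp [Finset.sum_apply]
      rw [hmap]
      refine Finset.sum_congr rfl fun i _ => ?_
      rw [vecMap_smul hα, ← vecMap_stdBasis (g := g) (α := α), extendForm_vecMap]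
    simpa using LinearMap.congr_fun h m
  { n := F.n
    σ := fun i => vecMap g α α' (F.σ i)
    τ := fun i => extendForm hfg hb hα (F.τ i)
    sum_smul := hsum
    sum_one := by simp only [extendForm_vecMap, ← map_sum, F.sum_one, map_one]
    swap := swap_of_swap _ _ hsum fun i m m' => by
      have h : ∀ a c, extendForm hfg hb hα (F.τ i) (MatMod.stdBasis α' a) • MatMod.stdBasis α' c =
          extendForm hfg hb hα (F.τ i) (MatMod.stdBasis α' c) •
            MatMod.stdBasis α' a := fun a c => by
        simp only [← vecMap_stdBasis (g := g) (α := α) (α' := α'), extendForm_vecMap,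
          ← vecMap_smul hα, F.swap]
      let B : MatMod α' →ₗ[L'] MatMod α' →ₗ[L'] MatMod α' :=
        LinearMap.mk₂ L' (fun p q => extendForm hfg hb hα (F.τ i) p • q)
          (fun p p' q => by simp only [map_add, add_smul])
          (fun a p q => by simp only [LinearMap.map_smul_of_tower, smul_assoc])
          (fun p q q' => smul_add _ q q')
          (fun a p q => smul_comm _ a q)
      have hB : B = B.flip :=
        (MatMod.stdBasis α').ext fun a => (MatMod.stdBasis α').ext fun c => h a c
      exact LinearMap.congr_fun (LinearMap.congr_fun hB m) m' }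

theorem extendFrame_mat (F : RankOneFrame T (MatMod α)) :
    (extendFrame hfg hb hα F).mat = F.mat.map f := by
  ext i j
  exact extendForm_vecMap hfg hb hα _ _

theorem extendFrame_coords (F : RankOneFrame T (MatMod α)) (m : MatMod α) :
    (extendFrame hfg hb hα F).coords (vecMap g α α' m) = f ∘ F.coords m := by
  funext i
  exact extendForm_vecMap hfg hb hα _ _

end Extend

section Localisation

variable {L : Type u} [CommRing L] {T : Type v} [CommRing T] [Algebra L T] {r : ℕ}
  {L' : Type u} [CommRing L'] {T' : Type v} [CommRing T'] [Algebra L' T'] (g : L →+* L')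
  (f : T →+* T') (hfg : ∀ a, f (algebraMap L T a) = algebraMap L' T' (g a))
  (b : Module.Basis (Fin r) L T) (z : L)

include hfg in
/-- A basis survives inverting a scalar. -/
theorem bijective_combination_localisation (hu : IsUnit (g z))
    (hL : ∀ c : L', ∃ (n : ℕ) (q : L), g z ^ n * c = g q)
    (hreg : ∀ (n : ℕ) (q : L), z ^ n * q = 0 → q = 0)
    (hsurj : ∀ x : T', ∃ (n : ℕ) (a : T), f (algebraMap L T z) ^ n * x = f a)
    (hker : ∀ a, f a = 0 → ∃ m : ℕ, algebraMap L T z ^ m * a = 0) :
    Function.Bijective (Fintype.linearCombination L' fun l => f (b l)) := by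
  have hcomb : ∀ q : Fin r → L,
      Fintype.linearCombination L' (fun l => f (b l)) (g ∘ q) = f (∑ l, q l • b l) := fun q => by
    simp [Fintype.linearCombination_apply, Algebra.smul_def, map_sum, hfg]
  constructor
  · refine (injective_iff_map_eq_zero _).mpr fun c hc => ?_
    choose n q hq using fun l => hL (c l)
    obtain ⟨N, hN⟩ : ∃ N, ∀ l, n l ≤ N :=
      ⟨Finset.univ.sup n, fun l => Finset.le_sup (Finset.mem_univ l)⟩
    have hq' : (g z ^ N) • c = g ∘ fun l => z ^ (N - n l) * q l := funext fun l => by
      rw [Pi.smul_apply, smul_eq_mul, Function.comp_apply, map_mul, map_pow, ← hq, ← mul_assoc,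
        ← pow_add, Nat.sub_add_cancel (hN l)]
    have h0 := congrArg (Fintype.linearCombination L' fun l => f (b l)) hq'
    rw [map_smul, hc, smul_zero, hcomb] at h0
    obtain ⟨m, hm⟩ := hker _ h0.symm
    rw [← map_pow, ← Algebra.smul_def, Finset.smul_sum] at hm
    simp only [← mul_smul] at hm
    funext l
    have h1 := hreg (m + (N - n l)) (q l) (by
      rw [pow_add, mul_assoc]
      exact Fintype.linearIndependent_iff.mp b.linearIndependent _ hm l)
    have h2 : g z ^ n l * c l = 0 := by rw [hq, h1, map_zero]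
    exact (hu.pow (n l)).mul_right_eq_zero.mp h2
  · intro x
    obtain ⟨n, a, ha⟩ := hsurj x
    refine ⟨(↑(hu.pow n).unit⁻¹ : L') • (g ∘ fun l => b.repr a l), ?_⟩
    rw [map_smul, hcomb, b.sum_repr, ← ha, hfg, Algebra.smul_def, ← mul_assoc,
      ← map_pow (algebraMap L' T'), ← map_mul, IsUnit.val_inv_mul, map_one, one_mul]

/-- The basis after inverting a scalar. -/
def locBasis (h : Function.Bijective (Fintype.linearCombination L' fun l => f (b l))) :
    Module.Basis (Fin r) L' T' :=
  (Pi.basisFun L' (Fin r)).map (LinearEquiv.ofBijective _ h)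

theorem locBasis_apply (h : Function.Bijective (Fintype.linearCombination L' fun l => f (b l)))
    (i : Fin r) : f (b i) = locBasis f b h i := by
  simp [locBasis, Fintype.linearCombination_apply, Pi.single_apply, ite_smul]

end Localisation

section Infinity

variable {R : Type u} [CommRing R]

theorem inY_injective : Function.Injective (inY R) := by
  have h : inY R =
      (LaurentPolynomial.invert :
          LaurentPolynomial R ≃ₐ[R] LaurentPolynomial R).toRingEquiv.toRingHom.comp
        Polynomial.toLaurent := by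
    refine Polynomial.ringHom_ext (fun a => ?_) ?_ <;> simp [inY]
  intro p q hpq
  rw [h] at hpq
  exact Polynomial.toLaurent_injective
    ((LaurentPolynomial.invert : LaurentPolynomial R ≃ₐ[R] LaurentPolynomial R).injective hpq)

theorem inY_reflect {p : R[X]} {e : ℕ} (hp : p.natDegree ≤ e) :
    inY R (p.reflect e) = LaurentPolynomial.T (-(e : ℤ)) * inX R p := by
  refine Polynomial.induction_with_natDegree_le
    (fun p => inY R (p.reflect e) = LaurentPolynomial.T (-(e : ℤ)) * inX R p) e (by simp)
    (fun n a _ hn => ?_) (fun p q _ _ h1 h2 => ?_) p hp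
  · rw [Polynomial.reflect_C_mul_X_pow, Polynomial.revAt_le hn]
    simp only [inX, inY, map_mul, map_pow, coe_eval₂RingHom, eval₂_C, eval₂_X,
      LaurentPolynomial.T_pow]
    rw [mul_left_comm, ← LaurentPolynomial.T_add]
    congr 2
    omega
  · rw [Polynomial.reflect_add, map_add, map_add, h1, h2, mul_add]

variable {A B W : Type u} [CommRing A] [CommRing B] [CommRing W] [Algebra R[X] A] [Algebra R[X] B]
  [Algebra (LaurentPolynomial R) W] {r s : ℕ} {φ : A →+* W} {ψ : B →+* W}
  (hψ : ∀ p, ψ (algebraMap R[X] B p) = algebraMap (LaurentPolynomial R) W (inY R p))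
  (bB : Module.Basis (Fin s) R[X] B)
  (α : A →ₐ[R[X]] Matrix (Fin r) (Fin r) R[X])
  (αW : W →ₐ[LaurentPolynomial R] Matrix (Fin r) (Fin r) (LaurentPolynomial R))
  (hαW : ∀ x, αW (φ x) = (inX R).mapMatrix (α x))
  (a : Fin s → A) (e : Fin s → ℕ)
  (ha : ∀ i, ψ (bB i) = (LaurentPolynomial.T (-(e i : ℤ)) : LaurentPolynomial R) • φ (a i))
  (hdeg : ∀ i p q, (α (a i) p q).natDegree ≤ e i)

include hψ hαW ha hdeg in
theorem map_constr_reflect (x : B) :
    (inY R).mapMatrix (bB.constr R[X] (fun i => (α (a i)).map (Polynomial.reflect (e i))) x) =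
      αW (ψ x) := by
  conv_rhs => rw [← bB.sum_repr x]
  rw [Module.Basis.constr_apply_fintype (S := R[X]), map_sum, map_sum, map_sum]
  refine Finset.sum_congr rfl fun i _ => ?_
  rw [RingHom.mapMatrix_apply, Matrix.map_smul' _ _ _ (map_mul (inY R)), Algebra.smul_def (A := B),
    map_mul, hψ, map_mul, AlgHom.commutes, ← Algebra.smul_def, ha, map_smul, hαW]
  refine Matrix.ext fun p q => ?_
  simp only [Matrix.smul_apply, Matrix.map_apply, RingHom.mapMatrix_apply, smul_eq_mul,
    inY_reflect (hdeg i p q)]
  rfl

/-- The action at infinity. -/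
def infinityAlg : B →ₐ[R[X]] Matrix (Fin r) (Fin r) R[X] :=
  have hinj : Function.Injective ((inY R).mapMatrix : Matrix (Fin r) (Fin r) R[X] → _) :=
    fun _ _ h => Matrix.map_injective inY_injective h
  have key := map_constr_reflect hψ bB α αW hαW a e ha hdeg
  AlgHom.ofLinearMap (bB.constr R[X] fun i => (α (a i)).map (Polynomial.reflect (e i)))
    (hinj (by rw [key, map_one, map_one, map_one]))
    (fun x y => hinj (by rw [map_mul ((inY R).mapMatrix), key, key, key, map_mul, map_mul]))

theorem map_infinityAlg (x : B) :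
    αW (ψ x) = (inY R).mapMatrix (infinityAlg hψ bB α αW hαW a e ha hdeg x) :=
  (map_constr_reflect hψ bB α αW hαW a e ha hdeg x).symm

theorem infinityAlg_basis (i : Fin s) :
    infinityAlg hψ bB α αW hαW a e ha hdeg (bB i) = (α (a i)).map (Polynomial.reflect (e i)) :=
  bB.constr_basis R[X] _ i

end Infinity

section Glue

variable {R : Type u} [CommRing R] {A B W : Type u} [CommRing A] [CommRing B] [CommRing W]
  [Algebra R[X] A] [Algebra R[X] B] [Algebra (LaurentPolynomial R) W] {r : ℕ}
  {bA : Module.Basis (Fin r) R[X] A} {bB : Module.Basis (Fin r) R[X] B}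
  {bX bY : Module.Basis (Fin r) (LaurentPolynomial R) W} {φ : A →+* W} {ψ : B →+* W}
  (hφ : ∀ p, φ (algebraMap R[X] A p) = algebraMap (LaurentPolynomial R) W (inX R p))
  (hψ : ∀ p, ψ (algebraMap R[X] B p) = algebraMap (LaurentPolynomial R) W (inY R p))
  (hbX : ∀ i, φ (bA i) = bX i) (hbY : ∀ i, ψ (bB i) = bY i)
  {α : A →ₐ[R[X]] Matrix (Fin r) (Fin r) R[X]} {β : B →ₐ[R[X]] Matrix (Fin r) (Fin r) R[X]}
  {αW : W →ₐ[LaurentPolynomial R] Matrix (Fin r) (Fin r) (LaurentPolynomial R)}
  (hαW : ∀ x, αW (φ x) = (inX R).mapMatrix (α x))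
  (hβW : ∀ x, αW (ψ x) = (inY R).mapMatrix (β x))
  (FA : RankOneFrame A (MatMod α)) (FB : RankOneFrame B (MatMod β))

/-- The glued idempotents of frames on the two charts. -/
def glueFrames : GluedIdem φ ψ where
  a := FA.n
  b := FB.n
  e := FA.mat
  e' := FB.mat
  G := (extendFrame hφ hbX hαW FA).transMat (extendFrame hψ hbY hβW FB)
  H := (extendFrame hψ hbY hβW FB).transMat (extendFrame hφ hbX hαW FA)
  e_idem := FA.isRankOneIdem.idem
  e'_idem := FB.isRankOneIdem.idem
  GH := (RankOneFrame.transMat_mul _ _ _).trans (extendFrame_mat hψ hbY hβW FB)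
  HG := (RankOneFrame.transMat_mul _ _ _).trans (extendFrame_mat hφ hbX hαW FA)
  G_left := by
    rw [← extendFrame_mat hψ hbY hβW FB, ← RankOneFrame.transMat_self]
    exact RankOneFrame.transMat_mul _ _ _
  H_left := by
    rw [← extendFrame_mat hφ hbX hαW FA, ← RankOneFrame.transMat_self]
    exact RankOneFrame.transMat_mul _ _ _

/-- Coordinates agree on the overlap exactly when the coefficient vectors agree. -/
theorem glueFrames_G_coords (m : MatMod α) (m' : MatMod β) :
    (glueFrames hφ hψ hbX hbY hαW hβW FA FB).G *ᵥ (φ ∘ FA.coords m) = ψ ∘ FB.coords m' ↔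
      inX R ∘ MatMod.vec α m = inY R ∘ MatMod.vec β m' := by
  show (extendFrame hφ hbX hαW FA).transMat (extendFrame hψ hbY hβW FB) *ᵥ _ = _ ↔ _
  refine (iff_of_eq (congrArg₂ (fun p q =>
    (extendFrame hφ hbX hαW FA).transMat (extendFrame hψ hbY hβW FB) *ᵥ p = q)
    (extendFrame_coords hφ hbX hαW FA m).symm (extendFrame_coords hψ hbY hβW FB m').symm)).trans ?_
  refine (Eq.congr_left (RankOneFrame.transMat_coords _ _ _)).trans ?_
  exact ((extendFrame hψ hbY hβW FB).coords_injective.eq_iff).trans
    (MatMod.vec αW).symm.injective.eq_iff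

end Glue

section Determinant

variable {L : Type u} [CommRing L] {r : ℕ}

/-- The determinant of the vectors `τ i v`. -/
def genDet (τ : Fin r → Matrix (Fin r) (Fin r) L) (v : Fin r → L) : L :=
  (Matrix.of fun a i => (τ i *ᵥ v) a).det

theorem map_genDet {L' : Type v} [CommRing L'] (g : L →+* L')
    (τ : Fin r → Matrix (Fin r) (Fin r) L) (v : Fin r → L) :
    g (genDet τ v) = genDet (fun i => g.mapMatrix (τ i)) (g ∘ v) := by
  rw [genDet, genDet, RingHom.map_det]
  refine congrArg Matrix.det (Matrix.ext fun a i => ?_)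
  exact g.map_mulVec (τ i) v a

theorem detAt_eq_genDet {T : Type v} [CommRing T] [Algebra L T]
    (α : T →ₐ[L] Matrix (Fin r) (Fin r) L) (b : Module.Basis (Fin r) L T) (m : MatMod α) :
    detAt b (MatMod.stdBasis α) m = genDet (fun i => α (b i)) (MatMod.vec α m) := by
  refine congrArg Matrix.det (Matrix.ext fun a i => ?_)
  rw [LinearMap.toMatrix_apply]
  rfl

theorem detAt_ne_zero {P : Type u} [CommRing P] [IsDomain P] {T : Type v} [CommRing T]
    [Algebra P T] {M : Type w} [AddCommGroup M] [Module T M] [Module P M] [IsScalarTower P T M]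
    {ι : Type*} [Fintype ι] [DecidableEq ι] (bA : Module.Basis ι P T) (bM : Module.Basis ι P M)
    (m : M) (h : ∀ x : T, x • m = 0 → x = 0) : detAt bA bM m ≠ 0 := fun h0 => by
  obtain ⟨v, hv, hv'⟩ := Matrix.exists_mulVec_eq_zero_iff.mpr h0
  have hvx : (bA.repr (bA.equivFun.symm v) : ι → P) = v := by
    rw [← bA.equivFun_apply, LinearEquiv.apply_symm_apply]
  rw [← hvx, LinearMap.toMatrix_mulVec_repr] at hv'
  have h1 := h (bA.equivFun.symm v) (bM.repr.injective (DFunLike.coe_injective (by
    rw [map_zero, Finsupp.coe_zero]; exact hv')))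
  exact hv (by rw [← hvx, h1, map_zero, Finsupp.coe_zero])

variable {K : Type u} [Field K] {T : Type u} [CommRing T] [IsDedekindDomain T] [Algebra K[X] T]

/-- A rank one action on a Dedekind domain is cyclic on every fibre. -/
theorem exists_genDet_eval_ne_zero [NeZero r] (b : Module.Basis (Fin r) K[X] T)
    (α : T →ₐ[K[X]] Matrix (Fin r) (Fin r) K[X]) (lam : K) :
    ∃ v : Fin r → K, (genDet (fun i => α (b i)) (Polynomial.C ∘ v)).eval lam ≠ 0 := by
  let bM := MatMod.stdBasis α
  have htf : ∀ (x : T) (m : MatMod α), x • m = 0 → x = 0 ∨ m = 0 := fun x m hxm => by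
    rcases eq_or_ne x 0 with hx | hx
    · exact Or.inl hx
    · refine Or.inr (bM.repr.injective (Finsupp.ext fun a => ?_))
      have hD := detAt_ne_zero b b x fun y hy => (mul_eq_zero.mp hy).resolve_right hx
      have h1 : detAt b b x • m = 0 := by
        have h := congrArg (· • m) (adjAt_smul b b x (1 : T))
        simp only [smul_assoc, hxm, smul_zero, one_smul] at h
        exact h.symm
      have h2 := congrArg (fun z => bM.repr z a) h1
      simp only [map_smul, Finsupp.smul_apply, map_zero, Finsupp.zero_apply, smul_eq_mul] at h2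
      rw [map_zero, Finsupp.zero_apply]
      exact (mul_eq_zero.mp h2).resolve_left hD
  let m0 : MatMod α := bM 0
  have hm0 : m0 ≠ 0 := bM.ne_zero 0
  have hD0 : detAt b bM m0 ≠ 0 := detAt_ne_zero b bM m0 fun y hy => (htf y m0 hy).resolve_right hm0
  let φ := formAt b bM m0
  have hφ : Function.Injective φ := (injective_iff_map_eq_zero φ).mpr fun x hx => by
    have h := formAt_smul b bM m0 x
    rw [show formAt b bM m0 x = 0 from hx, zero_smul] at h
    refine bM.repr.injective (Finsupp.ext fun a => ?_)
    have h2 := congrArg (fun z => bM.repr z a) h.symm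
    simp only [map_smul, Finsupp.smul_apply, map_zero, Finsupp.zero_apply, smul_eq_mul] at h2
    rw [map_zero, Finsupp.zero_apply]
    exact (mul_eq_zero.mp h2).resolve_left (pow_ne_zero _ hD0)
  let x0 : T := algebraMap K[X] T (X - C lam)
  have hx0 : x0 ≠ 0 := fun h => by
    have h1 : (X - C lam) • b 0 = 0 := by rw [Algebra.smul_def]; exact mul_eq_zero_of_left h _
    have h2 := congrArg (fun z => b.repr z 0) h1
    simp only [map_smul, Module.Basis.repr_self, Finsupp.smul_apply, Finsupp.single_eq_same,
      smul_eq_mul, mul_one, map_zero, Finsupp.zero_apply] at h2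
    exact X_sub_C_ne_zero lam h2
  let I : Ideal T := LinearMap.range φ
  have hI : I ≠ ⊥ := fun h => hm0 (hφ (by
    rw [map_zero]
    exact (Submodule.eq_bot_iff _).mp h _ (LinearMap.mem_range_self φ m0)))
  obtain ⟨a, ha⟩ := IsDedekindDomain.exists_sup_span_eq (I := Ideal.span {x0} * I) (J := I)
    Ideal.mul_le_right (by
      rw [Ne, Submodule.zero_eq_bot, Ideal.mul_eq_bot]
      simp [hI, hx0])
  obtain ⟨m, hm⟩ : a ∈ LinearMap.range φ :=
    ha.le (Submodule.mem_sup_right (Ideal.mem_span_singleton_self a))
  have hgen : ∀ z : MatMod α, ∃ (c : T) (z' : MatMod α), z = c • m + x0 • z' := fun z => by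
    have hz : φ z ∈ Ideal.span {x0} * I ⊔ Ideal.span {a} := ha.ge (LinearMap.mem_range_self φ z)
    obtain ⟨y, hy, w, hw, hyw⟩ := Submodule.mem_sup.mp hz
    obtain ⟨y', ⟨z', rfl⟩, rfl⟩ := Ideal.mem_span_singleton_mul.mp hy
    obtain ⟨c, rfl⟩ := Ideal.mem_span_singleton'.mp hw
    refine ⟨c, z', hφ ?_⟩
    rw [map_add, map_smul, map_smul, hm, smul_eq_mul, smul_eq_mul, ← hyw, add_comm]
  let ev : K[X] →+* K := evalRingHom lam
  refine ⟨ev ∘ MatMod.vec α m, ?_⟩
  have hdet : ev (genDet (fun i => α (b i)) (Polynomial.C ∘ (ev ∘ MatMod.vec α m))) =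
      ev (genDet (fun i => α (b i)) (MatMod.vec α m)) := by
    rw [map_genDet, map_genDet]
    congr 1
    funext i
    simp [ev]
  show ev _ ≠ 0
  rw [hdet, ← detAt_eq_genDet, detAt, RingHom.map_det]
  refine IsUnit.ne_zero ((Matrix.isUnit_iff_isUnit_det _).mp
    (Matrix.mulVec_surjective_iff_isUnit.mp fun y => ?_))
  obtain ⟨c, z', hz⟩ := hgen ((MatMod.vec α).symm (Polynomial.C ∘ y))
  refine ⟨ev ∘ (b.repr c : Fin r → K[X]), ?_⟩
  funext i
  rw [RingHom.mapMatrix_apply, ← RingHom.map_mulVec, LinearMap.toMatrix_mulVec_repr]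
  have h3 := congrArg (fun w => ev (MatMod.vec α w i)) hz
  simp only [LinearEquiv.apply_symm_apply, Function.comp_apply, map_add, Pi.add_apply] at h3
  have h4 : ev (MatMod.vec α (x0 • z') i) = 0 := by
    rw [show x0 • z' = (X - C lam) • z' from algebraMap_smul T _ z', map_smul, Pi.smul_apply,
      smul_eq_mul, map_mul]
    simp [ev]
  rw [h4, add_zero] at h3
  refine Eq.trans ?_ (h3.symm.trans (by simp [ev]))
  rfl

end Determinant

section Criterion

variable {k : Type u} [Field k] [Infinite k] {R : Type u} [CommRing R] [Algebra k R] {r : ℕ}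
  {T : Type u} [CommRing T] [Algebra R[X] T]

/-- Fibrewise cyclicity gives a rank one frame. -/
theorem nonempty_frame_of_fibres (b : Module.Basis (Fin r) R[X] T)
    (α : T →ₐ[R[X]] Matrix (Fin r) (Fin r) R[X])
    (H : ∀ (K : Type u) [Field K] [IsAlgClosed K] [Algebra k K] (f : R →ₐ[k] K) (lam : K),
      ∃ v : Fin r → K, (genDet (fun i => (Polynomial.mapRingHom (f : R →+* K)).mapMatrix (α (b i)))
        (Polynomial.C ∘ v)).eval lam ≠ 0) :
    Nonempty (RankOneFrame T (MatMod α)) := by
  refine nonempty_frame_of_det b (MatMod.stdBasis α) fun p hp => ?_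
  let q : R[X] →+* AlgebraicClosure (FractionRing (R[X] ⧸ p)) :=
    (algebraMap (FractionRing (R[X] ⧸ p)) _).comp
      ((algebraMap (R[X] ⧸ p) (FractionRing (R[X] ⧸ p))).comp (Ideal.Quotient.mk p))
  let : Algebra k (AlgebraicClosure (FractionRing (R[X] ⧸ p))) :=
    ((q.comp C).comp (algebraMap k R)).toAlgebra
  let f : R →ₐ[k] AlgebraicClosure (FractionRing (R[X] ⧸ p)) :=
    { toRingHom := q.comp C, commutes' := fun _ => rfl }
  have hq : q = (evalRingHom (q X)).comp (Polynomial.mapRingHom (f : R →+* _)) := by
    refine Polynomial.ringHom_ext (fun a => ?_) ?_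
    · simp [f]
    · simp
  obtain ⟨v₀, hv₀⟩ := H _ f (q X)
  let P : MvPolynomial (Fin r) (AlgebraicClosure (FractionRing (R[X] ⧸ p))) :=
    genDet (fun i => MvPolynomial.C.mapMatrix (q.mapMatrix (α (b i)))) MvPolynomial.X
  have hP : ∀ v, MvPolynomial.eval v P = genDet (fun i => q.mapMatrix (α (b i))) v := fun v => by
    rw [map_genDet]
    congr 1
    · funext i; ext a c; simp
    · funext i; simp
  have hK : ∀ v : Fin r → AlgebraicClosure (FractionRing (R[X] ⧸ p)),
      (genDet (fun i => (Polynomial.mapRingHom (f : R →+* _)).mapMatrix (α (b i)))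
        (Polynomial.C ∘ v)).eval (q X) = genDet (fun i => q.mapMatrix (α (b i))) v := fun v => by
    rw [← coe_evalRingHom, map_genDet]
    congr 1
    · funext i; conv_rhs => rw [hq]
      ext a c; simp
    · funext i; simp
  by_contra hcon
  push Not at hcon
  have hP0 : P = 0 := MvPolynomial.funext_set
    (fun _ => Set.range (algebraMap k (AlgebraicClosure (FractionRing (R[X] ⧸ p)))))
    (fun _ => Set.infinite_range_of_injective (RingHom.injective _)) fun x hx => by
      rw [map_zero, hP]
      choose w hw using fun i => hx i (Set.mem_univ i)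
      have hm := hcon ((MatMod.vec α).symm (fun i => C (algebraMap k R (w i))))
      rw [detAt_eq_genDet, LinearEquiv.apply_symm_apply] at hm
      have h1 : q (genDet (fun i => α (b i)) fun i => C (algebraMap k R (w i))) = 0 := by
        simp only [q, RingHom.comp_apply, Ideal.Quotient.eq_zero_iff_mem.mpr hm, map_zero]
      rw [map_genDet] at h1
      rw [show x = q ∘ fun i => C (algebraMap k R (w i)) from funext fun i => (hw i).symm]
      exact h1
  exact hv₀ (by rw [hK, ← hP, hP0, map_zero])

end Criterion

end FLTAgent.RelPicard
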