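import Fermat.Agent.RelPicard.PairData
import Mathlib.RingTheory.PicardGroup
import Mathlib.LinearAlgebra.Matrix.ToLin

/-!
# The linear algebra of framed bundles

A frame of a bundle with vanishing cohomology turns it into matrices of polynomials. Here: Laurent
polynomials with both presentations, diagonality of matrices commuting with separating diagonal
ones, indecomposability of rank one modules over a domain, and spanning trees of connected entry
patterns.

Main results: `eq_diagonal_of_commute_diagonal`, `eq_bot_or_eq_bot_of_disjoint`,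
`exists_offDiagonal`.
-/

set_option autoImplicit false

universe u v w

open Polynomial

noncomputable section

namespace FLTAgent.RelPicard

section Laurent

variable {R : Type u} [CommRing R]

theorem inX_eq_toLaurent : inX R = Polynomial.toLaurent := by
  refine Polynomial.ringHom_ext (fun a => ?_) ?_
  · simp [inX]
  · simp [inX]

end Laurent

section Diagonal

variable {R : Type u} [CommRing R] {n : Type v} [Fintype n] [DecidableEq n] {ι : Type w}

/-- A matrix commuting with diagonal matrices which separate the indices is diagonal. -/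
theorem apply_eq_zero_of_commute_diagonal (d : ι → n → R)
    (hsep : ∀ i j : n, i ≠ j → ∃ a, IsUnit (d a i - d a j)) {Q : Matrix n n R}
    (hQ : ∀ a, Q * Matrix.diagonal (d a) = Matrix.diagonal (d a) * Q) {i j : n} (hij : i ≠ j) :
    Q i j = 0 := by
  obtain ⟨a, ha⟩ := hsep i j hij
  have h := congrFun (congrFun (hQ a) i) j
  rw [Matrix.mul_diagonal, Matrix.diagonal_mul] at h
  refine ha.mul_right_eq_zero.mp ?_
  linear_combination -h

theorem eq_diagonal_of_commute_diagonal (d : ι → n → R)
    (hsep : ∀ i j : n, i ≠ j → ∃ a, IsUnit (d a i - d a j)) {Q : Matrix n n R}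
    (hQ : ∀ a, Q * Matrix.diagonal (d a) = Matrix.diagonal (d a) * Q) :
    Q = Matrix.diagonal fun i => Q i i := by
  ext i j
  rcases eq_or_ne i j with rfl | hij
  · rw [Matrix.diagonal_apply_eq]
  · rw [Matrix.diagonal_apply_ne _ hij, apply_eq_zero_of_commute_diagonal d hsep hQ hij]

/-- An invertible diagonal matrix has units on the diagonal. -/
theorem isUnit_apply_of_diagonal {D : n → R} {Q : Matrix n n R}
    (h : Matrix.diagonal D * Q = 1) (i : n) : IsUnit (D i) := by
  have h1 := congrFun (congrFun h i) i
  rw [Matrix.diagonal_mul, Matrix.one_apply_eq] at h1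
  exact IsUnit.of_mul_eq_one _ h1

end Diagonal

section RankOne

variable {A : Type u} [CommRing A] [IsDomain A] {M : Type v} [AddCommGroup M] [Module A M]

/-- Two submodules of a rank one module over a domain which meet in zero are not both nonzero. -/
theorem eq_bot_or_eq_bot_of_disjoint (hemb : ∃ f : M →ₗ[A] A, Function.Injective f)
    {M₁ M₂ : Submodule A M} (h : Disjoint M₁ M₂) : M₁ = ⊥ ∨ M₂ = ⊥ := by
  obtain ⟨f, hf⟩ := hemb
  by_contra hne
  rw [not_or] at hne
  obtain ⟨m, hm, hm0⟩ := (Submodule.ne_bot_iff _).mp hne.1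
  obtain ⟨n, hn, hn0⟩ := (Submodule.ne_bot_iff _).mp hne.2
  have e : f n • m = f m • n := hf (by simp [map_smul, mul_comm])
  have h1 : f n • m = 0 :=
    Submodule.disjoint_def.mp h _ (M₁.smul_mem _ hm) (e ▸ M₂.smul_mem _ hn)
  refine hm0 (hf ?_)
  have h2 := congrArg f h1
  rw [map_smul, smul_eq_mul, map_zero] at h2
  rw [map_zero]
  exact (mul_eq_zero.mp h2).resolve_left fun h0 => hn0 (hf (h0.trans (map_zero f).symm))

/-- If all coordinate matrices of the action are block diagonal for a set of indices, the set is
empty or everything. -/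
theorem exists_offDiagonal {ι : Type w} [Fintype ι] [DecidableEq ι] {S : Type*} [CommRing S]
    [Nontrivial S] [Algebra S A] [Module S M] [IsScalarTower S A M]
    (hemb : ∃ f : M →ₗ[A] A, Function.Injective f) (b : Module.Basis ι S M) (s : Finset ι)
    (hs : s.Nonempty) (hs' : sᶜ.Nonempty) (G : Set A)
    (hG : Algebra.adjoin S G = ⊤) :
    ∃ a ∈ G, ∃ i ∈ s, ∃ j ∉ s, b.repr (a • b i) j ≠ 0 ∨ b.repr (a • b j) i ≠ 0 := by
  classical
  by_contra hne
  push Not at hne
  let N : Finset ι → Submodule S M := fun t => Submodule.span S (b '' (t : Set ι))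
  have hmem : ∀ (t : Finset ι) (m : M), m ∈ N t ↔ ∀ j ∉ t, b.repr m j = 0 := fun t m => by
    rw [show N t = _ from rfl, b.mem_span_image]
    simp only [Finset.mem_coe, Set.subset_def]
    exact ⟨fun h j hj => by_contra fun h0 => hj (h j (Finsupp.mem_support_iff.mpr h0)),
      fun h j hj => by_contra fun hj' => Finsupp.mem_support_iff.mp hj (h j hj')⟩
  have hstable : ∀ t : Finset ι, t = s ∨ t = sᶜ → ∀ a : A, ∀ m ∈ N t, a • m ∈ N t := by
    intro t ht a
    have ha : a ∈ Algebra.adjoin S G := hG ▸ Algebra.mem_top
    induction ha using Algebra.adjoin_induction with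
    | mem x hx =>
      intro m hm
      refine Submodule.span_induction ?_ (by simp) (fun y z _ _ hy hz => ?_) (fun c y _ hy => ?_) hm
      · rintro _ ⟨i, hi, rfl⟩
        refine (hmem t _).mpr fun j hj => ?_
        rcases ht with rfl | rfl
        · exact (hne x hx i hi j hj).1
        · exact (hne x hx j (by simpa using hj) i (Finset.mem_compl.mp hi)).2
      · rw [smul_add]; exact add_mem hy hz
      · rw [smul_comm]; exact Submodule.smul_mem _ c hy
    | algebraMap c => intro m hm; rw [algebraMap_smul]; exact Submodule.smul_mem _ c hm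
    | add x y _ _ hx hy => intro m hm; rw [add_smul]; exact add_mem (hx m hm) (hy m hm)
    | mul x y _ _ hx hy => intro m hm; rw [mul_smul]; exact hx _ (hy m hm)
  let P : ∀ t : Finset ι, (t = s ∨ t = sᶜ) → Submodule A M := fun t ht =>
    { carrier := N t
      add_mem' := fun h h' => add_mem h h'
      zero_mem' := zero_mem _
      smul_mem' := fun a m hm => hstable t ht a m hm }
  have hdisj : Disjoint (P s (Or.inl rfl)) (P sᶜ (Or.inr rfl)) :=
    Submodule.disjoint_def.mpr fun m h1 h2 => b.repr.injective (Finsupp.ext fun j => by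
      rw [map_zero, Finsupp.zero_apply]
      by_cases hj : j ∈ s
      · exact (hmem _ m).mp h2 j (by simpa using hj)
      · exact (hmem _ m).mp h1 j hj)
  rcases eq_bot_or_eq_bot_of_disjoint hemb hdisj with h | h
  · obtain ⟨i, hi⟩ := hs
    exact b.ne_zero i ((Submodule.eq_bot_iff _).mp h _ (Submodule.subset_span ⟨i, hi, rfl⟩))
  · obtain ⟨i, hi⟩ := hs'
    exact b.ne_zero i ((Submodule.eq_bot_iff _).mp h _ (Submodule.subset_span ⟨i, hi, rfl⟩))

end RankOne

end FLTAgent.RelPicard

end
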