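import Fermat.Agent.RelPicard.CocycleSections

/-!
# Linear maps of sections over an affine open set

A map of the sections over an affine open set which is linear over its functions preserves the
ratios of coordinates, so is multiplication by a function near each point.

Main declarations: `Generates`, `ratio_map`, `exists_ratio_nbhd`.
-/

set_option autoImplicit false

universe u

open CategoryTheory AlgebraicGeometry TopologicalSpace

noncomputable section

namespace FLTAgent.RelPicard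

variable {X : Scheme.{u}}

namespace Cocycle

variable (c : Cocycle X)

/-- The sections over the open set generate near every point. -/
def Generates (U : X.Opens) : Prop :=
  ∀ z ∈ U, ∃ (s : c.Sec U) (P : X.Opens) (hP : P ≤ U) (hz : P ≤ c.nbhd z),
    z ∈ P ∧ IsUnit (c.coord z hP hz s)

theorem coord_eq_zero_of_change {W : X.Opens} (y z : X) {P : X.Opens} (hP : P ≤ W)
    (hy : P ≤ c.nbhd y) (hz : P ≤ c.nbhd z) (s : c.Sec W) (h : c.coord z hP hz s = 0) :
    c.coord y hP hy s = 0 := by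
  rw [c.coord_change y z hP hy hz, h, mul_zero]

/-- A section killed on a cover is zero. -/
theorem eq_zero_of_coord {ι : Type*} {W : X.Opens} (U : ι → X.Opens) (z : ι → X)
    (hU : ∀ i, U i ≤ W) (hz : ∀ i, U i ≤ c.nbhd (z i)) (hcov : ∀ p ∈ W, ∃ i, p ∈ U i) (s : c.Sec W)
    (h : ∀ i, c.coord (z i) (hU i) (hz i) s = 0) : s = 0 := by
  refine c.sec_ext U hU hcov s 0 fun i => Subtype.ext (funext fun y => ?_)
  rw [map_zero]
  exact c.coord_eq_zero_of_change y (z i) (inf_le_left.trans (hU i)) inf_le_right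
    (inf_le_left.trans (hz i)) s (by
      have e := congrArg (res (inf_le_left : U i ⊓ c.nbhd y ≤ U i)) (h i)
      rwa [res_coord, map_zero] at e)

/-- A section over an affine open set vanishing where `f` is invertible is killed by a power of
`f`. -/
theorem exists_pow_smul_eq_zero {U : X.Opens} (hU : IsAffineOpen U) (f : Γ(X, U)) (s : c.Sec U)
    (h : c.resSec (X.basicOpen_le f) s = 0) : ∃ n : ℕ, f ^ n • s = 0 := by
  classical
  have loc : ∀ p : U, ∃ g : Γ(X, U), (p : X) ∈ X.basicOpen g ∧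
    X.basicOpen g ≤ c.nbhd p := fun p => by
    obtain ⟨g, hg, hp⟩ := hU.exists_basicOpen_le (V := c.nbhd p) ⟨p, c.mem p⟩ p.2
    exact ⟨g, hp, hg⟩
  choose g hpg hg using loc
  obtain ⟨t, ht⟩ := hU.isCompact.elim_finite_subcover (fun p : U => (X.basicOpen (g p) : Set X))
    (fun p => (X.basicOpen (g p)).isOpen) fun p hp => Set.mem_iUnion.mpr ⟨⟨p, hp⟩, hpg _⟩
  have hkill : ∀ p : U, ∃ n : ℕ,
      res (X.basicOpen_le (g p)) f ^ n * c.coord (p : X) (X.basicOpen_le (g p)) (hg p) s = 0 := by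
    intro p
    refine exists_pow_mul_eq_zero_of_res_basicOpen_eq_zero_of_isAffineOpen X
      (hU.basicOpen (g p)) _ _
      ?_
    show res (X.basicOpen_le _) (c.coord (p : X) (X.basicOpen_le (g p)) (hg p) s) = 0
    have hle : X.basicOpen (res (X.basicOpen_le (g p)) f) ≤ X.basicOpen f := by
      rw [res, Scheme.basicOpen_res]; exact inf_le_right
    rw [res_coord, ← c.coord_resSec (X.basicOpen_le f) (p : X) hle
      ((X.basicOpen_le _).trans (hg p)) s, h, map_zero]
  choose n hn using hkill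
  refine ⟨t.sup n, c.eq_zero_of_coord (fun p : t => X.basicOpen (g p.1)) (fun p => (p.1 : X))
    (fun p => X.basicOpen_le _) (fun p => hg p.1) (fun p hp => ?_) _ fun p => ?_⟩
  · obtain ⟨i, hi, hpi⟩ := Set.mem_iUnion₂.mp (ht hp)
    exact ⟨⟨i, hi⟩, hpi⟩
  · obtain ⟨m, hm⟩ := Nat.exists_eq_add_of_le (Finset.le_sup (f := n) p.2)
    rw [coord_smul, map_pow, hm, pow_add, mul_comm (_ ^ n p.1), mul_assoc, hn, mul_zero]

variable (d : Cocycle X)

/-- A linear map of sections over an affine open set preserves ratios of coordinates. -/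
theorem ratio_map {U : X.Opens} (hU : IsAffineOpen U) (φ : c.Sec U →+ d.Sec U)
    (hφ : ∀ (a : Γ(X, U)) (s : c.Sec U), φ (a • s) = a • φ s) (z : X) {g : Γ(X, U)}
    (hc : X.basicOpen g ≤ c.nbhd z) (hd : X.basicOpen g ≤ d.nbhd z) (s t : c.Sec U) :
    c.coord z (X.basicOpen_le g) hc s * d.coord z (X.basicOpen_le g) hd (φ t) =
      c.coord z (X.basicOpen_le g) hc t * d.coord z (X.basicOpen_le g) hd (φ s) := by
  let : Algebra Γ(X, U) Γ(X, X.basicOpen g) := (res (X.basicOpen_le g)).toAlgebra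
  have : IsLocalization.Away g Γ(X, X.basicOpen g) :=
    hU.isLocalization_of_eq_basicOpen g (homOfLE (X.basicOpen_le g)) rfl
  obtain ⟨n₁, a₁, h₁⟩ := IsLocalization.Away.surj g (c.coord z (X.basicOpen_le g) hc s)
  obtain ⟨n₂, a₂, h₂⟩ := IsLocalization.Away.surj g (c.coord z (X.basicOpen_le g) hc t)
  rw [RingHom.algebraMap_toAlgebra] at h₁ h₂
  set G := res (X.basicOpen_le g) g
  set w : c.Sec U := (g ^ n₂ * a₁) • t - (g ^ n₁ * a₂) • s
  have hw : c.resSec (X.basicOpen_le g) w = 0 := by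
    refine c.eq_zero_of_coord (fun _ : Unit => X.basicOpen g) (fun _ => z) (fun _ => le_rfl)
      (fun _ => hc) (fun p hp => ⟨(), hp⟩) _ fun _ => ?_
    rw [coord_resSec, map_sub, coord_smul, coord_smul, map_mul, map_mul, map_pow, map_pow, ← h₁,
      ← h₂, sub_eq_zero]
    ring
  obtain ⟨N, hN⟩ := c.exists_pow_smul_eq_zero hU g w hw
  have h3 := congrArg (fun m => d.coord z (X.basicOpen_le g) hd (φ m)) hN
  simp only [hφ, map_zero, w, smul_sub, map_sub, ← mul_smul, coord_smul, map_mul, map_pow, ← h₁,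
    ← h₂] at h3
  have hG : IsUnit G := X.toRingedSpace.isUnit_res_basicOpen g
  refine (hG.pow (N + n₁ + n₂)).mul_left_cancel ?_
  rw [pow_add, pow_add]
  linear_combination h3

/-- If sections generate and finitely many of them span, one of these has a unit coordinate near
the point. -/
theorem exists_isUnit_coord {U : X.Opens} (hgen : c.Generates U) {ι : Type*} [Fintype ι]
    (v : ι → c.Sec U) (hspan : ∀ s : c.Sec U, ∃ a : ι → Γ(X, U), s = ∑ i, a i • v i) {z : X}
    (hz : z ∈ U) :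
    ∃ (i : ι) (P : X.Opens) (hP : P ≤ U) (hzc : P ≤ c.nbhd z),
      z ∈ P ∧ IsUnit (c.coord z hP hzc (v i)) := by
  obtain ⟨s, P, hP, hzc, hzP, hu⟩ := hgen z hz
  obtain ⟨a, rfl⟩ := hspan s
  by_contra hne
  push Not at hne
  have hu' := hu.map (X.presheaf.germ P z hzP).hom
  rw [map_sum, map_sum] at hu'
  refine (IsLocalRing.mem_maximalIdeal _).mp (Ideal.sum_mem
    (IsLocalRing.maximalIdeal (X.presheaf.stalk z)) fun i _ => ?_) hu'
  rw [coord_smul, map_mul]
  refine Ideal.mul_mem_left _ _ ((IsLocalRing.mem_maximalIdeal _).mpr fun hi => ?_)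
  obtain ⟨V, hV, hzV, hVu⟩ := exists_isUnit_res (c.coord z hP hzc (v i)) hzP hi
  rw [res_coord] at hVu
  exact hne i V (hV.trans hP) (hV.trans hzc) hzV hVu

/-- Two spanning families of sections with the same linear relations near a point. -/
theorem exists_ratio_nbhd {U : X.Opens} (hU : IsAffineOpen U) (hcgen : c.Generates U)
    (hdgen : d.Generates U) {ι : Type*} [Fintype ι] (v : ι → c.Sec U) (φv : ι → d.Sec U)
    (hv : ∀ s : c.Sec U, ∃ a : ι → Γ(X, U), s = ∑ i, a i • v i)
    (hv' : ∀ t : d.Sec U, ∃ a : ι → Γ(X, U), t = ∑ i, a i • φv i)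
    (φ : c.Sec U →+ d.Sec U) (hφ : ∀ (a : Γ(X, U)) (s : c.Sec U), φ (a • s) = a • φ s)
    (hφv : ∀ i, φ (v i) = φv i) {z : X} (hz : z ∈ U) :
    ∃ (P : X.Opens) (hP : P ≤ U) (hc : P ≤ c.nbhd z) (hd : P ≤ d.nbhd z), z ∈ P ∧
      (∀ i j, c.coord z hP hc (v i) * d.coord z hP hd (φv j) =
        c.coord z hP hc (v j) * d.coord z hP hd (φv i)) ∧
      ∃ i, IsUnit (c.coord z hP hc (v i)) ∧ IsUnit (d.coord z hP hd (φv i)) := by
  obtain ⟨i, P₁, hP₁, hc₁, hz₁, hu₁⟩ := c.exists_isUnit_coord hcgen v hv hz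
  obtain ⟨j, P₂, hP₂, hd₂, hz₂, hu₂⟩ := d.exists_isUnit_coord hdgen φv hv' hz
  obtain ⟨g, hg, hzg⟩ := hU.exists_basicOpen_le (V := P₁ ⊓ P₂) ⟨z, hz₁, hz₂⟩ hz
  have h1 : X.basicOpen g ≤ P₁ := hg.trans inf_le_left
  have h2 : X.basicOpen g ≤ P₂ := hg.trans inf_le_right
  have hrel : ∀ a b, c.coord z (X.basicOpen_le g) (h1.trans hc₁) (v a) *
      d.coord z (X.basicOpen_le g) (h2.trans hd₂) (φv b) =
        c.coord z (X.basicOpen_le g) (h1.trans hc₁) (v b) *
          d.coord z (X.basicOpen_le g) (h2.trans hd₂) (φv a) := fun a b => by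
    have h := c.ratio_map d hU φ hφ z (h1.trans hc₁) (h2.trans hd₂) (v a) (v b)
    rwa [hφv, hφv] at h
  have hi : IsUnit (c.coord z (X.basicOpen_le g) (h1.trans hc₁) (v i)) := by
    have h := hu₁.map (res h1); rwa [res_coord] at h
  have hj : IsUnit (d.coord z (X.basicOpen_le g) (h2.trans hd₂) (φv j)) := by
    have h := hu₂.map (res h2); rwa [res_coord] at h
  have hij := hi.mul hj
  rw [hrel i j, IsUnit.mul_iff] at hij
  exact ⟨_, X.basicOpen_le g, h1.trans hc₁, h2.trans hd₂, hzg, hrel, i, hi, hij.2⟩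

end Cocycle

end FLTAgent.RelPicard

end
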