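import Fermat.Agent.RelPicard.Defs
import Fermat.Agent.RelPicard.SectionMaps
import Fermat.Agent.RelPicard.FrameAlgebra

/-!
# Frames of bundles with vanishing cohomology

A frame is a family of `r` global sections restricting to bases over the two polynomial rings and
adapted to the split fibre.  It turns the action of the functions of the first chart into matrices
of polynomials, and these matrices determine the class.

Main declarations: `Frame`, `mat`, `natDegree_mat_le`, `equiv_of_mat`.
-/

set_option autoImplicit false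

universe u

open CategoryTheory CategoryTheory.Limits AlgebraicGeometry TopologicalSpace NeronModelInfra
  Polynomial

noncomputable section

namespace FLTAgent.RelPicard.CurveCover

variable {k : Type u} [Field k] {C : Scheme.{u}} {c : C ⟶ Spec (CommRingCat.of k)}
  (D : CurveCover k c) {R : Type u} [CommRing R]
  (t : Spec (CommRingCat.of R) ⟶ Spec (CommRingCat.of k))

/-- The scalars of the base. -/
def coeffHom : k →+* R := (Spec.preimage t).hom

/-- The functions of the first chart of the curve on the product. -/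
def genU : Γ(C, D.U) →+* Γ(pullback c t, D.UT t) := ((pullback.fst c t).app D.U).hom

/-- The functions of the second chart of the curve on the product. -/
def genV : Γ(C, D.V) →+* Γ(pullback c t, D.VT t) := ((pullback.fst c t).app D.V).hom

theorem genU_x : D.genU t D.x = D.xT t := rfl

theorem genU_scalarHom (a : k) :
    D.genU t (scalarHom c D.U a) = scalarHom (pullback.snd c t) (D.UT t) (coeffHom t a) := by
  have h := appLE_scalarHom c (pullback.snd c t) (pullback.fst c t) (coeffHom t)
    (by rw [coeffHom, CommRingCat.ofHom_hom, Spec.map_preimage, pullback.condition])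
    (U := D.U) (U' := pullback.fst c t ⁻¹ᵁ D.U) le_rfl a
  rwa [Scheme.Hom.appLE_eq_app] at h

/-- The value at a point of the split fibre. -/
def evalPt (j : Fin D.r) : Γ(C, D.U) →+* k :=
  (Scheme.ΓSpecIso (CommRingCat.of k)).hom.hom.comp (valueAt (D.pt j).1 (D.pt_mem j))

/-- Evaluation at a point takes constants to themselves. -/
theorem evalPt_scalarHom (j : Fin D.r) (a : k) : D.evalPt j (scalarHom c D.U a) = a := by
  have h := appLE_scalarHom c (𝟙 (Spec (CommRingCat.of k))) (D.pt j).1 (RingHom.id k)
    (show (D.pt j).1 ≫ c = 𝟙 _ ≫ Spec.map (CommRingCat.ofHom (RingHom.id k)) by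
      rw [Category.id_comp, show CommRingCat.ofHom (RingHom.id k) = 𝟙 _ from rfl, Spec.map_id]
      exact (D.pt j).2)
    (U := D.U) (U' := ⊤) (D.pt_mem j) a
  show (Scheme.ΓSpecIso (CommRingCat.of k)).hom.hom (valueAt (D.pt j).1 _ _) = a
  rw [valueAt, h, scalarHom, RingHom.id_apply]
  rw [show Scheme.Hom.appLE (𝟙 (Spec (CommRingCat.of k))) ⊤ ⊤ le_top = 𝟙 _ by
    simp [Scheme.Hom.appLE]]
  simp

/-- Evaluation of polynomials at `x`. -/
def evalU : R[X] →+* Γ(pullback c t, D.UT t) :=
  eval₂RingHom (scalarHom (pullback.snd c t) (D.UT t)) (D.xT t)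

/-- Evaluation of polynomials at `y`. -/
def evalV : R[X] →+* Γ(pullback c t, D.VT t) :=
  eval₂RingHom (scalarHom (pullback.snd c t) (D.VT t)) (D.yT t)

theorem evalU_C (a : R) : D.evalU t (Polynomial.C a) = scalarHom (pullback.snd c t) (D.UT t) a :=
  eval₂_C _ _

theorem evalU_X : D.evalU t Polynomial.X = D.xT t := eval₂_X _ _

theorem polyComb_eq (p : Fin D.r → R[X]) :
    polyComb (pullback.snd c t) (D.UT t) (D.xT t) (D.wUT t) p =
      ∑ i, D.evalU t (p i) * D.genU t (D.wU i) := rfl

theorem exists_eq_sum_genU (b : Γ(pullback c t, D.UT t)) :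
    ∃ p : Fin D.r → R[X], b = ∑ i, D.evalU t (p i) * D.genU t (D.wU i) := by
  obtain ⟨p, hp⟩ := (D.bijective_polyComb_UT t).2 b
  exact ⟨p, hp.symm.trans (D.polyComb_eq t p)⟩

theorem exists_eq_sum_genV (b : Γ(pullback c t, D.VT t)) :
    ∃ p : Fin D.r → R[X], b = ∑ i, D.evalV t (p i) * D.genV t (D.wV i) := by
  obtain ⟨p, hp⟩ := (D.bijective_polyComb_VT t).2 b
  exact ⟨p, hp.symm⟩

theorem res_evalU (p : R[X]) :
    res (inf_le_left : D.WT t ≤ D.UT t) (D.evalU t p) =
      p.eval₂ (scalarHom (pullback.snd c t) (D.WT t))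
        (res (inf_le_left : D.WT t ≤ D.UT t) (D.xT t)) := by
  rw [evalU, coe_eval₂RingHom, hom_eval₂]
  congr 1
  exact RingHom.ext fun a => res_scalarHom _ _ a

theorem res_evalV (p : R[X]) :
    res (inf_le_right : D.WT t ≤ D.VT t) (D.evalV t p) =
      p.eval₂ (scalarHom (pullback.snd c t) (D.WT t))
        (res (inf_le_right : D.WT t ≤ D.VT t) (D.yT t)) := by
  rw [evalV, coe_eval₂RingHom, hom_eval₂]
  congr 1
  exact RingHom.ext fun a => res_scalarHom _ _ a

/-- A frame of a bundle. -/
structure Frame (L : Cocycle (pullback c t)) where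
  v : Fin D.r → L.Sec ⊤
  basisU : Function.Bijective fun p : Fin D.r → R[X] =>
    ∑ i, D.evalU t (p i) • L.resSec (le_top : D.UT t ≤ ⊤) (v i)
  basisV : Function.Bijective fun p : Fin D.r → R[X] =>
    ∑ i, D.evalV t (p i) • L.resSec (le_top : D.VT t ≤ ⊤) (v i)
  diag : ∀ (a : Γ(C, D.U)) (j : Fin D.r), ∃ s : L.Sec (D.UT t),
    (D.genU t a - D.genU t (scalarHom c D.U (D.evalPt j a))) •
        L.resSec (le_top : D.UT t ≤ ⊤) (v j) =
      (D.xT t - D.genU t (scalarHom c D.U D.c₀)) • s

namespace Frame

variable {D t} {L L' : Cocycle (pullback c t)} (F : D.Frame t L) (F' : D.Frame t L')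

/-- The frame on the first chart. -/
def vU (i : Fin D.r) : L.Sec (D.UT t) := L.resSec le_top (F.v i)

/-- The frame on the second chart. -/
def vV (i : Fin D.r) : L.Sec (D.VT t) := L.resSec le_top (F.v i)

/-- The combination with polynomial coefficients on the first chart. -/
def combU : (Fin D.r → R[X]) →+ L.Sec (D.UT t) where
  toFun p := ∑ i, D.evalU t (p i) • F.vU i
  map_zero' := by simp
  map_add' p q := by simp [add_smul, Finset.sum_add_distrib]

theorem combU_bijective : Function.Bijective F.combU := F.basisU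

/-- The coordinates in the frame on the first chart. -/
def coordsU : L.Sec (D.UT t) ≃+ (Fin D.r → R[X]) :=
  (AddEquiv.ofBijective F.combU F.combU_bijective).symm

theorem combU_coordsU (s : L.Sec (D.UT t)) : F.combU (F.coordsU s) = s :=
  (AddEquiv.ofBijective F.combU F.combU_bijective).apply_symm_apply s

theorem coordsU_combU (p : Fin D.r → R[X]) : F.coordsU (F.combU p) = p :=
  (AddEquiv.ofBijective F.combU F.combU_bijective).symm_apply_apply p

theorem combU_smul (q : R[X]) (p : Fin D.r → R[X]) :
    F.combU (fun i => q * p i) = D.evalU t q • F.combU p := by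
  show ∑ i, D.evalU t (q * p i) • F.vU i = D.evalU t q • ∑ i, D.evalU t (p i) • F.vU i
  simp only [map_mul, mul_smul, Finset.smul_sum]

theorem vU_eq_combU (j : Fin D.r) : F.vU j = F.combU (Pi.single j 1) := by
  show _ = ∑ i, D.evalU t ((Pi.single j (1 : R[X]) : Fin D.r → R[X]) i) • F.vU i
  rw [Finset.sum_eq_single j (fun i _ hi => by rw [Pi.single_eq_of_ne hi, map_zero, zero_smul])
    (fun h => absurd (Finset.mem_univ j) h), Pi.single_eq_same, map_one, one_smul]

/-- The matrix of a function of the first chart. -/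
def mat (a : Γ(C, D.U)) : Matrix (Fin D.r) (Fin D.r) R[X] :=
  fun i j => F.coordsU (D.genU t a • F.vU j) i

theorem genU_smul_combU (a : Γ(C, D.U)) (p : Fin D.r → R[X]) :
    D.genU t a • F.combU p = F.combU ((F.mat a).mulVec p) := by
  have h : ∀ j, D.genU t a • F.vU j = F.combU (fun i => F.mat a i j) := fun j =>
    (F.combU_coordsU _).symm
  show D.genU t a • ∑ j, D.evalU t (p j) • F.vU j = _
  rw [Finset.smul_sum]
  simp only [smul_comm (D.genU t a), h, ← F.combU_smul, ← map_sum]
  refine congrArg F.combU (funext fun i => ?_)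
  simp only [Finset.sum_apply, Matrix.mulVec, dotProduct, mul_comm]

theorem mat_one : F.mat 1 = 1 := by
  refine Matrix.ext fun i j => ?_
  rw [mat, map_one, one_smul, F.vU_eq_combU, F.coordsU_combU, Matrix.one_apply, Pi.single_apply]

theorem mat_mul (a b : Γ(C, D.U)) : F.mat (a * b) = F.mat a * F.mat b := by
  refine Matrix.ext fun i j => ?_
  have h : D.genU t (a * b) • F.vU j = F.combU ((F.mat a).mulVec fun i => F.mat b i j) := by
    rw [map_mul, mul_smul, ← F.genU_smul_combU]
    exact congrArg (D.genU t a • ·) (F.combU_coordsU _).symm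
  show F.coordsU (D.genU t (a * b) • F.vU j) i = _
  rw [h, F.coordsU_combU]
  rfl

theorem mat_add (a b : Γ(C, D.U)) : F.mat (a + b) = F.mat a + F.mat b := by
  refine Matrix.ext fun i j => ?_
  simp only [mat, map_add, add_smul, Matrix.add_apply, Pi.add_apply]

theorem mat_of_evalU {a : Γ(C, D.U)} {q : R[X]} (h : D.genU t a = D.evalU t q) :
    F.mat a = Matrix.scalar (Fin D.r) q := by
  refine Matrix.ext fun i j => ?_
  rw [mat, h, F.vU_eq_combU, ← F.combU_smul, F.coordsU_combU, Matrix.scalar_apply,
    Matrix.diagonal_apply, Pi.single_apply]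
  split_ifs <;> simp

theorem mat_x : F.mat D.x = Matrix.scalar (Fin D.r) Polynomial.X :=
  F.mat_of_evalU (D.evalU_X t).symm

theorem mat_scalarHom (a : k) :
    F.mat (scalarHom c D.U a) = Matrix.scalar (Fin D.r) (Polynomial.C (coeffHom t a)) :=
  F.mat_of_evalU (by rw [D.evalU_C, D.genU_scalarHom])

/-- The matrices as a ring homomorphism. -/
def matHom : Γ(C, D.U) →+* Matrix (Fin D.r) (Fin D.r) R[X] where
  toFun := F.mat
  map_one' := F.mat_one
  map_mul' := F.mat_mul
  map_zero' := by
    have h := F.mat_of_evalU (a := 0) (q := 0) (by rw [map_zero, map_zero])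
    rwa [map_zero] at h
  map_add' := F.mat_add

/-- At the split fibre the matrices are diagonal. -/
theorem mat_eval_c₀ (a : Γ(C, D.U)) :
    (F.mat a).map (Polynomial.eval (coeffHom t D.c₀)) =
      Matrix.diagonal fun j => coeffHom t (D.evalPt j a) := by
  ext i j
  obtain ⟨s, hs⟩ := F.diag a j
  have e : D.genU t a • F.vU j = F.combU (fun i => Polynomial.C (coeffHom t (D.evalPt j a)) *
      (Pi.single j (1 : R[X]) : Fin D.r → R[X]) i +
        (Polynomial.X - Polynomial.C (coeffHom t D.c₀)) * F.coordsU s i) := by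
    rw [show (fun i => Polynomial.C (coeffHom t (D.evalPt j a)) *
      (Pi.single j (1 : R[X]) : Fin D.r → R[X]) i +
        (Polynomial.X - Polynomial.C (coeffHom t D.c₀)) * F.coordsU s i) =
      (fun i => Polynomial.C (coeffHom t (D.evalPt j a)) *
        (Pi.single j (1 : R[X]) : Fin D.r → R[X]) i) +
        fun i => (Polynomial.X - Polynomial.C (coeffHom t D.c₀)) * F.coordsU s i from rfl]
    rw [map_add, F.combU_smul, F.combU_smul, ← F.vU_eq_combU, F.combU_coordsU, map_sub,
      D.evalU_X, D.evalU_C, D.evalU_C, ← D.genU_scalarHom, ← D.genU_scalarHom, ← hs]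
    show _ = _ + (D.genU t a - D.genU t (scalarHom c D.U (D.evalPt j a))) • F.vU j
    rw [sub_smul]
    abel
  rw [Matrix.map_apply, mat, e, F.coordsU_combU, eval_add, eval_mul, eval_mul, eval_sub, eval_X]
  simp only [eval_C, sub_self, zero_mul, add_zero]
  rw [ Matrix.diagonal_apply, Pi.single_apply]
  split_ifs with h
  · subst h; simp
  · simp

/-- A polynomial combination vanishing on the overlap is zero. -/
theorem eq_zero_of_res_combU (p : Fin D.r → R[X])
    (h : L.resSec (inf_le_left : D.WT t ≤ D.UT t) (F.combU p) = 0) : p = 0 := by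
  obtain ⟨n, hn⟩ := L.exists_pow_smul_eq_zero (D.isAffineOpen_UT t) (D.xT t) (F.combU p) (by
    have hle : (pullback c t).basicOpen (D.xT t) ≤ D.WT t := (D.basicOpen_xT t).le
    rw [← L.resSec_resSec hle inf_le_left, h, map_zero])
  have h1 : F.combU (fun i => Polynomial.X ^ n * p i) = 0 := by
    rw [F.combU_smul, map_pow, D.evalU_X, hn]
  have h2 := congrArg F.coordsU h1
  rw [F.coordsU_combU, map_zero] at h2
  funext i
  refine Polynomial.ext fun m => ?_
  have h3 := congrArg (fun P : R[X] => P.coeff (m + n)) (congrFun h2 i)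
  simpa [coeff_X_pow_mul] using h3

/-- The coordinates on the second chart of the action of a function with a pole of order at most
`e` along the first chart are reflections of its matrix. -/
theorem mat_eq_reflect {a : Γ(C, D.U)} {e : ℕ} {b : Γ(C, D.V)}
    (h : res (inf_le_left : D.U ⊓ D.V ≤ D.U) a *
      res (inf_le_right : D.U ⊓ D.V ≤ D.V) D.y ^ e = res inf_le_right b) (j : Fin D.r)
    {q : Fin D.r → R[X]} (hq : ∑ l, D.evalV t (q l) • F.vV l = D.genV t b • F.vV j)
    {M : ℕ} (hM : ∀ l, (q l).natDegree ≤ M) (i : Fin D.r) :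
    Polynomial.X ^ M * F.mat a i j = Polynomial.X ^ e * reflect M (q i) := by
  set W := D.WT t
  set xW : Γ(pullback c t, W) := res inf_le_left (D.xT t)
  set yW : Γ(pullback c t, W) := res inf_le_right (D.yT t)
  have hxy : xW * yW = 1 := D.xT_mul_yT t
  set sW : R →+* Γ(pullback c t, W) := scalarHom (pullback.snd c t) W
  have hvW : ∀ l, L.resSec (inf_le_left : W ≤ D.UT t) (F.vU l) =
      L.resSec (inf_le_right : W ≤ D.VT t) (F.vV l) := fun l => by
    rw [vU, vV, L.resSec_resSec, L.resSec_resSec]
  have e1 : (res inf_le_left (D.genU t a) * yW ^ e : Γ(pullback c t, W)) =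
      res inf_le_right (D.genV t b) := by
    have h1 := congrArg ((pullback.fst c t).app (D.U ⊓ D.V)).hom h
    rw [map_mul, map_pow, ← app_res, ← app_res, ← app_res] at h1
    exact h1
  have eU : ∀ p : Fin D.r → R[X], L.resSec (inf_le_left : W ≤ D.UT t) (F.combU p) =
      ∑ l, (p l).eval₂ sW xW • L.resSec (inf_le_left : W ≤ D.UT t) (F.vU l) := fun p => by
    show L.resSec _ (∑ l, D.evalU t (p l) • F.vU l) = _
    rw [map_sum]
    simp only [L.resSec_smul, D.res_evalU]
    rfl
  -- clear the denominators of `q`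
  let q' : Fin D.r → R[X] := fun l => reflect M (q l)
  have hq' : ∀ l, (q' l).eval₂ sW xW = xW ^ M * (q l).eval₂ sW yW := fun l => by
    have : Invertible yW := ⟨xW, hxy, by rw [mul_comm, hxy]⟩
    have h2 := eval₂_reflect_mul_pow sW yW M (q l) (hM l)
    have h3 : ⅟ yW = xW := invOf_eq_right_inv (by rw [mul_comm, hxy])
    rw [h3] at h2
    calc (q' l).eval₂ sW xW = (q' l).eval₂ sW xW * yW ^ M * xW ^ M := by
          rw [mul_assoc, ← mul_pow, mul_comm yW, hxy, one_pow, mul_one]
      _ = _ := by rw [h2, mul_comm]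
  have key : F.combU (fun l => Polynomial.X ^ M * F.mat a l j) =
      F.combU (fun l => Polynomial.X ^ e * q' l) := by
    rw [← sub_eq_zero, ← map_sub]
    refine F.combU.map_zero ▸ congrArg F.combU (F.eq_zero_of_res_combU _ ?_)
    rw [map_sub, map_sub, F.combU_smul, F.combU_smul, L.resSec_smul, L.resSec_smul, eU q',
      show F.combU (fun l => F.mat a l j) = D.genU t a • F.vU j from F.combU_coordsU _,
      L.resSec_smul, sub_eq_zero, ← mul_smul, Finset.smul_sum]
    simp only [hq', ← mul_smul, map_pow, D.evalU_X]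
    have hqW := congrArg (L.resSec (inf_le_right : W ≤ D.VT t)) hq
    simp only [map_sum, L.resSec_smul, D.res_evalV] at hqW
    calc (xW ^ M * res inf_le_left (D.genU t a)) • L.resSec (inf_le_left : W ≤ D.UT t) (F.vU j)
        = (xW ^ M * (xW ^ e * res inf_le_right (D.genV t b))) •
            L.resSec (inf_le_right : W ≤ D.VT t) (F.vV j) := by
          rw [← e1, ← hvW]
          congr 1
          calc xW ^ M * res inf_le_left (D.genU t a)
              = xW ^ M * (res inf_le_left (D.genU t a) * (xW * yW) ^ e) := by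
                rw [hxy, one_pow, mul_one]
            _ = _ := by ring
      _ = (xW ^ M * xW ^ e) • ∑ l, (q l).eval₂ sW yW •
            L.resSec (inf_le_right : W ≤ D.VT t) (F.vV l) := by
          rw [← mul_assoc, mul_smul, ← hqW]
      _ = _ := by
          rw [Finset.smul_sum]
          refine Finset.sum_congr rfl fun l _ => ?_
          rw [← hvW, ← mul_smul]
          congr 1
          ring
  have hc := congrArg F.coordsU key
  rw [F.coordsU_combU, F.coordsU_combU] at hc
  exact congrFun hc i

/-- The matrices of functions with poles of order at most `e` have degree at most `e`. -/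
theorem natDegree_mat_le {a : Γ(C, D.U)} {e : ℕ} {b : Γ(C, D.V)}
    (h : res (inf_le_left : D.U ⊓ D.V ≤ D.U) a *
      res (inf_le_right : D.U ⊓ D.V ≤ D.V) D.y ^ e = res inf_le_right b) (i j : Fin D.r) :
    (F.mat a i j).natDegree ≤ e := by
  obtain ⟨q, hq⟩ := F.basisV.2 (D.genV t b • F.vV j)
  set M := Finset.univ.sup fun l => (q l).natDegree
  have hM : ∀ l, (q l).natDegree ≤ M := fun l =>
    Finset.le_sup (f := fun l => (q l).natDegree) (Finset.mem_univ l)
  refine natDegree_le_iff_coeff_eq_zero.mpr fun n hn => ?_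
  have h4 := congrArg (fun P : R[X] => P.coeff (n + M)) (F.mat_eq_reflect h j hq hM i)
  simp only [coeff_X_pow_mul] at h4
  rw [h4, coeff_X_pow_mul', if_pos (by omega), coeff_reflect, revAt_eq_self_of_lt (by omega)]
  exact coeff_eq_zero_of_natDegree_lt (lt_of_le_of_lt (hM i) (by omega))

/-- Every function of the second chart of the curve is a function of the first times a power of
`y`. -/
theorem _root_.FLTAgent.RelPicard.CurveCover.exists_mul_y_pow_eq (D : CurveCover k c)
    (b : Γ(C, D.V)) : ∃ (e : ℕ) (a : Γ(C, D.U)), res (inf_le_left : D.U ⊓ D.V ≤ D.U) a *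
      res (inf_le_right : D.U ⊓ D.V ≤ D.V) D.y ^ e = res inf_le_right b := by
  let : Algebra Γ(C, D.U) Γ(C, D.U ⊓ D.V) :=
    (res (inf_le_left : D.U ⊓ D.V ≤ D.U)).toAlgebra
  have : IsLocalization.Away D.x Γ(C, D.U ⊓ D.V) :=
    D.isAffineU.isLocalization_of_eq_basicOpen D.x (homOfLE inf_le_left) D.basicOpen_x.symm
  obtain ⟨n, a, h⟩ := IsLocalization.Away.surj D.x (res (inf_le_right : D.U ⊓ D.V ≤ D.V) b)
  rw [RingHom.algebraMap_toAlgebra] at h
  exact ⟨n, a, by rw [← h, mul_assoc, ← mul_pow, D.x_mul_y, one_pow, mul_one]⟩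

/-- The combination with polynomial coefficients on the second chart. -/
def combV : (Fin D.r → R[X]) →+ L.Sec (D.VT t) where
  toFun p := ∑ i, D.evalV t (p i) • F.vV i
  map_zero' := by simp
  map_add' p q := by simp [add_smul, Finset.sum_add_distrib]

/-- The coordinates in the frame on the second chart. -/
def coordsV : L.Sec (D.VT t) ≃+ (Fin D.r → R[X]) :=
  (AddEquiv.ofBijective F.combV F.basisV).symm

theorem combV_coordsV (s : L.Sec (D.VT t)) : F.combV (F.coordsV s) = s :=
  (AddEquiv.ofBijective F.combV F.basisV).apply_symm_apply s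

theorem coordsV_combV (p : Fin D.r → R[X]) : F.coordsV (F.combV p) = p :=
  (AddEquiv.ofBijective F.combV F.basisV).symm_apply_apply p

theorem combV_smul (q : R[X]) (p : Fin D.r → R[X]) :
    F.combV (fun i => q * p i) = D.evalV t q • F.combV p := by
  show ∑ i, D.evalV t (q * p i) • F.vV i = D.evalV t q • ∑ i, D.evalV t (p i) • F.vV i
  simp only [map_mul, mul_smul, Finset.smul_sum]

/-- The matrices on the first chart determine the action on the second. -/
theorem coordsV_genV_eq (hmat : ∀ a, F.mat a = F'.mat a) (b : Γ(C, D.V)) (j : Fin D.r) :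
    F.coordsV (D.genV t b • F.vV j) = F'.coordsV (D.genV t b • F'.vV j) := by
  obtain ⟨e, a, h⟩ := D.exists_mul_y_pow_eq b
  set q := F.coordsV (D.genV t b • F.vV j)
  set q' := F'.coordsV (D.genV t b • F'.vV j)
  set M := (Finset.univ.sup fun l => (q l).natDegree) + Finset.univ.sup fun l => (q' l).natDegree
  funext i
  have h1 := F.mat_eq_reflect h j (F.combV_coordsV _) (M := M) (fun l =>
    (Finset.le_sup (f := fun l => (q l).natDegree) (Finset.mem_univ l)).trans
      (Nat.le_add_right _ _)) i
  have h2 := F'.mat_eq_reflect h j (F'.combV_coordsV _) (M := M) (fun l =>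
    (Finset.le_sup (f := fun l => (q' l).natDegree) (Finset.mem_univ l)).trans
      (Nat.le_add_left _ _)) i
  rw [hmat, h2] at h1
  have h3 : reflect M (q i) = reflect M (q' i) := by
    refine Polynomial.ext fun m => ?_
    have h4 := congrArg (fun P : R[X] => P.coeff (m + e)) h1
    simpa [coeff_X_pow_mul] using h4.symm
  refine Polynomial.ext fun m => ?_
  have h5 := congrArg (fun P : R[X] => P.coeff (revAt M m)) h3
  simpa only [coeff_reflect, revAt_invol] using h5

/-- The map matching two frames on the first chart. -/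
def matchU : L.Sec (D.UT t) →+ L'.Sec (D.UT t) := F'.combU.comp F.coordsU.toAddMonoidHom

/-- The map matching two frames on the second chart. -/
def matchV : L.Sec (D.VT t) →+ L'.Sec (D.VT t) := F'.combV.comp F.coordsV.toAddMonoidHom

theorem matchU_smul (hmat : ∀ a, F.mat a = F'.mat a) (b : Γ(pullback c t, D.UT t))
    (s : L.Sec (D.UT t)) : F.matchU F' (b • s) = b • F.matchU F' s := by
  obtain ⟨p, rfl⟩ := D.exists_eq_sum_genU t b
  conv_lhs => rw [← F.combU_coordsU s]
  show F'.combU (F.coordsU ((∑ i, _) • F.combU (F.coordsU s))) = _ • F'.combU (F.coordsU s)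
  simp only [Finset.sum_smul, mul_smul, F.genU_smul_combU, F'.genU_smul_combU, ← F.combU_smul,
    ← F'.combU_smul, map_sum, F.coordsU_combU, hmat]

theorem matchV_smul (hmat : ∀ a, F.mat a = F'.mat a) (b : Γ(pullback c t, D.VT t))
    (s : L.Sec (D.VT t)) : F.matchV F' (b • s) = b • F.matchV F' s := by
  obtain ⟨p, rfl⟩ := D.exists_eq_sum_genV t b
  conv_lhs => rw [← F.combV_coordsV s]
  show F'.combV (F.coordsV ((∑ i, _) • F.combV (F.coordsV s))) = _ • F'.combV (F.coordsV s)
  have key : ∀ (w : Γ(C, D.V)) (x : Fin D.r → R[X]),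
      F'.combV (F.coordsV (D.genV t w • F.combV x)) = D.genV t w • F'.combV x := by
    intro w x
    show F'.combV (F.coordsV (D.genV t w • ∑ l, D.evalV t (x l) • F.vV l)) =
      D.genV t w • ∑ l, D.evalV t (x l) • F'.vV l
    simp only [Finset.smul_sum, smul_comm (D.genV t w), map_sum]
    refine Finset.sum_congr rfl fun l _ => ?_
    conv_lhs => rw [← F.combV_coordsV (D.genV t w • F.vV l), ← F.combV_smul, F.coordsV_combV,
      F'.combV_smul, coordsV_genV_eq F F' hmat, F'.combV_coordsV]
  simp only [Finset.sum_smul, map_sum, mul_smul]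
  refine Finset.sum_congr rfl fun i _ => ?_
  rw [← key]
  conv_lhs => rw [← F.combV_coordsV (D.genV t (D.wV i) • F.combV (F.coordsV s)), ← F.combV_smul,
    F.coordsV_combV, F'.combV_smul]

/-- **The matrices determine the class.** -/
theorem equiv_of_mat (hLU : L.Generates (D.UT t)) (hLV : L.Generates (D.VT t))
    (hL'U : L'.Generates (D.UT t)) (hL'V : L'.Generates (D.VT t))
    (hmat : ∀ a, F.mat a = F'.mat a) : L.Equiv L' := by
  refine L.equiv_of_sections L' F.v F'.v fun z => ?_
  have hspanU : ∀ {L'' : Cocycle (pullback c t)} (F'' : D.Frame t L'') (s : L''.Sec (D.UT t)),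
      ∃ p : Fin D.r → Γ(pullback c t, D.UT t), s = ∑ i, p i • F''.vU i := fun F'' s =>
    ⟨fun i => D.evalU t (F''.coordsU s i), (F''.combU_coordsU s).symm⟩
  have hspanV : ∀ {L'' : Cocycle (pullback c t)} (F'' : D.Frame t L'') (s : L''.Sec (D.VT t)),
      ∃ p : Fin D.r → Γ(pullback c t, D.VT t), s = ∑ i, p i • F''.vV i := fun F'' s =>
    ⟨fun i => D.evalV t (F''.coordsV s i), (F''.combV_coordsV s).symm⟩
  rcases (((D.UT_sup_VT t).ge (Set.mem_univ z) : z ∈ D.UT t ⊔ D.VT t) : z ∈ D.UT t ∨ z ∈ D.VT t)
    with hz | hz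
  · obtain ⟨P, hP, hc, hd, hzP, hrel, i, hi, hi'⟩ := L.exists_ratio_nbhd L' (D.isAffineOpen_UT t)
      hLU hL'U F.vU F'.vU (hspanU F) (hspanU F') (F.matchU F') (F.matchU_smul F' hmat)
      (fun i => by
        show F'.combU (F.coordsU (F.vU i)) = _
        rw [F.vU_eq_combU, F.coordsU_combU, F'.vU_eq_combU]) hz
    simp only [vU, Cocycle.coord_resSec] at hrel hi hi'
    exact ⟨P, hzP, hc, hd, hrel, i, hi, hi'⟩
  · obtain ⟨P, hP, hc, hd, hzP, hrel, i, hi, hi'⟩ := L.exists_ratio_nbhd L' (D.isAffineOpen_VT t)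
      hLV hL'V F.vV F'.vV (hspanV F) (hspanV F') (F.matchV F') (F.matchV_smul F' hmat)
      (fun i => by
        have e : ∀ {L'' : Cocycle (pullback c t)} (F'' : D.Frame t L''),
            F''.combV (Pi.single i 1) = F''.vV i := fun F'' => by
          show ∑ l, D.evalV t ((Pi.single i (1 : R[X]) : Fin D.r → R[X]) l) • F''.vV l = _
          rw [Finset.sum_eq_single i (fun l _ hl => by
            rw [Pi.single_eq_of_ne hl, map_zero, zero_smul])
            (fun h => absurd (Finset.mem_univ i) h), Pi.single_eq_same, map_one, one_smul]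
        show F'.combV (F.coordsV (F.vV i)) = _
        rw [← e F, F.coordsV_combV, e F']) hz
    simp only [vV, Cocycle.coord_resSec] at hrel hi hi'
    exact ⟨P, hzP, hc, hd, hrel, i, hi, hi'⟩

end Frame

end FLTAgent.RelPicard.CurveCover

end
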