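import Fermat.Agent.RelPicard.PairCohomology
import Fermat.Agent.RelPicard.Frame
import Fermat.Agent.RelPicard.ChartModule

/-!
# The chart rings as algebras with bases over polynomials and Laurent polynomials

Over an affine base the two chart rings of the product are free over `R[X]` (`chartBasisU`,
`chartBasisV`), and the overlap over Laurent polynomials by both bases (`chartBasisWX`,
`chartBasisWY`), evaluated by `evalW`.  Used by `ChartSpecOfCover` and `AffineSectionsChartAlg`.
-/

set_option autoImplicit false

universe u

open CategoryTheory CategoryTheory.Limits AlgebraicGeometry TopologicalSpace NeronModelInfra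
open Polynomial

noncomputable section

namespace FLTAgent.RelPicard

theorem overlap_localisation {X : Scheme.{u}} {U W : X.Opens} (hU : IsAffineOpen U) (f : Γ(X, U))
    (h : W ≤ U) (hW : X.basicOpen f = W) :
    (∀ z : Γ(X, W), ∃ (n : ℕ) (a : Γ(X, U)), res h f ^ n * z = res h a) ∧
      ∀ a : Γ(X, U), res h a = 0 → ∃ m : ℕ, f ^ m * a = 0 := by
  let : Algebra Γ(X, U) Γ(X, W) := (res h).toAlgebra
  have : IsLocalization.Away f Γ(X, W) :=
    hU.isLocalization_of_eq_basicOpen f (homOfLE h) hW.symm
  refine ⟨fun z => ?_, fun a ha => ?_⟩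
  · obtain ⟨n, a, hn⟩ := IsLocalization.Away.surj f z
    exact ⟨n, a, by rw [mul_comm]; exact hn⟩
  · obtain ⟨⟨_, m, rfl⟩, hm⟩ := (IsLocalization.map_eq_zero_iff (Submonoid.powers f) _ a).mp ha
    exact ⟨m, hm⟩

namespace CurveCover

variable {k : Type u} [Field k] {C : Scheme.{u}} {c : C ⟶ Spec (CommRingCat.of k)}
  (D : CurveCover k c) {R : Type u} [CommRing R]
  (t : Spec (CommRingCat.of R) ⟶ Spec (CommRingCat.of k))

/-- The functions of the first chart as an algebra over polynomials. -/
@[reducible] def algU : Algebra R[X] Γ(pullback c t, D.UT t) := (D.evalU t).toAlgebra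

/-- The functions of the second chart as an algebra over polynomials. -/
@[reducible] def algV : Algebra R[X] Γ(pullback c t, D.VT t) := (D.evalV t).toAlgebra

/-- Evaluation of Laurent polynomials on the overlap. -/
def evalW : LaurentPolynomial R →+* Γ(pullback c t, D.WT t) :=
  LaurentPolynomial.eval₂ (scalarHom (pullback.snd c t) (D.WT t)) (D.yUnit t)⁻¹

/-- The functions of the overlap as an algebra over Laurent polynomials. -/
@[reducible] def algW : Algebra (LaurentPolynomial R) Γ(pullback c t, D.WT t) :=
  (D.evalW t).toAlgebra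

theorem res_evalU_eq (p : R[X]) :
    res (inf_le_left : D.WT t ≤ D.UT t) (D.evalU t p) = D.evalW t (inX R p) := by
  rw [D.res_evalU, inX_eq_toLaurent, evalW, LaurentPolynomial.eval₂_toLaurent]
  rfl

theorem res_evalV_eq (p : R[X]) :
    res (inf_le_right : D.WT t ≤ D.VT t) (D.evalV t p) = D.evalW t (inY R p) := by
  refine RingHom.congr_fun (show (res (inf_le_right : D.WT t ≤ D.VT t)).comp (D.evalV t) =
    (D.evalW t).comp (inY R) from Polynomial.ringHom_ext (fun a => ?_) ?_) p
  · rw [RingHom.comp_apply, RingHom.comp_apply, D.res_evalV, eval₂_C, inY, coe_eval₂RingHom,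
      eval₂_C, evalW, LaurentPolynomial.eval₂_C]
  · rw [RingHom.comp_apply, RingHom.comp_apply, D.res_evalV, eval₂_X, inY, coe_eval₂RingHom,
      eval₂_X, evalW, LaurentPolynomial.eval₂_T, zpow_neg, zpow_one, inv_inv]
    rfl

attribute [local instance] algU algV algW

theorem bijective_combination_U :
    Function.Bijective (Fintype.linearCombination R[X] (D.wUT t)) :=
  D.bijective_polyComb_UT t

theorem bijective_combination_V :
    Function.Bijective (Fintype.linearCombination R[X] (D.wVT t)) :=
  D.bijective_polyComb_VT t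

/-- The basis of the functions of the first chart. -/
def chartBasisU : Module.Basis (Fin D.r) R[X] Γ(pullback c t, D.UT t) :=
  (Pi.basisFun R[X] (Fin D.r)).map (LinearEquiv.ofBijective _ (D.bijective_combination_U t))

/-- The basis of the functions of the second chart. -/
def chartBasisV : Module.Basis (Fin D.r) R[X] Γ(pullback c t, D.VT t) :=
  (Pi.basisFun R[X] (Fin D.r)).map (LinearEquiv.ofBijective _ (D.bijective_combination_V t))

theorem chartBasisU_apply (i : Fin D.r) : D.chartBasisU t i = D.wUT t i := by
  simp [chartBasisU, Fintype.linearCombination_apply, Pi.single_apply, ite_smul]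

theorem chartBasisV_apply (i : Fin D.r) : D.chartBasisV t i = D.wVT t i := by
  simp [chartBasisV, Fintype.linearCombination_apply, Pi.single_apply, ite_smul]

theorem res_algebraMap_U (p : R[X]) :
    res (inf_le_left : D.WT t ≤ D.UT t) (algebraMap R[X] Γ(pullback c t, D.UT t) p) =
      algebraMap (LaurentPolynomial R) Γ(pullback c t, D.WT t) (inX R p) :=
  D.res_evalU_eq t p

theorem res_algebraMap_V (p : R[X]) :
    res (inf_le_right : D.WT t ≤ D.VT t) (algebraMap R[X] Γ(pullback c t, D.VT t) p) =
      algebraMap (LaurentPolynomial R) Γ(pullback c t, D.WT t) (inY R p) :=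
  D.res_evalV_eq t p

theorem bijective_combination_WX :
    Function.Bijective (Fintype.linearCombination (LaurentPolynomial R)
      fun l => res (inf_le_left : D.WT t ≤ D.UT t) (D.chartBasisU t l)) := by
  have h := overlap_localisation (D.isAffineOpen_UT t) (D.xT t)
    (inf_le_left : D.WT t ≤ D.UT t) (D.basicOpen_xT t)
  have hX : algebraMap R[X] Γ(pullback c t, D.UT t) X = D.xT t := D.evalU_X t
  refine bijective_combination_localisation (inX R) (res (inf_le_left : D.WT t ≤ D.UT t))
    (D.res_algebraMap_U t) (D.chartBasisU t) X ?_ (fun q => ?_) (fun n q hq => ?_) ?_ ?_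
  · rw [inX_eq_toLaurent, toLaurent_X]; exact LaurentPolynomial.isUnit_T 1
  · obtain ⟨n, q', hq'⟩ := LaurentPolynomial.exists_T_pow q
    refine ⟨n, q', ?_⟩
    rw [inX_eq_toLaurent, hq', toLaurent_X, LaurentPolynomial.T_pow, mul_one, mul_comm]
  · exact (monic_X_pow n).mul_right_eq_zero_iff.mp hq
  · simpa [hX] using h.1
  · simpa [hX] using h.2

theorem bijective_combination_WY :
    Function.Bijective (Fintype.linearCombination (LaurentPolynomial R)
      fun l => res (inf_le_right : D.WT t ≤ D.VT t) (D.chartBasisV t l)) := by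
  have h := overlap_localisation (D.isAffineOpen_VT t) (D.yT t)
    (inf_le_right : D.WT t ≤ D.VT t) (D.basicOpen_yT t)
  have hX : algebraMap R[X] Γ(pullback c t, D.VT t) X = D.yT t := eval₂_X _ _
  refine bijective_combination_localisation (inY R) (res (inf_le_right : D.WT t ≤ D.VT t))
    (D.res_algebraMap_V t) (D.chartBasisV t) X ?_ (fun q => ?_) (fun n q hq => ?_) ?_ ?_
  · rw [inY, coe_eval₂RingHom, eval₂_X]; exact LaurentPolynomial.isUnit_T _
  · obtain ⟨n, q', hq'⟩ := LaurentPolynomial.exists_T_pow (LaurentPolynomial.invert q)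
    refine ⟨n, q', ?_⟩
    rw [inY_apply_eq_invert q', hq', map_mul, LaurentPolynomial.invert_T, inY, coe_eval₂RingHom,
      eval₂_X,
      LaurentPolynomial.T_pow, mul_comm]
    simp [LaurentPolynomial.involutive_invert q]
  · exact (monic_X_pow n).mul_right_eq_zero_iff.mp hq
  · simpa [hX] using h.1
  · simpa [hX] using h.2

/-- The basis of the functions of the overlap from the first chart. -/
def chartBasisWX : Module.Basis (Fin D.r) (LaurentPolynomial R) Γ(pullback c t, D.WT t) :=
  locBasis (res (inf_le_left : D.WT t ≤ D.UT t)) (D.chartBasisU t) (D.bijective_combination_WX t)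

/-- The basis of the functions of the overlap from the second chart. -/
def chartBasisWY : Module.Basis (Fin D.r) (LaurentPolynomial R) Γ(pullback c t, D.WT t) :=
  locBasis (res (inf_le_right : D.WT t ≤ D.VT t)) (D.chartBasisV t) (D.bijective_combination_WY t)

theorem res_chartBasisU (i : Fin D.r) :
    res (inf_le_left : D.WT t ≤ D.UT t) (D.chartBasisU t i) = D.chartBasisWX t i :=
  locBasis_apply _ _ _ i

theorem res_chartBasisV (i : Fin D.r) :
    res (inf_le_right : D.WT t ≤ D.VT t) (D.chartBasisV t i) = D.chartBasisWY t i :=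
  locBasis_apply _ _ _ i

end CurveCover

end FLTAgent.RelPicard
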