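import Mathlib
import Fermat.Prelude.Def_AlgebraicGeometry_NeronModelPropertyBundleCarrier

/-!
# A two-chart cover of a curve by a finite function

The data used by all the relative Picard constructions: a function `x` with affine domains of
`x` and of `1/x`, bases over the polynomial rings, and a fibre consisting of `r` rational points.

Main declarations: `CurveCover`, `polyComb`; a cover exists by `CoverExists`.
-/

set_option autoImplicit false

universe u

open CategoryTheory CategoryTheory.Limits AlgebraicGeometry TopologicalSpace NeronModelInfra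

noncomputable section

namespace FLTAgent.RelPicard

variable {R : Type u} [CommRing R] {X Y : Scheme.{u}}

/-- Scalars into the functions on an open set of a scheme over `Spec R`. -/
def scalarHom (c : X ⟶ Spec (CommRingCat.of R)) (U : X.Opens) : R →+* Γ(X, U) :=
  ((Scheme.ΓSpecIso (CommRingCat.of R)).inv ≫ c.appLE ⊤ U le_top).hom

/-- Restriction of functions to a smaller open set. -/
def res {U W : X.Opens} (h : W ≤ U) : Γ(X, U) →+* Γ(X, W) :=
  (X.presheaf.map (homOfLE h).op).hom

/-- The value of a function at a point given by a morphism. -/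
def valueAt {U : X.Opens} (f : Y ⟶ X) (h : ⊤ ≤ f ⁻¹ᵁ U) : Γ(X, U) →+* Γ(Y, ⊤) :=
  (f.appLE U ⊤ h).hom

/-- The map sending a vector of polynomials to the combination of `w` with coefficients evaluated
at `z`. -/
def polyComb (c : X ⟶ Spec (CommRingCat.of R)) (U : X.Opens) (z : Γ(X, U)) {r : ℕ}
    (w : Fin r → Γ(X, U)) (p : Fin r → Polynomial R) : Γ(X, U) :=
  ∑ i, (p i).eval₂ (scalarHom c U) z * w i

variable (k : Type u) [Field k] {C : Scheme.{u}} (c : C ⟶ Spec (CommRingCat.of k))

/-- A finite function on a curve with its two affine charts and a split fibre. -/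
structure CurveCover where
  U : C.Opens
  V : C.Opens
  isAffineU : IsAffineOpen U
  isAffineV : IsAffineOpen V
  cover : U ⊔ V = ⊤
  x : Γ(C, U)
  y : Γ(C, V)
  basicOpen_x : C.basicOpen x = U ⊓ V
  basicOpen_y : C.basicOpen y = U ⊓ V
  x_mul_y : res (inf_le_left : U ⊓ V ≤ U) x * res (inf_le_right : U ⊓ V ≤ V) y = 1
  r : ℕ
  r_pos : 0 < r
  wU : Fin r → Γ(C, U)
  wV : Fin r → Γ(C, V)
  basisU : Function.Bijective (polyComb c U x wU)
  basisV : Function.Bijective (polyComb c V y wV)
  c₀ : k
  pt : Fin r → SchemeHomOver (𝟙 (Spec (CommRingCat.of k))) c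
  pt_mem : ∀ j, (⊤ : (Spec (CommRingCat.of k)).Opens) ≤ (pt j).1 ⁻¹ᵁ U
  split_surjective : Function.Surjective fun a : Γ(C, U) => fun j => valueAt (pt j).1 (pt_mem j) a
  split_ker : ∀ a : Γ(C, U), (∀ j, valueAt (pt j).1 (pt_mem j) a = 0) ↔
    (x - scalarHom c U c₀) ∣ a

end FLTAgent.RelPicard
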