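import Mathlib
import Fermat.Agent.RelPicard.Cover
import Fermat.Agent.AbelianTorsion.Product
import Fermat.Agent.AbelianTorsion.Variety

/-!
# Basic facts about a proper smooth curve over an algebraically closed field

The global functions are the constants, the curve is geometrically integral with infinitely many
rational points, and after any extension of algebraically closed fields its affine open sets have
Dedekind coordinate rings.

Main results: `scalarHom_top_bijective`, `isIntegral_fibre`, `existsUnique_point`,
`isDedekindDomain_of_isAffineOpen`.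
-/

set_option autoImplicit false

universe u

open CategoryTheory CategoryTheory.Limits AlgebraicGeometry TopologicalSpace NeronModelInfra
  IsLocalRing

noncomputable section

namespace FLTAgent.RelPicard

variable {k : Type u} [Field k] [IsAlgClosed k] {C : Scheme.{u}}
  (c : C ⟶ Spec (CommRingCat.of k))

/-- The global functions are the constants. -/
theorem scalarHom_top_bijective [IsProper c] [IsIntegral C] :
    Function.Bijective (scalarHom c ⊤) := by
  refine IsAlgClosed.ringHom_bijective_of_isIntegral _ (RingHom.Finite.to_isIntegral ?_)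
  show ((Scheme.ΓSpecIso (CommRingCat.of k)).inv ≫ c.appLE ⊤ ⊤ _).hom.Finite
  rw [show c.appLE ⊤ ⊤ _ = c.appTop from (Scheme.Hom.app_eq_appLE c).symm, CommRingCat.hom_comp]
  exact RingHom.Finite.comp (finite_appTop_of_universallyClosed k c)
    (RingHom.Finite.of_surjective _ (ConcreteCategory.bijective_of_isIso _).2)

section Smooth

variable [SmoothOfRelativeDimension 1 c] [IsIntegral C]

include c

/-- The local rings at closed points are discrete valuation rings. -/
theorem isDiscreteValuationRing_stalk (x : C) (hx : IsClosed {x}) :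
    IsDiscreteValuationRing (C.presheaf.stalk x) := by
  let := AbelianTorsion.stalkAlgebra c x
  obtain ⟨hN, hS, p, hp⟩ := AbelianTorsion.exists_parameters c (g := 1) x hx
  have := hp.isDomain
  have hm : maximalIdeal (C.presheaf.stalk x) = Ideal.span {p 0} := by
    rw [← hp.span_eq, Set.range_unique]
    rfl
  have hne : ¬ IsField (C.presheaf.stalk x) := fun h => by
    have h0 : maximalIdeal (C.presheaf.stalk x) = ⊥ := isField_iff_maximalIdeal_eq.mp h
    rw [hm, Ideal.span_singleton_eq_bot] at h0
    have h1 := hp.eq_zero_of_mem_sq (fun _ => 1) (by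
      rw [Fin.sum_univ_one, h0, smul_zero]
      exact zero_mem _)
    exact one_ne_zero (congrFun h1 0)
  have hpr : (maximalIdeal (C.presheaf.stalk x)).IsPrincipal := ⟨⟨p 0, hm⟩⟩
  exact ((IsDiscreteValuationRing.TFAE _ hne).out 4 0).mp hpr

omit [IsAlgClosed k] [AlgebraicGeometry.IsIntegral C] in
theorem jacobsonSpace_curve : JacobsonSpace C :=
  haveI := AbelianTorsion.locallyOfFiniteType c (g := 1)
  LocallyOfFiniteType.jacobsonSpace c

/-- The localisations of the functions on an affine open set at maximal ideals are discrete
valuation rings. -/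
theorem isDiscreteValuationRing_localization {U : C.Opens} (hU : IsAffineOpen U) [Nonempty U]
    (M : Ideal Γ(C, U)) [hM : M.IsMaximal] :
    IsDiscreteValuationRing (Localization.AtPrime M) := by
  have := jacobsonSpace_curve c
  let P : PrimeSpectrum Γ(C, U) := ⟨M, hM.isPrime⟩
  have hP : IsClosed {P} := (PrimeSpectrum.isClosed_singleton_iff_isMaximal P).mpr hM
  have hclosed : IsClosed {hU.fromSpec P} := by
    have h := hU.fromSpec.isOpenEmbedding.preimage_closedPoints
    have hP' : P ∈ closedPoints (Spec Γ(C, U)) := hP
    rw [← h] at hP'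
    exact hP'
  have hmem : hU.fromSpec P ∈ U :=
    SetLike.mem_coe.mp (hU.range_fromSpec ▸ Set.mem_range_self P)
  have := isDiscreteValuationRing_stalk c _ hclosed
  let := C.presheaf.algebra_section_stalk ⟨_, hmem⟩
  have hloc : IsLocalization.AtPrime (C.presheaf.stalk (hU.fromSpec P))
      (hU.primeIdealOf ⟨_, hmem⟩).asIdeal := hU.isLocalization_stalk ⟨_, hmem⟩
  have hPM : (hU.primeIdealOf ⟨_, hmem⟩).asIdeal = M := by
    have h : hU.primeIdealOf ⟨_, hmem⟩ = P :=
      hU.fromSpec.isOpenEmbedding.injective (hU.fromSpec_primeIdealOf ⟨_, hmem⟩)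
    rw [h]
  have : IsLocalization.AtPrime (C.presheaf.stalk (hU.fromSpec P)) M := by
    convert hloc using 2
    exact hPM.symm
  exact IsDiscreteValuationRing.RingEquivClass.isDiscreteValuationRing
    (IsLocalization.algEquiv M.primeCompl (C.presheaf.stalk (hU.fromSpec P))
      (Localization.AtPrime M)).toRingEquiv

/-- The functions on a nonempty affine open set form a Dedekind domain which is not a field. -/
theorem isDedekindDomain_of_isAffineOpen {U : C.Opens} (hU : IsAffineOpen U) [Nonempty U] :
    IsDedekindDomain Γ(C, U) ∧ ¬ IsField Γ(C, U) := by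
  have := AbelianTorsion.locallyOfFiniteType c (g := 1)
  have : IsLocallyNoetherian C := LocallyOfFiniteType.isLocallyNoetherian c
  have : IsNoetherianRing Γ(C, U) := IsLocallyNoetherian.component_noetherian ⟨U, hU⟩
  have hprime : ∀ P : Ideal Γ(C, U), P ≠ ⊥ → P.IsPrime → P.IsMaximal := fun P hP0 hP => by
    obtain ⟨M, hM, hPM⟩ := Ideal.exists_le_maximal P hP.ne_top
    have := isDiscreteValuationRing_localization c hU M
    suffices h : P = M from h ▸ hM
    have hd : Disjoint (M.primeCompl : Set Γ(C, U)) P :=
      Set.disjoint_left.mpr fun a ha hap => ha (hPM hap)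
    have hQ := IsLocalization.isPrime_of_isPrime_disjoint M.primeCompl (Localization.AtPrime M)
      P hP hd
    have hQ0 : P.map (algebraMap Γ(C, U) (Localization.AtPrime M)) ≠ ⊥ := fun h => hP0 (by
      rw [← IsLocalization.under_map_of_isPrime_disjoint M.primeCompl
        (Localization.AtPrime M) hP hd,
        h]
      exact Ideal.comap_bot_of_injective _
        (IsLocalization.injective _ M.primeCompl_le_nonZeroDivisors))
    rw [← IsLocalization.under_map_of_isPrime_disjoint M.primeCompl (Localization.AtPrime M) hP hd,
      IsLocalRing.eq_maximalIdeal (hQ.isMaximal hQ0),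
        IsLocalization.AtPrime.under_maximalIdeal (Localization.AtPrime M) M]
  have : IsDedekindDomainDvr Γ(C, U) :=
    { is_dvr_at_nonzero_prime := fun P hP0 hP =>
        haveI := hprime P hP0 hP
        isDiscreteValuationRing_localization c hU P }
  refine ⟨inferInstance, fun hf => ?_⟩
  obtain ⟨M, hM⟩ := Ideal.exists_maximal Γ(C, U)
  have := isDiscreteValuationRing_localization c hU M
  let := hf.toField
  have hM0 : M = ⊥ := (Ideal.eq_bot_or_top M).resolve_right hM.ne_top
  refine IsDiscreteValuationRing.not_a_field (Localization.AtPrime M) ?_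
  rw [← Localization.AtPrime.map_eq_maximalIdeal, ← le_bot_iff]
  exact (Ideal.map_mono hM0.le).trans Ideal.map_bot.le

/-- There are infinitely many closed points. -/
theorem infinite_closedPoints : (closedPoints C).Infinite := by
  intro hfin
  have := jacobsonSpace_curve c
  have := JacobsonSpace.discreteTopology hfin
  obtain ⟨x, -⟩ : ∃ x : C, x ∈ (⊤ : C.Opens) := ⟨Classical.arbitrary C, trivial⟩
  have hgen : genericPoint C = x := ((genericPoint_specializes x).eq)
  have := isDiscreteValuationRing_stalk c (genericPoint C) (isClosed_discrete _)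
  exact IsDiscreteValuationRing.not_a_field (C.presheaf.stalk (genericPoint C))
    (isField_iff_maximalIdeal_eq.mp (Field.toIsField C.functionField))

/-- There are infinitely many rational points. -/
theorem infinite_points : Infinite (SchemeHomOver (𝟙 (Spec (CommRingCat.of k))) c) := by
  have := AbelianTorsion.locallyOfFiniteType c (g := 1)
  have := (infinite_closedPoints c).to_subtype
  exact Infinite.of_injective (pointEquivClosedPoint c).symm
    (pointEquivClosedPoint c).symm.injective

end Smooth

/-- A closed point of a curve over an algebraically closed field is a unique rational point. -/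
theorem existsUnique_point [LocallyOfFiniteType c] {x : C} (hx : IsClosed {x}) :
    ∃! s : SchemeHomOver (𝟙 (Spec (CommRingCat.of k))) c, s.1 (IsLocalRing.closedPoint k) = x :=
  ⟨⟨pointOfClosedPoint c x hx, pointOfClosedPoint_comp c x hx⟩, pointOfClosedPoint_apply c x hx _,
    fun _s hs => (pointEquivClosedPoint c).injective
      (Subtype.ext (hs.trans (pointOfClosedPoint_apply c x hx _).symm))⟩

section Fibre

variable {K : Type u} [Field K] (t : Spec (CommRingCat.of K) ⟶ Spec (CommRingCat.of k))

omit [IsAlgClosed k] in
theorem smoothOfRelativeDimension_fibre {n : ℕ} [SmoothOfRelativeDimension n c] :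
    SmoothOfRelativeDimension n (pullback.snd c t) :=
  (smoothOfRelativeDimension_isStableUnderBaseChange (n := n)).of_isPullback
    (IsPullback.of_hasPullback c t) ‹_›

/-- The curve over an extension field is integral. -/
theorem isIntegral_fibre [IsIntegral C] : IsIntegral (pullback c t) :=
  AbelianTorsion.isIntegral_pullback c t

omit [IsAlgClosed k] in
theorem isAffineOpen_fibre {U : C.Opens} (hU : IsAffineOpen U) :
    IsAffineOpen ((pullback.fst c t) ⁻¹ᵁ U) := by
  have : IsAffineHom t := inferInstance
  have : IsAffineHom (pullback.fst c t) :=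
    isAffineHom_isStableUnderBaseChange.of_isPullback (IsPullback.of_hasPullback c t).flip ‹_›
  exact hU.preimage _

omit [IsAlgClosed k] in
theorem nonempty_fibre {U : C.Opens} (hU : Nonempty U) :
    Nonempty ((pullback.fst c t) ⁻¹ᵁ U : (pullback c t).Opens) := by
  obtain ⟨⟨x, hx⟩⟩ := hU
  obtain ⟨z, hz, -⟩ := Scheme.Pullback.exists_preimage_pullback (f := c) (g := t) x
    (IsLocalRing.closedPoint K) (Subsingleton.elim _ _)
  exact ⟨⟨z, show pullback.fst c t z ∈ U by rw [hz]; exact hx⟩⟩

variable {c} (D : CurveCover k c)

omit [IsAlgClosed k] in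
theorem CurveCover.nonempty_U : Nonempty D.U :=
  ⟨⟨(D.pt ⟨0, D.r_pos⟩).1 (IsLocalRing.closedPoint k),
    D.pt_mem ⟨0, D.r_pos⟩ (Set.mem_univ _)⟩⟩

theorem CurveCover.nonempty_V [IsProper c] [IsIntegral C] : Nonempty D.V := by
  by_contra h
  have hU : D.U = ⊤ := by
    refine top_unique fun p _ => ?_
    rcases (D.cover ▸ Set.mem_univ p : p ∈ ((D.U ⊔ D.V : C.Opens) : Set C)) with hp | hp
    · exact hp
    · exact absurd ⟨⟨p, hp⟩⟩ h
  have hsurj : ∀ {W : C.Opens}, W = ⊤ → Function.Surjective (scalarHom c W) := by
    rintro W rfl
    exact (scalarHom_top_bijective c).2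
  obtain ⟨a, ha⟩ := hsurj hU D.x
  have h0 : polyComb c D.U D.x D.wU (Pi.single ⟨0, D.r_pos⟩ (Polynomial.X - Polynomial.C a)) =
      polyComb c D.U D.x D.wU 0 := by
    simp only [polyComb, Pi.zero_apply, Polynomial.eval₂_zero, zero_mul, Finset.sum_const_zero]
    refine Finset.sum_eq_zero fun i _ => ?_
    rcases eq_or_ne i ⟨0, D.r_pos⟩ with rfl | hi
    · rw [Pi.single_eq_same, Polynomial.eval₂_sub, Polynomial.eval₂_X, Polynomial.eval₂_C, ha,
        sub_self, zero_mul]
    · rw [Pi.single_eq_of_ne hi, Polynomial.eval₂_zero, zero_mul]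
  exact Polynomial.X_sub_C_ne_zero a (by simpa using congrFun (D.basisU.1 h0) ⟨0, D.r_pos⟩)

variable [IsAlgClosed K] [IsProper c] [SmoothOfRelativeDimension 1 c] [IsIntegral C]

omit [IsProper c] in
/-- Over an algebraically closed extension field the two charts have Dedekind coordinate rings. -/
theorem CurveCover.isDedekindDomain_fibre_U :
    IsDedekindDomain Γ(pullback c t, (pullback.fst c t) ⁻¹ᵁ D.U) ∧
      ¬ IsField Γ(pullback c t, (pullback.fst c t) ⁻¹ᵁ D.U) :=
  haveI := isIntegral_fibre c t
  haveI := smoothOfRelativeDimension_fibre c t (n := 1)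
  haveI := nonempty_fibre c t D.nonempty_U
  isDedekindDomain_of_isAffineOpen (pullback.snd c t) (isAffineOpen_fibre c t D.isAffineU)

theorem CurveCover.isDedekindDomain_fibre_V :
    IsDedekindDomain Γ(pullback c t, (pullback.fst c t) ⁻¹ᵁ D.V) ∧
      ¬ IsField Γ(pullback c t, (pullback.fst c t) ⁻¹ᵁ D.V) :=
  haveI := isIntegral_fibre c t
  haveI := smoothOfRelativeDimension_fibre c t (n := 1)
  haveI := nonempty_fibre c t D.nonempty_V
  isDedekindDomain_of_isAffineOpen (pullback.snd c t) (isAffineOpen_fibre c t D.isAffineV)

variable (c)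

omit [IsAlgClosed k] [SmoothOfRelativeDimension 1 c] [IsIntegral C] in
/-- A closed point of the curve over an algebraically closed extension is a unique section. -/
theorem existsUnique_point_fibre {x : ↑(pullback c t)} (hx : IsClosed {x}) :
    ∃! s : SchemeHomOver (𝟙 (Spec (CommRingCat.of K))) (pullback.snd c t),
      s.1 (IsLocalRing.closedPoint K) = x :=
  existsUnique_point (pullback.snd c t) hx

end Fibre

end FLTAgent.RelPicard

end
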