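import Fermat.Agent.RelPicard.ChartSpecOfCover
import Fermat.Agent.RelPicard.AffineSectionsGlue
import Fermat.Agent.RelPicard.CurveBasics

/-!
# The bundle of a framed tuple

A framed tuple of the chart of a cover makes the coefficient vectors into rank one modules over
the rings of the two charts; they glue to a cocycle with a frame having the tuple as matrices.

Main result: `exists_frame_of_isFramed`; used by `ChartInputOfFrames`.
-/

set_option autoImplicit false

universe u

open CategoryTheory CategoryTheory.Limits AlgebraicGeometry TopologicalSpace NeronModelInfra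
open Polynomial

noncomputable section

namespace FLTAgent.RelPicard

/-- Two modules with rank one frames of equal matrices are isomorphic. -/
def RankOneFrame.matchEquiv {A : Type u} [CommRing A] {M M' : Type u} [AddCommGroup M] [Module A M]
    [AddCommGroup M'] [Module A M'] (F : RankOneFrame A M) (σ' : Fin F.n → M')
    (τ' : Fin F.n → M' →ₗ[A] A) (hsum : ∀ m, ∑ i, τ' i m • σ' i = m)
    (hmat : ∀ i j, τ' i (σ' j) = F.τ i (F.σ j)) : M ≃ₗ[A] M' :=
  LinearEquiv.ofLinearMap (∑ i, (F.τ i).smulRight (σ' i))
    (∑ i, (τ' i).smulRight (F.σ i))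
    (LinearMap.ext fun m => by
      simp only [LinearMap.comp_apply, LinearMap.id_apply, LinearMap.coe_sum, Finset.sum_apply,
        LinearMap.smulRight_apply, map_sum, map_smul, ← hmat]
      conv_rhs => rw [← hsum m]
      refine Finset.sum_congr rfl fun i _ => ?_
      rw [hsum])
    (LinearMap.ext fun m => by
      simp only [LinearMap.comp_apply, LinearMap.id_apply, LinearMap.coe_sum, Finset.sum_apply,
        LinearMap.smulRight_apply, map_sum, map_smul, hmat]
      conv_rhs => rw [← F.sum_smul m]
      refine Finset.sum_congr rfl fun i _ => ?_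
      rw [F.sum_smul])

theorem RankOneFrame.matchEquiv_apply {A : Type u} [CommRing A] {M M' : Type u} [AddCommGroup M]
    [Module A M] [AddCommGroup M'] [Module A M'] (F : RankOneFrame A M) (σ' : Fin F.n → M')
    (τ' : Fin F.n → M' →ₗ[A] A) (hsum : ∀ m, ∑ i, τ' i m • σ' i = m)
    (hmat : ∀ i j, τ' i (σ' j) = F.τ i (F.σ j)) (m : M) :
    F.matchEquiv σ' τ' hsum hmat m = ∑ i, F.coords m i • σ' i := by
  simp [RankOneFrame.matchEquiv, RankOneFrame.coords]

theorem map_reflect {R S : Type u} [CommRing R] [CommRing S] (f : R →+* S) (e : ℕ) (p : R[X]) :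
    (p.reflect e).map f = (p.map f).reflect e :=
  Polynomial.ext fun n => by simp [coeff_reflect]

namespace CurveCover

variable {k : Type u} [Field k] {C : Scheme.{u}} {c : C ⟶ Spec (CommRingCat.of k)}
  (D : CurveCover k c) {R : Type u} [CommRing R] [Algebra k R]
  (t : Spec (CommRingCat.of R) ⟶ Spec (CommRingCat.of k))

attribute [local instance] algU algV algW

theorem coeffHom_specMap :
    coeffHom (Spec.map (CommRingCat.ofHom (algebraMap k R))) = algebraMap k R := by
  simp [coeffHom]

section Actions

variable {t} (ht : coeffHom t = algebraMap k R)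
  {T : Fin (D.r + D.r) → Matrix (Fin D.r) (Fin D.r) R[X]} (hT : D.chartSpec.IsFramed T)

include ht

theorem genU_eval₂_algebraMap (p : k[X]) :
    D.genU t (p.eval₂ (scalarHom c D.U) D.x) = D.evalU t (p.map (algebraMap k R)) := by
  refine RingHom.congr_fun (show (D.genU t).comp (eval₂RingHom (scalarHom c D.U) D.x) =
    (D.evalU t).comp (mapRingHom (algebraMap k R)) from
      Polynomial.ringHom_ext (fun a => ?_) ?_) p
  · simp [genU_scalarHom, ht, evalU_C]
  · simp [genU_x, evalU_X]

theorem chartBasisU_repr_genU (a : Γ(C, D.U)) (l : Fin D.r) :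
    (D.chartBasisU t).repr (D.genU t a) l = (D.coefU a l).map (algebraMap k R) := by
  have h : D.genU t a = ∑ l, (D.coefU a l).map (algebraMap k R) • D.chartBasisU t l := by
    conv_lhs => rw [← D.polyComb_coefU a, polyComb, map_sum]
    refine Finset.sum_congr rfl fun i _ => ?_
    rw [map_mul, D.genU_eval₂_algebraMap ht, Algebra.smul_def, chartBasisU_apply]
    rfl
  rw [h, Module.Basis.repr_sum_self]

/-- The action on the first chart. -/
def chartActU : Γ(pullback c t, D.UT t) →ₐ[R[X]] Matrix (Fin D.r) (Fin D.r) R[X] :=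
  algHomOfBasis (D.chartBasisU t) (fun i => T (Fin.castAdd D.r i))
    (by
      conv_rhs => rw [← (D.IsFramed_mul hT).2.1]
      refine Finset.sum_congr rfl fun l _ => congrArg (· • T (Fin.castAdd D.r l)) ?_
      rw [← D.chartBasisU_repr_genU ht 1 l, map_one (D.genU t)])
    (fun i j => by
      refine ((D.IsFramed_mul hT).1 i j).trans ?_
      refine Finset.sum_congr rfl fun l _ => congrArg (· • T (Fin.castAdd D.r l)) ?_
      rw [← D.chartBasisU_repr_genU ht, chartBasisU_apply, chartBasisU_apply, map_mul]
      rfl)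

theorem chartActU_basis (i : Fin D.r) :
    D.chartActU ht hT (D.chartBasisU t i) = T (Fin.castAdd D.r i) :=
  algHomOfBasis_basis _ _ _ _ i

theorem chartActU_genU (a : Γ(C, D.U)) :
    D.chartActU ht hT (D.genU t a) =
      ∑ l, (D.coefU a l).map (algebraMap k R) • T (Fin.castAdd D.r l) := by
  conv_lhs => rw [← (D.chartBasisU t).sum_repr (D.genU t a)]
  simp only [map_sum, map_smul, D.chartBasisU_repr_genU ht, chartActU_basis]

theorem chartActU_chartGen (g : Fin (D.r + D.r)) :
    D.chartActU ht hT (D.genU t (D.chartGen g)) = T g := by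
  refine Fin.addCases (fun i => ?_) (fun i => ?_) g
  · refine (congrArg (D.chartActU ht hT) ?_).trans (D.chartActU_basis ht hT i)
    rw [chartBasisU_apply, chartGen, Fin.append_left]
    rfl
  · rw [chartGen, Fin.append_right, chartActU_genU]
    exact ((D.IsFramed_mul hT).2.2 i).symm

/-- At the marked point the action is diagonal with the values of the functions. -/
theorem eval_chartActU_genU (a : Γ(C, D.U)) (i j : Fin D.r) :
    (D.chartActU ht hT (D.genU t a) i j).eval (algebraMap k R D.c₀) =
      if i = j then algebraMap k R (D.evalPt i a) else 0 := by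
  have hv : ∀ l, (T (Fin.castAdd D.r l) i j).eval (algebraMap k R D.c₀) =
      if i = j then algebraMap k R (D.evalPt i (D.wU l)) else 0 := fun l => by
    refine (hT.value _ i j).trans ?_
    show (if i = j then algebraMap k R (D.evalPt i (D.chartGen (Fin.castAdd D.r l))) else 0) = _
    rw [chartGen, Fin.append_left]
  rw [chartActU_genU, Matrix.sum_apply, eval_finsetSum]
  simp only [Matrix.smul_apply, smul_eq_mul, eval_mul, hv, eval_map_apply]
  split_ifs
  · conv_rhs => rw [← D.polyComb_coefU a, evalPt_polyComb, map_sum]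
    simp only [map_mul]
  · simp

/-- The action on the overlap. -/
def chartActW :
    Γ(pullback c t, D.WT t) →ₐ[LaurentPolynomial R]
      Matrix (Fin D.r) (Fin D.r) (LaurentPolynomial R) :=
  extendAlg (D.res_algebraMap_U t) (D.res_chartBasisU t) (D.chartActU ht hT)

omit [Algebra k R] ht in
theorem res_wVT (i : Fin D.r) :
    res (inf_le_right : D.WT t ≤ D.VT t) (D.chartBasisV t i) =
      (LaurentPolynomial.T (-(D.infExp i : ℤ)) : LaurentPolynomial R) •
        res (inf_le_left : D.WT t ≤ D.UT t) (D.genU t (D.infGen i)) := by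
  have h1 := congrArg ((pullback.fst c t).app (D.U ⊓ D.V)).hom (D.res_infGen i)
  rw [map_mul, map_pow, ← app_res, ← app_res, ← app_res] at h1
  rw [chartBasisV_apply, Algebra.smul_def]
  show _ = D.evalW t _ * _
  rw [evalW, LaurentPolynomial.eval₂_T_neg_n, inv_inv, mul_comm]
  exact h1.symm

theorem natDegree_chartActU_infGen (i : Fin D.r) (p q : Fin D.r) :
    (D.chartActU ht hT (D.genU t (D.infGen i)) p q).natDegree ≤ D.infExp i := by
  have h := hT.degree (Fin.natAdd D.r i) p q
  rw [← D.chartActU_chartGen ht hT (Fin.natAdd D.r i)] at h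
  rw [chartGen, Fin.append_right] at h
  exact h.trans_eq (by simp only [chartSpec, chartDeg, Fin.append_right])

/-- The action on the chart at infinity. -/
def chartActV : Γ(pullback c t, D.VT t) →ₐ[R[X]] Matrix (Fin D.r) (Fin D.r) R[X] :=
  infinityAlg (D.res_algebraMap_V t) (D.chartBasisV t) (D.chartActU ht hT) (D.chartActW ht hT)
    (extendAlg_apply (D.res_algebraMap_U t) (D.res_chartBasisU t) (D.chartActU ht hT))
    (fun i => D.genU t (D.infGen i)) D.infExp D.res_wVT (D.natDegree_chartActU_infGen ht hT)

theorem chartActV_basis (i : Fin D.r) :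
    D.chartActV ht hT (D.chartBasisV t i) =
      (T (Fin.natAdd D.r i)).map (Polynomial.reflect (D.infExp i)) := by
  refine (infinityAlg_basis _ _ _ _ _ _ _ _ _ i).trans ?_
  rw [← D.chartActU_chartGen ht hT (Fin.natAdd D.r i), chartGen, Fin.append_right]

theorem chartActW_res_V (x : Γ(pullback c t, D.VT t)) :
    D.chartActW ht hT (res (inf_le_right : D.WT t ≤ D.VT t) x) =
      (inY R).mapMatrix (D.chartActV ht hT x) :=
  map_infinityAlg _ _ _ _ _ _ _ _ _ x

end Actions

section Frames

variable [IsAlgClosed k] [IsIntegral C] [IsProper c] [SmoothOfRelativeDimension 1 c]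
  {t} (ht : coeffHom t = algebraMap k R)
  {T : Fin (D.r + D.r) → Matrix (Fin D.r) (Fin D.r) R[X]} (hT : D.chartSpec.IsFramed T)

include ht hT

omit [IsProper c] in
theorem nonempty_frameU :
    Nonempty (RankOneFrame Γ(pullback c t, D.UT t) (MatMod (D.chartActU ht hT))) := by
  refine nonempty_frame_of_fibres (k := k) (D.chartBasisU t) _ fun K _ _ _ f lam => ?_
  have : NeZero D.r := NeZero.of_pos D.r_pos
  have : IsDedekindDomain Γ(pullback c (Spec.map (CommRingCat.ofHom (algebraMap k K))),
      D.UT (Spec.map (CommRingCat.ofHom (algebraMap k K)))) :=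
    (D.isDedekindDomain_fibre_U (Spec.map (CommRingCat.ofHom (algebraMap k K)))).1
  obtain ⟨v, hv⟩ := exists_genDet_eval_ne_zero
    (D.chartBasisU (Spec.map (CommRingCat.ofHom (algebraMap k K))))
    (D.chartActU coeffHom_specMap (hT.mapTuple f)) lam
  refine ⟨v, ?_⟩
  simp only [chartActU_basis] at hv ⊢
  exact hv

theorem nonempty_frameV :
    Nonempty (RankOneFrame Γ(pullback c t, D.VT t) (MatMod (D.chartActV ht hT))) := by
  refine nonempty_frame_of_fibres (k := k) (D.chartBasisV t) _ fun K _ _ _ f lam => ?_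
  have : NeZero D.r := NeZero.of_pos D.r_pos
  have : IsDedekindDomain Γ(pullback c (Spec.map (CommRingCat.ofHom (algebraMap k K))),
      D.VT (Spec.map (CommRingCat.ofHom (algebraMap k K)))) :=
    (D.isDedekindDomain_fibre_V (Spec.map (CommRingCat.ofHom (algebraMap k K)))).1
  obtain ⟨v, hv⟩ := exists_genDet_eval_ne_zero
    (D.chartBasisV (Spec.map (CommRingCat.ofHom (algebraMap k K))))
    (D.chartActV coeffHom_specMap (hT.mapTuple f)) lam
  refine ⟨v, ?_⟩
  simp only [chartActV_basis] at hv ⊢
  have e : ∀ i, (Polynomial.mapRingHom (f : R →+* K)).mapMatrix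
      ((T (Fin.natAdd D.r i)).map (Polynomial.reflect (D.infExp i))) =
        (ChartSpec.mapTuple f T (Fin.natAdd D.r i)).map (Polynomial.reflect (D.infExp i)) :=
    fun i => Matrix.ext fun p q => map_reflect (f : R →+* K) _ _
  simp only [e]
  exact hv

/-- **Every framed tuple is the tuple of a frame.** -/
theorem exists_frame_of_isFramed :
    ∃ (N : Cocycle (pullback c t)) (F : D.Frame t N), ∀ g, F.mat (D.chartGen g) = T g := by
  obtain ⟨FA⟩ := D.nonempty_frameU ht hT
  obtain ⟨FB⟩ := D.nonempty_frameV ht hT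
  let hαW := extendAlg_apply (D.res_algebraMap_U t) (D.res_chartBasisU t) (D.chartActU ht hT)
  let E := glueFrames (D.res_algebraMap_U t) (D.res_algebraMap_V t) (D.res_chartBasisU t)
    (D.res_chartBasisV t) hαW (D.chartActW_res_V ht hT) FA FB
  let FU := E.frameU FA.isRankOneIdem FB.isRankOneIdem (D.UT_sup_VT t)
  let FV := E.frameV FA.isRankOneIdem FB.isRankOneIdem (D.UT_sup_VT t)
  let N := E.cocycle FA.isRankOneIdem FB.isRankOneIdem (D.UT_sup_VT t)
  let ΦU : MatMod (D.chartActU ht hT) ≃ₗ[Γ(pullback c t, D.UT t)] N.Sec (D.UT t) :=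
    FA.matchEquiv FU.σ (fun i => N.pairL (FU.τ i)) FU.sum_smul fun i j =>
      congrFun (congrFun (GluedIdem.mat_frameU E FA.isRankOneIdem FB.isRankOneIdem
        (D.UT_sup_VT t)) i) j
  let ΦV : MatMod (D.chartActV ht hT) ≃ₗ[Γ(pullback c t, D.VT t)] N.Sec (D.VT t) :=
    FB.matchEquiv FV.σ (fun i => N.pairL (FV.τ i)) FV.sum_smul fun i j =>
      congrFun (congrFun (GluedIdem.mat_frameV E FA.isRankOneIdem FB.isRankOneIdem
        (D.UT_sup_VT t)) i) j
  have hover : ∀ j, N.resSec (inf_le_left : D.WT t ≤ D.UT t) (ΦU (MatMod.stdBasis _ j)) =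
      N.resSec (inf_le_right : D.WT t ≤ D.VT t) (ΦV (MatMod.stdBasis _ j)) := by
    intro j
    have hG := (glueFrames_G_coords (D.res_algebraMap_U t) (D.res_algebraMap_V t)
      (D.res_chartBasisU t) (D.res_chartBasisV t) hαW (D.chartActW_res_V ht hT) FA FB
      (MatMod.stdBasis _ j) (MatMod.stdBasis _ j)).mpr (by
        rw [MatMod.vec_stdBasis, MatMod.vec_stdBasis]
        funext i
        simp [Pi.single_apply, apply_ite (inX R), apply_ite (inY R)])
    have hU : ΦU (MatMod.stdBasis _ j) = ∑ i, FA.coords (MatMod.stdBasis _ j) i • FU.σ i := by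
      exact RankOneFrame.matchEquiv_apply _ _ _ _ _ _
    have hV : ΦV (MatMod.stdBasis _ j) = ∑ i, FB.coords (MatMod.stdBasis _ j) i • FV.σ i := by
      exact RankOneFrame.matchEquiv_apply _ _ _ _ _ _
    rw [hU, hV, map_sum, map_sum]
    refine ((FV.restrict (inf_le_right : D.WT t ≤ D.VT t)).sum_smul _).symm.trans ?_
    refine Finset.sum_congr rfl fun l _ => ?_
    rw [N.resSec_smul]
    refine congrArg (· • N.resSec (inf_le_right : D.WT t ≤ D.VT t) (FV.σ l)) ?_
    refine Eq.trans ?_ (congrFun hG l)
    refine (map_sum (N.pairL _) _ _).trans ?_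
    simp only [Matrix.mulVec, dotProduct]
    refine Finset.sum_congr rfl fun i _ => ?_
    rw [N.resSec_smul, map_smul, smul_eq_mul, mul_comm]
    refine congrArg (· * _) ?_
    exact congrFun (congrFun
      (GluedIdem.trans_frameU_frameV E FA.isRankOneIdem FB.isRankOneIdem (D.UT_sup_VT t)) l) i
  choose v hvU hvV using fun j => N.exists_glueSec (le_top : D.UT t ≤ ⊤) (le_top : D.VT t ≤ ⊤)
    (D.UT_sup_VT t).ge (ΦU (MatMod.stdBasis _ j)) (ΦV (MatMod.stdBasis _ j)) (hover j)
  have hcombU : ∀ p : Fin D.r → R[X],
      ∑ i, D.evalU t (p i) • N.resSec (le_top : D.UT t ≤ ⊤) (v i) =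
        ΦU ((MatMod.vec (D.chartActU ht hT)).symm p) := fun p => by
    rw [← MatMod.sum_vec_smul _ ((MatMod.vec (D.chartActU ht hT)).symm p), map_sum]
    refine Finset.sum_congr rfl fun i _ => ?_
    rw [LinearEquiv.apply_symm_apply, hvU,
      ← algebraMap_smul Γ(pullback c t, D.UT t) (p i), map_smul]
    rfl
  have hcombV : ∀ p : Fin D.r → R[X],
      ∑ i, D.evalV t (p i) • N.resSec (le_top : D.VT t ≤ ⊤) (v i) =
        ΦV ((MatMod.vec (D.chartActV ht hT)).symm p) := fun p => by
    rw [← MatMod.sum_vec_smul _ ((MatMod.vec (D.chartActV ht hT)).symm p), map_sum]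
    refine Finset.sum_congr rfl fun i _ => ?_
    rw [LinearEquiv.apply_symm_apply, hvV,
      ← algebraMap_smul Γ(pullback c t, D.VT t) (p i), map_smul]
    rfl
  let F : D.Frame t N :=
    { v := v
      basisU := by
        simp only [hcombU]
        exact ΦU.bijective.comp (MatMod.vec _).symm.bijective
      basisV := by
        simp only [hcombV]
        exact ΦV.bijective.comp (MatMod.vec _).symm.bijective
      diag := fun a j => by
        let m : Fin D.r → R[X] := fun i => D.chartActU ht hT (D.genU t a) i j -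
          Polynomial.C (algebraMap k R (D.evalPt j a)) * (Pi.single j (1 : R[X]) : Fin D.r → R[X]) i
        refine ⟨ΦU ((MatMod.vec _).symm fun i =>
          m i /ₘ (X - Polynomial.C (algebraMap k R D.c₀))), ?_⟩
        rw [hvU, ← ΦU.map_smul, ← ΦU.map_smul]
        refine congrArg ΦU ((MatMod.vec _).injective ?_)
        have hs : ∀ b, D.genU t (scalarHom c D.U b) =
            algebraMap R[X] Γ(pullback c t, D.UT t) (Polynomial.C (algebraMap k R b)) := fun b => by
          rw [D.genU_scalarHom, ht, ← D.evalU_C]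
          rfl
        rw [sub_smul, sub_smul, hs, hs, algebraMap_smul, algebraMap_smul,
          show D.xT t = algebraMap R[X] Γ(pullback c t, D.UT t) X from (D.evalU_X t).symm,
          algebraMap_smul, map_sub, map_sub, LinearEquiv.map_smul, LinearEquiv.map_smul,
          LinearEquiv.map_smul, MatMod.vec_smul, MatMod.vec_stdBasis, LinearEquiv.apply_symm_apply]
        funext i
        have hroot : (m i).IsRoot (algebraMap k R D.c₀) := by
          simp only [IsRoot, m, eval_sub, eval_mul, eval_C, D.eval_chartActU_genU ht hT,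
            Pi.single_apply]
          split_ifs with h <;> simp [h]
        have hm := mul_divByMonic_eq_iff_isRoot.mpr hroot
        rw [sub_mul] at hm
        simp only [Pi.sub_apply, Pi.smul_apply, smul_eq_mul, Matrix.mulVec_single_one,
          Matrix.col_apply]
        exact hm.symm }
  refine ⟨N, F, fun g => Matrix.ext fun i j => ?_⟩
  have h : D.genU t (D.chartGen g) • F.vU j = F.combU (fun i => T g i j) := by
    show _ • N.resSec _ (v j) = ∑ i, D.evalU t (T g i j) • N.resSec _ (v i)
    rw [hvU, hcombU, ← map_smul]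
    refine congrArg ΦU ((MatMod.vec _).injective ?_)
    rw [MatMod.vec_smul, MatMod.vec_stdBasis, LinearEquiv.apply_symm_apply,
      D.chartActU_chartGen ht hT]
    funext i
    simp
  show F.coordsU _ i = _
  rw [h, F.coordsU_combU]

end Frames

end CurveCover

end FLTAgent.RelPicard
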