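import Mathlib

/-!
# Charts of tuples of commuting polynomial matrices

Tuples of commuting matrices over `R[X]` subject to relations, degree bounds, a prescribed diagonal
value at a point and a normalisation along a spanning tree, as the points of a finitely presented
algebra; conjugation by diagonal matrices acts freely and transitively on the normalisations.

Main declarations: `ChartSpec`, `TreeData`, `IsFramed`, `ChartRing`, `chartEquiv`.
-/

set_option autoImplicit false

universe u v w

open Polynomial Matrix

noncomputable section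

namespace FLTAgent.RelPicard

/-- The data of a framed matrix chart: relations between the generators, degree bounds, the marked
point and the values of the generators on the marked fibre. -/
structure ChartSpec (k : Type u) [CommRing k] (r l : ℕ) where
  rel : Finset (MvPolynomial (Fin l) k[X])
  N : Fin l → ℕ
  c₀ : k
  d : Fin l → Fin r → k

/-- A rooted spanning tree on `Fin r` whose edges carry a generator, a degree and an orientation. -/
structure TreeData (r l : ℕ) where
  root : Fin r
  parent : {j : Fin r // j ≠ root} → Fin r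
  rank : Fin r → ℕ
  rank_parent : ∀ j, rank (parent j) < rank j.1
  gen : {j : Fin r // j ≠ root} → Fin l
  deg : {j : Fin r // j ≠ root} → ℕ
  flip : {j : Fin r // j ≠ root} → Bool

namespace TreeData

variable {r l : ℕ} (t : TreeData r l)

/-- The row of the matrix entry attached to an edge. -/
def row (j : {j : Fin r // j ≠ t.root}) : Fin r := if t.flip j then t.parent j else j.1

/-- The column of the matrix entry attached to an edge. -/
def col (j : {j : Fin r // j ≠ t.root}) : Fin r := if t.flip j then j.1 else t.parent j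

/-- The bounded trees, which are finite in number. -/
def Bounded (N : Fin l → ℕ) : Prop := (∀ j, t.rank j < r) ∧ ∀ j, t.deg j ≤ N (t.gen j)

theorem finite_bounded (N : Fin l → ℕ) : Finite {t : TreeData r l // t.Bounded N} := by
  refine Finite.of_injective (β := Fin r × (Fin r → Fin r) ×
      (Fin r → Option (Fin r × Fin l × Fin (Finset.univ.sup N + 1) × Bool)))
    (fun t => (t.1.root, (fun j => ⟨t.1.rank j, t.2.1 j⟩),
      fun j => if h : j = t.1.root then none else
        some (t.1.parent ⟨j, h⟩, t.1.gen ⟨j, h⟩,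
          ⟨t.1.deg ⟨j, h⟩, Nat.lt_succ_of_le ((t.2.2 ⟨j, h⟩).trans
            (Finset.le_sup (f := N) (Finset.mem_univ _)))⟩, t.1.flip ⟨j, h⟩))) ?_
  rintro ⟨⟨root, parent, rank, hp, gen, deg, flip⟩, hb⟩
    ⟨⟨root', parent', rank', hp', gen', deg', flip'⟩, hb'⟩ h
  simp only [Prod.mk.injEq] at h
  obtain ⟨rfl, hr, he⟩ := h
  have hrank : rank = rank' := funext fun j => congrArg Fin.val (congrFun hr j)
  have hedge : ∀ j : {j : Fin r // j ≠ root}, parent j = parent' j ∧ gen j = gen' j ∧
      deg j = deg' j ∧ flip j = flip' j := fun j => by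
    have := congrFun he j.1
    simpa [dif_neg j.2] using this
  obtain rfl := hrank
  obtain rfl : parent = parent' := funext fun j => (hedge j).1
  obtain rfl : gen = gen' := funext fun j => (hedge j).2.1
  obtain rfl : deg = deg' := funext fun j => (hedge j).2.2.1
  obtain rfl : flip = flip' := funext fun j => (hedge j).2.2.2
  rfl

end TreeData

namespace ChartSpec

variable {k : Type u} [CommRing k] {r l : ℕ}
variable {R : Type v} [CommRing R] [Algebra k R] {S' : Type w} [CommRing S'] [Algebra k S']

/-- The value of a polynomial in the generators at a tuple of matrices. -/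
def evalTuple (T : Fin l → Matrix (Fin r) (Fin r) R[X]) (p : MvPolynomial (Fin l) k[X]) :
    Matrix (Fin r) (Fin r) R[X] :=
  ∑ m ∈ p.support, (p.coeff m).map (algebraMap k R) • (List.ofFn fun i => T i ^ m i).prod

/-- The tuple with coefficients pushed along a map of algebras. -/
def mapTuple (f : R →ₐ[k] S') (T : Fin l → Matrix (Fin r) (Fin r) R[X]) :
    Fin l → Matrix (Fin r) (Fin r) S'[X] :=
  fun i => (Polynomial.mapRingHom (f : R →+* S')).mapMatrix (T i)

theorem mapTuple_apply (f : R →ₐ[k] S') (T : Fin l → Matrix (Fin r) (Fin r) R[X]) (i : Fin l)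
    (a b : Fin r) : mapTuple f T i a b = (T i a b).map (f : R →+* S') := rfl

theorem evalTuple_mapTuple (f : R →ₐ[k] S') (T : Fin l → Matrix (Fin r) (Fin r) R[X])
    (p : MvPolynomial (Fin l) k[X]) :
    evalTuple (mapTuple f T) p =
      (Polynomial.mapRingHom (f : R →+* S')).mapMatrix (evalTuple T p) := by
  rw [evalTuple, evalTuple, map_sum]
  refine Finset.sum_congr rfl fun m _ => ?_
  rw [RingHom.mapMatrix_apply, Matrix.map_smul' _ _ _ (map_mul _), ← RingHom.mapMatrix_apply,
    map_list_prod, List.map_ofFn, coe_mapRingHom, Polynomial.map_map, f.comp_algebraMap]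
  refine congrArg _ (congrArg List.prod (congrArg List.ofFn (funext fun i => ?_)))
  simp [mapTuple, map_pow]

theorem evalTuple_eq (T : Fin l → Matrix (Fin r) (Fin r) R[X])
    (φ : MvPolynomial (Fin l) k[X] →+* Matrix (Fin r) (Fin r) R[X])
    (hC : ∀ a, φ (MvPolynomial.C a) = algebraMap R[X] _ (a.map (algebraMap k R)))
    (hX : ∀ i, φ (MvPolynomial.X i) = T i) (p : MvPolynomial (Fin l) k[X]) :
    evalTuple T p = φ p := by
  conv_rhs => rw [p.as_sum, map_sum]
  refine Finset.sum_congr rfl fun m _ => ?_
  rw [MvPolynomial.monomial_eq, map_mul, hC, Algebra.smul_def,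
    Finsupp.prod_fintype _ _ (fun i => pow_zero _), ← List.prod_ofFn, map_list_prod,
    List.map_ofFn]
  simp only [Function.comp_def, map_pow, hX]

open scoped IsMulCommutative in
theorem exists_tupleHom (T : Fin l → Matrix (Fin r) (Fin r) R[X])
    (hc : ∀ i j, Commute (T i) (T j)) :
    ∃ φ : MvPolynomial (Fin l) k[X] →+* Matrix (Fin r) (Fin r) R[X],
      (∀ a, φ (MvPolynomial.C a) = algebraMap R[X] _ (a.map (algebraMap k R))) ∧
        (∀ i, φ (MvPolynomial.X i) = T i) ∧ ∀ p, φ p = evalTuple T p := by
  let A := Algebra.adjoin R[X] (Set.range T)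
  have : IsMulCommutative A := Algebra.isMulCommutative_adjoin R[X] (by
    rintro _ ⟨i, rfl⟩ _ ⟨j, rfl⟩
    exact hc i j)
  let φ : MvPolynomial (Fin l) k[X] →+* Matrix (Fin r) (Fin r) R[X] :=
    (A.val : A →+* Matrix (Fin r) (Fin r) R[X]).comp
      (MvPolynomial.eval₂Hom ((algebraMap R[X] A).comp (Polynomial.mapRingHom (algebraMap k R)))
        fun i => (⟨T i, Algebra.subset_adjoin ⟨i, rfl⟩⟩ : A))
  have hC : ∀ a, φ (MvPolynomial.C a) = algebraMap R[X] _ (a.map (algebraMap k R)) := fun a => by
    simp only [φ, RingHom.comp_apply, MvPolynomial.eval₂Hom_C]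
    rfl
  have hX : ∀ i, φ (MvPolynomial.X i) = T i := fun i => by
    simp only [φ, RingHom.comp_apply, MvPolynomial.eval₂Hom_X']
    rfl
  exact ⟨φ, hC, hX, fun p => (evalTuple_eq T φ hC hX p).symm⟩

/-- Conjugation by a diagonal matrix of units. -/
def conjHom (e : Fin r → Rˣ) : Matrix (Fin r) (Fin r) R[X] →+* Matrix (Fin r) (Fin r) R[X] where
  toFun A := Matrix.of fun a b => C ((e a * (e b)⁻¹ : Rˣ) : R) * A a b
  map_one' := by
    refine Matrix.ext fun a b => ?_
    by_cases h : a = b
    · subst h
      rw [Matrix.of_apply, mul_inv_cancel, Units.val_one, map_one, one_mul]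
    · simp [h]
  map_mul' A B := by
    refine Matrix.ext fun a b => ?_
    simp only [Matrix.of_apply, Matrix.mul_apply, Finset.mul_sum]
    refine Finset.sum_congr rfl fun c _ => ?_
    have : e a * (e b)⁻¹ = (e a * (e c)⁻¹) * (e c * (e b)⁻¹) := by group
    rw [this, Units.val_mul, map_mul]
    ring
  map_zero' := by refine Matrix.ext fun a b => ?_; simp
  map_add' A B := by refine Matrix.ext fun a b => ?_; simp [mul_add]

theorem conjHom_apply (e : Fin r → Rˣ) (A : Matrix (Fin r) (Fin r) R[X]) (a b : Fin r) :
    conjHom e A a b = C ((e a * (e b)⁻¹ : Rˣ) : R) * A a b := rfl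

theorem conjHom_eq_self (e : Fin r → Rˣ) (he : ∀ a b, e a = e b)
    (A : Matrix (Fin r) (Fin r) R[X]) : conjHom e A = A := by
  refine Matrix.ext fun a b => ?_
  rw [conjHom_apply, he a b, mul_inv_cancel, Units.val_one, map_one, one_mul]

theorem conjHom_eq_iff (e : Fin r → Rˣ) (A B : Matrix (Fin r) (Fin r) R[X]) :
    conjHom e A = B ↔
      diagonal (fun a => C (e a : R)) * A = B * diagonal (fun a => C (e a : R)) := by
  constructor
  · rintro rfl
    refine Matrix.ext fun a b => ?_
    simp only [diagonal_mul, mul_diagonal, conjHom_apply]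
    rw [show C ((e a * (e b)⁻¹ : Rˣ) : R) * A a b * C (e b : R) =
      C ((e a * (e b)⁻¹ : Rˣ) : R) * C (e b : R) * A a b by ring, ← map_mul, ← Units.val_mul,
      inv_mul_cancel_right]
  · intro h
    refine Matrix.ext fun a b => ?_
    have hab := congrFun (congrFun h a) b
    simp only [diagonal_mul, mul_diagonal] at hab
    rw [conjHom_apply, Units.val_mul, map_mul, mul_right_comm, hab, mul_assoc, ← map_mul,
      ← Units.val_mul, mul_inv_cancel, Units.val_one, map_one, mul_one]

variable (S : ChartSpec k r l) (t : TreeData r l)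

/-- A tuple of matrices with the prescribed relations, degrees and value at the marked point. -/
structure IsFramed (T : Fin l → Matrix (Fin r) (Fin r) R[X]) : Prop where
  commute : ∀ i j, Commute (T i) (T j)
  rel : ∀ p ∈ S.rel, evalTuple T p = 0
  degree : ∀ i a b, (T i a b).natDegree ≤ S.N i
  value : ∀ i a b, (T i a b).eval (algebraMap k R S.c₀) =
    if a = b then algebraMap k R (S.d i a) else 0

/-- The coefficient attached to an edge of the tree. -/
def treeCoeff (T : Fin l → Matrix (Fin r) (Fin r) R[X]) (j : {j : Fin r // j ≠ t.root}) : R :=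
  (T (t.gen j) (t.row j) (t.col j)).coeff (t.deg j)

/-- The tree coefficients are equal to one. -/
def IsNormalised (T : Fin l → Matrix (Fin r) (Fin r) R[X]) : Prop := ∀ j, treeCoeff t T j = 1

variable {S t}

theorem IsFramed.mapTuple {T : Fin l → Matrix (Fin r) (Fin r) R[X]} (h : S.IsFramed T)
    (f : R →ₐ[k] S') : S.IsFramed (mapTuple f T) where
  commute i j := (h.commute i j).map _
  rel p hp := by rw [evalTuple_mapTuple, h.rel p hp, map_zero]
  degree i a b := by
    rw [mapTuple_apply]
    exact natDegree_map_le.trans (h.degree i a b)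
  value i a b := by
    have : algebraMap k S' S.c₀ = (f : R →+* S') (algebraMap k R S.c₀) := (f.commutes _).symm
    rw [mapTuple_apply, this, eval_map_apply, h.value]
    split_ifs <;> simp

theorem treeCoeff_mapTuple (f : R →ₐ[k] S') (T : Fin l → Matrix (Fin r) (Fin r) R[X])
    (j : {j : Fin r // j ≠ t.root}) : treeCoeff t (mapTuple f T) j = f (treeCoeff t T j) := by
  simp [treeCoeff, mapTuple_apply]

theorem IsNormalised.mapTuple {T : Fin l → Matrix (Fin r) (Fin r) R[X]} (h : IsNormalised t T)
    (f : R →ₐ[k] S') : IsNormalised t (mapTuple f T) := fun j => by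
  rw [treeCoeff_mapTuple, h j, map_one]

theorem treeCoeff_conjHom (e : Fin r → Rˣ) (T : Fin l → Matrix (Fin r) (Fin r) R[X])
    (j : {j : Fin r // j ≠ t.root}) :
    treeCoeff t (fun i => conjHom e (T i)) j =
      ((e (t.row j) * (e (t.col j))⁻¹ : Rˣ) : R) * treeCoeff t T j := by
  simp only [treeCoeff, conjHom_apply, coeff_C_mul]

/-- A diagonal conjugation preserving normalisation is by a scalar. -/
theorem IsNormalised.eq_root {T : Fin l → Matrix (Fin r) (Fin r) R[X]} (h : IsNormalised t T)
    {e : Fin r → Rˣ} (h' : IsNormalised t fun i => conjHom e (T i)) (a : Fin r) :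
    e a = e t.root := by
  induction hn : t.rank a using Nat.strong_induction_on generalizing a with
  | _ n ih =>
    by_cases ha : a = t.root
    · rw [ha]
    · have h1 := h' ⟨a, ha⟩
      rw [treeCoeff_conjHom, h ⟨a, ha⟩, mul_one, Units.val_eq_one, mul_inv_eq_one] at h1
      have h2 : e a = e (t.parent ⟨a, ha⟩) := by
        unfold TreeData.row TreeData.col at h1
        split_ifs at h1
        · exact h1.symm
        · exact h1
      rw [h2]
      exact ih _ (hn ▸ t.rank_parent ⟨a, ha⟩) _ rfl

theorem IsNormalised.conj_eq {T : Fin l → Matrix (Fin r) (Fin r) R[X]} (h : IsNormalised t T)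
    {e : Fin r → Rˣ} (h' : IsNormalised t fun i => conjHom e (T i)) :
    (∀ a, e a = e t.root) ∧ (fun i => conjHom e (T i)) = T :=
  ⟨h.eq_root h', funext fun i =>
    conjHom_eq_self e (fun a b => (h.eq_root h' a).trans (h.eq_root h' b).symm) (T i)⟩

/-- Every tuple whose tree coefficients are units is conjugate to a normalised one. -/
theorem exists_conj_isNormalised (T : Fin l → Matrix (Fin r) (Fin r) R[X])
    (h : ∀ j, IsUnit (treeCoeff t T j)) :
    ∃ e : Fin r → Rˣ, IsNormalised t fun i => conjHom e (T i) := by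
  let step : ∀ a : Fin r, (∀ b, t.rank b < t.rank a → Rˣ) → Rˣ := fun a rec =>
    if ha : a = t.root then 1 else
      if t.flip ⟨a, ha⟩ then rec _ (t.rank_parent ⟨a, ha⟩) * (h ⟨a, ha⟩).unit
      else rec _ (t.rank_parent ⟨a, ha⟩) * (h ⟨a, ha⟩).unit⁻¹
  let e : Fin r → Rˣ := (InvImage.wf t.rank Nat.lt_wfRel.wf).fix step
  have he : ∀ a, e a = step a fun b _ => e b :=
    fun a => WellFounded.fix_eq (InvImage.wf t.rank Nat.lt_wfRel.wf) step a
  refine ⟨e, fun j => ?_⟩
  have hj := he j.1
  simp only [step, dif_neg j.2] at hj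
  rw [treeCoeff_conjHom, ← (h j).unit_spec, ← Units.val_mul, Units.val_eq_one]
  unfold TreeData.row TreeData.col
  cases hf : t.flip j <;>
    simp only [hf, Bool.false_eq_true, if_false, if_true] at hj ⊢ <;> rw [hj] <;>
    simp [mul_comm, mul_left_comm]

omit [Algebra k R] in
/-- A tuple that preserves no coordinate splitting has a spanning tree of nonzero coefficients. -/
theorem exists_treeData (root : Fin r) {T : Fin l → Matrix (Fin r) (Fin r) R[X]}
    (hdeg : ∀ i a b, (T i a b).natDegree ≤ S.N i)
    (hconn : ∀ s : Finset (Fin r), s.Nonempty → s ≠ Finset.univ →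
      ∃ i, ∃ a ∈ s, ∃ b ∉ s, T i a b ≠ 0 ∨ T i b a ≠ 0) :
    ∃ t : TreeData r l, t.Bounded S.N ∧ ∀ j, treeCoeff t T j ≠ 0 := by
  classical
  have key : ∀ m, m < r → ∃ s : Finset (Fin r), root ∈ s ∧ s.card = m + 1 ∧ ∃ rk : Fin r → ℕ,
      (∀ j ∈ s, rk j < s.card) ∧ ∀ j ∈ s, j ≠ root → ∃ p ∈ s, rk p < rk j ∧ ∃ i,
        T i j p ≠ 0 ∨ T i p j ≠ 0 := by
    intro m
    induction m with
    | zero =>
      intro _
      exact ⟨{root}, by simp, by simp, fun _ => 0, by simp, by simp⟩
    | succ m ih =>
      intro hm
      obtain ⟨s, hroot, hcard, rk, hrk, hs⟩ := ih (by omega)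
      have hne : s ≠ Finset.univ := fun hc => by
        rw [hc, Finset.card_univ, Fintype.card_fin] at hcard; omega
      obtain ⟨i, a, ha, b, hb, hab⟩ := hconn s ⟨root, hroot⟩ hne
      refine ⟨insert b s, by simp [hroot], by simp [hb, hcard], Function.update rk b s.card,
        fun j hj => ?_, fun j hj hjr => ?_⟩
      · rw [Finset.card_insert_of_notMem hb]
        rcases Finset.mem_insert.mp hj with rfl | hj
        · simp
        · rw [Function.update_of_ne (fun (e : j = b) => hb (e ▸ hj))]
          exact Nat.lt_succ_of_lt (hrk j hj)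
      · have hupd : ∀ p ∈ s, Function.update rk b s.card p = rk p := fun p hp =>
          Function.update_of_ne (fun (e : p = b) => hb (e ▸ hp)) _ _
        rcases Finset.mem_insert.mp hj with rfl | hj
        · refine ⟨a, Finset.mem_insert_of_mem ha, ?_, i, hab.symm⟩
          rw [hupd a ha, Function.update_self]
          exact hrk a ha
        · obtain ⟨p, hp, hlt, hex⟩ := hs j hj hjr
          exact ⟨p, Finset.mem_insert_of_mem hp, by rw [hupd p hp, hupd j hj]; exact hlt, hex⟩
  have hr : r - 1 < r := by have := root.isLt; omega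
  obtain ⟨s, -, hcard, rk, hrk, hs⟩ := key (r - 1) hr
  have huniv : s = Finset.univ := Finset.eq_univ_of_card s (by rw [Fintype.card_fin]; omega)
  subst huniv
  have hx : ∀ j : {j : Fin r // j ≠ root}, ∃ x : Fin r × Fin l × ℕ × Bool,
      rk x.1 < rk j.1 ∧ x.2.2.1 ≤ S.N x.2.1 ∧
        (T x.2.1 (if x.2.2.2 then x.1 else j.1) (if x.2.2.2 then j.1 else x.1)).coeff
          x.2.2.1 ≠ 0 := by
    intro j
    obtain ⟨p, -, hlt, i, hi⟩ := hs j.1 (Finset.mem_univ _) j.2
    rcases hi with hi | hi
    · exact ⟨(p, i, _, false), hlt, hdeg i j.1 p,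
        Polynomial.leadingCoeff_ne_zero.mpr hi⟩
    · exact ⟨(p, i, _, true), hlt, hdeg i p j.1,
        Polynomial.leadingCoeff_ne_zero.mpr hi⟩
  choose x hx1 hx2 hx3 using hx
  refine ⟨⟨root, fun j => (x j).1, rk, hx1, fun j => (x j).2.1, fun j => (x j).2.2.1,
    fun j => (x j).2.2.2⟩, ⟨fun j => ?_, hx2⟩, fun j => hx3 j⟩
  have := hrk j (Finset.mem_univ _)
  rwa [Finset.card_univ, Fintype.card_fin] at this

variable (S t)

/-- The indices of the coefficient variables. -/
abbrev ChartVar : Type := Σ i : Fin l, Fin r × Fin r × Fin (S.N i + 1)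

/-- The tuple with variable coefficients. -/
def genericTuple : Fin l → Matrix (Fin r) (Fin r) (MvPolynomial S.ChartVar k)[X] :=
  fun i => Matrix.of fun a b =>
    ∑ n : Fin (S.N i + 1), monomial (n : ℕ) (MvPolynomial.X ⟨i, a, b, n⟩)

/-- The coefficients of the entries of a matrix of polynomials. -/
def coeffSet {A : Type v} [CommRing A] (M : Matrix (Fin r) (Fin r) A[X]) : Set A :=
  ⋃ (a : Fin r) (b : Fin r), Set.range (M a b).coeff

theorem finite_coeffSet {A : Type v} [CommRing A] (M : Matrix (Fin r) (Fin r) A[X]) :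
    (coeffSet M).Finite := by
  classical
  refine Set.finite_iUnion fun a => Set.finite_iUnion fun b => ?_
  refine ((M a b).support.image (M a b).coeff ∪ {0}).finite_toSet.subset ?_
  rintro _ ⟨n, rfl⟩
  by_cases hn : n ∈ (M a b).support
  · exact Finset.mem_coe.mpr (Finset.mem_union_left _ (Finset.mem_image_of_mem _ hn))
  · exact Finset.mem_coe.mpr (Finset.mem_union_right _
      (by simp [Polynomial.notMem_support_iff.mp hn]))

/-- The equations cutting out the chart. -/
def equations : Set (MvPolynomial S.ChartVar k) :=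
  ((⋃ (i : Fin l) (j : Fin l),
      coeffSet (S.genericTuple i * S.genericTuple j - S.genericTuple j * S.genericTuple i)) ∪
    ⋃ p ∈ S.rel, coeffSet (evalTuple S.genericTuple p)) ∪
  (Set.range (fun x : Fin l × Fin r × Fin r =>
      (S.genericTuple x.1 x.2.1 x.2.2).eval (MvPolynomial.C S.c₀) -
        if x.2.1 = x.2.2 then MvPolynomial.C (S.d x.1 x.2.1) else 0) ∪
    Set.range (fun j => treeCoeff t S.genericTuple j - 1))

theorem finite_equations : (S.equations t).Finite :=
  (((Set.finite_iUnion fun _ => Set.finite_iUnion fun _ => finite_coeffSet _)).union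
    (S.rel.finite_toSet.biUnion fun _ _ => finite_coeffSet _)).union
    ((Set.finite_range _).union (Set.finite_range _))

/-- The ideal of the chart. -/
def chartIdeal : Ideal (MvPolynomial S.ChartVar k) := Ideal.span (S.equations t)

/-- The coordinate algebra of the chart. -/
abbrev ChartRing : Type u := MvPolynomial S.ChartVar k ⧸ S.chartIdeal t

theorem chartIdeal_fg : (S.chartIdeal t).FG :=
  ⟨(S.finite_equations t).toFinset, by rw [Set.Finite.coe_toFinset, chartIdeal]⟩

instance chartRing_finitePresentation : Algebra.FinitePresentation k (S.ChartRing t) :=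
  Algebra.FinitePresentation.quotient (S.chartIdeal_fg t)

/-- The quotient map onto the chart algebra. -/
def chartMk : MvPolynomial S.ChartVar k →ₐ[k] S.ChartRing t := Ideal.Quotient.mkₐ k _

/-- The universal tuple on the chart. -/
def universalTuple : Fin l → Matrix (Fin r) (Fin r) (S.ChartRing t)[X] :=
  mapTuple (S.chartMk t) S.genericTuple

theorem coeff_genericTuple (i : Fin l) (a b : Fin r) (m : ℕ) :
    (S.genericTuple i a b).coeff m =
      if h : m < S.N i + 1 then MvPolynomial.X ⟨i, a, b, ⟨m, h⟩⟩ else 0 := by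
  simp only [genericTuple, Matrix.of_apply, finsetSum_coeff, coeff_monomial]
  split_ifs with h
  · rw [Finset.sum_eq_single (⟨m, h⟩ : Fin (S.N i + 1))]
    · simp
    · intro n _ hn
      rw [if_neg fun hc => hn (Fin.ext hc)]
    · simp
  · exact Finset.sum_eq_zero fun n _ => if_neg fun hc => h (by have := n.isLt; omega)

theorem natDegree_genericTuple (i : Fin l) (a b : Fin r) :
    (S.genericTuple i a b).natDegree ≤ S.N i :=
  natDegree_le_iff_coeff_eq_zero.mpr fun m hm => by
    rw [coeff_genericTuple, dif_neg (by omega)]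

theorem mapMatrix_eq_zero_iff (f : MvPolynomial S.ChartVar k →ₐ[k] R)
    (M : Matrix (Fin r) (Fin r) (MvPolynomial S.ChartVar k)[X]) :
    (Polynomial.mapRingHom (f : MvPolynomial S.ChartVar k →+* R)).mapMatrix M = 0 ↔
      ∀ e ∈ coeffSet M, f e = 0 := by
  simp only [coeffSet, Set.mem_iUnion, Set.mem_range, forall_exists_index]
  constructor
  · intro h e a b n he
    have := congrArg (fun p : R[X] => p.coeff n) (congrFun (congrFun h a) b)
    simpa [← he] using this
  · intro h
    ext a b n
    simpa using h _ a b n rfl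

/-- A specialisation of the variables satisfies the equations exactly when it gives a framed
normalised tuple. -/
theorem equations_iff (f : MvPolynomial S.ChartVar k →ₐ[k] R) :
    (∀ e ∈ S.equations t, f e = 0) ↔
      S.IsFramed (mapTuple f S.genericTuple) ∧ IsNormalised t (mapTuple f S.genericTuple) := by
  let F := (Polynomial.mapRingHom (f : MvPolynomial S.ChartVar k →+* R)).mapMatrix (m := Fin r)
  have hc : ∀ i j, F (S.genericTuple i * S.genericTuple j - S.genericTuple j * S.genericTuple i) =
      mapTuple f S.genericTuple i * mapTuple f S.genericTuple j -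
        mapTuple f S.genericTuple j * mapTuple f S.genericTuple i := fun i j => by
    simp only [F, map_sub, map_mul]; rfl
  have hv : ∀ i a b, f ((S.genericTuple i a b).eval (MvPolynomial.C S.c₀) -
        if a = b then MvPolynomial.C (S.d i a) else 0) =
      (mapTuple f S.genericTuple i a b).eval (algebraMap k R S.c₀) -
        if a = b then algebraMap k R (S.d i a) else 0 := fun i a b => by
    have h0 : algebraMap k R S.c₀ =
        (f : MvPolynomial S.ChartVar k →+* R) (MvPolynomial.C S.c₀) := (f.commutes _).symm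
    rw [map_sub, mapTuple_apply, h0, eval_map_apply]
    split_ifs
    · rw [← MvPolynomial.algebraMap_eq, f.commutes]; rfl
    · rw [map_zero]; rfl
  constructor
  · intro h
    refine ⟨⟨fun i j => sub_eq_zero.mp ?_, fun p hp => ?_, fun i a b => ?_,
      fun i a b => sub_eq_zero.mp ?_⟩, fun j => sub_eq_zero.mp ?_⟩
    · rw [← hc]
      exact (S.mapMatrix_eq_zero_iff f _).mpr fun e he =>
        h e (Or.inl (Or.inl (Set.mem_iUnion₂.mpr ⟨i, j, he⟩)))
    · rw [evalTuple_mapTuple]
      exact (S.mapMatrix_eq_zero_iff f _).mpr fun e he =>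
        h e (Or.inl (Or.inr (Set.mem_iUnion₂.mpr ⟨p, hp, he⟩)))
    · rw [mapTuple_apply]
      exact natDegree_map_le.trans (S.natDegree_genericTuple i a b)
    · rw [← hv]
      exact h _ (Or.inr (Or.inl ⟨(i, a, b), rfl⟩))
    · rw [treeCoeff_mapTuple]
      simpa using h _ (Or.inr (Or.inr ⟨j, rfl⟩))
  · rintro ⟨hF, hN⟩ e ((he | he) | (⟨x, rfl⟩ | ⟨j, rfl⟩))
    · obtain ⟨i, j, he⟩ := Set.mem_iUnion₂.mp he
      exact (S.mapMatrix_eq_zero_iff f _).mp
        ((hc i j).trans (sub_eq_zero.mpr (hF.commute i j))) e he
    · obtain ⟨p, hp, he⟩ := Set.mem_iUnion₂.mp he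
      exact (S.mapMatrix_eq_zero_iff f _).mp
        ((evalTuple_mapTuple f _ p).symm.trans (hF.rel p hp)) e he
    · rw [hv, hF.value, sub_self]
    · rw [map_sub, ← treeCoeff_mapTuple, hN j, map_one, sub_self]

theorem universalTuple_isFramed :
    S.IsFramed (S.universalTuple t) ∧ IsNormalised t (S.universalTuple t) :=
  (S.equations_iff t _).mp fun _ he =>
    Ideal.Quotient.eq_zero_iff_mem.mpr (Ideal.subset_span he)

/-- The points of the chart with values in an algebra. -/
def ChartPoint (R : Type v) [CommRing R] [Algebra k R] : Type v :=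
  {T : Fin l → Matrix (Fin r) (Fin r) R[X] // S.IsFramed T ∧ IsNormalised t T}

/-- Specialisation of the variables to the coefficients of a tuple. -/
def specialise (T : Fin l → Matrix (Fin r) (Fin r) R[X]) : MvPolynomial S.ChartVar k →ₐ[k] R :=
  MvPolynomial.aeval fun v => (T v.1 v.2.1 v.2.2.1).coeff v.2.2.2

theorem mapTuple_specialise (T : Fin l → Matrix (Fin r) (Fin r) R[X])
    (h : ∀ i a b, (T i a b).natDegree ≤ S.N i) :
    mapTuple (S.specialise T) S.genericTuple = T := by
  funext i
  ext a b n
  rw [mapTuple_apply, coeff_map, coeff_genericTuple]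
  split_ifs with hn
  · simp [specialise]
  · rw [map_zero, coeff_eq_zero_of_natDegree_lt]
    have := h i a b
    omega

/-- The chart algebra represents framed normalised tuples. -/
def chartEquiv : (S.ChartRing t →ₐ[k] R) ≃ S.ChartPoint t R where
  toFun φ := ⟨mapTuple φ (S.universalTuple t),
    (S.universalTuple_isFramed t).1.mapTuple φ, (S.universalTuple_isFramed t).2.mapTuple φ⟩
  invFun P := Ideal.Quotient.liftₐ (S.chartIdeal t) (S.specialise P.1) (fun e he => by
    have h := (S.equations_iff t (S.specialise P.1)).mpr (by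
      rw [S.mapTuple_specialise P.1 P.2.1.degree]; exact P.2)
    exact (Ideal.span_le.mpr fun e he => RingHom.mem_ker.mpr (h e he) :
      S.chartIdeal t ≤ RingHom.ker (S.specialise P.1)) he)
  left_inv φ := by
    refine Ideal.Quotient.algHom_ext k (MvPolynomial.algHom_ext fun v => ?_)
    obtain ⟨i, a, b, n⟩ := v
    simp only [AlgHom.comp_apply, Ideal.Quotient.mkₐ_eq_mk]
    rw [Ideal.Quotient.liftₐ_apply, Ideal.Quotient.lift_mk]
    simp [specialise, universalTuple, mapTuple_apply, coeff_genericTuple, chartMk,
      Nat.lt_succ_iff.mp n.isLt]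
  right_inv P := by
    refine Subtype.ext (Eq.trans ?_ (S.mapTuple_specialise P.1 P.2.1.degree))
    funext i
    ext a b n
    simp [universalTuple, mapTuple_apply, chartMk]

end ChartSpec

end FLTAgent.RelPicard
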