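import Fermat.Agent.RelPicard.ChartAlgebras
import Fermat.Agent.RelPicard.MatrixChart

/-!
# The matrix chart of a two-chart cover of a curve

The generators are the basis of the chart of `x` over the polynomials in `x`, with the structure
constants as relations, and the functions `x ^ e • w` for the basis `w` of the chart at infinity,
which bound the degrees so that the chart at infinity acts.

Main declarations: `chartSpec`, `isFramed_of_hom`, `isFramed_frame`.
-/

set_option autoImplicit false

universe u v

open CategoryTheory CategoryTheory.Limits AlgebraicGeometry TopologicalSpace NeronModelInfra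
open Polynomial

noncomputable section

namespace FLTAgent.RelPicard

namespace CurveCover

variable {k : Type u} [Field k] {C : Scheme.{u}} {c : C ⟶ Spec (CommRingCat.of k)}
  (D : CurveCover k c)

/-- The coordinates of a function on the chart of `x`. -/
def coefU : Γ(C, D.U) → Fin D.r → k[X] := (Equiv.ofBijective _ D.basisU).symm

theorem polyComb_coefU (a : Γ(C, D.U)) : polyComb c D.U D.x D.wU (D.coefU a) = a :=
  (Equiv.ofBijective _ D.basisU).apply_symm_apply a

theorem exists_pole (a : Γ(C, D.U)) : ∃ n : ℕ, ∃ b : Γ(C, D.V),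
    res (inf_le_left : D.U ⊓ D.V ≤ D.U) a * res inf_le_right D.y ^ n = res inf_le_right b := by
  obtain ⟨n, b, h⟩ := (overlap_localisation D.isAffineV D.y (inf_le_right : D.U ⊓ D.V ≤ D.V)
    D.basicOpen_y).1 (res inf_le_left a)
  exact ⟨n, b, by rw [mul_comm]; exact h⟩

theorem exists_infinityGen (i : Fin D.r) : ∃ e : ℕ, ∃ a : Γ(C, D.U),
    res (inf_le_left : D.U ⊓ D.V ≤ D.U) a * res inf_le_right D.y ^ e =
      res inf_le_right (D.wV i) := by
  obtain ⟨n, a, h⟩ := (overlap_localisation D.isAffineU D.x (inf_le_left : D.U ⊓ D.V ≤ D.U)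
    D.basicOpen_x).1 (res inf_le_right (D.wV i))
  refine ⟨n, a, ?_⟩
  rw [← h, mul_comm (res inf_le_left D.x ^ n), mul_assoc, ← mul_pow, D.x_mul_y, one_pow, mul_one]

/-- A power of `x` clearing the pole of a basis element of the chart at infinity. -/
def infExp (i : Fin D.r) : ℕ := (D.exists_infinityGen i).choose

/-- A basis element at infinity times a power of `x`. -/
def infGen (i : Fin D.r) : Γ(C, D.U) := (D.exists_infinityGen i).choose_spec.choose

theorem res_infGen (i : Fin D.r) :
    res (inf_le_left : D.U ⊓ D.V ≤ D.U) (D.infGen i) * res inf_le_right D.y ^ D.infExp i =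
      res inf_le_right (D.wV i) :=
  (D.exists_infinityGen i).choose_spec.choose_spec

/-- The generators of the chart. -/
def chartGen : Fin (D.r + D.r) → Γ(C, D.U) := Fin.append D.wU D.infGen

/-- The bounds on the degrees of the generators. -/
def chartDeg : Fin (D.r + D.r) → ℕ :=
  Fin.append (fun i => (D.exists_pole (D.wU i)).choose) D.infExp

theorem chartGen_bound (g : Fin (D.r + D.r)) : ∃ b : Γ(C, D.V),
    res (inf_le_left : D.U ⊓ D.V ≤ D.U) (D.chartGen g) * res inf_le_right D.y ^ D.chartDeg g =
      res inf_le_right b := by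
  refine Fin.addCases (fun i => ?_) (fun i => ?_) g
  · simpa [chartGen, chartDeg, Fin.append_left] using (D.exists_pole (D.wU i)).choose_spec
  · refine ⟨D.wV i, ?_⟩
    rw [chartGen, chartDeg, Fin.append_right, Fin.append_right]
    exact D.res_infGen i

theorem evalPt_x (j : Fin D.r) : D.evalPt j D.x = D.c₀ := by
  have h := (D.split_ker (D.x - scalarHom c D.U D.c₀)).mpr dvd_rfl j
  rw [map_sub, sub_eq_zero] at h
  conv_rhs => rw [← D.evalPt_scalarHom j D.c₀]
  exact congrArg (Scheme.ΓSpecIso (CommRingCat.of k)).hom.hom h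

theorem evalPt_polyComb (j : Fin D.r) (p : Fin D.r → k[X]) :
    D.evalPt j (polyComb c D.U D.x D.wU p) = ∑ i, (p i).eval D.c₀ * D.evalPt j (D.wU i) := by
  rw [polyComb, map_sum]
  refine Finset.sum_congr rfl fun i _ => ?_
  rw [map_mul, Polynomial.hom_eval₂, evalPt_x,
    show (D.evalPt j).comp (scalarHom c D.U) = RingHom.id k from RingHom.ext (D.evalPt_scalarHom j)]
  rfl

/-- The combination of the first generators with given coefficients. -/
def linGen (p : Fin D.r → k[X]) : MvPolynomial (Fin (D.r + D.r)) k[X] :=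
  ∑ l, MvPolynomial.C (p l) * MvPolynomial.X (Fin.castAdd D.r l)

/-- The relations between the generators. -/
def chartRel : Set (MvPolynomial (Fin (D.r + D.r)) k[X]) :=
  Set.range (fun ij : Fin D.r × Fin D.r =>
    MvPolynomial.X (Fin.castAdd D.r ij.1) * MvPolynomial.X (Fin.castAdd D.r ij.2) -
      D.linGen (D.coefU (D.wU ij.1 * D.wU ij.2))) ∪
  ({1 - D.linGen (D.coefU 1)} ∪
    Set.range (fun i : Fin D.r =>
      MvPolynomial.X (Fin.natAdd D.r i) - D.linGen (D.coefU (D.infGen i))))

theorem finite_chartRel : D.chartRel.Finite :=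
  (Set.finite_range _).union ((Set.finite_singleton _).union (Set.finite_range _))

/-- The chart attached to the cover. -/
def chartSpec : ChartSpec k D.r (D.r + D.r) where
  rel := D.finite_chartRel.toFinset
  N := D.chartDeg
  c₀ := D.c₀
  d g j := D.evalPt j (D.chartGen g)

/-- Evaluation of polynomials in the generators. -/
def genEval : MvPolynomial (Fin (D.r + D.r)) k[X] →+* Γ(C, D.U) :=
  MvPolynomial.eval₂Hom (Polynomial.eval₂RingHom (scalarHom c D.U) D.x) D.chartGen

theorem genEval_linGen (p : Fin D.r → k[X]) :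
    D.genEval (D.linGen p) = polyComb c D.U D.x D.wU p := by
  simp only [genEval, linGen, polyComb, map_sum, map_mul, MvPolynomial.eval₂Hom_C,
    MvPolynomial.eval₂Hom_X', chartGen, Fin.append_left, coe_eval₂RingHom]

theorem genEval_rel {p : MvPolynomial (Fin (D.r + D.r)) k[X]} (hp : p ∈ D.chartSpec.rel) :
    D.genEval p = 0 := by
  replace hp : p ∈ D.chartRel := (Set.Finite.mem_toFinset _).mp hp
  rcases hp with ⟨⟨i, j⟩, rfl⟩ | hp | ⟨i, rfl⟩
  · rw [map_sub, map_mul, genEval_linGen, polyComb_coefU]
    simp [genEval, chartGen, Fin.append_left]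
  · rw [Set.mem_singleton_iff.mp hp, map_sub, map_one, genEval_linGen, polyComb_coefU, sub_self]
  · rw [map_sub, genEval_linGen, polyComb_coefU, genEval, MvPolynomial.eval₂Hom_X', chartGen,
      Fin.append_right, sub_self]

/-- An action of the chart of `x` by matrices with bounded degrees and the diagonal value at the
marked point gives a framed tuple. -/
theorem isFramed_of_hom {R : Type v} [CommRing R] [Algebra k R]
    (act : Γ(C, D.U) →+* Matrix (Fin D.r) (Fin D.r) R[X])
    (hC : ∀ a, act (scalarHom c D.U a) = algebraMap R[X] _ (Polynomial.C (algebraMap k R a)))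
    (hx : act D.x = algebraMap R[X] _ X)
    (hdeg : ∀ g i j, (act (D.chartGen g) i j).natDegree ≤ D.chartDeg g)
    (hval : ∀ g i j, (act (D.chartGen g) i j).eval (algebraMap k R D.c₀) =
      if i = j then algebraMap k R (D.evalPt i (D.chartGen g)) else 0) :
    D.chartSpec.IsFramed fun g => act (D.chartGen g) where
  commute g g' := (Commute.all (D.chartGen g) (D.chartGen g')).map act
  rel p hp := by
    refine (ChartSpec.evalTuple_eq _ (act.comp D.genEval) (fun a => ?_) (fun g => ?_) p).trans ?_
    · have h : act.comp (Polynomial.eval₂RingHom (scalarHom c D.U) D.x) =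
          (algebraMap R[X] (Matrix (Fin D.r) (Fin D.r) R[X])).comp
            (Polynomial.mapRingHom (algebraMap k R)) := by
        refine Polynomial.ringHom_ext (fun a => ?_) ?_
        · simp [hC]
        · simp [hx]
      simpa [genEval] using RingHom.congr_fun h a
    · simp [genEval]
    · rw [RingHom.comp_apply, D.genEval_rel hp, map_zero]
  degree := hdeg
  value := hval

/-- The structure relations hold in every framed tuple. -/
theorem IsFramed_mul {R : Type v} [CommRing R] [Algebra k R]
    {T : Fin (D.r + D.r) → Matrix (Fin D.r) (Fin D.r) R[X]} (hT : D.chartSpec.IsFramed T) :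
    (∀ i j, T (Fin.castAdd D.r i) * T (Fin.castAdd D.r j) =
        ∑ l, (D.coefU (D.wU i * D.wU j) l).map (algebraMap k R) • T (Fin.castAdd D.r l)) ∧
      (∑ l, (D.coefU 1 l).map (algebraMap k R) • T (Fin.castAdd D.r l) = 1) ∧
      ∀ i, T (Fin.natAdd D.r i) =
        ∑ l, (D.coefU (D.infGen i) l).map (algebraMap k R) • T (Fin.castAdd D.r l) := by
  obtain ⟨φ, hC, hX, hφ⟩ := ChartSpec.exists_tupleHom (k := k) T hT.commute
  have hlin : ∀ p : Fin D.r → k[X], φ (D.linGen p) =
      ∑ l, (p l).map (algebraMap k R) • T (Fin.castAdd D.r l) := fun p => by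
    simp only [linGen, map_sum, map_mul, hC, hX, Algebra.smul_def]
  have hrel : ∀ p ∈ D.chartRel, φ p = 0 := fun p hp => by
    rw [hφ]; exact hT.rel p ((Set.Finite.mem_toFinset _).mpr hp)
  refine ⟨fun i j => ?_, ?_, fun i => ?_⟩
  · have h := hrel _ (Or.inl ⟨(i, j), rfl⟩)
    rwa [map_sub, map_mul, hX, hX, hlin, sub_eq_zero] at h
  · have h := hrel _ (Or.inr (Or.inl rfl))
    rw [map_sub, map_one, hlin, sub_eq_zero] at h
    exact h.symm
  · have h := hrel _ (Or.inr (Or.inr ⟨i, rfl⟩))
    rwa [map_sub, hX, hlin, sub_eq_zero] at h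

/-- The tuple of a frame is framed. -/
theorem isFramed_frame {R : Type u} [CommRing R] [Algebra k R]
    {t : Spec (CommRingCat.of R) ⟶ Spec (CommRingCat.of k)} (ht : coeffHom t = algebraMap k R)
    {L : Cocycle (pullback c t)} (F : D.Frame t L) :
    D.chartSpec.IsFramed fun g => F.mat (D.chartGen g) :=
  D.isFramed_of_hom F.matHom
    (fun a => (F.mat_scalarHom a).trans (by rw [ht, Matrix.algebraMap_eq_diagonal]; rfl))
    (F.mat_x.trans (by rw [Matrix.algebraMap_eq_diagonal]; rfl))
    (fun g i j => by
      obtain ⟨b, hb⟩ := D.chartGen_bound g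
      exact F.natDegree_mat_le hb i j)
    (fun g i j => by
      have h := congrFun (congrFun (F.mat_eval_c₀ (D.chartGen g)) i) j
      rw [Matrix.map_apply, Matrix.diagonal_apply, ht] at h
      exact h)

end CurveCover

end FLTAgent.RelPicard
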