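import Fermat.Agent.RelPicard.Frame
import Fermat.Agent.RelPicard.MatrixChart
import Fermat.Agent.RelPicard.SecEquiv

/-!
# Operations on frames

Frames move along equivalences of cocycles, can be rescaled, and force the vanishing of the
cohomology of the twist by the fibre at infinity; two frames of one bundle differ by a diagonal
matrix of units.

Main declarations: `transport`, `scale`, `diff_bijective`, `exists_mat_eq_conjHom`.
-/

set_option autoImplicit false

universe u

open CategoryTheory CategoryTheory.Limits AlgebraicGeometry TopologicalSpace NeronModelInfra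
  Polynomial

noncomputable section

namespace FLTAgent.RelPicard

namespace Cocycle

variable {X : Scheme.{u}}

/-- Sections over an affine open set generate. -/
theorem generates_of_isAffineOpen (c : Cocycle X) {U : X.Opens} (hU : IsAffineOpen U) :
    c.Generates U := by
  intro z hz
  obtain ⟨g, hg, hzg⟩ := hU.exists_basicOpen_le (V := c.nbhd z) ⟨z, c.mem z⟩ hz
  obtain ⟨N, s, hs⟩ := c.exists_extend hU g (c.frameOn z hg)
  refine ⟨s, X.basicOpen g, X.basicOpen_le g, hg, hzg, ?_⟩
  rw [← c.coord_resSec (X.basicOpen_le g) z le_rfl hg, hs, coord_smul, res_self]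
  exact ((X.toRingedSpace.isUnit_res_basicOpen g).pow N).mul
    (by
      rw [show c.coord z le_rfl hg (c.frameOn z hg) = c.coordOn z hg (c.frameOn z hg) from rfl,
        c.coordOn_frameOn]
      exact isUnit_one)

/-- The additive bijection of sections given by equivalence data. -/
def IsoData.addEquiv {c d : Cocycle X} (e : IsoData c d) (W : X.Opens) : c.Sec W ≃+ d.Sec W where
  toFun := e.mapSec
  invFun := e.symm.mapSec
  left_inv := e.symm_mapSec
  right_inv := e.mapSec_symm
  map_add' := e.mapSec_add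

theorem IsoData.addEquiv_apply {c d : Cocycle X} (e : IsoData c d) {W : X.Opens} (s : c.Sec W) :
    e.addEquiv W s = e.mapSec s := rfl

end Cocycle

namespace CurveCover

variable {k : Type u} [Field k] {C : Scheme.{u}} {c : C ⟶ Spec (CommRingCat.of k)}
  {D : CurveCover k c} {R : Type u} [CommRing R]
  {t : Spec (CommRingCat.of R) ⟶ Spec (CommRingCat.of k)}

namespace Frame

variable {L L' : Cocycle (pullback c t)} (F : D.Frame t L)

theorem mat_eq_of_combU (a : Γ(C, D.U)) {j : Fin D.r} {q : Fin D.r → R[X]}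
    (h : D.genU t a • F.vU j = F.combU q) (i : Fin D.r) : F.mat a i j = q i := by
  rw [mat, h, F.coordsU_combU]

theorem genU_smul_vU (a : Γ(C, D.U)) (j : Fin D.r) :
    D.genU t a • F.vU j = F.combU fun i => F.mat a i j :=
  (F.combU_coordsU _).symm

/-- A frame moved along an equivalence of cocycles. -/
def transport (e : Cocycle.IsoData L L') : D.Frame t L' where
  v i := e.mapSec (F.v i)
  basisU := by
    convert ((e.addEquiv (D.UT t)).bijective).comp F.basisU using 1
    funext p
    simp only [Function.comp_apply, map_sum, Cocycle.IsoData.addEquiv_apply, e.mapSec_smul,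
      ← e.mapSec_resSec]
  basisV := by
    convert ((e.addEquiv (D.VT t)).bijective).comp F.basisV using 1
    funext p
    simp only [Function.comp_apply, map_sum, Cocycle.IsoData.addEquiv_apply, e.mapSec_smul,
      ← e.mapSec_resSec]
  diag a j := by
    obtain ⟨s, hs⟩ := F.diag a j
    exact ⟨e.mapSec s, by rw [← e.mapSec_resSec, ← e.mapSec_smul, hs, e.mapSec_smul]⟩

theorem combU_transport (e : Cocycle.IsoData L L') (p : Fin D.r → R[X]) :
    (F.transport e).combU p = e.mapSec (F.combU p) := by
  show ∑ i, D.evalU t (p i) • L'.resSec le_top (e.mapSec (F.v i)) =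
    e.addEquiv _ (∑ i, D.evalU t (p i) • F.vU i)
  simp only [map_sum, Cocycle.IsoData.addEquiv_apply, e.mapSec_smul]
  simp only [vU, ← e.mapSec_resSec]

theorem mat_transport (e : Cocycle.IsoData L L') (a : Γ(C, D.U)) :
    (F.transport e).mat a = F.mat a := by
  refine Matrix.ext fun i j => mat_eq_of_combU _ a ?_ i
  have h1 : (F.transport e).vU j = e.mapSec (F.vU j) :=
    (e.mapSec_resSec (le_top : D.UT t ≤ ⊤) (F.v j)).symm
  rw [h1, ← e.mapSec_smul, F.combU_transport]
  exact congrArg e.mapSec (F.genU_smul_vU a j)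

theorem resSec_scalar_smul {U W : (pullback c t).Opens} (h : W ≤ U) (a : R) (s : L.Sec U) :
    L.resSec h (scalarHom (pullback.snd c t) U a • s) =
      scalarHom (pullback.snd c t) W a • L.resSec h s := by
  rw [L.resSec_smul, res_scalarHom]

theorem bijective_C_mul (e : Fin D.r → Rˣ) :
    Function.Bijective fun (p : Fin D.r → R[X]) i => Polynomial.C (e i : R) * p i :=
  Function.Bijective.piMap fun i =>
    IsUnit.isUnit_iff_mulLeft_bijective.mp (IsUnit.map Polynomial.C (e i).isUnit)

/-- A frame with rescaled members. -/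
def scale (e : Fin D.r → Rˣ) : D.Frame t L where
  v i := scalarHom (pullback.snd c t) ⊤ (e i : R) • F.v i
  basisU := by
    convert F.basisU.comp (bijective_C_mul e) using 1
    funext p
    refine Finset.sum_congr rfl fun i _ => ?_
    rw [resSec_scalar_smul, map_mul, D.evalU_C, ← mul_smul, mul_comm]
  basisV := by
    convert F.basisV.comp (bijective_C_mul e) using 1
    funext p
    refine Finset.sum_congr rfl fun i _ => ?_
    rw [resSec_scalar_smul, map_mul,
      show D.evalV t (Polynomial.C (e i : R)) = scalarHom (pullback.snd c t) (D.VT t) (e i : R)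
        from eval₂_C _ _, ← mul_smul, mul_comm]
  diag a j := by
    obtain ⟨s, hs⟩ := F.diag a j
    refine ⟨scalarHom (pullback.snd c t) (D.UT t) (e j : R) • s, ?_⟩
    rw [resSec_scalar_smul, smul_comm, hs, smul_comm]

theorem combU_scale (e : Fin D.r → Rˣ) (p : Fin D.r → R[X]) :
    (F.scale e).combU p = F.combU fun i => Polynomial.C (e i : R) * p i := by
  show ∑ i, D.evalU t (p i) • L.resSec (le_top : D.UT t ≤ ⊤)
      (scalarHom (pullback.snd c t) ⊤ (e i : R) • F.v i) =
    ∑ i, D.evalU t (Polynomial.C (e i : R) * p i) • F.vU i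
  refine Finset.sum_congr rfl fun i _ => ?_
  show D.evalU t (p i) • L.resSec (le_top : D.UT t ≤ ⊤)
    (scalarHom (pullback.snd c t) ⊤ (e i : R) • F.v i) = _
  rw [resSec_scalar_smul, map_mul, D.evalU_C, ← mul_smul, mul_comm]
  rfl

theorem mat_scale (e : Fin D.r → Rˣ) (a : Γ(C, D.U)) :
    (F.scale e).mat a = ChartSpec.conjHom e⁻¹ (F.mat a) := by
  refine Matrix.ext fun i j => (F.scale e).mat_eq_of_combU a
    (q := fun i => ChartSpec.conjHom e⁻¹ (F.mat a) i j) ?_ i
  show D.genU t a • L.resSec (le_top : D.UT t ≤ ⊤)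
    (scalarHom (pullback.snd c t) ⊤ (e j : R) • F.v j) = _
  rw [resSec_scalar_smul, smul_comm, show L.resSec (le_top : D.UT t ≤ ⊤) (F.v j) = F.vU j from rfl,
    F.genU_smul_vU, ← D.evalU_C, ← F.combU_smul, F.combU_scale]
  refine congrArg F.combU (funext fun i => ?_)
  show _ = Polynomial.C (e i : R) * ChartSpec.conjHom e⁻¹ (F.mat a) i j
  rw [ChartSpec.conjHom_apply, ← mul_assoc, ← map_mul, ← Units.val_mul]
  congr 2
  simp

/-- The frame on the overlap. -/
def vW (l : Fin D.r) : L.Sec (D.WT t) := L.resSec le_top (F.v l)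

theorem res_combU (p : Fin D.r → R[X]) :
    L.resSec (inf_le_left : D.WT t ≤ D.UT t) (F.combU p) =
      ∑ l, (p l).eval₂ (scalarHom (pullback.snd c t) (D.WT t))
        (res (inf_le_left : D.WT t ≤ D.UT t) (D.xT t)) • F.vW l := by
  show L.resSec _ (∑ l, D.evalU t (p l) • F.vU l) = _
  simp only [map_sum, L.resSec_smul, D.res_evalU, vU, vW, L.resSec_resSec]

theorem res_combV (q : Fin D.r → R[X]) :
    L.resSec (inf_le_right : D.WT t ≤ D.VT t) (F.combV q) =
      ∑ l, (q l).eval₂ (scalarHom (pullback.snd c t) (D.WT t))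
        (res (inf_le_right : D.WT t ≤ D.VT t) (D.yT t)) • F.vW l := by
  show L.resSec _ (∑ l, D.evalV t (q l) • F.vV l) = _
  simp only [map_sum, L.resSec_smul, D.res_evalV, vV, vW, L.resSec_resSec]

theorem reflect_of_res_eq {p q : Fin D.r → R[X]} {m M : ℕ} (hM : ∀ l, (q l).natDegree ≤ M)
    (h : L.resSec (inf_le_left : D.WT t ≤ D.UT t) (F.combU p) =
      res (inf_le_right : D.WT t ≤ D.VT t) (D.yT t) ^ m •
        L.resSec (inf_le_right : D.WT t ≤ D.VT t) (F.combV q)) (l : Fin D.r) :
    Polynomial.X ^ (M + m) * p l = reflect M (q l) := by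
  set xW : Γ(pullback c t, D.WT t) := res inf_le_left (D.xT t)
  set yW : Γ(pullback c t, D.WT t) := res inf_le_right (D.yT t)
  set sW : R →+* Γ(pullback c t, D.WT t) := scalarHom (pullback.snd c t) (D.WT t)
  have hxy : xW * yW = 1 := D.xT_mul_yT t
  have hq' : ∀ l, (reflect M (q l)).eval₂ sW xW = xW ^ M * (q l).eval₂ sW yW := fun l => by
    have : Invertible yW := ⟨xW, hxy, by rw [mul_comm, hxy]⟩
    have h2 := eval₂_reflect_mul_pow sW yW M (q l) (hM l)
    have h3 : ⅟ yW = xW := invOf_eq_right_inv (by rw [mul_comm, hxy])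
    rw [h3] at h2
    calc (reflect M (q l)).eval₂ sW xW
          = (reflect M (q l)).eval₂ sW xW * yW ^ M * xW ^ M := by
            rw [mul_assoc, ← mul_pow, mul_comm yW, hxy, one_pow, mul_one]
      _ = _ := by rw [h2, mul_comm]
  have key : F.combU (fun l => Polynomial.X ^ (M + m) * p l) =
      F.combU (fun l => reflect M (q l)) := by
    rw [← sub_eq_zero, ← map_sub]
    refine F.combU.map_zero ▸ congrArg F.combU (F.eq_zero_of_res_combU _ ?_)
    rw [map_sub, map_sub, F.combU_smul, L.resSec_smul, h, F.res_combU, F.res_combV, sub_eq_zero,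
      map_pow, D.evalU_X, map_pow, ← mul_smul]
    show (xW ^ (M + m) * yW ^ m) • _ = _
    rw [pow_add, mul_assoc, ← mul_pow, hxy, one_pow, mul_one, Finset.smul_sum]
    refine Finset.sum_congr rfl fun l _ => ?_
    rw [hq' l, mul_smul]
  have hc := congrArg F.coordsU key
  rw [F.coordsU_combU, F.coordsU_combU] at hc
  exact congrFun hc l

theorem exists_split (N : ℕ) (P : R[X]) : ∃ A B : R[X],
    res (inf_le_right : D.WT t ≤ D.VT t) (D.yT t) ^ N *
        P.eval₂ (scalarHom (pullback.snd c t) (D.WT t))
          (res (inf_le_left : D.WT t ≤ D.UT t) (D.xT t)) =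
      A.eval₂ (scalarHom (pullback.snd c t) (D.WT t))
          (res (inf_le_left : D.WT t ≤ D.UT t) (D.xT t)) -
        res (inf_le_right : D.WT t ≤ D.VT t) (D.yT t) *
          B.eval₂ (scalarHom (pullback.snd c t) (D.WT t))
            (res (inf_le_right : D.WT t ≤ D.VT t) (D.yT t)) := by
  set xW : Γ(pullback c t, D.WT t) := res inf_le_left (D.xT t)
  set yW : Γ(pullback c t, D.WT t) := res inf_le_right (D.yT t)
  have hxy : xW * yW = 1 := D.xT_mul_yT t
  induction P using Polynomial.induction_on' with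
  | add p q hp hq =>
    obtain ⟨A, B, h⟩ := hp
    obtain ⟨A', B', h'⟩ := hq
    exact ⟨A + A', B + B', by rw [eval₂_add, mul_add, h, h', eval₂_add, eval₂_add]; ring⟩
  | monomial n a =>
    rcases le_or_gt N n with hn | hn
    · obtain ⟨d, rfl⟩ := Nat.exists_eq_add_of_le hn
      refine ⟨monomial d a, 0, ?_⟩
      rw [eval₂_monomial, eval₂_monomial, eval₂_zero, mul_zero, sub_zero, pow_add]
      have := congrArg (· ^ N) hxy
      simp only [mul_pow, one_pow] at this
      linear_combination (scalarHom (pullback.snd c t) (D.WT t) a * xW ^ d) * this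
    · obtain ⟨d, rfl⟩ : ∃ d, N = n + (d + 1) := ⟨N - n - 1, by omega⟩
      refine ⟨0, -monomial d a, ?_⟩
      rw [eval₂_monomial, eval₂_neg, eval₂_monomial, eval₂_zero, pow_add, pow_succ]
      have := congrArg (· ^ n) hxy
      simp only [mul_pow, one_pow] at this
      linear_combination (scalarHom (pullback.snd c t) (D.WT t) a * (yW ^ d * yW)) * this

include F in
/-- A frame forces the vanishing of the cohomology of the twist by one fibre. -/
theorem diff_bijective : Function.Bijective (D.diff t L 1) := by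
  set yW : Γ(pullback c t, D.WT t) := res inf_le_right (D.yT t)
  have hu : ((D.yUnit t ^ (1 : ℤ) : Γ(pullback c t, D.WT t)ˣ) : Γ(pullback c t, D.WT t)) = yW := by
    rw [zpow_one]; rfl
  refine ⟨(injective_iff_map_eq_zero _).mpr ?_, fun w => ?_⟩
  · rintro ⟨(s : L.Sec (D.UT t)), (s' : L.Sec (D.VT t))⟩ h
    have h1 : L.resSec (inf_le_left : D.WT t ≤ D.UT t) s -
        yW • L.resSec (inf_le_right : D.WT t ≤ D.VT t) s' = 0 := by
      rw [← hu]; exact h
    obtain ⟨p, hp⟩ := F.combU_bijective.2 s
    obtain ⟨q, hq⟩ := F.basisV.2 s'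
    change F.combV q = s' at hq
    subst hp hq
    set M := Finset.univ.sup fun l => (q l).natDegree
    have hM : ∀ l, (q l).natDegree ≤ M := fun l =>
      Finset.le_sup (f := fun l => (q l).natDegree) (Finset.mem_univ l)
    have h2 := F.reflect_of_res_eq hM (m := 1) (p := p) (by rw [pow_one]; exact sub_eq_zero.mp h1)
    have hp0 : p = 0 := funext fun l => Polynomial.ext fun n => by
      have h3 := congrArg (fun P : R[X] => P.coeff (n + (M + 1))) (h2 l)
      simp only [coeff_X_pow_mul] at h3
      rw [h3, coeff_reflect, revAt_eq_self_of_lt (by omega), Pi.zero_apply, coeff_zero]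
      exact coeff_eq_zero_of_natDegree_lt (lt_of_le_of_lt (hM l) (by omega))
    have hq0 : q = 0 := funext fun l => by
      have h3 := h2 l
      rw [hp0, Pi.zero_apply, mul_zero, eq_comm, reflect_eq_zero_iff] at h3
      exact h3
    rw [hp0, hq0, map_zero, map_zero]
    rfl
  · let w' : L.Sec (D.WT t) := w
    obtain ⟨N, s, hs⟩ := L.exists_extend (D.isAffineOpen_UT t) (D.xT t)
      (L.resSec (D.basicOpen_xT t).le w')
    have hs' := congrArg (L.resSec (D.basicOpen_xT t).ge) hs
    rw [L.resSec_resSec, L.resSec_smul, map_pow, res_res, L.resSec_resSec, L.resSec_self] at hs'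
    obtain ⟨p, rfl⟩ := F.combU_bijective.2 s
    choose A B hAB using fun l => exists_split (D := D) (t := t) N (p l)
    have hw : w' = yW ^ N • L.resSec (inf_le_left : D.WT t ≤ D.UT t) (F.combU p) := by
      rw [hs', ← mul_smul, ← mul_pow, mul_comm, D.xT_mul_yT, one_pow, one_smul]
    refine ⟨(F.combU A, F.combV B), ?_⟩
    show L.resSec (inf_le_left : D.WT t ≤ D.UT t) (F.combU A) -
      ((D.yUnit t ^ (1 : ℤ) : Γ(pullback c t, D.WT t)ˣ) : Γ(pullback c t, D.WT t)) •
        L.resSec (inf_le_right : D.WT t ≤ D.VT t) (F.combV B) = w'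
    rw [hu, hw, F.res_combU, F.res_combU, F.res_combV, Finset.smul_sum, Finset.smul_sum,
      ← Finset.sum_sub_distrib]
    refine Finset.sum_congr rfl fun l _ => ?_
    rw [← mul_smul, ← mul_smul, ← sub_smul, hAB]

/-- Global sections are constant combinations of a frame. -/
theorem exists_const (s : L.Sec ⊤) :
    ∃ g : Fin D.r → R, L.resSec (le_top : D.UT t ≤ ⊤) s = F.combU fun i => Polynomial.C (g i) := by
  obtain ⟨p, hp⟩ := F.combU_bijective.2 (L.resSec (le_top : D.UT t ≤ ⊤) s)
  obtain ⟨q, hq⟩ := F.basisV.2 (L.resSec (le_top : D.VT t ≤ ⊤) s)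
  change F.combV q = _ at hq
  set M := Finset.univ.sup fun l => (q l).natDegree
  have hM : ∀ l, (q l).natDegree ≤ M := fun l =>
    Finset.le_sup (f := fun l => (q l).natDegree) (Finset.mem_univ l)
  have h := F.reflect_of_res_eq hM (m := 0) (p := p) (by
    rw [pow_zero, one_smul, hp, hq, L.resSec_resSec, L.resSec_resSec])
  refine ⟨fun i => (p i).coeff 0, hp.symm.trans (congrArg F.combU (funext fun i => ?_))⟩
  refine Polynomial.eq_C_of_natDegree_le_zero (natDegree_le_iff_coeff_eq_zero.mpr fun n hn => ?_)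
  have h3 := congrArg (fun P : R[X] => P.coeff (n + M)) (h i)
  simp only [add_zero, coeff_X_pow_mul] at h3
  rw [h3, coeff_reflect, revAt_eq_self_of_lt (by omega)]
  exact coeff_eq_zero_of_natDegree_lt (lt_of_le_of_lt (hM i) (by omega))

theorem exists_evalPt_eq (i j : Fin D.r) (hij : i ≠ j) :
    ∃ a : Γ(C, D.U), D.evalPt i a = 1 ∧ D.evalPt j a = 0 := by
  classical
  obtain ⟨a, ha⟩ := D.split_surjective fun l =>
    (Scheme.ΓSpecIso (CommRingCat.of k)).inv.hom (if l = i then 1 else 0)
  have h : ∀ l, D.evalPt l a = if l = i then 1 else 0 := fun l => by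
    show (Scheme.ΓSpecIso (CommRingCat.of k)).hom.hom (valueAt (D.pt l).1 (D.pt_mem l) a) = _
    rw [show valueAt (D.pt l).1 (D.pt_mem l) a = _ from congrFun ha l]
    exact congrArg (fun f : CommRingCat.of k ⟶ CommRingCat.of k => f.hom _)
      (Scheme.ΓSpecIso (CommRingCat.of k)).inv_hom_id
  exact ⟨a, by rw [h, if_pos rfl], by rw [h, if_neg hij.symm]⟩

theorem exists_change (F' : D.Frame t L) :
    ∃ g : Matrix (Fin D.r) (Fin D.r) R, ∀ j, F'.vU j = F.combU fun i => Polynomial.C (g i j) := by
  choose g hg using fun j => F.exists_const (F'.v j)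
  exact ⟨fun i j => g j i, hg⟩

theorem combU_of_change {F' : D.Frame t L} {g : Matrix (Fin D.r) (Fin D.r) R}
    (hg : ∀ j, F'.vU j = F.combU fun i => Polynomial.C (g i j)) (p : Fin D.r → R[X]) :
    F'.combU p = F.combU ((g.map Polynomial.C).mulVec p) := by
  show ∑ j, D.evalU t (p j) • F'.vU j = _
  simp only [hg, ← F.combU_smul, ← map_sum]
  refine congrArg F.combU (funext fun i => ?_)
  simp only [Finset.sum_apply, Matrix.mulVec, dotProduct, Matrix.map_apply, mul_comm]

/-- **Two frames of one bundle differ by a diagonal matrix of units.** -/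
theorem exists_mat_eq_conjHom (F' : D.Frame t L) :
    ∃ e : Fin D.r → Rˣ, ∀ a, F'.mat a = ChartSpec.conjHom e (F.mat a) := by
  obtain ⟨g, hg⟩ := F.exists_change F'
  obtain ⟨g', hg'⟩ := F'.exists_change F
  have hcomm : ∀ a, F.mat a * g.map Polynomial.C = g.map Polynomial.C * F'.mat a := fun a => by
    refine Matrix.ext fun i j => ?_
    have h1 : D.genU t a • F'.vU j =
        F.combU ((g.map Polynomial.C).mulVec fun l => F'.mat a l j) := by
      rw [F'.genU_smul_vU, F.combU_of_change hg]
    rw [hg, F.genU_smul_combU] at h1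
    exact congrFun (F.combU_bijective.1 h1) i
  have hone : g * g' = 1 := by
    refine Matrix.ext fun i j => ?_
    have h1 := hg' j
    rw [F.combU_of_change hg, F.vU_eq_combU] at h1
    have h2 := congrArg (fun P : R[X] => P.coeff 0) (congrFun (F.combU_bijective.1 h1) i)
    simp only [Matrix.mulVec, dotProduct, Matrix.map_apply, ← map_mul, ← map_sum,
      coeff_C_zero] at h2
    rw [Matrix.mul_apply, ← h2, Matrix.one_apply, Pi.single_apply]
    split_ifs <;> simp
  have hc : ∀ a, g * Matrix.diagonal (fun j => coeffHom t (D.evalPt j a)) =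
      Matrix.diagonal (fun j => coeffHom t (D.evalPt j a)) * g := fun a => by
    have h1 := congrArg (Polynomial.evalRingHom (coeffHom t D.c₀)).mapMatrix (hcomm a)
    rw [map_mul, map_mul] at h1
    simp only [RingHom.mapMatrix_apply, Matrix.map_map, coe_evalRingHom, F.mat_eval_c₀,
      F'.mat_eval_c₀] at h1
    rw [show Polynomial.eval (coeffHom t D.c₀) ∘ Polynomial.C = id from
      funext fun x => eval_C, Matrix.map_id] at h1
    exact h1.symm
  have hd := eq_diagonal_of_commute_diagonal (fun a j => coeffHom t (D.evalPt j a))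
    (fun i j hij => by
      obtain ⟨a, h1, h2⟩ := exists_evalPt_eq i j hij
      exact ⟨a, by rw [h1, h2, map_one, map_zero, sub_zero]; exact isUnit_one⟩) hc
  have hu : ∀ i, IsUnit (g i i) := fun i =>
    isUnit_apply_of_diagonal (D := fun i => g i i) (Q := g')
      ((congrArg (· * g') hd).symm.trans hone) i
  refine ⟨fun i => (hu i).unit⁻¹, fun a => ((ChartSpec.conjHom_eq_iff _ _ _).mpr ?_).symm⟩
  refine Matrix.ext fun i j => ?_
  have h1 := congrFun (congrFun (hcomm a) i) j
  rw [hd, Matrix.diagonal_map (map_zero _), Matrix.mul_diagonal, Matrix.diagonal_mul] at h1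
  rw [Matrix.diagonal_mul, Matrix.mul_diagonal]
  have hi : Polynomial.C (((hu i).unit⁻¹ : Rˣ) : R) * Polynomial.C (g i i) = 1 := by
    rw [← map_mul, IsUnit.val_inv_mul, map_one]
  have hj : Polynomial.C (((hu j).unit⁻¹ : Rˣ) : R) * Polynomial.C (g j j) = 1 := by
    rw [← map_mul, IsUnit.val_inv_mul, map_one]
  linear_combination (Polynomial.C (((hu i).unit⁻¹ : Rˣ) : R) *
    Polynomial.C (((hu j).unit⁻¹ : Rˣ) : R)) * h1 -
    (Polynomial.C (((hu i).unit⁻¹ : Rˣ) : R) * F.mat a i j) * hj +
    (Polynomial.C (((hu j).unit⁻¹ : Rˣ) : R) * F'.mat a i j) * hi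

/-- Frames of equivalent bundles differ by a diagonal matrix of units. -/
theorem exists_mat_eq_conjHom_of_equiv (F' : D.Frame t L') (h : L.Equiv L') :
    ∃ e : Fin D.r → Rˣ, ∀ a, F'.mat a = ChartSpec.conjHom e (F.mat a) := by
  obtain ⟨i⟩ := h.nonempty_isoData
  obtain ⟨e, he⟩ := (F.transport i).exists_mat_eq_conjHom F'
  exact ⟨e, fun a => by rw [he, F.mat_transport]⟩

/-- The matrices of the basis of the first chart determine all the matrices. -/
theorem mat_ext (F' : D.Frame t L') (h : ∀ i, F.mat (D.wU i) = F'.mat (D.wU i)) (a : Γ(C, D.U)) :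
    F.mat a = F'.mat a := by
  obtain ⟨p, rfl⟩ := D.basisU.2 a
  show F.matHom (polyComb c D.U D.x D.wU p) = F'.matHom (polyComb c D.U D.x D.wU p)
  have hC : F.matHom.comp (scalarHom c D.U) = F'.matHom.comp (scalarHom c D.U) :=
    RingHom.ext fun x => (F.mat_scalarHom x).trans (F'.mat_scalarHom x).symm
  have hX : F.matHom D.x = F'.matHom D.x := F.mat_x.trans F'.mat_x.symm
  have hp : ∀ q : k[X], F.matHom (q.eval₂ (scalarHom c D.U) D.x) =
      F'.matHom (q.eval₂ (scalarHom c D.U) D.x) := fun q => by
    induction q using Polynomial.induction_on' with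
    | add a b ha hb => rw [eval₂_add, map_add, map_add, ha, hb]
    | monomial n a =>
      rw [eval₂_monomial, map_mul, map_mul, map_pow, map_pow, hX]
      exact congrArg (· * _) (RingHom.congr_fun hC a)
  rw [polyComb, map_sum, map_sum]
  refine Finset.sum_congr rfl fun i _ => ?_
  rw [map_mul, map_mul, hp]
  exact congrArg (_ * ·) (h i)

/-- Frames with the same matrices belong to the same class. -/
theorem equiv_of_mat_eq (F' : D.Frame t L') (h : ∀ i, F.mat (D.wU i) = F'.mat (D.wU i)) :
    L.Equiv L' :=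
  F.equiv_of_mat F' (L.generates_of_isAffineOpen (D.isAffineOpen_UT t))
    (L.generates_of_isAffineOpen (D.isAffineOpen_VT t))
    (L'.generates_of_isAffineOpen (D.isAffineOpen_UT t))
    (L'.generates_of_isAffineOpen (D.isAffineOpen_VT t)) (F.mat_ext F' h)

end Frame

end CurveCover

end FLTAgent.RelPicard

end
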