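import Fermat.Agent.RelPicard.FramePullback

/-!
# Values at the points of the split fibre on the product

Modulo the equation of the split fibre, a function times the idempotent of the `j`-th point is a
scalar times that idempotent, for a unique scalar: its value at that point.

Main declarations: `idem`, `fibreEq`, `valAt`, `valAt_pull`.
-/

set_option autoImplicit false

universe u

open CategoryTheory CategoryTheory.Limits AlgebraicGeometry TopologicalSpace NeronModelInfra
  Polynomial AlgebraicGeometry.RelPicard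

noncomputable section

namespace FLTAgent.RelPicard.CurveCover

variable {k : Type u} [Field k] {C : Scheme.{u}} {c : C ⟶ Spec (CommRingCat.of k)}
  (D : CurveCover k c)

theorem evalPt_eq_zero_iff (a : Γ(C, D.U)) :
    (∀ l, D.evalPt l a = 0) ↔ (D.x - scalarHom c D.U D.c₀) ∣ a := by
  rw [← D.split_ker]
  refine forall_congr' fun l => ?_
  show (Scheme.ΓSpecIso (CommRingCat.of k)).hom.hom (valueAt (D.pt l).1 (D.pt_mem l) a) = 0 ↔ _
  exact map_eq_zero_iff _
    (ConcreteCategory.bijective_of_isIso (Scheme.ΓSpecIso (CommRingCat.of k)).hom).1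

/-- A function with value one at the `j`-th point of the split fibre and zero at the others. -/
def idem (j : Fin D.r) : Γ(C, D.U) :=
  (D.split_surjective fun l =>
    (Scheme.ΓSpecIso (CommRingCat.of k)).inv.hom (if l = j then 1 else 0)).choose

theorem evalPt_idem (j l : Fin D.r) : D.evalPt l (D.idem j) = if l = j then 1 else 0 := by
  show (Scheme.ΓSpecIso (CommRingCat.of k)).hom.hom
    (valueAt (D.pt l).1 (D.pt_mem l) (D.idem j)) = _
  rw [show valueAt (D.pt l).1 (D.pt_mem l) (D.idem j) = _ from congrFun (D.split_surjective fun l =>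
    (Scheme.ΓSpecIso (CommRingCat.of k)).inv.hom (if l = j then 1 else 0)).choose_spec l]
  exact congrArg (fun f : CommRingCat.of k ⟶ CommRingCat.of k => f.hom _)
    (Scheme.ΓSpecIso (CommRingCat.of k)).inv_hom_id

theorem dvd_mul_idem (a : Γ(C, D.U)) (j : Fin D.r) :
    (D.x - scalarHom c D.U D.c₀) ∣ (a - scalarHom c D.U (D.evalPt j a)) * D.idem j :=
  (D.evalPt_eq_zero_iff _).mp fun l => by
    rw [map_mul, map_sub, D.evalPt_scalarHom, D.evalPt_idem]
    split_ifs with h
    · subst h; simp
    · rw [mul_zero]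

theorem dvd_one_sub_sum_idem :
    (D.x - scalarHom c D.U D.c₀) ∣ 1 - ∑ j, D.idem j :=
  (D.evalPt_eq_zero_iff _).mp fun l => by
    rw [map_sub, map_one, map_sum, Finset.sum_congr rfl fun j _ => D.evalPt_idem j l,
      Finset.sum_ite_eq, if_pos (Finset.mem_univ l), sub_self]

theorem dvd_idem_mul_idem {j l : Fin D.r} (h : j ≠ l) :
    (D.x - scalarHom c D.U D.c₀) ∣ D.idem j * D.idem l :=
  (D.evalPt_eq_zero_iff _).mp fun m => by
    rw [map_mul, D.evalPt_idem, D.evalPt_idem]
    split_ifs with h1 h2 <;> first | exact absurd (h1.symm.trans h2) h | simp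

theorem dvd_idem_sq (j : Fin D.r) :
    (D.x - scalarHom c D.U D.c₀) ∣ D.idem j * D.idem j - D.idem j :=
  (D.evalPt_eq_zero_iff _).mp fun m => by
    rw [map_sub, map_mul, D.evalPt_idem]
    split_ifs <;> simp

variable {R : Type u} [CommRing R] (t : Spec (CommRingCat.of R) ⟶ Spec (CommRingCat.of k))

/-- The equation of the split fibre on the product. -/
def fibreEq : Γ(pullback c t, D.UT t) := D.xT t - D.genU t (scalarHom c D.U D.c₀)

theorem fibreEq_dvd_genU {a : Γ(C, D.U)} (h : (D.x - scalarHom c D.U D.c₀) ∣ a) :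
    D.fibreEq t ∣ D.genU t a := by
  have := map_dvd (D.genU t) h
  rwa [map_sub, D.genU_x] at this

theorem evalU_X_sub_C :
    D.evalU t (Polynomial.X - Polynomial.C (coeffHom t D.c₀)) = D.fibreEq t := by
  rw [map_sub, D.evalU_X, D.evalU_C, ← D.genU_scalarHom]
  rfl

theorem genU_eval₂_coeffHom (q : k[X]) :
    D.genU t (q.eval₂ (scalarHom c D.U) D.x) = D.evalU t (q.map (coeffHom t)) := by
  induction q using Polynomial.induction_on' with
  | add a b ha hb => rw [eval₂_add, map_add, ha, hb, Polynomial.map_add, map_add]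
  | monomial n a =>
    rw [eval₂_monomial, map_mul, map_pow, D.genU_x, D.genU_scalarHom, Polynomial.map_monomial,
      ← Polynomial.C_mul_X_pow_eq_monomial, map_mul, map_pow, D.evalU_C, D.evalU_X]

/-- Multiples of an idempotent by nonzero scalars are not multiples of the equation of the
fibre. -/
theorem eq_zero_of_dvd_scalar_idem (j : Fin D.r) {a : R}
    (h : D.fibreEq t ∣ scalarHom (pullback.snd c t) (D.UT t) a * D.genU t (D.idem j)) : a = 0 := by
  obtain ⟨q, hq⟩ := D.basisU.2 (D.idem j)
  obtain ⟨b, hb⟩ := h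
  obtain ⟨p, rfl⟩ := D.exists_eq_sum_genU t b
  have he : D.genU t (D.idem j) = ∑ i, D.evalU t ((q i).map (coeffHom t)) * D.genU t (D.wU i) := by
    rw [← hq, polyComb, map_sum]
    exact Finset.sum_congr rfl fun i _ => by rw [map_mul, D.genU_eval₂_coeffHom]
  have h1 : polyComb (pullback.snd c t) (D.UT t) (D.xT t) (D.wUT t)
        (fun i => Polynomial.C a * (q i).map (coeffHom t)) =
      polyComb (pullback.snd c t) (D.UT t) (D.xT t) (D.wUT t)
        (fun i => (Polynomial.X - Polynomial.C (coeffHom t D.c₀)) * p i) := by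
    rw [D.polyComb_eq, D.polyComb_eq]
    simp only [map_mul, D.evalU_X_sub_C, D.evalU_C, mul_assoc, ← Finset.mul_sum, ← he, hb]
  have h2 : ∀ l, a * coeffHom t ((q l).eval D.c₀) = 0 := fun l => by
    have := congrArg (Polynomial.eval (coeffHom t D.c₀))
      (congrFun ((D.bijective_polyComb_UT t).1 h1) l)
    rw [eval_mul, eval_mul, eval_C, eval_sub, eval_X, eval_C, sub_self, zero_mul] at this
    rwa [Polynomial.eval_map, Polynomial.eval₂_at_apply] at this
  by_cases hne : ∃ l, (q l).eval D.c₀ ≠ 0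
  · obtain ⟨l, hl⟩ := hne
    exact ((IsUnit.mk0 _ hl).map (coeffHom t)).mul_left_eq_zero.mp (h2 l)
  · push Not at hne
    exfalso
    have hd : (D.x - scalarHom c D.U D.c₀) ∣ D.idem j := by
      rw [← hq, polyComb]
      refine Finset.dvd_sum fun l _ => Dvd.dvd.mul_right ?_ _
      obtain ⟨g, hg⟩ := (Polynomial.dvd_iff_isRoot (a := D.c₀) (p := q l)).mpr (hne l)
      exact ⟨g.eval₂ (scalarHom c D.U) D.x, by
        rw [hg, eval₂_mul, eval₂_sub, eval₂_X, eval₂_C]⟩
    have := (D.evalPt_eq_zero_iff _).mpr hd j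
    rw [D.evalPt_idem, if_pos rfl] at this
    exact one_ne_zero this

theorem exists_valAt (j : Fin D.r) (b : Γ(pullback c t, D.UT t)) :
    ∃ a : R, D.fibreEq t ∣
      (b - scalarHom (pullback.snd c t) (D.UT t) a) * D.genU t (D.idem j) := by
  obtain ⟨p, rfl⟩ := D.exists_eq_sum_genU t b
  refine ⟨∑ l, (p l).eval (coeffHom t D.c₀) * coeffHom t (D.evalPt j (D.wU l)), ?_⟩
  rw [map_sum, ← Finset.sum_sub_distrib, Finset.sum_mul]
  refine Finset.dvd_sum fun l _ => ?_
  have h1 : D.fibreEq t ∣ D.evalU t (p l) -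
      scalarHom (pullback.snd c t) (D.UT t) ((p l).eval (coeffHom t D.c₀)) := by
    rw [← D.evalU_X_sub_C, ← D.evalU_C, ← map_sub]
    exact map_dvd _ X_sub_C_dvd_sub_C_eval
  have h2 := D.fibreEq_dvd_genU t (D.dvd_mul_idem (D.wU l) j)
  rw [map_mul, map_sub, D.genU_scalarHom] at h2
  rw [map_mul (scalarHom (pullback.snd c t) (D.UT t))]
  obtain ⟨u, hu⟩ := h1
  obtain ⟨w, hw⟩ := h2
  refine ⟨u * D.genU t (D.wU l) * D.genU t (D.idem j) +
    scalarHom (pullback.snd c t) (D.UT t) ((p l).eval (coeffHom t D.c₀)) * w, ?_⟩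
  linear_combination (D.genU t (D.wU l) * D.genU t (D.idem j)) * hu +
    scalarHom (pullback.snd c t) (D.UT t) ((p l).eval (coeffHom t D.c₀)) * hw

/-- The value of a function of the first chart at the `j`-th point of the split fibre. -/
def valAt (j : Fin D.r) (b : Γ(pullback c t, D.UT t)) : R := (D.exists_valAt t j b).choose

theorem dvd_valAt (j : Fin D.r) (b : Γ(pullback c t, D.UT t)) :
    D.fibreEq t ∣
      (b - scalarHom (pullback.snd c t) (D.UT t) (D.valAt t j b)) * D.genU t (D.idem j) :=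
  (D.exists_valAt t j b).choose_spec

theorem valAt_eq {j : Fin D.r} {b : Γ(pullback c t, D.UT t)} {a : R}
    (h : D.fibreEq t ∣ (b - scalarHom (pullback.snd c t) (D.UT t) a) * D.genU t (D.idem j)) :
    D.valAt t j b = a := by
  refine sub_eq_zero.mp (D.eq_zero_of_dvd_scalar_idem t j ?_)
  have h' := dvd_sub h (D.dvd_valAt t j b)
  rw [← sub_mul, sub_sub_sub_cancel_left, ← map_sub] at h'
  exact h'

theorem valAt_one (j : Fin D.r) : D.valAt t j 1 = 1 :=
  D.valAt_eq t (by rw [map_one, sub_self, zero_mul]; exact dvd_zero _)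

theorem valAt_sum {ι : Type*} (s : Finset ι) (b : ι → Γ(pullback c t, D.UT t)) (j : Fin D.r) :
    D.valAt t j (∑ i ∈ s, b i) = ∑ i ∈ s, D.valAt t j (b i) :=
  D.valAt_eq t (by
    rw [map_sum, ← Finset.sum_sub_distrib, Finset.sum_mul]
    exact Finset.dvd_sum fun i _ => D.dvd_valAt t j (b i))

/-- Values at the points commute with base change. -/
theorem valAt_pull {S : Type u} [CommRing S] (f : R →+* S) (j : Fin D.r)
    (b : Γ(pullback c t, D.UT t)) :
    D.valAt (Spec.map (CommRingCat.ofHom f) ≫ t) j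
        (pull (mapT t f) (D.mapT_preimage_UT t f).ge b) = f (D.valAt t j b) := by
  refine D.valAt_eq _ ?_
  have h := map_dvd (pull (mapT t f) (D.mapT_preimage_UT t f).ge) (D.dvd_valAt t j b)
  rw [map_mul, map_sub, D.pull_genU f, fibreEq, map_sub, D.pull_genU f,
    show pull (mapT t f) (D.mapT_preimage_UT t f).ge (D.xT t) = D.xT _ from D.mapT_xT t f,
    show pull (mapT t f) (D.mapT_preimage_UT t f).ge
        (scalarHom (pullback.snd c t) (D.UT t) (D.valAt t j b)) =
      scalarHom (pullback.snd c (Spec.map (CommRingCat.ofHom f) ≫ t)) (D.UT _)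
        (f (D.valAt t j b)) from
      appLE_scalarHom _ _ (mapT t f) f (mapT_snd t f) _ _] at h
  exact h

end FLTAgent.RelPicard.CurveCover

end
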