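import Fermat.Agent.RelPicard.Splitting
import Fermat.Agent.RelPicard.FibreValues

/-!
# Existence of frames

If the twist of a bundle by the fibre at infinity has no cohomology, its global sections map
bijectively to the sections modulo the split fibre and span the sections of both charts over the
polynomial rings; wherever sections with unit value at each point exist, this gives a frame.

Main results: `existsUnique_global`, `nonempty_frame_of_isUnit`; used by `FrameNear`.
-/

set_option autoImplicit false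

universe u

open CategoryTheory CategoryTheory.Limits AlgebraicGeometry TopologicalSpace NeronModelInfra
  Polynomial AlgebraicGeometry.RelPicard

noncomputable section

namespace FLTAgent.RelPicard

/-- Multiplication by a unit as a linear automorphism over the base. -/
def secMulEquiv {X : Scheme.{u}} {R : Type u} [CommRing R] (π : X ⟶ Spec (CommRingCat.of R))
    (N : Cocycle X) {W : X.Opens} (a : Γ(X, W)ˣ) : SecOver π N W ≃ₗ[R] SecOver π N W :=
  LinearEquiv.ofLinearMap (secMul π N (a : Γ(X, W))) (secMul π N ((a⁻¹ : Γ(X, W)ˣ) : Γ(X, W)))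
    (LinearMap.ext fun s => by
      show ((a : Γ(X, W)) • ((a⁻¹ : Γ(X, W)ˣ) : Γ(X, W)) • (show N.Sec W from s) : N.Sec W) = s
      rw [← mul_smul, Units.mul_inv, one_smul])
    (LinearMap.ext fun s => by
      show (((a⁻¹ : Γ(X, W)ˣ) : Γ(X, W)) • (a : Γ(X, W)) • (show N.Sec W from s) : N.Sec W) = s
      rw [← mul_smul, Units.inv_mul, one_smul])

theorem secMulEquiv_iterate {X : Scheme.{u}} {R : Type u} [CommRing R]
    (π : X ⟶ Spec (CommRingCat.of R)) (N : Cocycle X) {W : X.Opens} (a : Γ(X, W)ˣ) (n : ℕ)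
    (w : SecOver π N W) :
    (⇑(secMulEquiv π N a))^[n] w =
      (((a : Γ(X, W)) ^ n) • (show N.Sec W from w) : N.Sec W) := by
  induction n with
  | zero => rw [Function.iterate_zero_apply, pow_zero, one_smul]
  | succ n ih =>
    rw [Function.iterate_succ_apply', ih, pow_succ', mul_smul]
    rfl

theorem aeval_secMul_apply {X : Scheme.{u}} {R : Type u} [CommRing R]
    (π : X ⟶ Spec (CommRingCat.of R)) (N : Cocycle X) {W : X.Opens} (a : Γ(X, W)ˣ) (p : R[X])
    (w : SecOver π N W) :
    (show N.Sec W from Polynomial.aeval ((secMulEquiv π N a).toLinearMap : Module.End R _) p w) =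
      p.eval₂ (scalarHom π W) (a : Γ(X, W)) • (show N.Sec W from w) := by
  induction p using Polynomial.induction_on' with
  | add p q hp hq =>
    rw [eval₂_add, add_smul, map_add]
    exact congrArg₂ (· + ·) hp hq
  | monomial n r =>
    rw [eval₂_monomial, aeval_monomial, Module.End.mul_apply, Module.algebraMap_end_apply,
      Module.End.pow_apply, mul_smul]
    show scalarHom π W r • (show N.Sec W from (⇑(secMulEquiv π N a))^[n] w) = _
    rw [secMulEquiv_iterate]

namespace CurveCover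

variable {k : Type u} [Field k] {C : Scheme.{u}} {c : C ⟶ Spec (CommRingCat.of k)}
  {D : CurveCover k c} {R : Type u} [CommRing R]
  {t : Spec (CommRingCat.of R) ⟶ Spec (CommRingCat.of k)} (L : Cocycle (pullback c t))

theorem mul_left_cancel_pow {U : (pullback c t).Opens} {z : Γ(pullback c t, U)} {r : ℕ}
    {w : Fin r → Γ(pullback c t, U)} (hw : Function.Bijective (polyComb (pullback.snd c t) U z w))
    {n : ℕ} {a : Γ(pullback c t, U)} (h : z ^ n * a = 0) : a = 0 := by
  obtain ⟨p, rfl⟩ := hw.2 a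
  have h0 : polyComb (pullback.snd c t) U z w 0 = 0 := by simp [polyComb]
  have h1 := polyComb_mul_eval₂ (pullback.snd c t) U z w (Polynomial.X ^ n) p
  rw [eval₂_X_pow, h, ← h0] at h1
  have h2 := hw.1 h1.symm
  rw [← h0]
  refine congrArg _ (funext fun i => Polynomial.ext fun m => ?_)
  simpa [coeff_X_pow_mul] using congrArg (fun P : R[X] => P.coeff (m + n)) (congrFun h2 i)

theorem injective_resSec_basicOpen {U W : (pullback c t).Opens} (hU : IsAffineOpen U)
    {z : Γ(pullback c t, U)} (hW : W ≤ U) (hzW : (pullback c t).basicOpen z ≤ W) {r : ℕ}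
    {w : Fin r → Γ(pullback c t, U)}
    (hw : Function.Bijective (polyComb (pullback.snd c t) U z w)) :
    Function.Injective (L.resSec hW) := by
  refine (injective_iff_map_eq_zero _).mpr fun s h => ?_
  obtain ⟨n, hn⟩ := L.exists_pow_smul_eq_zero hU z s (by
    rw [← L.resSec_resSec hzW hW, h, map_zero])
  obtain ⟨G⟩ := Cocycle.nonempty_secFrame L hU
  rw [← G.sum_smul s]
  refine Finset.sum_eq_zero fun i _ => ?_
  have h1 : L.pair (G.τ i) (z ^ n • s) = 0 := by rw [hn]; exact (L.pairL (G.τ i)).map_zero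
  rw [L.pair_smul] at h1
  rw [mul_left_cancel_pow hw h1, zero_smul]

variable (D) in
/-- The map from the sections on the first chart to the overlap. -/
abbrev resU' : SecOver (pullback.snd c t) L (D.UT t) →ₗ[R] SecOver (pullback.snd c t) L (D.WT t) :=
  secRes (pullback.snd c t) L inf_le_left

variable (D) in
/-- The map from the sections on the second chart to the overlap. -/
abbrev resV' : SecOver (pullback.snd c t) L (D.VT t) →ₗ[R] SecOver (pullback.snd c t) L (D.WT t) :=
  secRes (pullback.snd c t) L inf_le_right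

theorem resU'_injective : Function.Injective (resU' D L) :=
  injective_resSec_basicOpen L (D.isAffineOpen_UT t) inf_le_left (D.basicOpen_xT t).le
    (D.bijective_polyComb_UT t)

theorem resV'_injective : Function.Injective (resV' D L) :=
  injective_resSec_basicOpen L (D.isAffineOpen_VT t) inf_le_right (D.basicOpen_yT t).le
    (D.bijective_polyComb_VT t)

theorem exhaust_basicOpen {U W : (pullback c t).Opens} (hU : IsAffineOpen U)
    {z : Γ(pullback c t, U)} (hW : W ≤ U) (hzW : W ≤ (pullback c t).basicOpen z)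
    (hWz : (pullback c t).basicOpen z ≤ W) (w : L.Sec W) :
    ∃ (n : ℕ) (s : L.Sec U), L.resSec hW s = res hW z ^ n • w := by
  obtain ⟨n, s, hs⟩ := L.exists_extend hU z (L.resSec hWz w)
  refine ⟨n, s, ?_⟩
  have h := congrArg (L.resSec hzW) hs
  rwa [L.resSec_resSec, L.resSec_smul, map_pow, res_res, L.resSec_resSec, L.resSec_self] at h

variable (hb : Function.Bijective (D.diff t L 1))

/-- The pair of lattices of a bundle with vanishing cohomology. -/
def splitPair : SplitPair R (SecOver (pullback.snd c t) L (D.WT t)) where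
  x := secMulEquiv (pullback.snd c t) L (D.yUnit t)⁻¹
  M := LinearMap.range (resU' D L)
  M' := LinearMap.range (resV' D L)
  x_mem := by
    rintro _ ⟨(s : L.Sec (D.UT t)), rfl⟩
    exact ⟨(D.xT t • s : L.Sec (D.UT t)), L.resSec_smul inf_le_left (D.xT t) s⟩
  symm_mem := by
    rintro _ ⟨(s : L.Sec (D.VT t)), rfl⟩
    exact ⟨(D.yT t • s : L.Sec (D.VT t)), L.resSec_smul inf_le_right (D.yT t) s⟩
  exhaust w := by
    obtain ⟨n, s, hs⟩ := exhaust_basicOpen L (D.isAffineOpen_UT t) inf_le_left
      (D.basicOpen_xT t).ge (D.basicOpen_xT t).le w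
    exact ⟨n, s, hs.trans (secMulEquiv_iterate (pullback.snd c t) L (D.yUnit t)⁻¹ n w).symm⟩
  exhaust' w := by
    obtain ⟨n, s, hs⟩ := exhaust_basicOpen L (D.isAffineOpen_VT t) inf_le_right
      (D.basicOpen_yT t).ge (D.basicOpen_yT t).le w
    refine ⟨n, s, hs.trans ?_⟩
    exact (secMulEquiv_iterate (pullback.snd c t) L (D.yUnit t) n w).symm
  bij := by
    set eU := LinearEquiv.ofInjective (resU' D L) (resU'_injective L)
    set eV := LinearEquiv.ofInjective (resV' D L) (resV'_injective L)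
    convert hb.comp (eU.symm.prodCongr eV.symm).bijective using 1
    funext p
    show (p.1 : SecOver (pullback.snd c t) L (D.WT t)) - _ =
      D.diff t L 1 (eU.symm p.1, eV.symm p.2)
    conv_lhs => rw [← eU.apply_symm_apply p.1, ← eV.apply_symm_apply p.2]
    show _ - ((D.yUnit t : Γ(pullback c t, D.WT t)) •
        (show L.Sec (D.WT t) from resV' D L (eV.symm p.2)) : L.Sec (D.WT t)) = _
    rw [CurveCover.diff, zpow_one]
    rfl

include hb

theorem mem_V0_iff (w : L.Sec (D.WT t)) :
    w ∈ (splitPair L hb).V0 ↔ ∃ g : L.Sec ⊤, L.resSec (le_top : D.WT t ≤ ⊤) g = w := by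
  constructor
  · rintro ⟨⟨(s : L.Sec (D.UT t)), rfl⟩, (s' : L.Sec (D.VT t)), hs'⟩
    obtain ⟨g, hg, -⟩ := L.exists_glueSec (le_top : D.UT t ≤ ⊤) (le_top : D.VT t ≤ ⊤)
      (D.UT_sup_VT t).ge s s' hs'.symm
    exact ⟨g, by rw [← L.resSec_resSec (inf_le_left : D.WT t ≤ D.UT t) le_top, hg]; rfl⟩
  · rintro ⟨g, rfl⟩
    exact ⟨⟨L.resSec (le_top : D.UT t ≤ ⊤) g,
        L.resSec_resSec (inf_le_left : D.WT t ≤ D.UT t) le_top g⟩,
      ⟨L.resSec (le_top : D.VT t ≤ ⊤) g,
        L.resSec_resSec (inf_le_right : D.WT t ≤ D.VT t) le_top g⟩⟩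

/-- Every section on the first chart is a global section modulo the fibre, uniquely. -/
theorem existsUnique_global (s : L.Sec (D.UT t)) :
    ∃ v : (splitPair L hb).V0, (∀ g : L.Sec ⊤,
        L.resSec (le_top : D.WT t ≤ ⊤) g = (v : SecOver (pullback.snd c t) L (D.WT t)) →
          ∃ w : L.Sec (D.UT t), s - L.resSec le_top g = D.fibreEq t • w) ∧
      ∀ (g : L.Sec ⊤) (w : L.Sec (D.UT t)), s - L.resSec le_top g = D.fibreEq t • w →
        L.resSec (le_top : D.WT t ≤ ⊤) g = (v : SecOver (pullback.snd c t) L (D.WT t)) := by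
  set P := splitPair L hb
  have hξ : ∀ w : L.Sec (D.UT t),
      L.resSec (inf_le_left : D.WT t ≤ D.UT t) (D.fibreEq t • w) =
      ((P.x (resU' D L w)) - coeffHom t D.c₀ • resU' D L w :
        SecOver (pullback.snd c t) L (D.WT t)) := fun w => by
    rw [L.resSec_smul, fibreEq, D.genU_scalarHom, map_sub, res_scalarHom, sub_smul]
    rfl
  have key := P.bijective_add_sub_smul (coeffHom t D.c₀)
  obtain ⟨⟨v, m, (w : L.Sec (D.UT t)), hw⟩, he⟩ := key.2 ⟨resU' D L s, ⟨s, rfl⟩⟩
  have he' : (v : SecOver (pullback.snd c t) L (D.WT t)) + (P.x m - coeffHom t D.c₀ • m) =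
      resU' D L s := congrArg Subtype.val he
  refine ⟨v, fun g hg => ⟨w, resU'_injective L ?_⟩, fun g w' hg => ?_⟩
  · show L.resSec (inf_le_left : D.WT t ≤ D.UT t) (s - L.resSec le_top g) =
      L.resSec (inf_le_left : D.WT t ≤ D.UT t) (D.fibreEq t • w)
    rw [hξ w, hw, map_sub, L.resSec_resSec, hg, sub_eq_iff_eq_add']
    exact he'.symm
  · have hgV : L.resSec (le_top : D.WT t ≤ ⊤) g ∈ P.V0 := (mem_V0_iff L hb _).mpr ⟨g, rfl⟩
    have h2 : (⟨v, m, w, hw⟩ : P.V0 × P.M) =
        (⟨_, hgV⟩, ⟨resU' D L w', ⟨w', rfl⟩⟩) := by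
      refine key.1 (he.trans (Subtype.ext ?_))
      show (show SecOver (pullback.snd c t) L (D.WT t) from L.resSec inf_le_left s) =
        (show SecOver (pullback.snd c t) L (D.WT t) from L.resSec le_top g) +
          (P.x (resU' D L w') - coeffHom t D.c₀ • resU' D L w')
      rw [← hξ, ← hg, map_sub, L.resSec_resSec]
      abel
    exact congrArg (fun p : P.V0 × P.M => (p.1 : SecOver (pullback.snd c t) L (D.WT t))) h2.symm

omit hb in
/-- Congruence modulo the split fibre. -/
theorem fibreEq_smul_mem {b : Γ(pullback c t, D.UT t)} (h : D.fibreEq t ∣ b)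
    (s : L.Sec (D.UT t)) : ∃ w : L.Sec (D.UT t), b • s = D.fibreEq t • w := by
  obtain ⟨a, rfl⟩ := h
  exact ⟨a • s, mul_smul _ _ _⟩

/-- A global section congruent modulo the fibre to a section on the first chart. -/
theorem exists_global (s : L.Sec (D.UT t)) : ∃ (g : L.Sec ⊤) (w : L.Sec (D.UT t)),
    s - L.resSec le_top g = D.fibreEq t • w := by
  obtain ⟨v, h1, -⟩ := existsUnique_global L hb s
  obtain ⟨g, hg⟩ := (mem_V0_iff L hb _).mp v.2
  exact ⟨g, h1 g hg⟩

theorem global_ext {g g' : L.Sec ⊤} {w : L.Sec (D.UT t)}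
    (h : L.resSec le_top g - L.resSec le_top g' = D.fibreEq t • w) :
    L.resSec (le_top : D.WT t ≤ ⊤) g = L.resSec (le_top : D.WT t ≤ ⊤) g' := by
  obtain ⟨v, -, h2⟩ := existsUnique_global L hb (L.resSec (le_top : D.UT t ≤ ⊤) g)
  rw [h2 g' w h, h2 g 0 (by rw [sub_self, smul_zero])]

/-- **Frames exist** where each point of the split fibre has a section of unit value. -/
theorem nonempty_frame_of_isUnit (G : Cocycle.SecFrame L (D.UT t)) (i₀ : Fin D.r → Fin G.n)
    (hu : ∀ j, IsUnit (D.valAt t j (L.pair (G.τ (i₀ j)) (G.σ (i₀ j))))) :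
    Nonempty (D.Frame t L) := by
  classical
  set P := splitPair L hb
  set σs : Fin D.r → L.Sec (D.UT t) := fun j => D.genU t (D.idem j) • G.σ (i₀ j)
  set sU : R →+* Γ(pullback c t, D.UT t) := scalarHom (pullback.snd c t) (D.UT t)
  choose v w hvw using fun j => exists_global L hb (σs j)
  let vP : Fin D.r → P.V0 := fun j => ⟨_, (mem_V0_iff L hb _).mpr ⟨v j, rfl⟩⟩
  let Φ : (Fin D.r → R) →ₗ[R] P.V0 := Fintype.linearCombination R vP
  have hΦ : ∀ a : Fin D.r → R, (Φ a : SecOver (pullback.snd c t) L (D.WT t)) =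
      L.resSec (le_top : D.WT t ≤ ⊤) (∑ j, scalarHom (pullback.snd c t) ⊤ (a j) • v j) := by
    intro a
    simp only [Φ, Fintype.linearCombination_apply, AddSubmonoidClass.coe_finsetSum, map_sum,
      L.resSec_smul, res_scalarHom]
    rfl
  have hcomb : ∀ a : Fin D.r → R,
      L.resSec (le_top : D.UT t ≤ ⊤) (∑ j, scalarHom (pullback.snd c t) ⊤ (a j) • v j) =
        ∑ j, sU (a j) • L.resSec (le_top : D.UT t ≤ ⊤) (v j) := fun a => by
    simp only [map_sum, L.resSec_smul, res_scalarHom, sU]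
  have hinj : Function.Injective Φ := by
    refine (injective_iff_map_eq_zero Φ).mpr fun a ha => ?_
    have h0 : L.resSec (le_top : D.UT t ≤ ⊤)
        (∑ j, scalarHom (pullback.snd c t) ⊤ (a j) • v j) = 0 := by
      refine resU'_injective L ?_
      show L.resSec (inf_le_left : D.WT t ≤ D.UT t) (L.resSec (le_top : D.UT t ≤ ⊤)
        (∑ j, scalarHom (pullback.snd c t) ⊤ (a j) • v j)) = resU' D L 0
      rw [map_zero, L.resSec_resSec, ← hΦ, ha]
      rfl
    rw [hcomb] at h0
    funext l
    obtain ⟨W, hW⟩ : ∃ W, ∑ j, sU (a j) • σs j = D.fibreEq t • W :=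
      ⟨∑ j, sU (a j) • w j, by
        rw [Finset.smul_sum, ← sub_zero (∑ j, sU (a j) • σs j), ← h0, ← Finset.sum_sub_distrib]
        exact Finset.sum_congr rfl fun j _ => by rw [← smul_sub, hvw, smul_comm]⟩
    have h1 := congrArg (fun z => D.genU t (D.idem l) * L.pair (G.τ (i₀ l)) z) hW
    simp only [σs, ← mul_smul, L.pair_smul] at h1
    rw [show L.pair (G.τ (i₀ l)) (∑ j, (sU (a j) * D.genU t (D.idem j)) • G.σ (i₀ j)) =
        ∑ j, sU (a j) * D.genU t (D.idem j) * L.pair (G.τ (i₀ l)) (G.σ (i₀ j)) from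
      (map_sum (L.pairL (G.τ (i₀ l))) _ _).trans
        (Finset.sum_congr rfl fun j _ => L.pair_smul _ _ _), Finset.mul_sum] at h1
    set u := D.valAt t l (L.pair (G.τ (i₀ l)) (G.σ (i₀ l)))
    have hd : D.fibreEq t ∣ ∑ j, D.genU t (D.idem l) *
        (sU (a j) * D.genU t (D.idem j) * L.pair (G.τ (i₀ l)) (G.σ (i₀ j))) :=
      ⟨D.genU t (D.idem l) * L.pair (G.τ (i₀ l)) W, by rw [h1]; ring⟩
    rw [Finset.sum_eq_add_sum_sdiff_singleton_of_mem (Finset.mem_univ l)] at hd
    have hd2 : D.fibreEq t ∣ sU (a l) * (D.genU t (D.idem l) * D.genU t (D.idem l)) *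
        L.pair (G.τ (i₀ l)) (G.σ (i₀ l)) := by
      have h3 : D.fibreEq t ∣ ∑ j ∈ Finset.univ \ {l}, D.genU t (D.idem l) *
          (sU (a j) * D.genU t (D.idem j) * L.pair (G.τ (i₀ l)) (G.σ (i₀ j))) := by
        refine Finset.dvd_sum fun j hj => ?_
        have hjl : l ≠ j := fun e => by simp [e] at hj
        obtain ⟨b, hb'⟩ := D.fibreEq_dvd_genU t (D.dvd_idem_mul_idem hjl)
        rw [map_mul] at hb'
        exact ⟨sU (a j) * b * L.pair (G.τ (i₀ l)) (G.σ (i₀ j)),
          by linear_combination (sU (a j) * L.pair (G.τ (i₀ l)) (G.σ (i₀ j))) * hb'⟩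
      convert (dvd_add_left h3).mp hd using 1
      ring
    obtain ⟨b₁, hb₁⟩ := hd2
    obtain ⟨b₂, hb₂⟩ := D.fibreEq_dvd_genU t (D.dvd_idem_sq l)
    rw [map_sub, map_mul] at hb₂
    obtain ⟨b₃, hb₃⟩ := D.dvd_valAt t l (L.pair (G.τ (i₀ l)) (G.σ (i₀ l)))
    have h4 : D.fibreEq t ∣ sU (a l * u) * D.genU t (D.idem l) := by
      refine ⟨b₁ - sU (a l) * L.pair (G.τ (i₀ l)) (G.σ (i₀ l)) * b₂ - sU (a l) * b₃, ?_⟩
      rw [map_mul]
      linear_combination hb₁ - (sU (a l) * L.pair (G.τ (i₀ l)) (G.σ (i₀ l))) * hb₂ -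
        sU (a l) * hb₃
    exact (hu l).mul_left_eq_zero.mp (D.eq_zero_of_dvd_scalar_idem t l h4)
  have hsurj : Function.Surjective Φ := by
    intro x
    obtain ⟨g, hg⟩ := (mem_V0_iff L hb _).mp x.2
    set gU := L.resSec (le_top : D.UT t ≤ ⊤) g
    let a : Fin D.r → R := fun j =>
      D.valAt t j (L.pair (G.τ (i₀ j)) gU) * ↑(hu j).unit⁻¹
    refine ⟨a, Subtype.ext ?_⟩
    rw [hΦ, ← hg]
    refine Eq.symm ?_
    suffices h : ∃ W, gU - ∑ j, sU (a j) • L.resSec (le_top : D.UT t ≤ ⊤) (v j) =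
        D.fibreEq t • W by
      obtain ⟨W, hW⟩ := h
      exact global_ext L hb (w := W) (by rw [hcomb]; exact hW)
    -- each component agrees modulo the fibre
    have hj : ∀ j, ∃ W, D.genU t (D.idem j) • gU - sU (a j) • σs j = D.fibreEq t • W := fun j => by
      set p₀ := L.pair (G.τ (i₀ j)) (G.σ (i₀ j))
      set p₁ := L.pair (G.τ (i₀ j)) gU
      have hswap : p₁ • G.σ (i₀ j) = p₀ • gU :=
        G.toFrame.swap (L.pairL (G.τ (i₀ j))) gU (G.σ (i₀ j))
      obtain ⟨b₀, hb₀⟩ := D.dvd_valAt t j p₀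
      obtain ⟨b₁, hb₁⟩ := D.dvd_valAt t j p₁
      set u := D.valAt t j p₀
      set e := D.genU t (D.idem j)
      have hunit : sU ↑(hu j).unit⁻¹ * sU u = 1 := by
        rw [← map_mul, IsUnit.val_inv_mul, map_one]
      have ha' : sU (a j) = sU (D.valAt t j p₁) * sU ↑(hu j).unit⁻¹ := map_mul sU _ _
      refine ⟨(-sU ↑(hu j).unit⁻¹ * b₀) • gU + (sU ↑(hu j).unit⁻¹ * b₁) • G.σ (i₀ j), ?_⟩
      calc e • gU - sU (a j) • σs j
          = (e * (sU ↑(hu j).unit⁻¹ * sU u)) • gU -
              (sU ↑(hu j).unit⁻¹ * (sU (D.valAt t j p₁) * e)) • G.σ (i₀ j) := by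
            rw [hunit, mul_one, ha']
            show _ - _ • e • _ = _
            rw [← mul_smul]
            congr 2
            ring
        _ = (e * (sU ↑(hu j).unit⁻¹ * p₀) - D.fibreEq t * (sU ↑(hu j).unit⁻¹ * b₀)) • gU -
              ((e * sU ↑(hu j).unit⁻¹) * p₁ - D.fibreEq t * (sU ↑(hu j).unit⁻¹ * b₁)) •
                G.σ (i₀ j) := by
            congr 2
            · linear_combination -(sU ↑(hu j).unit⁻¹) * hb₀
            · linear_combination -(sU ↑(hu j).unit⁻¹) * hb₁
        _ = _ := by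
            rw [sub_smul, sub_smul, ← mul_assoc e _ p₀, mul_smul _ p₀, mul_smul _ p₁, hswap]
            simp only [smul_add, mul_smul, neg_mul, neg_smul, smul_neg]
            abel
    choose W hW using hj
    obtain ⟨W₀, hW₀⟩ := fibreEq_smul_mem L (D.fibreEq_dvd_genU t D.dvd_one_sub_sum_idem) gU
    refine ⟨W₀ + ∑ j, W j + ∑ j, sU (a j) • w j, ?_⟩
    rw [smul_add, smul_add, ← hW₀, Finset.smul_sum, Finset.smul_sum]
    simp only [smul_comm (D.fibreEq t) (sU _), ← hvw, ← hW, map_sub, map_one, map_sum, sub_smul,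
      one_smul, smul_sub, Finset.sum_smul, Finset.sum_sub_distrib]
    abel
  let e := LinearEquiv.ofBijective Φ ⟨hinj, hsurj⟩
  let b : Module.Basis (Fin D.r) R P.V0 := (Pi.basisFun R (Fin D.r)).map e
  have hbv : ∀ j, (b j : SecOver (pullback.snd c t) L (D.WT t)) =
      L.resSec (le_top : D.WT t ≤ ⊤) (v j) := fun j => by
    show ((Φ (Pi.basisFun R (Fin D.r) j) : P.V0) : SecOver (pullback.snd c t) L (D.WT t)) = _
    rw [Pi.basisFun_apply, Fintype.linearCombination_apply_single, one_smul]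
  let b' : Module.Basis (Fin D.r) R P.swap.V0 := b.map (LinearEquiv.ofEq _ _ P.swap_V0.symm)
  refine ⟨{ v := v, basisU := ?_, basisV := ?_, diag := fun a j => ?_ }⟩
  · have h := ((LinearEquiv.ofInjective (resU' D L) (resU'_injective L)).symm.bijective).comp
      (P.frameM_bijective b)
    convert (show Function.Bijective fun p : Fin D.r → R[X] => (show L.Sec (D.UT t) from
      (LinearEquiv.ofInjective (resU' D L) (resU'_injective L)).symm (P.frameM b p)) from h) using 1
    funext p
    refine resU'_injective L ?_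
    show L.resSec (inf_le_left : D.WT t ≤ D.UT t)
      (∑ i, D.evalU t (p i) • L.resSec (le_top : D.UT t ≤ ⊤) (v i)) = resU' D L
      ((LinearEquiv.ofInjective (resU' D L) (resU'_injective L)).symm (P.frameM b p))
    rw [← LinearEquiv.ofInjective_apply (h := resU'_injective L), LinearEquiv.apply_symm_apply]
    show _ = P.frame b p
    rw [SplitPair.frame_apply, map_sum]
    refine Finset.sum_congr rfl fun i _ => ?_
    rw [L.resSec_smul, D.res_evalU, L.resSec_resSec, hbv]
    exact (aeval_secMul_apply (pullback.snd c t) L (D.yUnit t)⁻¹ (p i) _).symm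
  · have h := ((LinearEquiv.ofInjective (resV' D L) (resV'_injective L)).symm.bijective).comp
      (P.swap.frameM_bijective b')
    convert (show Function.Bijective fun p : Fin D.r → R[X] => (show L.Sec (D.VT t) from
      (LinearEquiv.ofInjective (resV' D L) (resV'_injective L)).symm (P.swap.frameM b' p)) from h)
      using 1
    funext p
    refine resV'_injective L ?_
    show L.resSec (inf_le_right : D.WT t ≤ D.VT t)
      (∑ i, D.evalV t (p i) • L.resSec (le_top : D.VT t ≤ ⊤) (v i)) = resV' D L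
      ((LinearEquiv.ofInjective (resV' D L) (resV'_injective L)).symm (P.swap.frameM b' p))
    rw [← LinearEquiv.ofInjective_apply (h := resV'_injective L), LinearEquiv.apply_symm_apply]
    show _ = P.swap.frame b' p
    rw [SplitPair.frame_apply, map_sum]
    refine Finset.sum_congr rfl fun i _ => ?_
    rw [L.resSec_smul, D.res_evalV, L.resSec_resSec, show (b' i : SecOver (pullback.snd c t) L
      (D.WT t)) = L.resSec (le_top : D.WT t ≤ ⊤) (v i) from hbv i]
    exact (aeval_secMul_apply (pullback.snd c t) L (D.yUnit t) (p i) _).symm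
  · obtain ⟨W, hW⟩ := fibreEq_smul_mem L (D.fibreEq_dvd_genU t (D.dvd_mul_idem a j))
      (G.σ (i₀ j))
    refine ⟨W - (D.genU t a - D.genU t (scalarHom c D.U (D.evalPt j a))) • w j, ?_⟩
    show _ = D.fibreEq t • _
    rw [smul_sub, ← hW, smul_comm, ← hvw, smul_sub, map_mul, map_sub, mul_smul]
    abel

end CurveCover

end FLTAgent.RelPicard

end
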