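import Fermat.Agent.RelPicard.AffineSectionsDictionary
import Fermat.Agent.RelPicard.DegreeFamily
import Fermat.Agent.RelPicard.FrameExists

/-!
# Frames near a fibre with vanishing cohomology

If on one fibre the twist of a bundle by the fibre at infinity has no cohomology, then on a basic
open neighbourhood of it the bundle has a frame, on every base change inverting the equation.

Main results: `exists_frame_near` and its case of localisation `exists_frame_away`; used by
`ChartInputOfFrames`.
-/

set_option autoImplicit false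

universe u

open CategoryTheory CategoryTheory.Limits AlgebraicGeometry TopologicalSpace NeronModelInfra
  AlgebraicGeometry.RelPicard

noncomputable section

namespace FLTAgent.RelPicard.CurveCover

variable {k : Type u} [Field k] {C : Scheme.{u}} {c : C ⟶ Spec (CommRingCat.of k)}
  (D : CurveCover k c) {R : Type u} [CommRing R]
  (t : Spec (CommRingCat.of R) ⟶ Spec (CommRingCat.of k))

/-- **Frames exist near a fibre with vanishing cohomology.** -/
theorem exists_frame_near (N : Cocycle (pullback c t)) {K : Type u} [Field K] (g : R →+* K)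
    (hb : Function.Bijective
      (D.diff (Spec.map (CommRingCat.ofHom g) ≫ t) (N.pullback (mapT t g)) 1)) :
    ∃ h : R, g h ≠ 0 ∧ ∀ (S : Type u) [CommRing S] (φ : R →+* S), IsUnit (φ h) →
      Nonempty (D.Frame (Spec.map (CommRingCat.ofHom φ) ≫ t) (N.pullback (mapT t φ))) := by
  classical
  obtain ⟨P, hP⟩ := D.exists_pairData t N
  have hP' : D.IsPairModel t N P := fun S _ f => hP f
  obtain ⟨h₁, hg₁, hnear⟩ := hP'.exists_bijective_diff_near 1 g hb
  obtain ⟨G⟩ := Cocycle.nonempty_secFrame N (D.isAffineOpen_UT t)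
  have hsum : ∀ j, ∃ i, g (D.valAt t j (N.pair (G.τ i) (G.σ i))) ≠ 0 := fun j => by
    by_contra hne
    push Not at hne
    have h1 := congrArg g (congrArg (D.valAt t j) G.sum_pair)
    rw [D.valAt_sum, D.valAt_one, map_sum, map_one, Finset.sum_eq_zero fun i _ => hne i] at h1
    exact zero_ne_one h1
  choose i₀ hi₀ using hsum
  refine ⟨h₁ * ∏ j, D.valAt t j (N.pair (G.τ (i₀ j)) (G.σ (i₀ j))), ?_, fun S _ φ hφ => ?_⟩
  · rw [map_mul, map_prod]
    exact mul_ne_zero hg₁ (Finset.prod_ne_zero_iff.mpr fun j _ => hi₀ j)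
  rw [map_mul, IsUnit.mul_iff, map_prod, IsUnit.prod_iff] at hφ
  refine nonempty_frame_of_isUnit _ (hnear S φ hφ.1)
    (G.pull (mapT t φ) (D.mapT_preimage_UT t φ).ge) i₀ fun j => ?_
  show IsUnit (D.valAt _ j ((N.pullback (mapT t φ)).pair (N.pullInvSec (mapT t φ) _ (G.τ (i₀ j)))
    (N.pullSec (mapT t φ) _ (G.σ (i₀ j)))))
  rw [Cocycle.pair_pullSec, D.valAt_pull]
  exact hφ.2 j (Finset.mem_univ j)

/-- Frames exist on a basic open neighbourhood of a fibre with vanishing cohomology. -/
theorem exists_frame_away (N : Cocycle (pullback c t)) {K : Type u} [Field K] (g : R →+* K)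
    (hb : Function.Bijective
      (D.diff (Spec.map (CommRingCat.ofHom g) ≫ t) (N.pullback (mapT t g)) 1)) :
    ∃ h : R, g h ≠ 0 ∧
      Nonempty (D.Frame (Spec.map (CommRingCat.ofHom (algebraMap R (Localization.Away h))) ≫ t)
        (N.pullback (mapT t (algebraMap R (Localization.Away h))))) :=
  let ⟨h, hh, H⟩ := D.exists_frame_near t N g hb
  ⟨h, hh, H _ (algebraMap R (Localization.Away h)) (IsLocalization.Away.algebraMap_isUnit h)⟩

end FLTAgent.RelPicard.CurveCover

end
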