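import Fermat.Agent.RelPicard.FrameMaps

/-!
# Base change of frames

Bases of sections over the polynomial rings survive base change, since sections over an affine
open set have frames by sections pairing to one.

Main declarations: `baseChange`, `mat_baseChange`.
-/

set_option autoImplicit false

universe u

open CategoryTheory CategoryTheory.Limits AlgebraicGeometry TopologicalSpace NeronModelInfra
  Polynomial AlgebraicGeometry.RelPicard

noncomputable section

namespace FLTAgent.RelPicard

theorem pull_eval₂ {R S : Type u} [CommRing R] [CommRing S] {X Y : Scheme.{u}}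
    (π : X ⟶ Spec (CommRingCat.of R)) (π' : Y ⟶ Spec (CommRingCat.of S)) (g : Y ⟶ X) (f : R →+* S)
    (h : g ≫ π = π' ≫ Spec.map (CommRingCat.ofHom f)) {U : X.Opens} {U' : Y.Opens}
    (hU : U' ≤ g ⁻¹ᵁ U) (z : Γ(X, U)) (p : R[X]) :
    pull g hU (p.eval₂ (scalarHom π U) z) =
      (p.map f).eval₂ (scalarHom π' U') (pull g hU z) := by
  rw [Polynomial.hom_eval₂, Polynomial.eval₂_map]
  congr 1
  exact RingHom.ext fun a => appLE_scalarHom π π' g f h hU a

theorem polyComb_mul_eval₂ {R : Type u} [CommRing R] {X : Scheme.{u}}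
    (π : X ⟶ Spec (CommRingCat.of R)) (U : X.Opens) (z : Γ(X, U)) {r : ℕ} (w : Fin r → Γ(X, U))
    (q : R[X]) (p : Fin r → R[X]) :
    q.eval₂ (scalarHom π U) z * polyComb π U z w p = polyComb π U z w fun i => q * p i := by
  simp only [polyComb, Finset.mul_sum, eval₂_mul, mul_assoc]

namespace Cocycle

variable {X Y : Scheme.{u}}

theorem pullSec_resSec_comm (g : Y ⟶ X) (c : Cocycle X) {U U₀ : X.Opens} {U' U₀' : Y.Opens}
    (hU : U' ≤ g ⁻¹ᵁ U) (h₀ : U₀' ≤ g ⁻¹ᵁ U₀) (h : U₀ ≤ U) (h' : U₀' ≤ U') (s : c.Sec U) :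
    c.pullSec g h₀ (c.resSec h s) = (c.pullback g).resSec h' (c.pullSec g hU s) :=
  Subtype.ext (funext fun x => by
    show pull g _ (res _ (s.1 (g.base x))) = res _ (pull g _ (s.1 (g.base x)))
    rw [pull_res, res_pull])

end Cocycle

/-- Bases over polynomial rings of the sections over an affine open set survive base change. -/
theorem bijective_pullSec_comb {R S : Type u} [CommRing R] [CommRing S] {X Y : Scheme.{u}}
    (π : X ⟶ Spec (CommRingCat.of R)) (π' : Y ⟶ Spec (CommRingCat.of S)) (g : Y ⟶ X) (f : R →+* S)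
    (h : g ≫ π = π' ≫ Spec.map (CommRingCat.ofHom f)) (L : Cocycle X) {U : X.Opens} {U' : Y.Opens}
    (hUaff : IsAffineOpen U) (hU : U' ≤ g ⁻¹ᵁ U) (z : Γ(X, U)) {r m : ℕ} (w : Fin r → Γ(X, U))
    (hw : Function.Bijective (polyComb π U z w))
    (hw' : Function.Bijective (polyComb π' U' (pull g hU z) fun i => pull g hU (w i)))
    (v : Fin m → L.Sec U)
    (hv : Function.Bijective fun p : Fin m → R[X] => ∑ j, (p j).eval₂ (scalarHom π U) z • v j) :
    Function.Bijective fun p : Fin m → S[X] =>
      ∑ j, (p j).eval₂ (scalarHom π' U') (pull g hU z) • L.pullSec g hU (v j) := by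
  classical
  obtain ⟨F⟩ := Cocycle.nonempty_secFrame L hUaff
  let ev : R[X] →+* Γ(X, U) := eval₂RingHom (scalarHom π U) z
  let ev' : S[X] →+* Γ(Y, U') := eval₂RingHom (scalarHom π' U') (pull g hU z)
  let P : (Fin m → R[X]) →+ L.Sec U :=
    { toFun := fun p => ∑ j, ev (p j) • v j
      map_zero' := by simp
      map_add' := fun p q => by simp [add_smul, Finset.sum_add_distrib] }
  have hP : Function.Bijective P := hv
  have hev : ∀ q, pull g hU (ev q) = ev' (q.map f) := pull_eval₂ π π' g f h hU z
  choose c hc using fun (il : Fin F.n × Fin r) => hP.2 (w il.2 • F.σ il.1)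
  choose q hq using fun (ij : Fin F.n × Fin m) => hw.2 (L.pair (F.τ ij.1) (v ij.2))
  have hpair : ∀ i j, L.pair (F.τ i) (v j) = ∑ l, ev (q (i, j) l) * w l :=
    fun i j => (hq (i, j)).symm
  -- the left inverse of the coordinates
  have hid : ∀ j, (fun n => ∑ i, ∑ l, q (i, j) l * c (i, l) n) = Pi.single j 1 := fun j => by
    refine hP.1 ?_
    have e : P (Pi.single j 1) = v j := by
      show ∑ n, ev ((Pi.single j (1 : R[X]) : Fin m → R[X]) n) • v n = v j
      rw [Finset.sum_eq_single j (fun n _ hn => by rw [Pi.single_eq_of_ne hn, map_zero, zero_smul])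
        (fun hj => absurd (Finset.mem_univ j) hj), Pi.single_eq_same, map_one, one_smul]
    rw [e]
    conv_rhs => rw [← F.sum_smul (v j)]
    simp only [hpair, Finset.sum_smul, mul_smul, fun i l => (hc (i, l)).symm]
    show ∑ n, ev (∑ i, ∑ l, q (i, j) l * c (i, l) n) • v n =
      ∑ i, ∑ l, ev (q (i, j) l) • ∑ n, ev (c (i, l) n) • v n
    simp only [map_sum, map_mul, Finset.sum_smul, Finset.smul_sum, mul_smul]
    rw [Finset.sum_comm]
    exact Finset.sum_congr rfl fun i _ => Finset.sum_comm
  let F' := F.pull g hU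
  refine ⟨fun p p' hpp => ?_, fun s => ?_⟩
  · rw [← sub_eq_zero]
    set d := p - p'
    have hd : ∑ j, ev' (d j) • L.pullSec g hU (v j) = 0 := by
      simp only [d, Pi.sub_apply, map_sub, sub_smul, Finset.sum_sub_distrib, sub_eq_zero]
      exact hpp
    have hcol : ∀ i l, ∑ j, d j * (q (i, j) l).map f = 0 := fun i => by
      refine congrFun (hw'.1 (a₂ := 0) ?_)
      have e := congrArg ((L.pullback g).pairL (F'.τ i)) hd
      rw [map_sum, map_zero] at e
      simp only [map_smul, smul_eq_mul] at e
      rw [show polyComb π' U' (pull g hU z) (fun i => pull g hU (w i)) 0 = 0 by simp [polyComb],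
        ← e]
      show ∑ l, ev' (∑ j, d j * (q (i, j) l).map f) * pull g hU (w l) =
        ∑ j, ev' (d j) * (L.pullback g).pair (L.pullInvSec g hU (F.τ i)) (L.pullSec g hU (v j))
      simp only [Cocycle.pair_pullSec, hpair, map_sum, map_mul, hev, Finset.mul_sum, Finset.sum_mul,
        mul_assoc]
      exact Finset.sum_comm
    funext n
    have hn := fun j => congrArg (Polynomial.map f) (congrFun (hid j) n)
    simp only [Polynomial.map_sum, Polynomial.map_mul] at hn
    calc d n = ∑ j, d j * ((Pi.single j (1 : R[X]) : Fin m → R[X]) n).map f := by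
          rw [Finset.sum_eq_single n (fun j _ hj => by
              rw [Pi.single_eq_of_ne (Ne.symm hj), Polynomial.map_zero, mul_zero])
            (fun hj => absurd (Finset.mem_univ n) hj), Pi.single_eq_same,
              Polynomial.map_one, mul_one]
      _ = ∑ i, ∑ l, (∑ j, d j * (q (i, j) l).map f) * (c (i, l) n).map f := by
          simp only [← hn, Finset.mul_sum, Finset.sum_mul, mul_assoc]
          rw [Finset.sum_comm]
          exact Finset.sum_congr rfl fun i _ => Finset.sum_comm
      _ = 0 := by simp [hcol]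
  · choose p hp using fun i => hw'.2 ((L.pullback g).pair (F'.τ i) s)
    refine ⟨fun n => ∑ i, ∑ l, p i l * (c (i, l) n).map f, ?_⟩
    show ∑ n, ev' _ • L.pullSec g hU (v n) = s
    refine Eq.trans ?_ (F'.sum_smul s)
    show _ = ∑ i, (L.pullback g).pair (F'.τ i) s • L.pullSec g hU (F.σ i)
    simp only [← hp]
    show _ = ∑ i, (∑ l, ev' (p i l) * pull g hU (w l)) • L.pullSec g hU (F.σ i)
    simp only [Finset.sum_smul, mul_smul, ← Cocycle.pullSec_smul, fun i l => (hc (i, l)).symm]
    show _ = ∑ i, ∑ l, ev' (p i l) • L.pullSec g hU (∑ n, ev (c (i, l) n) • v n)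
    simp only [map_sum, map_mul, Cocycle.pullSec_smul, hev, Finset.sum_smul, Finset.smul_sum,
      mul_smul]
    rw [Finset.sum_comm]
    exact Finset.sum_congr rfl fun i _ => Finset.sum_comm

namespace CurveCover

variable {k : Type u} [Field k] {C : Scheme.{u}} {c : C ⟶ Spec (CommRingCat.of k)}
  {D : CurveCover k c} {R : Type u} [CommRing R]
  {t : Spec (CommRingCat.of R) ⟶ Spec (CommRingCat.of k)} {S : Type u} [CommRing S]

theorem pull_genU (f : R →+* S) (a : Γ(C, D.U)) :
    pull (mapT t f) (D.mapT_preimage_UT t f).ge (D.genU t a) =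
      D.genU (Spec.map (CommRingCat.ofHom f) ≫ t) a :=
  mapT_app t f D.U a

theorem pull_evalU (f : R →+* S) (p : R[X]) :
    pull (mapT t f) (D.mapT_preimage_UT t f).ge (D.evalU t p) =
      D.evalU (Spec.map (CommRingCat.ofHom f) ≫ t) (p.map f) :=
  (pull_eval₂ (pullback.snd c t) (pullback.snd c (Spec.map (CommRingCat.ofHom f) ≫ t)) (mapT t f) f
    (mapT_snd t f) _ _ _).trans
    (congrArg (fun z => (p.map f).eval₂ _ z) (D.mapT_xT t f))

namespace Frame

variable {L : Cocycle (pullback c t)} (F : D.Frame t L) (f : R →+* S)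

theorem top_le_mapT_preimage :
    (⊤ : (pullback c (Spec.map (CommRingCat.ofHom f) ≫ t)).Opens) ≤ mapT t f ⁻¹ᵁ ⊤ :=
  fun _ _ => trivial

theorem resSec_pullSec_top {U : (pullback c t).Opens}
    {U' : (pullback c (Spec.map (CommRingCat.ofHom f) ≫ t)).Opens} (hU : U' ≤ mapT t f ⁻¹ᵁ U)
    (s : L.Sec ⊤) :
    (L.pullback (mapT t f)).resSec (le_top : U' ≤ ⊤)
        (L.pullSec (mapT t f) (top_le_mapT_preimage f) s) =
      L.pullSec (mapT t f) hU (L.resSec le_top s) :=
  (L.pullSec_resSec_comm (mapT t f) (top_le_mapT_preimage f) hU le_top le_top s).symm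

/-- Base change of a frame. -/
def baseChange : D.Frame (Spec.map (CommRingCat.ofHom f) ≫ t) (L.pullback (mapT t f)) where
  v i := L.pullSec (mapT t f) (top_le_mapT_preimage f) (F.v i)
  basisU := by
    have h := bijective_pullSec_comb (pullback.snd c t)
      (pullback.snd c (Spec.map (CommRingCat.ofHom f) ≫ t)) (mapT t f) f (mapT_snd t f) L
      (D.isAffineOpen_UT t) (D.mapT_preimage_UT t f).ge (D.xT t) (D.wUT t)
      (D.bijective_polyComb_UT t) (by
        have e : (fun i => pull (mapT t f) (D.mapT_preimage_UT t f).ge (D.wUT t i)) = D.wUT _ :=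
          funext fun i => D.mapT_wUT t f i
        rw [e, show pull (mapT t f) (D.mapT_preimage_UT t f).ge (D.xT t) = D.xT _ from
          D.mapT_xT t f]
        exact D.bijective_polyComb_UT _) F.vU F.basisU
    convert h using 1
    funext p
    refine Finset.sum_congr rfl fun i _ => ?_
    rw [show pull (mapT t f) (D.mapT_preimage_UT t f).ge (D.xT t) = D.xT _ from D.mapT_xT t f,
      resSec_pullSec_top f (D.mapT_preimage_UT t f).ge]
    rfl
  basisV := by
    have h := bijective_pullSec_comb (pullback.snd c t)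
      (pullback.snd c (Spec.map (CommRingCat.ofHom f) ≫ t)) (mapT t f) f (mapT_snd t f) L
      (D.isAffineOpen_VT t) (D.mapT_preimage_VT t f).ge (D.yT t) (D.wVT t)
      (D.bijective_polyComb_VT t) (by
        have e : (fun i => pull (mapT t f) (D.mapT_preimage_VT t f).ge (D.wVT t i)) = D.wVT _ :=
          funext fun i => D.mapT_wVT t f i
        rw [e, show pull (mapT t f) (D.mapT_preimage_VT t f).ge (D.yT t) = D.yT _ from
          D.mapT_yT t f]
        exact D.bijective_polyComb_VT _) F.vV F.basisV
    convert h using 1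
    funext p
    refine Finset.sum_congr rfl fun i _ => ?_
    rw [show pull (mapT t f) (D.mapT_preimage_VT t f).ge (D.yT t) = D.yT _ from D.mapT_yT t f,
      resSec_pullSec_top f (D.mapT_preimage_VT t f).ge]
    rfl
  diag a j := by
    obtain ⟨s, hs⟩ := F.diag a j
    refine ⟨L.pullSec (mapT t f) (D.mapT_preimage_UT t f).ge s, ?_⟩
    rw [resSec_pullSec_top f (D.mapT_preimage_UT t f).ge, ← D.pull_genU f a, ← D.pull_genU f,
      ← D.pull_genU f (scalarHom c D.U D.c₀), ← map_sub, ← L.pullSec_smul, hs, L.pullSec_smul,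
      map_sub, show pull (mapT t f) (D.mapT_preimage_UT t f).ge (D.xT t) = D.xT _ from
        D.mapT_xT t f]

theorem combU_baseChange (p : Fin D.r → R[X]) :
    (F.baseChange f).combU (fun i => (p i).map f) =
      L.pullSec (mapT t f) (D.mapT_preimage_UT t f).ge (F.combU p) := by
  show ∑ i, D.evalU _ ((p i).map f) •
      (L.pullback (mapT t f)).resSec le_top
        (L.pullSec (mapT t f) (top_le_mapT_preimage f) (F.v i)) =
    L.pullSec (mapT t f) (D.mapT_preimage_UT t f).ge (∑ i, D.evalU t (p i) • F.vU i)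
  simp only [map_sum]
  exact Finset.sum_congr rfl fun i _ => by
    rw [resSec_pullSec_top f (D.mapT_preimage_UT t f).ge, L.pullSec_smul, D.pull_evalU]; rfl

/-- The matrices of a base change are the images of the matrices. -/
theorem mat_baseChange (a : Γ(C, D.U)) :
    (F.baseChange f).mat a = (F.mat a).map (Polynomial.map f) := by
  refine Matrix.ext fun i j => (F.baseChange f).mat_eq_of_combU a
    (q := fun i => (F.mat a i j).map f) ?_ i
  have h1 : (F.baseChange f).vU j =
      L.pullSec (mapT t f) (D.mapT_preimage_UT t f).ge (F.vU j) := resSec_pullSec_top f _ (F.v j)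
  rw [h1, F.combU_baseChange, ← D.pull_genU f a, ← L.pullSec_smul]
  exact congrArg (L.pullSec _ _) (F.genU_smul_vU a j)

end Frame

end CurveCover

end FLTAgent.RelPicard

end
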