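import Fermat.Agent.RelPicard.Frame
import Fermat.Agent.RelPicard.ChartSpecOfCover
import Fermat.Agent.RelPicard.AffineSections
import Fermat.Agent.RelPicard.CurveBasics

/-!
# Spanning trees of the matrices of a frame over a field

The sections over the first chart of a bundle on an integral curve form a module of rank one over a
domain, so no coordinate splitting is preserved by all its functions, and the matrices of the
generators carry a spanning tree of nonzero coefficients.

Main result: `exists_tree`; used by `ChartInputOfFrames`.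
-/

set_option autoImplicit false

universe u v

open CategoryTheory CategoryTheory.Limits AlgebraicGeometry TopologicalSpace NeronModelInfra
  Polynomial

noncomputable section

namespace FLTAgent.RelPicard

/-- A module with a rank one frame over a domain embeds into the domain. -/
theorem RankOneFrame.exists_injective {A : Type u} [CommRing A] [IsDomain A] {M : Type v}
    [AddCommGroup M] [Module A M] (F : RankOneFrame A M) :
    ∃ f : M →ₗ[A] A, Function.Injective f := by
  obtain ⟨i, hi⟩ : ∃ i, F.τ i (F.σ i) ≠ 0 := by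
    by_contra h
    push Not at h
    exact one_ne_zero (α := A) (F.sum_one.symm.trans (Finset.sum_eq_zero fun i _ => h i))
  refine ⟨F.τ i, (injective_iff_map_eq_zero _).mpr fun m hm => F.coords_injective ?_⟩
  have h := congrArg F.coords (F.swap (F.τ i) m (F.σ i))
  rw [map_smul, map_smul, hm, zero_smul] at h
  rw [map_zero]
  funext l
  exact (mul_eq_zero.mp (congrFun h l).symm).resolve_left hi

namespace CurveCover.Frame

variable {k : Type u} [Field k] [IsAlgClosed k] {C : Scheme.{u}}
  {c : C ⟶ Spec (CommRingCat.of k)} [IsIntegral C] {D : CurveCover k c}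
  {K : Type u} [Field K] {t : Spec (CommRingCat.of K) ⟶ Spec (CommRingCat.of k)}
  {N : Cocycle (pullback c t)}

/-- No coordinate splitting is preserved by the generators. -/
theorem exists_mat_ne_zero (F : D.Frame t N) {l : ℕ} (gen : Fin l → Γ(C, D.U))
    (hgen : ∀ i, ∃ g, gen g = D.wU i) (s : Finset (Fin D.r)) (hs : s.Nonempty)
    (hs' : s ≠ Finset.univ) :
    ∃ g, ∃ a ∈ s, ∃ b ∉ s, F.mat (gen g) a b ≠ 0 ∨ F.mat (gen g) b a ≠ 0 := by
  classical
  have := isIntegral_fibre c t
  have : Nonempty (D.UT t) := nonempty_fibre c t D.nonempty_U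
  obtain ⟨SF⟩ := N.nonempty_secFrame (D.isAffineOpen_UT t)
  obtain ⟨f, hf⟩ := SF.toFrame.exists_injective
  let : Algebra K[X] Γ(pullback c t, D.UT t) := (D.evalU t).toAlgebra
  let : Module K[X] (N.Sec (D.UT t)) := Module.compHom _ (D.evalU t)
  have : IsScalarTower K[X] Γ(pullback c t, D.UT t) (N.Sec (D.UT t)) :=
    ⟨fun q a m => by
      show (D.evalU t q * a) • m = D.evalU t q • a • m
      rw [mul_smul]⟩
  let φ : (Fin D.r → K[X]) →ₗ[K[X]] N.Sec (D.UT t) :=
    { toFun := F.combU
      map_add' := F.combU.map_add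
      map_smul' := fun q p => F.combU_smul q p }
  let e : (Fin D.r → K[X]) ≃ₗ[K[X]] N.Sec (D.UT t) := LinearEquiv.ofBijective φ F.combU_bijective
  let b : Module.Basis (Fin D.r) K[X] (N.Sec (D.UT t)) := Module.Basis.ofEquivFun e.symm
  have hrepr : ∀ (m : N.Sec (D.UT t)) (i : Fin D.r), b.repr m i = F.coordsU m i := fun m i => by
    obtain ⟨p, rfl⟩ := F.combU_bijective.2 m
    rw [F.coordsU_combU, Module.Basis.ofEquivFun_repr_apply]
    exact congrFun (e.symm_apply_apply p) i
  have hb : ∀ i, b i = F.vU i := fun i => by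
    refine b.repr.injective (Finsupp.ext fun j => ?_)
    rw [b.repr_self, hrepr, F.vU_eq_combU, F.coordsU_combU, Finsupp.single_apply, Pi.single_apply]
    simp only [eq_comm]
  have hG : Algebra.adjoin K[X] (Set.range fun i => D.genU t (D.wU i)) = ⊤ := by
    refine top_le_iff.mp fun a _ => ?_
    obtain ⟨p, rfl⟩ := D.exists_eq_sum_genU t a
    exact Subalgebra.sum_mem _ fun i _ =>
      Subalgebra.mul_mem _ (Subalgebra.algebraMap_mem _ (p i)) (Algebra.subset_adjoin ⟨i, rfl⟩)
  have hc : sᶜ.Nonempty := Finset.nonempty_iff_ne_empty.mpr fun h => hs' (by simpa using h)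
  obtain ⟨_, ⟨w, rfl⟩, i, hi, j, hj, h⟩ := exists_offDiagonal ⟨f, hf⟩ b s hs hc _ hG
  obtain ⟨g, hg⟩ := hgen w
  rw [hrepr, hrepr, hb, hb] at h
  refine ⟨g, i, hi, j, hj, ?_⟩
  rw [hg]
  exact h.symm

/-- The matrices of generators with bounded degrees have a spanning tree of nonzero
coefficients. -/
theorem exists_tree_of_gen (F : D.Frame t N) {l : ℕ} (S : ChartSpec k D.r l)
    (gen : Fin l → Γ(C, D.U)) (hgen : ∀ i, ∃ g, gen g = D.wU i)
    (hdeg : ∀ g a b, (F.mat (gen g) a b).natDegree ≤ S.N g) :
    ∃ tree : TreeData D.r l, tree.Bounded S.N ∧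
      ∀ j, ChartSpec.treeCoeff tree (fun g => F.mat (gen g)) j ≠ 0 :=
  letI : Algebra k K := (coeffHom t).toAlgebra
  ChartSpec.exists_treeData (S := S) ⟨0, D.r_pos⟩ hdeg fun s hs hs' =>
    F.exists_mat_ne_zero gen hgen s hs hs'

/-- **The matrices of the chart generators have a spanning tree of nonzero coefficients.** -/
theorem exists_tree (F : D.Frame t N) :
    ∃ tree : TreeData D.r (D.r + D.r), tree.Bounded D.chartSpec.N ∧
      ∀ j, ChartSpec.treeCoeff tree (fun g => F.mat (D.chartGen g)) j ≠ 0 :=
  F.exists_tree_of_gen D.chartSpec D.chartGen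
    (fun i => ⟨Fin.castAdd D.r i, by rw [chartGen, Fin.append_left]⟩)
    fun g a b => by
      obtain ⟨q, hq⟩ := D.chartGen_bound g
      exact F.natDegree_mat_le hq a b

end CurveCover.Frame

end FLTAgent.RelPicard

end
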