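import Fermat.Agent.RelPicard.ChartSystem
import Fermat.Agent.RelPicard.ChartSpecOfCover
import Fermat.Agent.RelPicard.FrameMaps
import Fermat.Agent.RelPicard.FramePullback
import Fermat.Agent.RelPicard.FrameTree
import Fermat.Agent.RelPicard.ChartOfCover
import Fermat.Agent.RelPicard.FrameNear

/-!
# The chart input given by frames

The relation between classes and tuples is the existence of a frame with these matrices.  The facts
needed by the charts follow from base change of frames, the bundle of a framed tuple, the existence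
of frames near a point of vanishing and spanning trees on geometric fibres.

Main declarations: `HasFrameTuple` and `chartInput`; used by `Main`.
-/

set_option autoImplicit false

universe u

open CategoryTheory CategoryTheory.Limits AlgebraicGeometry AlgebraicGeometry.RelPicard
  NeronModelInfra Polynomial

noncomputable section

namespace FLTAgent.RelPicard

variable {k : Type u} [Field k] {C : Scheme.{u}} {c : C ⟶ Spec (CommRingCat.of k)}

theorem map_specHom_map {R S S' : Type u} [CommRing R] [Algebra k R] [CommRing S] [Algebra k S]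
    [CommRing S'] [Algebra k S'] (g : R →ₐ[k] S) (g' : S →ₐ[k] S')
    (L : Pic (pullback c (structT k R))) :
    Pic.map (baseChangeSnd c (specHom g')) (Pic.map (baseChangeSnd c (specHom g)) L) =
      Pic.map (baseChangeSnd c (specHom (g'.comp g))) L := by
  rw [← Pic.map_comp, baseChangeSnd_comp]
  refine congrFun (congrArg DFunLike.coe (Pic.map_congr (congrArg (baseChangeSnd c)
    (Subtype.ext ?_)))) L
  show Spec.map _ ≫ Spec.map _ = Spec.map _
  rw [← Spec.map_comp, ← CommRingCat.ofHom_comp]
  rfl

theorem map_specHom_id {R : Type u} [CommRing R] [Algebra k R]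
    (L : Pic (pullback c (structT k R))) :
    Pic.map (baseChangeSnd c (specHom (AlgHom.id k R))) L = L := by
  have h : baseChangeSnd c (specHom (AlgHom.id k R)) = 𝟙 _ := by
    rw [← baseChangeSnd_id c (structT k R)]
    exact congrArg (baseChangeSnd c) (Subtype.ext (Spec.map_id _))
  rw [Pic.map_congr h, Pic.map_id]

namespace CurveCover

theorem coeffHom_structT (R : Type u) [CommRing R] [Algebra k R] :
    coeffHom (structT k R) = algebraMap k R := by
  rw [coeffHom, Spec.preimage_map]
  rfl

variable (D : CurveCover k c)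

/-- A class with a frame having given matrices. -/
def HasFrameTuple (R : Type u) [CommRing R] [Algebra k R] (L : Pic (pullback c (structT k R)))
    (T : Fin (D.r + D.r) → Matrix (Fin D.r) (Fin D.r) R[X]) : Prop :=
  ∃ (N : Cocycle (pullback c (structT k R))) (F : D.Frame (structT k R) N),
    Pic.mk N = L ∧ ∀ i, F.mat (D.chartGen i) = T i

variable {D}

/-- Change of the structure morphism in a pulled back class. -/
theorem hasFrameTuple_of_eq {R S : Type u} [CommRing R] [Algebra k R] [CommRing S] [Algebra k S]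
    {t : Spec (CommRingCat.of S) ⟶ Spec (CommRingCat.of k)} (ht : t = structT k S)
    (ψ : SchemeHomOver t (structT k R)) (ψ' : SchemeHomOver (structT k S) (structT k R))
    (hψ : ψ.1 = ψ'.1) {N : Cocycle (pullback c (structT k R))} {N' : Cocycle (pullback c t)}
    (hN : Pic.mk N' = Pic.map (baseChangeSnd c ψ) (Pic.mk N)) (F : D.Frame t N')
    {T : Fin (D.r + D.r) → Matrix (Fin D.r) (Fin D.r) S[X]} (hT : ∀ i, F.mat (D.chartGen i) = T i) :
    D.HasFrameTuple S (Pic.map (baseChangeSnd c ψ') (Pic.mk N)) T := by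
  subst ht
  exact ⟨N', F, hN.trans (by rw [Subtype.ext hψ]), hT⟩

/-- A frame moves to another representative of a pulled back class and structure morphism. -/
theorem exists_frame_of_eq {R S : Type u} [CommRing R] [Algebra k R] [CommRing S] [Algebra k S]
    {t : Spec (CommRingCat.of S) ⟶ Spec (CommRingCat.of k)} (ht : t = structT k S)
    (ψ : SchemeHomOver t (structT k R)) (ψ' : SchemeHomOver (structT k S) (structT k R))
    (hψ : ψ.1 = ψ'.1) {N : Cocycle (pullback c (structT k R))}
    {N₀ : Cocycle (pullback c (structT k S))} (F₀ : D.Frame (structT k S) N₀)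
    (hN : Pic.mk N₀ = Pic.map (baseChangeSnd c ψ') (Pic.mk N)) :
    Nonempty (D.Frame t (N.pullback (baseChangeSnd c ψ))) := by
  subst ht
  rw [← Subtype.ext hψ, Pic.map_mk] at hN
  exact ⟨F₀.transport (Pic.mk_eq_mk.mp hN).nonempty_isoData.some⟩

theorem specHom_eq {R S : Type u} [CommRing R] [Algebra k R] [CommRing S] [Algebra k S]
    (g : R →ₐ[k] S) :
    Spec.map (CommRingCat.ofHom g.toRingHom) ≫ structT k R = structT k S :=
  (specHom g).2

theorem hasFrameTuple_map {R S : Type u} [CommRing R] [Algebra k R]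
    [CommRing S] [Algebra k S] (g : R →ₐ[k] S) {L : Pic (pullback c (structT k R))}
    {T : Fin (D.r + D.r) → Matrix (Fin D.r) (Fin D.r) R[X]} (h : D.HasFrameTuple R L T) :
    D.HasFrameTuple S (Pic.map (baseChangeSnd c (specHom g)) L) (ChartSpec.mapTuple g T) := by
  obtain ⟨N, F, rfl, hT⟩ := h
  let F' := F.baseChange g.toRingHom
  refine hasFrameTuple_of_eq (specHom_eq g) ⟨_, rfl⟩ (specHom g) rfl (Pic.map_mk _ N).symm F'
    fun i => ?_
  refine (F.mat_baseChange g.toRingHom (D.chartGen i)).trans (Matrix.ext fun a b => ?_)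
  rw [Matrix.map_apply, hT, ChartSpec.mapTuple_apply]
  rfl

theorem bijective_diff_pullback {K : Type u} [CommRing K]
    {t t₀ : Spec (CommRingCat.of K) ⟶ Spec (CommRingCat.of k)} (ht : t = t₀)
    (ψ : SchemeHomOver t t₀) (hψ : ψ.1 = 𝟙 _) (N : Cocycle (pullback c t₀)) {n : ℤ}
    (hbij : Function.Bijective (D.diff t₀ N n)) :
    Function.Bijective (D.diff t (N.pullback (baseChangeSnd c ψ)) n) := by
  subst ht
  have he : (N.pullback (baseChangeSnd c ψ)).Equiv N := by
    refine Pic.mk_eq_mk.mp ?_
    rw [← Pic.map_mk, show ψ = ⟨𝟙 _, Category.id_comp _⟩ from Subtype.ext hψ, baseChangeSnd_id,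
      Pic.map_id]
  obtain ⟨e⟩ := he.nonempty_isoData
  have key := congrArg DFunLike.coe (diff_secEquiv D t e n)
  rw [LinearMap.coe_comp, LinearMap.coe_comp] at key
  refine (Function.Bijective.of_comp_iff'
    (secEquiv (pullback.snd c t) e (D.WT t)).bijective _).mp ?_
  exact key ▸ hbij.comp ((secEquiv (pullback.snd c t) e (D.UT t)).prodCongr
    (secEquiv (pullback.snd c t) e (D.VT t))).bijective

theorem exists_hasFrameTuple_of_bijective {K : Type u} [Field K] [Algebra k K] [IsAlgClosed K]
    (N : Cocycle (pullback c (structT k K)))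
    (hbij : Function.Bijective (D.diff (structT k K) N 1)) :
    ∃ T, D.HasFrameTuple K (Pic.mk N) T := by
  have hid : Spec.map (CommRingCat.ofHom (RingHom.id K)) = 𝟙 (Spec (CommRingCat.of K)) :=
    Spec.map_id _
  obtain ⟨h, hh, ⟨F⟩⟩ := D.exists_frame_away (structT k K) N (RingHom.id K)
    (bijective_diff_pullback ((congrArg (fun χ => χ ≫ structT k K) hid).trans (Category.id_comp _))
      ⟨_, rfl⟩ hid N hbij)
  let ι₀ : K →ₐ[k] Localization.Away h := IsScalarTower.toAlgHom k K _
  have hF : D.HasFrameTuple (Localization.Away h)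
      (Pic.map (baseChangeSnd c (specHom ι₀)) (Pic.mk N)) fun i => F.mat (D.chartGen i) :=
    hasFrameTuple_of_eq (specHom_eq ι₀) ⟨_, rfl⟩ (specHom ι₀) rfl (Pic.map_mk _ N).symm F
      fun _ => rfl
  let back : Localization.Away h →ₐ[k] K :=
    { IsLocalization.Away.lift (S := Localization.Away h) h (g := RingHom.id K) (Ne.isUnit hh) with
      commutes' := fun a => by
        show IsLocalization.Away.lift (S := Localization.Away h) h (g := RingHom.id K)
          (Ne.isUnit hh) (algebraMap k (Localization.Away h) a) = algebraMap k K a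
        rw [IsScalarTower.algebraMap_apply k K (Localization.Away h), IsLocalization.Away.lift_eq]
        rfl }
  have hcomp : back.comp ι₀ = AlgHom.id k K := AlgHom.ext fun a =>
    IsLocalization.Away.lift_eq (S := Localization.Away h) h (g := RingHom.id K) (Ne.isUnit hh) a
  have := hasFrameTuple_map back hF
  rw [map_specHom_map, hcomp, map_specHom_id] at this
  exact ⟨_, this⟩

theorem hasFrameTuple_near {R K : Type u} [CommRing R] [Algebra k R]
    [Field K] [Algebra k K] [IsAlgClosed K] (g : R →ₐ[k] K)
    {L : Pic (pullback c (structT k R))} {T : Fin (D.r + D.r) → Matrix (Fin D.r) (Fin D.r) K[X]}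
    (h : D.HasFrameTuple K (Pic.map (baseChangeSnd c (specHom g)) L) T) :
    ∃ a : R, g a ≠ 0 ∧ ∃ T', D.HasFrameTuple (Localization.Away a)
      (Pic.map (baseChangeSnd c (specHom (IsScalarTower.toAlgHom k R (Localization.Away a)))) L)
      T' := by
  obtain ⟨N₀, F₀, hN₀, -⟩ := h
  obtain ⟨N, rfl⟩ := Pic.mk_surjective L
  have hF₁ : Nonempty (D.Frame (Spec.map (CommRingCat.ofHom g.toRingHom) ≫ structT k R)
      (N.pullback (baseChangeSnd c (⟨Spec.map (CommRingCat.ofHom g.toRingHom), rfl⟩ :
        SchemeHomOver (Spec.map (CommRingCat.ofHom g.toRingHom) ≫ structT k R) (structT k R))))) :=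
    exists_frame_of_eq (specHom_eq g) _ (specHom g) rfl F₀ hN₀
  obtain ⟨F₁⟩ := hF₁
  obtain ⟨a, ha, ⟨F⟩⟩ := D.exists_frame_away (structT k R) N g.toRingHom F₁.diff_bijective
  exact ⟨a, ha, fun i => F.mat (D.chartGen i),
    hasFrameTuple_of_eq (specHom_eq (IsScalarTower.toAlgHom k R (Localization.Away a)))
      (⟨Spec.map (CommRingCat.ofHom (algebraMap R (Localization.Away a))), rfl⟩ :
        SchemeHomOver (Spec.map (CommRingCat.ofHom (algebraMap R (Localization.Away a))) ≫
          structT k R) (structT k R))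
      (specHom (IsScalarTower.toAlgHom k R (Localization.Away a))) rfl (Pic.map_mk _ N).symm F
      fun _ => rfl⟩

variable [IsAlgClosed k] [IsIntegral C] [IsProper c] [SmoothOfRelativeDimension 1 c]

/-- The chart input given by frames. -/
def chartInput (Tw : D.Twists) : D.ChartInput Tw where
  l := D.r + D.r
  spec := D.chartSpec
  HasFrame R _ _ := D.HasFrameTuple R
  isFramed R _ _ L T := by
    rintro ⟨N, F, -, hT⟩
    rw [← funext hT]
    exact D.isFramed_frame (coeffHom_structT R) F
  exists_class R _ _ T hT := by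
    obtain ⟨N, F, hF⟩ := D.exists_frame_of_isFramed (coeffHom_structT R) hT
    exact ⟨Pic.mk N, N, F, rfl, hF⟩
  map R S _ _ _ _ g L T h := hasFrameTuple_map g h
  exists_conj R _ _ L T T' := by
    rintro ⟨N, F, hN, hT⟩ ⟨N', F', hN', hT'⟩
    obtain ⟨e, he⟩ := F.exists_mat_eq_conjHom_of_equiv F' (Pic.mk_eq_mk.mp (hN.trans hN'.symm))
    exact ⟨e, funext fun i => by rw [← hT', ← hT, he]⟩
  conj R _ _ L T e := by
    rintro ⟨N, F, hN, hT⟩
    exact ⟨N, F.scale e⁻¹, hN, fun i => by rw [F.mat_scale, inv_inv, hT]⟩
  class_eq R _ _ L L' T := by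
    rintro ⟨N, F, rfl, hT⟩ ⟨N', F', rfl, hT'⟩
    refine Pic.mk_eq_mk.mpr (F.equiv_of_mat_eq F' fun i => ?_)
    have := (hT (Fin.castAdd D.r i)).trans (hT' (Fin.castAdd D.r i)).symm
    simpa [chartGen, Fin.append_left] using this
  deg_eq_zero K _ _ _ L T w := by
    rintro ⟨N, F, rfl, -⟩
    exact Tw.degZero K (structT k K) w N F.diff_bijective
  covers K _ _ _ L hL := by
    obtain ⟨w, N, hN, hbij⟩ := Tw.covers K (structT k K) L hL
    obtain ⟨T, hT⟩ := exists_hasFrameTuple_of_bijective N hbij
    exact ⟨w, T, hN ▸ hT⟩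
  tree K _ _ _ L T := by
    rintro ⟨N, F, -, hT⟩
    rw [← funext hT]
    exact F.exists_tree
  near _ _ _ _ _ _ _ g _ _ hT := hasFrameTuple_near g hT

end CurveCover

end FLTAgent.RelPicard

end
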