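import Fermat.Agent.RelPicard.Defs

/-!
# The twists of the charts

Finitely many classes on the curve such that, on every geometric fibre, each class of degree zero
has vanishing cohomology after one of the twists.

Main declarations: `twistOn`, `CurveCover.Twists`; their existence is proved in `GreedyTwists`.
-/

set_option autoImplicit false

universe u

open CategoryTheory CategoryTheory.Limits AlgebraicGeometry AlgebraicGeometry.RelPicard
  NeronModelInfra

noncomputable section

namespace FLTAgent.RelPicard

variable {k : Type u} [Field k] {C : Scheme.{u}} {c : C ⟶ Spec (CommRingCat.of k)}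

/-- A class of the curve on its product with a base. -/
def twistOn (W : Pic C) {T : Scheme.{u}} (t : T ⟶ Spec (CommRingCat.of k)) :
    Pic (pullback c t) :=
  Pic.map (pullback.fst c t) W

theorem map_twistOn (W : Pic C) {T T' : Scheme.{u}} {t : T ⟶ Spec (CommRingCat.of k)}
    {t' : T' ⟶ Spec (CommRingCat.of k)} (ψ : SchemeHomOver t' t) :
    Pic.map (baseChangeSnd c ψ) (twistOn W t) = twistOn W t' := by
  rw [twistOn, ← Pic.map_comp, twistOn]
  exact congrFun (congrArg DFunLike.coe (Pic.map_congr
    ((pullback.lift_fst _ _ _).trans (Category.comp_id _)))) W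

/-- The twists of the charts of the curve. -/
structure CurveCover.Twists (D : CurveCover k c) where
  ι : Type u
  finite : Finite ι
  W : ι → Pic C
  covers : ∀ (K : Type u) [Field K] [IsAlgClosed K]
    (t : Spec (CommRingCat.of K) ⟶ Spec (CommRingCat.of k)) (L : Pic (pullback c t)),
    D.deg t L = 0 → ∃ (i : ι) (N : Cocycle (pullback c t)),
      Pic.mk N = L * twistOn (W i) t ∧ Function.Bijective (D.diff t N 1)
  degZero : ∀ (K : Type u) [Field K] [IsAlgClosed K]
    (t : Spec (CommRingCat.of K) ⟶ Spec (CommRingCat.of k)) (i : ι)
    (N : Cocycle (pullback c t)),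
    Function.Bijective (D.diff t N 1) → D.deg t (Pic.mk N * (twistOn (W i) t)⁻¹) = 0

end FLTAgent.RelPicard

end
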