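import Fermat.Agent.RelPicard.ChartSystemAffine
import Fermat.Agent.RelPicard.ChartTwists
import Fermat.Agent.RelPicard.MatrixChart
import Fermat.Agent.RelPicard.Rigidify

/-!
# The chart system of the functor of classes of degree zero

From the relation between classes and framed tuples of matrices, the charts indexed by a twist and
a spanning tree form a chart system of the functor, with affine charts of finite presentation.

Main declarations: `ChartInput`, `Charted`, `chartSystem`; the input is supplied by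
`ChartInputOfFrames`.
-/

set_option autoImplicit false

universe u

open CategoryTheory CategoryTheory.Limits AlgebraicGeometry AlgebraicGeometry.RelPicard
  NeronModelInfra TopologicalSpace Opposite Polynomial

noncomputable section

namespace FLTAgent.RelPicard

section Local

variable {X Y : Scheme.{u}}

/-- A class pulled back into one neighbourhood of its cocycle is trivial. -/
theorem Pic.map_mk_eq_one_of_le (f : X ⟶ Y) (N : Cocycle Y) (z : Y)
    (h : ⊤ ≤ f ⁻¹ᵁ N.nbhd z) : Pic.map f (Pic.mk N) = 1 := by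
  rw [Pic.map_mk, Pic.one_def, Pic.mk_eq_mk]
  refine ⟨(N.pullback f).nbhd, (N.pullback f).mem, fun _ => le_rfl, fun _ => le_top,
    fun x => pullU f (U := N.nbhd z ⊓ N.nbhd (f.base x))
      ((le_inf (le_top.trans h) le_rfl).trans (le_preimage_inf f _ _)) (N.g z (f.base x)),
    fun x y W hx hy => ?_⟩
  set W₀ : Y.Opens := N.nbhd z ⊓ (N.nbhd (f.base x) ⊓ N.nbhd (f.base y))
  have hW : W ≤ f ⁻¹ᵁ W₀ := fun p hp => ⟨(le_top.trans h) hp, hx hp, hy hp⟩
  have hx₀ : W₀ ≤ N.nbhd (f.base x) := inf_le_right.trans inf_le_left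
  have hy₀ : W₀ ≤ N.nbhd (f.base y) := inf_le_right.trans inf_le_right
  rw [Cocycle.gOn_one, one_mul, N.resU_pullU_gOn f z _ hy _ hW inf_le_left hy₀,
    N.resU_pullU_gOn f z _ hx _ hW inf_le_left hx₀, Cocycle.gOn_pullback f N x y hW _ _ hx₀ hy₀,
    ← map_mul, N.gOn_mul]

end Local

variable {k : Type u} [Field k] {C : Scheme.{u}} {c : C ⟶ Spec (CommRingCat.of k)}

variable (k) in
/-- The structure morphism of the spectrum of an algebra. -/
abbrev structT (R : Type u) [CommRing R] [Algebra k R] :
    Spec (CommRingCat.of R) ⟶ Spec (CommRingCat.of k) :=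
  Spec.map (CommRingCat.ofHom (algebraMap k R))

variable (k) in
/-- The spectrum of an algebra as an object over the field. -/
abbrev specObj (R : Type u) [CommRing R] [Algebra k R] : Over (Spec (CommRingCat.of k)) :=
  Over.mk (structT k R)

variable {R S : Type u} [CommRing R] [Algebra k R] [CommRing S] [Algebra k S]

/-- The morphism of spectra of an algebra map. -/
def specHom (g : R →ₐ[k] S) : SchemeHomOver (structT k S) (structT k R) :=
  ⟨Spec.map (CommRingCat.ofHom g.toRingHom), by
    rw [← Spec.map_comp, ← CommRingCat.ofHom_comp]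
    exact congrArg (fun φ => Spec.map (CommRingCat.ofHom φ)) g.comp_algebraMap⟩

/-- The morphism of objects of an algebra map. -/
def specOverHom (g : R →ₐ[k] S) : specObj k S ⟶ specObj k R :=
  Over.homMk (specHom g).1 (specHom g).2

theorem specOverHom_comp {S' : Type u} [CommRing S'] [Algebra k S'] (g : R →ₐ[k] S)
    (g' : S →ₐ[k] S') : specOverHom (g'.comp g) = specOverHom g' ≫ specOverHom g :=
  Over.OverMorphism.ext (by
    show Spec.map _ = Spec.map _ ≫ Spec.map _
    rw [← Spec.map_comp, ← CommRingCat.ofHom_comp]; rfl)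

theorem exists_specOverHom (ψ : specObj k S ⟶ specObj k R) :
    ∃ g : R →ₐ[k] S, ψ = specOverHom g := by
  obtain ⟨g, hg⟩ := Spec.map_surjective ψ.left
  have hw : ∀ a : k, g.hom (algebraMap k R a) = algebraMap k S a := fun a => by
    have h := Over.w ψ
    rw [← hg] at h
    exact congrArg (fun χ => χ.hom a) (Spec.map_injective ((Spec.map_comp _ _).trans h))
  exact ⟨{ g.hom with commutes' := hw }, Over.OverMorphism.ext hg.symm⟩

theorem exists_specObj_iso (T : Over (Spec (CommRingCat.of k))) [IsAffine T.left] :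
    ∃ (R : Type u) (_ : CommRing R) (_ : Algebra k R), Nonempty (specObj k R ≅ T) := by
  let g : CommRingCat.of k ⟶ Γ(T.left, ⊤) := Spec.preimage (T.left.isoSpec.inv ≫ T.hom)
  let : Algebra k Γ(T.left, ⊤) := g.hom.toAlgebra
  refine ⟨Γ(T.left, ⊤), inferInstance, inferInstance, ⟨Over.isoMk T.left.isoSpec.symm ?_⟩⟩
  show T.left.isoSpec.inv ≫ T.hom = Spec.map (CommRingCat.ofHom g.hom)
  rw [CommRingCat.ofHom_hom, Spec.map_preimage]

/-- Equality of elements is local on the spectrum. -/
theorem eq_of_forall_away {R : Type u} [CommRing R] {x y : R}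
    (h : ∀ p : PrimeSpectrum R, ∃ a ∉ p.asIdeal,
      algebraMap R (Localization.Away a) x = algebraMap R (Localization.Away a) y) : x = y := by
  let I : Ideal R :=
    { carrier := {a | a * x = a * y}
      add_mem' :=
        fun {a b} ha hb => by simp only [Set.mem_ofPred_eq] at *; rw [add_mul, add_mul, ha, hb]
      zero_mem' := by simp
      smul_mem' := fun r a ha => by
        simp only [Set.mem_ofPred_eq, smul_eq_mul] at *; rw [mul_assoc, mul_assoc, ha] }
  by_cases hI : I = ⊤
  · have h1 : (1 : R) ∈ I := hI ▸ Submodule.mem_top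
    change (1 : R) * x = 1 * y at h1
    simpa using h1
  · obtain ⟨M, hM, hIM⟩ := Ideal.exists_le_maximal I hI
    obtain ⟨a, ha, e⟩ := h ⟨M, hM.isPrime⟩
    obtain ⟨⟨_, n, rfl⟩, hn⟩ := (IsLocalization.eq_iff_exists (Submonoid.powers a) _).mp e
    exact absurd (hM.isPrime.mem_of_pow_mem n (hIM hn)) ha

theorem isUnit_of_range_subset {h : R} (g : R →+* S)
    (hg : ∀ p : PrimeSpectrum S, g h ∉ p.asIdeal) : IsUnit (g h) := by
  by_contra hu
  obtain ⟨M, hM, hhM⟩ := exists_max_ideal_of_mem_nonunits hu
  exact hg ⟨M, hM.isPrime⟩ hhM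

namespace CurveCover

variable (D : CurveCover k c)

/-- The relation between classes and tuples of matrices, with what the charts need from it. -/
structure ChartInput (Tw : D.Twists) where
  l : ℕ
  spec : ChartSpec k D.r l
  HasFrame : ∀ (R : Type u) [CommRing R] [Algebra k R],
    Pic (pullback c (structT k R)) → (Fin l → Matrix (Fin D.r) (Fin D.r) R[X]) → Prop
  isFramed : ∀ (R : Type u) [CommRing R] [Algebra k R] (L : Pic (pullback c (structT k R)))
    (T : Fin l → Matrix (Fin D.r) (Fin D.r) R[X]), HasFrame R L T → spec.IsFramed T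
  exists_class : ∀ (R : Type u) [CommRing R] [Algebra k R]
    (T : Fin l → Matrix (Fin D.r) (Fin D.r) R[X]), spec.IsFramed T → ∃ L, HasFrame R L T
  map : ∀ (R S : Type u) [CommRing R] [Algebra k R] [CommRing S] [Algebra k S] (g : R →ₐ[k] S)
    (L : Pic (pullback c (structT k R))) (T : Fin l → Matrix (Fin D.r) (Fin D.r) R[X]),
    HasFrame R L T → HasFrame S (Pic.map (baseChangeSnd c (specHom g)) L) (ChartSpec.mapTuple g T)
  exists_conj : ∀ (R : Type u) [CommRing R] [Algebra k R] (L : Pic (pullback c (structT k R)))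
    (T T' : Fin l → Matrix (Fin D.r) (Fin D.r) R[X]), HasFrame R L T → HasFrame R L T' →
      ∃ e : Fin D.r → Rˣ, T' = fun i => ChartSpec.conjHom e (T i)
  conj : ∀ (R : Type u) [CommRing R] [Algebra k R] (L : Pic (pullback c (structT k R)))
    (T : Fin l → Matrix (Fin D.r) (Fin D.r) R[X]) (e : Fin D.r → Rˣ),
    HasFrame R L T → HasFrame R L fun i => ChartSpec.conjHom e (T i)
  class_eq : ∀ (R : Type u) [CommRing R] [Algebra k R] (L L' : Pic (pullback c (structT k R)))
    (T : Fin l → Matrix (Fin D.r) (Fin D.r) R[X]), HasFrame R L T → HasFrame R L' T → L = L'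
  deg_eq_zero : ∀ (K : Type u) [Field K] [Algebra k K] [IsAlgClosed K]
    (L : Pic (pullback c (structT k K))) (T : Fin l → Matrix (Fin D.r) (Fin D.r) K[X]) (w : Tw.ι),
    HasFrame K L T → D.deg (structT k K) (L * (twistOn (Tw.W w) (structT k K))⁻¹) = 0
  covers : ∀ (K : Type u) [Field K] [Algebra k K] [IsAlgClosed K]
    (L : Pic (pullback c (structT k K))), D.deg (structT k K) L = 0 →
      ∃ (w : Tw.ι) (T : Fin l → Matrix (Fin D.r) (Fin D.r) K[X]),
        HasFrame K (L * twistOn (Tw.W w) (structT k K)) T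
  tree : ∀ (K : Type u) [Field K] [Algebra k K] [IsAlgClosed K]
    (L : Pic (pullback c (structT k K))) (T : Fin l → Matrix (Fin D.r) (Fin D.r) K[X]),
    HasFrame K L T → ∃ τ : TreeData D.r l, τ.Bounded spec.N ∧
      ∀ j, ChartSpec.treeCoeff τ T j ≠ 0
  near : ∀ (R K : Type u) [CommRing R] [Algebra k R] [Field K] [Algebra k K] [IsAlgClosed K]
    (g : R →ₐ[k] K) (L : Pic (pullback c (structT k R)))
    (T : Fin l → Matrix (Fin D.r) (Fin D.r) K[X]),
    HasFrame K (Pic.map (baseChangeSnd c (specHom g)) L) T → ∃ h : R, g h ≠ 0 ∧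
      ∃ T', HasFrame (Localization.Away h)
        (Pic.map (baseChangeSnd c (specHom
          (IsScalarTower.toAlgHom k R (Localization.Away h)))) L) T'

namespace ChartInput

variable {D} {ε : SchemeHomOver (𝟙 (Spec (CommRingCat.of k))) c} {Tw : D.Twists}
  (I : D.ChartInput Tw)

/-- The indices of the charts. -/
abbrev Index : Type u := Tw.ι × {τ : TreeData D.r I.l // τ.Bounded I.spec.N}

variable (ε) in
/-- The classes of a chart over an algebra. -/
def Charted (i : I.Index) (R : Type u) [CommRing R] [Algebra k R]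
    (L : Pic (pullback c (structT k R))) : Prop :=
  ∃ M T, I.HasFrame R M T ∧ ChartSpec.IsNormalised i.2.1 T ∧
    rigidify c ε (structT k R) (M * (twistOn (Tw.W i.1) (structT k R))⁻¹) = L

theorem charted_map {i : I.Index} {L : Pic (pullback c (structT k R))}
    (h : I.Charted ε i R L) (g : R →ₐ[k] S) :
    I.Charted ε i S (Pic.map (baseChangeSnd c (specHom g)) L) := by
  obtain ⟨M, T, hM, hT, rfl⟩ := h
  refine ⟨_, _, I.map R S g M T hM, hT.mapTuple g, ?_⟩
  rw [map_rigidify, map_mul (Pic.map (baseChangeSnd c (specHom g))), map_inv, map_twistOn]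

/-- The tuple of a class of a chart is unique. -/
theorem tuple_unique {i : I.Index} {M M' : Pic (pullback c (structT k R))}
    {T T' : Fin I.l → Matrix (Fin D.r) (Fin D.r) R[X]} (hM : I.HasFrame R M T)
    (hM' : I.HasFrame R M' T') (hT : ChartSpec.IsNormalised i.2.1 T)
    (hT' : ChartSpec.IsNormalised i.2.1 T')
    (he : rigidify c ε (structT k R) (M * (twistOn (Tw.W i.1) (structT k R))⁻¹) =
      rigidify c ε (structT k R) (M' * (twistOn (Tw.W i.1) (structT k R))⁻¹)) : T = T' := by
  obtain ⟨X₀, hX⟩ : ∃ X₀ : Pic (Spec (CommRingCat.of R)),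
      M' = M * Pic.map (pullback.snd c (structT k R)) X₀ := by
    set A := M * (twistOn (Tw.W i.1) (structT k R))⁻¹
    set B := M' * (twistOn (Tw.W i.1) (structT k R))⁻¹
    refine ⟨(Pic.map (rigSection c (structT k R) ε) A)⁻¹ *
      Pic.map (rigSection c (structT k R) ε) B, ?_⟩
    rw [rigidify_apply, rigidify_apply] at he
    have e1 : M = A * twistOn (Tw.W i.1) (structT k R) := (inv_mul_cancel_right _ _).symm
    have e2 : M' = B * twistOn (Tw.W i.1) (structT k R) := (inv_mul_cancel_right _ _).symm
    set pa := Pic.map (pullback.snd c (structT k R))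
      (Pic.map (rigSection c (structT k R) ε) A)
    set pb := Pic.map (pullback.snd c (structT k R))
      (Pic.map (rigSection c (structT k R) ε) B)
    have key : B = A * (pa⁻¹ * pb) := by
      rw [← mul_assoc]
      exact (inv_mul_cancel_right B pb).symm.trans (congrArg (· * pb) he.symm)
    calc M' = B * twistOn (Tw.W i.1) (structT k R) := e2
      _ = A * twistOn (Tw.W i.1) (structT k R) * (pa⁻¹ * pb) := by
        rw [key]; exact mul_right_comm _ _ _
      _ = _ := by rw [← e1, map_mul, map_inv]
  obtain ⟨N, rfl⟩ := Pic.mk_surjective X₀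
  funext l
  ext a b n
  refine eq_of_forall_away fun p => ?_
  obtain ⟨U, ⟨⟨h, rfl⟩, hp, hU⟩⟩ :=
    PrimeSpectrum.isTopologicalBasis_basic_opens.exists_subset_of_mem_open (N.mem p)
      (N.nbhd p).2
  refine ⟨h, hp, ?_⟩
  let g : R →ₐ[k] Localization.Away h := IsScalarTower.toAlgHom k R _
  have htriv : Pic.map (specHom g).1 (Pic.mk N) = 1 := by
    refine Pic.map_mk_eq_one_of_le _ N p fun q _ => hU ?_
    show algebraMap R (Localization.Away h) h ∉ q.asIdeal
    exact fun hq => q.2.ne_top (Ideal.eq_top_of_isUnit_mem _ hq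
      (IsLocalization.Away.algebraMap_isUnit h))
  have hM'g := I.map _ _ g M' T' hM'
  rw [hX, map_mul, map_baseChangeSnd_map_snd, htriv, map_one, mul_one] at hM'g
  obtain ⟨e, he'⟩ := I.exists_conj _ _ _ _ (I.map _ _ g M T hM) hM'g
  have hn := hT'.mapTuple g
  rw [he'] at hn
  rw [((hT.mapTuple g).conj_eq hn).2] at he'
  have := congrArg (fun F => (F l a b).coeff n) he'
  simp only [ChartSpec.mapTuple_apply, coeff_map] at this
  exact this.symm

/-- A class with a tuple having unit tree coefficients is in the chart. -/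
theorem charted_of_units {i : I.Index} {L : Pic (pullback c (structT k R))}
    (hL : L ∈ rigPic c ε (structT k R)) {T : Fin I.l → Matrix (Fin D.r) (Fin D.r) R[X]}
    (hM : I.HasFrame R (L * twistOn (Tw.W i.1) (structT k R)) T)
    (hT : ∀ j, IsUnit (ChartSpec.treeCoeff i.2.1 T j)) : I.Charted ε i R L := by
  obtain ⟨e, he⟩ := ChartSpec.exists_conj_isNormalised (t := i.2.1) T hT
  exact ⟨_, _, I.conj R _ T e hM, he, by rw [mul_inv_cancel_right, rigidify_of_mem c ε _ hL]⟩

/-- Near a geometric point in the chart the class is in the chart. -/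
theorem exists_charted_away {i : I.Index} {L : Pic (pullback c (structT k R))}
    (hL : L ∈ rigPic c ε (structT k R)) {K : Type u} [Field K] [Algebra k K] [IsAlgClosed K]
    (g : R →ₐ[k] K) (hK : I.Charted ε i K (Pic.map (baseChangeSnd c (specHom g)) L)) :
    ∃ h : R, g h ≠ 0 ∧ ∀ (S : Type u) [CommRing S] [Algebra k S] (φ : R →ₐ[k] S), IsUnit (φ h) →
      I.Charted ε i S (Pic.map (baseChangeSnd c (specHom φ)) L) := by
  obtain ⟨M, T, hM, hT, he⟩ := hK
  have hrig : rigidify c ε (structT k K) (M * (twistOn (Tw.W i.1) (structT k K))⁻¹) =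
      M * (twistOn (Tw.W i.1) (structT k K))⁻¹ := by
    rw [rigidify_apply, Subsingleton.elim (Pic.map (rigSection c (structT k K) ε) _) 1, map_one,
      inv_one, mul_one]
  rw [hrig, mul_inv_eq_iff_eq_mul] at he
  have hM' : I.HasFrame K (Pic.map (baseChangeSnd c (specHom g))
      (L * twistOn (Tw.W i.1) (structT k R))) T := by
    rw [map_mul, map_twistOn, ← he]; exact hM
  obtain ⟨h, hgh, T', hT'⟩ := I.near R K g _ T hM'
  -- the geometric point factors through the localisation
  let ι₀ : R →ₐ[k] Localization.Away h := IsScalarTower.toAlgHom k R _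
  let gh : Localization.Away h →ₐ[k] K :=
    { IsLocalization.Away.lift (S := Localization.Away h) h
        (g := g.toRingHom) (Ne.isUnit hgh) with
      commutes' := fun a => by
        show IsLocalization.Away.lift (S := Localization.Away h) h (g := g.toRingHom)
          (Ne.isUnit hgh) (algebraMap k (Localization.Away h) a) = algebraMap k K a
        rw [IsScalarTower.algebraMap_apply k R (Localization.Away h), IsLocalization.Away.lift_eq]
        exact g.commutes a }
  have hgι : gh.comp ι₀ = g := AlgHom.ext fun a =>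
    IsLocalization.Away.lift_eq (S := Localization.Away h) h (g := g.toRingHom) (Ne.isUnit hgh) a
  have hTK := I.map _ _ gh _ _ hT'
  have hcomp : ∀ L₀ : Pic (pullback c (structT k R)),
      Pic.map (baseChangeSnd c (specHom gh)) (Pic.map (baseChangeSnd c (specHom ι₀)) L₀) =
        Pic.map (baseChangeSnd c (specHom g)) L₀ := fun L₀ => by
    rw [← Pic.map_comp, baseChangeSnd_comp]
    refine congrFun (congrArg DFunLike.coe
      (Pic.map_congr (congrArg (baseChangeSnd c) (Subtype.ext ?_)))) L₀
    show Spec.map _ ≫ Spec.map _ = Spec.map _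
    rw [← Spec.map_comp, ← CommRingCat.ofHom_comp]
    exact congrArg (fun χ : R →ₐ[k] K => Spec.map (CommRingCat.ofHom χ.toRingHom)) hgι
  rw [hcomp] at hTK
  obtain ⟨e, he'⟩ := I.exists_conj _ _ _ _ hM' hTK
  have hne : ∀ j, gh (ChartSpec.treeCoeff i.2.1 T' j) ≠ 0 := fun j => by
    rw [← ChartSpec.treeCoeff_mapTuple, he', ChartSpec.treeCoeff_conjHom, hT j, mul_one]
    exact Units.ne_zero _
  choose n a ha using fun j => IsLocalization.Away.surj h (ChartSpec.treeCoeff i.2.1 T' j)
  refine ⟨h * ∏ j, a j, ?_, fun S _ _ φ hφ => ?_⟩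
  · rw [map_mul, map_prod]
    refine mul_ne_zero hgh (Finset.prod_ne_zero_iff.mpr fun j _ => ?_)
    have := congrArg gh (ha j)
    rw [map_mul, map_pow] at this
    have e2 : ∀ b, gh (algebraMap R (Localization.Away h) b) = g b := fun b =>
      AlgHom.congr_fun hgι b
    rw [e2, e2] at this
    rw [← this]
    exact mul_ne_zero (hne j) (pow_ne_zero _ hgh)
  rw [map_mul, map_prod, IsUnit.mul_iff, IsUnit.prod_univ_iff] at hφ
  let φh : Localization.Away h →ₐ[k] S :=
    { IsLocalization.Away.lift (S := Localization.Away h) h (g := φ.toRingHom) hφ.1 with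
      commutes' := fun b => by
        show IsLocalization.Away.lift (S := Localization.Away h) h (g := φ.toRingHom)
          hφ.1 (algebraMap k (Localization.Away h) b) = algebraMap k S b
        rw [IsScalarTower.algebraMap_apply k R (Localization.Away h), IsLocalization.Away.lift_eq]
        exact φ.commutes b }
  have hφι : φh.comp ι₀ = φ := AlgHom.ext fun b =>
    IsLocalization.Away.lift_eq (S := Localization.Away h) h (g := φ.toRingHom) hφ.1 b
  have hTS := I.map _ _ φh _ _ hT'
  have hcomp' : ∀ L₀ : Pic (pullback c (structT k R)),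
      Pic.map (baseChangeSnd c (specHom φh)) (Pic.map (baseChangeSnd c (specHom ι₀)) L₀) =
        Pic.map (baseChangeSnd c (specHom φ)) L₀ := fun L₀ => by
    rw [← Pic.map_comp, baseChangeSnd_comp]
    refine congrFun (congrArg DFunLike.coe
      (Pic.map_congr (congrArg (baseChangeSnd c) (Subtype.ext ?_)))) L₀
    show Spec.map _ ≫ Spec.map _ = Spec.map _
    rw [← Spec.map_comp, ← CommRingCat.ofHom_comp]
    exact congrArg (fun χ : R →ₐ[k] S => Spec.map (CommRingCat.ofHom χ.toRingHom)) hφι
  rw [hcomp', map_mul, map_twistOn] at hTS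
  refine I.charted_of_units (rigPic_map c ε (specHom φ) hL) hTS fun j => ?_
  rw [ChartSpec.treeCoeff_mapTuple]
  have := congrArg φh (ha j)
  rw [map_mul, map_pow] at this
  have e2 : ∀ b, φh (algebraMap R (Localization.Away h) b) = φ b := fun b =>
    AlgHom.congr_fun hφι b
  rw [e2, e2] at this
  exact isUnit_of_mul_isUnit_left (this ▸ hφ.2 j)

variable (ε) in
/-- The condition of a chart on an affine scheme. -/
def Good (i : I.Index) (T : Over (Spec (CommRingCat.of k)))
    (a : (D.relFunctor ε).obj (op T)) : Prop :=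
  ∀ (R : Type u) [CommRing R] [Algebra k R] (ψ : specObj k R ⟶ T),
    I.Charted ε i R (pullObj (D.relFunctor ε) ψ a).1

theorem good_pull {i : I.Index} {T' T : Over (Spec (CommRingCat.of k))} (f : T' ⟶ T)
    {a : (D.relFunctor ε).obj (op T)} (h : I.Good ε i T a) :
    I.Good ε i T' (pullObj (D.relFunctor ε) f a) := fun R _ _ ψ => by
  rw [← pullObj_comp]; exact h R (ψ ≫ f)

theorem pullObj_specOverHom (g : R →ₐ[k] S) (a : (D.relFunctor ε).obj (op (specObj k R))) :
    (pullObj (D.relFunctor ε) (specOverHom g) a).1 = Pic.map (baseChangeSnd c (specHom g)) a.1 :=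
  rfl

theorem good_of_charted {i : I.Index} {a : (D.relFunctor ε).obj (op (specObj k R))}
    (h : I.Charted ε i R a.1) : I.Good ε i (specObj k R) a := fun S _ _ ψ => by
  obtain ⟨g, rfl⟩ := exists_specOverHom ψ
  exact I.charted_map h g

/-- The class with the universal tuple. -/
def univClass (i : I.Index) : Pic (pullback c (structT k (I.spec.ChartRing i.2.1))) :=
  (I.exists_class _ _ (I.spec.universalTuple_isFramed i.2.1).1).choose

theorem hasFrame_univClass (i : I.Index) :
    I.HasFrame (I.spec.ChartRing i.2.1) (I.univClass i) (I.spec.universalTuple i.2.1) :=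
  (I.exists_class _ _ (I.spec.universalTuple_isFramed i.2.1).1).choose_spec

theorem degZero_univ (i : I.Index) :
    D.DegZero (I.univClass i * (twistOn (Tw.W i.1) (structT k (I.spec.ChartRing i.2.1)))⁻¹) := by
  intro K _ _ s
  let : Algebra k K := (Spec.preimage (s ≫ structT k (I.spec.ChartRing i.2.1))).hom.toAlgebra
  have hs : s ≫ structT k (I.spec.ChartRing i.2.1) = structT k K := by
    show _ = Spec.map (CommRingCat.ofHom
      (Spec.preimage (s ≫ structT k (I.spec.ChartRing i.2.1))).hom)
    rw [CommRingCat.ofHom_hom, Spec.map_preimage]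
  refine (D.deg_congr hs _ _).trans ?_
  obtain ⟨g, hg⟩ := exists_specOverHom (Over.homMk s hs : specObj k K ⟶ specObj k _)
  rw [show (⟨s, (rfl : s ≫ _ = _).trans hs⟩ :
      SchemeHomOver (structT k K) (structT k (I.spec.ChartRing i.2.1))) = specHom g from
    Subtype.ext (congrArg CommaMorphism.left hg :)]
  rw [map_mul, map_inv, map_twistOn]
  exact I.deg_eq_zero K _ _ i.1 (I.map _ _ g _ _ (I.hasFrame_univClass i))

variable (ε) in
/-- The universal class of a chart. -/
def univ (i : I.Index) : (D.relFunctor ε).obj (op (specObj k (I.spec.ChartRing i.2.1))) :=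
  D.toRelClasses ε (t := structT k (I.spec.ChartRing i.2.1))
    (I.univClass i * (twistOn (Tw.W i.1) (structT k (I.spec.ChartRing i.2.1)))⁻¹) (I.degZero_univ i)

theorem charted_univ (i : I.Index) : I.Charted ε i (I.spec.ChartRing i.2.1) (I.univ ε i).1 :=
  ⟨_, _, I.hasFrame_univClass i, (I.spec.universalTuple_isFramed i.2.1).2, rfl⟩

theorem existsUnique_classify {i : I.Index} {a : (D.relFunctor ε).obj (op (specObj k R))}
    (h : I.Charted ε i R a.1) :
    ∃! f : specObj k R ⟶ specObj k (I.spec.ChartRing i.2.1),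
      pullObj (D.relFunctor ε) f (I.univ ε i) = a := by
  obtain ⟨M, T, hM, hT, he⟩ := h
  have hval : ∀ φ : I.spec.ChartRing i.2.1 →ₐ[k] R,
      (pullObj (D.relFunctor ε) (specOverHom φ) (I.univ ε i)).1 = rigidify c ε (structT k R)
        (Pic.map (baseChangeSnd c (specHom φ)) (I.univClass i) *
          (twistOn (Tw.W i.1) (structT k R))⁻¹) := fun φ => by
    show Pic.map (baseChangeSnd c (specHom φ)) (rigidify c ε _ _) = _
    rw [map_rigidify, map_mul, map_inv, map_twistOn]
  have hframe : ∀ φ : I.spec.ChartRing i.2.1 →ₐ[k] R,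
      I.HasFrame R (Pic.map (baseChangeSnd c (specHom φ)) (I.univClass i))
        (I.spec.chartEquiv i.2.1 φ).1 := fun φ => I.map _ _ φ _ _ (I.hasFrame_univClass i)
  let φ := (I.spec.chartEquiv i.2.1).symm ⟨T, I.isFramed R M T hM, hT⟩
  have hφ : (I.spec.chartEquiv i.2.1 φ).1 = T := by rw [Equiv.apply_symm_apply]
  refine ⟨specOverHom φ, Subtype.ext ?_, fun f hf => ?_⟩
  · rw [hval, ← he]
    have := hframe φ
    rw [hφ] at this
    rw [I.class_eq R _ M T this hM]
  · obtain ⟨ψ, rfl⟩ := exists_specOverHom f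
    refine congrArg specOverHom ((I.spec.chartEquiv i.2.1).injective (Subtype.ext ?_))
    rw [hφ]
    refine I.tuple_unique (ε := ε) (i := i) (hframe ψ) hM (I.spec.chartEquiv i.2.1 ψ).2.2 hT ?_
    rw [← hval, he]
    exact congrArg Subtype.val hf

theorem classify {i : I.Index} (T : Over (Spec (CommRingCat.of k))) [IsAffine T.left]
    (a : (D.relFunctor ε).obj (op T)) (h : I.Good ε i T a) :
    ∃! f : T ⟶ specObj k (I.spec.ChartRing i.2.1), pullObj (D.relFunctor ε) f (I.univ ε i) = a := by
  obtain ⟨R, _, _, ⟨e⟩⟩ := exists_specObj_iso T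
  obtain ⟨f, hf, hu⟩ := I.existsUnique_classify (h R e.hom)
  refine ⟨e.inv ≫ f, ?_, fun g hg => ?_⟩
  · show pullObj _ (e.inv ≫ f) _ = a
    rw [pullObj_comp, hf, ← pullObj_comp, e.inv_hom_id, pullObj_id]
  · rw [← hu (e.hom ≫ g) (by show pullObj _ _ _ = _; rw [pullObj_comp, hg]), e.inv_hom_id_assoc]

theorem good_descends {i : I.Index} {T' T : Over (Spec (CommRingCat.of k))} [IsAffine T'.left]
    [IsAffine T.left] (f : T' ⟶ T) (a : (D.relFunctor ε).obj (op T)) (p : T'.left)
    (h : I.Good ε i T' (pullObj (D.relFunctor ε) f a)) :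
    ∃ U : T.left.Opens, f.left p ∈ U ∧ IsAffineOpen U ∧
      I.Good ε i (openObj T U) (pullObj (D.relFunctor ε) (openHom T U) a) := by
  obtain ⟨R, _, _, ⟨e⟩⟩ := exists_specObj_iso T
  obtain ⟨S, _, _, ⟨e'⟩⟩ := exists_specObj_iso T'
  obtain ⟨g, hg⟩ := exists_specOverHom (e'.hom ≫ f ≫ e.inv)
  let q : PrimeSpectrum S := e'.inv.left p
  let K := AlgebraicClosure q.asIdeal.ResidueField
  let gK : S →ₐ[k] K := (IsScalarTower.toAlgHom k q.asIdeal.ResidueField K).comp
    (IsScalarTower.toAlgHom k S q.asIdeal.ResidueField)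
  let a' := pullObj (D.relFunctor ε) e.hom a
  have hK : I.Charted ε i K (Pic.map (baseChangeSnd c (specHom (gK.comp g))) a'.1) := by
    have h2 := h K (specOverHom gK ≫ e'.hom)
    have hm : (specOverHom gK ≫ e'.hom) ≫ f = specOverHom (gK.comp g) ≫ e.hom := by
      rw [specOverHom_comp g gK, ← hg]
      simp
    rw [← pullObj_comp, hm, pullObj_comp] at h2
    exact h2
  obtain ⟨r, hr, hgood⟩ := I.exists_charted_away a'.2.1 (gK.comp g) hK
  have : IsIso e.inv.left := inferInstanceAs (IsIso ((Over.forget _).map e.inv))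
  let B : (specObj k R).left.Opens := PrimeSpectrum.basicOpen r
  refine ⟨e.inv.left ⁻¹ᵁ B, ?_, ?_, fun S' _ _ ψ => ?_⟩
  · have hval : e.inv.left (f.left p) = (specOverHom g).left q := by
      rw [← hg]
      show e.inv.left (f.left p) = e.inv.left (f.left (e'.hom.left (e'.inv.left p)))
      rw [show e'.hom.left (e'.inv.left p) = p from
        congrArg (fun χ : T' ⟶ T' => χ.left p) e'.inv_hom_id]
    show e.inv.left (f.left p) ∈ PrimeSpectrum.basicOpen r
    rw [hval]
    show g r ∉ q.asIdeal
    intro hmem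
    refine hr ?_
    show algebraMap q.asIdeal.ResidueField K (algebraMap S q.asIdeal.ResidueField (g r)) = 0
    rw [Ideal.algebraMap_residueField_eq_zero.mpr hmem, map_zero]
  · exact (IsAffineOpen.Spec_basicOpen r).preimage_of_isIso e.inv.left
  · obtain ⟨φ, hφ⟩ := exists_specOverHom (ψ ≫ openHom T _ ≫ e.inv)
    have hu : IsUnit (φ r) := isUnit_of_range_subset φ.toRingHom fun P => by
      have : (specOverHom φ).left P ∈ B := by
        rw [← hφ]; exact (ψ.left P : (e.inv.left ⁻¹ᵁ B).toScheme).2
      exact this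
    have h3 := hgood S' φ hu
    have hm : specOverHom φ ≫ e.hom = ψ ≫ openHom T _ := by rw [← hφ]; simp
    rw [← pullObj_specOverHom, ← pullObj_comp, hm, pullObj_comp] at h3
    exact h3

theorem exists_charted_covers (T : Over (Spec (CommRingCat.of k))) [IsAffine T.left]
    (a : (D.relFunctor ε).obj (op T)) (p : T.left) :
    ∃ (i : I.Index) (T' : Over (Spec (CommRingCat.of k))) (f : T' ⟶ T) (q : T'.left),
      IsAffine T'.left ∧ f.left q = p ∧ I.Good ε i T' (pullObj (D.relFunctor ε) f a) := by
  obtain ⟨R, _, _, ⟨e⟩⟩ := exists_specObj_iso T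
  let q : PrimeSpectrum R := e.inv.left p
  let K := AlgebraicClosure q.asIdeal.ResidueField
  let gK : R →ₐ[k] K := (IsScalarTower.toAlgHom k q.asIdeal.ResidueField K).comp
    (IsScalarTower.toAlgHom k R q.asIdeal.ResidueField)
  let aK := pullObj (D.relFunctor ε) (specOverHom gK ≫ e.hom) a
  have hdeg : D.deg (structT k K) aK.1 = 0 := by
    have := aK.2.2 K (𝟙 _)
    have h1 := (D.deg_congr (Category.id_comp (structT k K)) aK.1 _).symm.trans this
    erw [baseChangeSnd_id, Pic.map_id] at h1
    exact h1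
  obtain ⟨w, T₀, hT₀⟩ := I.covers K aK.1 hdeg
  obtain ⟨τ, hτ, hne⟩ := I.tree K _ T₀ hT₀
  refine ⟨(w, ⟨τ, hτ⟩), specObj k K, specOverHom gK ≫ e.hom, IsLocalRing.closedPoint K,
    inferInstanceAs (IsAffine (Spec (CommRingCat.of K))), ?_,
    I.good_of_charted (I.charted_of_units (i := (w, ⟨τ, hτ⟩)) aK.2.1 hT₀ fun j => (hne j).isUnit)⟩
  show e.hom.left ((specOverHom gK).left (IsLocalRing.closedPoint K)) = p
  rw [show (specOverHom gK).left (IsLocalRing.closedPoint K) = q from ?_]
  · exact congrArg (fun χ : T ⟶ T => χ.left p) e.inv_hom_id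
  · refine PrimeSpectrum.ext ?_
    show Ideal.comap ((algebraMap q.asIdeal.ResidueField K).comp
      (algebraMap R q.asIdeal.ResidueField)) (IsLocalRing.maximalIdeal K) = q.asIdeal
    rw [IsLocalRing.maximalIdeal_eq_bot, ← Ideal.comap_comap,
      Ideal.comap_bot_of_injective _ (algebraMap q.asIdeal.ResidueField K).injective]
    exact Ideal.ker_algebraMap_residueField q.asIdeal

variable (ε) in
/-- The conditions of the charts. -/
def affineCharts : AffineCharts (D.relFunctor ε) where
  ι := I.Index
  finite := by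
    have := Tw.finite
    have := TreeData.finite_bounded (r := D.r) I.spec.N
    infer_instance
  Z i := specObj k (I.spec.ChartRing i.2.1)
  u := I.univ ε
  Good := I.Good ε
  isAffine i := inferInstanceAs (IsAffine (Spec _))
  good_u i := I.good_of_charted (I.charted_univ i)
  good_pull _ _ _ _ _ f _ h := I.good_pull f h
  classify i T hT a h := @classify _ _ _ _ _ _ _ I i T hT a h
  descends i {T' T} hT' hT f a p h := by
    have := hT'; have := hT; exact I.good_descends f a p h
  covers T hT a p := by have := hT; exact I.exists_charted_covers T a p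

variable (ε) in
/-- **The chart system.** -/
def chartSystem (hG : IsZariskiSheaf (D.relFunctor ε)) : ChartSystem (D.relFunctor ε) :=
  (I.affineCharts ε).chartSystem hG

/-- The schemes of the chart system are the spectra of the chart rings. -/
theorem chartSystem_Z (hG : IsZariskiSheaf (D.relFunctor ε)) (i : (I.chartSystem ε hG).ι) :
    (I.chartSystem ε hG).Z i =
      Over.mk (Spec.map (CommRingCat.ofHom (algebraMap k (I.spec.ChartRing (Prod.snd i).1)))) :=
  rfl

end ChartInput

end CurveCover

end FLTAgent.RelPicard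

end
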