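import Fermat.Agent.RelPicard.Representable

/-!
# A chart system from conditions on affine schemes

For a Zariski sheaf, open loci and classifying maps are obtained from a condition on the sections
over affine schemes which is stable under pullback, descends along a point to a neighbourhood and
cuts out the sections classified by given affine schemes.

Main declarations: `AffineCharts` and its `chartSystem`; used by `ChartSystem`.
-/

set_option autoImplicit false

noncomputable section

universe u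

open CategoryTheory CategoryTheory.Limits AlgebraicGeometry TopologicalSpace Opposite

namespace FLTAgent.RelPicard

variable {S : Scheme.{u}} (G : (Over S)ᵒᵖ ⥤ Type u)

theorem isAffine_openObj (T : Over S) {U : T.left.Opens} (h : IsAffineOpen U) :
    IsAffine (openObj T U).left := h

/-- The local conditions on affine schemes giving a chart system. -/
structure AffineCharts where
  ι : Type u
  finite : Finite ι
  Z : ι → Over S
  u : ∀ i, G.obj (op (Z i))
  Good : ι → ∀ T : Over S, G.obj (op T) → Prop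
  isAffine : ∀ i, IsAffine (Z i).left
  good_u : ∀ i, Good i (Z i) (u i)
  good_pull : ∀ (i : ι) {T' T : Over S}, IsAffine T'.left → IsAffine T.left → ∀ (f : T' ⟶ T)
    (a : G.obj (op T)), Good i T a → Good i T' (pullObj G f a)
  classify : ∀ (i : ι) (T : Over S), IsAffine T.left → ∀ a : G.obj (op T), Good i T a →
    ∃! f : T ⟶ Z i, pullObj G f (u i) = a
  descends : ∀ (i : ι) {T' T : Over S}, IsAffine T'.left → IsAffine T.left → ∀ (f : T' ⟶ T)
    (a : G.obj (op T)) (p : T'.left), Good i T' (pullObj G f a) →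
      ∃ U : T.left.Opens, f.left p ∈ U ∧ IsAffineOpen U ∧
        Good i (openObj T U) (pullObj G (openHom T U) a)
  covers : ∀ (T : Over S), IsAffine T.left → ∀ (a : G.obj (op T)) (p : T.left),
    ∃ (i : ι) (T' : Over S) (f : T' ⟶ T) (q : T'.left),
      IsAffine T'.left ∧ f.left q = p ∧ Good i T' (pullObj G f a)

namespace AffineCharts

variable {G} (D : AffineCharts G)

/-- The open locus of the sections satisfying the condition. -/
def locus (i : D.ι) (T : Over S) (a : G.obj (op T)) : T.left.Opens :=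
  sSup {U | IsAffineOpen U ∧ D.Good i (openObj T U) (pullObj G (openHom T U) a)}

theorem mem_locus {i : D.ι} {T : Over S} {a : G.obj (op T)} {p : T.left} :
    p ∈ D.locus i T a ↔ ∃ U : T.left.Opens, p ∈ U ∧ IsAffineOpen U ∧
      D.Good i (openObj T U) (pullObj G (openHom T U) a) := by
  rw [locus, Opens.mem_sSup]
  exact ⟨fun ⟨U, ⟨h, h'⟩, hp⟩ => ⟨U, hp, h, h'⟩, fun ⟨U, hp, h, h'⟩ => ⟨U, ⟨h, h'⟩, hp⟩⟩

theorem good_of_hom {i : D.ι} {T T' : Over S} {a : G.obj (op T)} {U : T.left.Opens}
    (hU : IsAffineOpen U) (h : D.Good i (openObj T U) (pullObj G (openHom T U) a))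
    (hT' : IsAffine T'.left) (f : T' ⟶ T) (hf : ⊤ ≤ f.left ⁻¹ᵁ U) :
    D.Good i T' (pullObj G f a) := by
  have := D.good_pull i hT' (isAffine_openObj T hU) (openLift f U hf) _ h
  rwa [← pullObj_comp, openLift_comp] at this

theorem mem_locus_of_descends {i : D.ι} {T' T : Over S} (hT' : IsAffine T'.left) (f : T' ⟶ T)
    (a : G.obj (op T)) (q : T'.left) (h : D.Good i T' (pullObj G f a)) :
    f.left q ∈ D.locus i T a := by
  obtain ⟨W, hW, hqW, -⟩ := exists_isAffineOpen_mem_and_subset (U := (⊤ : T.left.Opens))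
    (trivial : f.left q ∈ (⊤ : T.left.Opens))
  obtain ⟨V, hV, hqV, hVW⟩ := exists_isAffineOpen_mem_and_subset (U := f.left ⁻¹ᵁ W)
    (hqW : q ∈ f.left ⁻¹ᵁ W)
  have hVW' : ⊤ ≤ (openHom T' V ≫ f).left ⁻¹ᵁ W := fun x _ => hVW x.2
  let g : openObj T' V ⟶ openObj T W := openLift (openHom T' V ≫ f) W hVW'
  have hg : D.Good i (openObj T' V) (pullObj G g (pullObj G (openHom T W) a)) := by
    rw [← pullObj_comp, openLift_comp, pullObj_comp]
    exact D.good_pull i (isAffine_openObj T' hV) hT' _ _ h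
  obtain ⟨U, hqU, hU, hgood⟩ := D.descends i (isAffine_openObj T' hV)
    (isAffine_openObj T hW) g _ ⟨q, hqV⟩ hg
  have himg : W.ι ''ᵁ U ≤ W := W.ι_image_le U
  have hval : (g.left ⟨q, hqV⟩ : W.toScheme).1 = f.left q :=
    congrArg (fun χ : openObj T' V ⟶ T => χ.left ⟨q, hqV⟩) (openLift_comp _ W hVW')
  have hUaff : IsAffineOpen (W.ι ''ᵁ U) := hU.image_of_isOpenImmersion W.ι
  refine (D.mem_locus).mpr ⟨W.ι ''ᵁ U, ⟨g.left ⟨q, hqV⟩, hqU, hval⟩, hUaff, ?_⟩
  have h1 : ⊤ ≤ (openHom T (W.ι ''ᵁ U)).left ⁻¹ᵁ W := fun x _ => himg x.2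
  have h2 : ⊤ ≤ (openLift (openHom T (W.ι ''ᵁ U)) W h1).left ⁻¹ᵁ U := fun x _ => by
    obtain ⟨y, hy, e⟩ := x.2
    have : (openLift (openHom T (W.ι ''ᵁ U)) W h1).left x = y := Subtype.ext
      ((congrArg (fun χ : openObj T (W.ι ''ᵁ U) ⟶ T => χ.left x) (openLift_comp _ W h1)).trans
        e.symm)
    show (openLift (openHom T (W.ι ''ᵁ U)) W h1).left x ∈ U
    rw [this]
    exact hy
  have := D.good_of_hom hU hgood (isAffine_openObj T hUaff)
    (openLift (openHom T (W.ι ''ᵁ U)) W h1) h2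
  rwa [← pullObj_comp, openLift_comp] at this

theorem locus_pull (i : D.ι) {T' T : Over S} (f : T' ⟶ T) (a : G.obj (op T)) :
    D.locus i T' (pullObj G f a) = f.left ⁻¹ᵁ D.locus i T a := by
  refine le_antisymm (fun p hp => ?_) fun p hp => ?_
  · obtain ⟨V, hpV, hV, h⟩ := D.mem_locus.mp hp
    rw [← pullObj_comp] at h
    exact D.mem_locus_of_descends (isAffine_openObj T' hV) (openHom T' V ≫ f) a ⟨p, hpV⟩ h
  · obtain ⟨U, hpU, hU, h⟩ := D.mem_locus.mp hp
    obtain ⟨V, hV, hpV, hVU⟩ := exists_isAffineOpen_mem_and_subset (U := f.left ⁻¹ᵁ U)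
      (hpU : p ∈ f.left ⁻¹ᵁ U)
    refine D.mem_locus.mpr ⟨V, hpV, hV, ?_⟩
    rw [← pullObj_comp]
    exact D.good_of_hom hU h (isAffine_openObj T' hV) _ fun x _ => hVU x.2

theorem locus_u (i : D.ι) : D.locus i (D.Z i) (D.u i) = ⊤ :=
  top_le_iff.mp fun p _ => by
    have := D.isAffine i
    exact D.mem_locus.mpr ⟨⊤, trivial, isAffineOpen_top _,
      D.good_pull i (isAffine_openObj _ (isAffineOpen_top _)) (D.isAffine i) _ _ (D.good_u i)⟩

theorem iSup_locus (T : Over S) (a : G.obj (op T)) : ⨆ i, D.locus i T a = ⊤ := by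
  refine top_le_iff.mp fun p _ => Opens.mem_iSup.mpr ?_
  obtain ⟨W, hW, hpW, -⟩ := exists_isAffineOpen_mem_and_subset (U := (⊤ : T.left.Opens))
    (trivial : p ∈ (⊤ : T.left.Opens))
  obtain ⟨i, T', f, q, hT', hq, h⟩ := D.covers (openObj T W) hW (pullObj G (openHom T W) a) ⟨p, hpW⟩
  rw [← pullObj_comp] at h
  have := D.mem_locus_of_descends hT' (f ≫ openHom T W) a q h
  refine ⟨i, ?_⟩
  rwa [show (f ≫ openHom T W).left q = p from congrArg Subtype.val hq] at this

theorem exists_classifying (hG : IsZariskiSheaf G) (i : D.ι) (T : Over S) (a : G.obj (op T))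
    (h : D.locus i T a = ⊤) : ∃! f : T ⟶ D.Z i, pullObj G f (D.u i) = a := by
  let κ : Type u :=
    {U : T.left.Opens // IsAffineOpen U ∧ D.Good i (openObj T U) (pullObj G (openHom T U) a)}
  let U : κ → T.left.Opens := fun x => x.1
  have hU : ⨆ x, U x = ⊤ := top_le_iff.mp fun p hp => by
    obtain ⟨V, hpV, hV, hg⟩ := D.mem_locus.mp ((h.symm ▸ hp : p ∈ D.locus i T a))
    exact Opens.mem_iSup.mpr ⟨⟨V, hV, hg⟩, hpV⟩
  have huniq : ∀ {T' : Over S} (j : T' ⟶ T) (x : κ), IsAffine T'.left → ⊤ ≤ j.left ⁻¹ᵁ x.1 →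
      ∀ f g : T' ⟶ D.Z i, pullObj G f (D.u i) = pullObj G j a →
        pullObj G g (D.u i) = pullObj G j a → f = g := fun j x hT' hj f g hf hg =>
    (D.classify i _ hT' _ (D.good_of_hom x.2.1 x.2.2 hT' j hj)).unique hf hg
  choose f hf using fun x : κ => (D.classify i _ (isAffine_openObj T x.2.1) _ x.2.2).exists
  let 𝒰 : T.left.OpenCover := T.left.openCoverOfIsOpenCover U (IsOpenCover.mk hU)
  have hagree : ∀ x y : κ, pullback.fst (U x).ι (U y).ι ≫ (f x).left =
      pullback.snd (U x).ι (U y).ι ≫ (f y).left := by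
    intro x y
    let P : Over S := Over.mk (pullback.fst (U x).ι (U y).ι ≫ (openObj T (U x)).hom)
    let p₁ : P ⟶ openObj T (U x) := Over.homMk (pullback.fst (U x).ι (U y).ι) rfl
    let p₂ : P ⟶ openObj T (U y) := Over.homMk (pullback.snd (U x).ι (U y).ι) (by
      show pullback.snd _ _ ≫ (U y).ι ≫ T.hom = pullback.fst _ _ ≫ (U x).ι ≫ T.hom
      rw [pullback.condition_assoc])
    have hp : p₁ ≫ openHom T (U x) = p₂ ≫ openHom T (U y) :=
      Over.OverMorphism.ext pullback.condition
    refine (P.left.openCoverOfIsOpenCover (fun W : P.left.affineOpens => W.1)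
      (IsOpenCover.mk (iSup_affineOpens_eq_top P.left))).hom_ext _ _ fun W => ?_
    have := huniq (openHom P W.1 ≫ p₁ ≫ openHom T (U x)) x (isAffine_openObj P W.2)
      (fun z _ => ((p₁.left ((openHom P W.1).left z)) : (U x).toScheme).2)
      (openHom P W.1 ≫ p₁ ≫ f x) (openHom P W.1 ≫ p₂ ≫ f y)
      (by rw [pullObj_comp, pullObj_comp, hf, ← pullObj_comp, ← pullObj_comp, Category.assoc])
      (by rw [hp, pullObj_comp, pullObj_comp, hf, ← pullObj_comp, ← pullObj_comp, Category.assoc])
    exact congrArg CommaMorphism.left this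
  let F : T ⟶ D.Z i := Over.homMk (𝒰.glueMorphisms (fun x => (f x).left) hagree) (by
    refine 𝒰.hom_ext _ _ fun x => ?_
    rw [← Category.assoc, Scheme.Cover.ι_glueMorphisms]
    exact Over.w (f x))
  have hF : ∀ x : κ, openHom T (U x) ≫ F = f x := fun x =>
    Over.OverMorphism.ext (𝒰.ι_glueMorphisms (fun x => (f x).left) hagree x)
  refine ⟨F, hG.separated T κ U hU _ _ fun x => ?_, fun g hg => ?_⟩
  · rw [← pullObj_comp, hF, hf]
  · refine Over.OverMorphism.ext (𝒰.hom_ext _ _ fun x => ?_)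
    have := huniq (openHom T (U x)) x (isAffine_openObj T x.2.1) (preimage_openHom T (U x))
      (openHom T (U x) ≫ g) (f x)
      (by rw [pullObj_comp, hg]) (hf x)
    rw [← hF x] at this
    exact congrArg CommaMorphism.left this

/-- The chart system of the conditions. -/
def chartSystem (hG : IsZariskiSheaf G) : ChartSystem G where
  ι := D.ι
  finite := D.finite
  Z := D.Z
  u := D.u
  locus := D.locus
  locus_pull := fun i _ _ f a => D.locus_pull i f a
  locus_u := D.locus_u
  covers := D.iSup_locus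
  classify := fun i T a h => D.exists_classifying hG i T a h

end AffineCharts

end FLTAgent.RelPicard

end
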