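import Fermat.Agent.RelPicard.Cocycle

/-!
# Gluing and comparison of sections of a cocycle

Sections of a cocycle glue (`exists_glueSec`, `sec_ext`); `coord` is the coordinate of a section
in one of the frames, and two cocycles with sections of proportional coordinates, one of them a
unit at each point, are equivalent (`equiv_of_sections`).
-/

set_option autoImplicit false

universe u

open CategoryTheory AlgebraicGeometry TopologicalSpace

noncomputable section

namespace FLTAgent.RelPicard

variable {X : Scheme.{u}}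

/-- Functions which agree on the members of a cover agree. -/
theorem eq_of_res_eq {ι : Type*} {W : X.Opens} (U : ι → X.Opens) (hU : ∀ i, U i ≤ W)
    (hcov : ∀ p ∈ W, ∃ i, p ∈ U i) (a b : Γ(X, W)) (h : ∀ i, res (hU i) a = res (hU i) b) :
    a = b :=
  X.sheaf.eq_of_locally_eq' U W (fun i => homOfLE (hU i))
    (fun p hp => by
      obtain ⟨i, hi⟩ := hcov p hp
      exact Opens.mem_iSup.mpr ⟨i, hi⟩) a b h

/-- Functions on two opens which agree on the overlap glue. -/
theorem exists_glue {U V W : X.Opens} (hU : U ≤ W) (hV : V ≤ W) (hW : W ≤ U ⊔ V)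
    (a : Γ(X, U)) (b : Γ(X, V))
    (h : res (inf_le_left : U ⊓ V ≤ U) a = res (inf_le_right : U ⊓ V ≤ V) b) :
    ∃ s : Γ(X, W), res hU s = a ∧ res hV s = b := by
  let Us : Bool → X.Opens := fun i => bif i then U else V
  let sf : ∀ i, Γ(X, Us i) := fun i => Bool.rec (motive := fun i => Γ(X, Us i)) b a i
  obtain ⟨s, hs, -⟩ := X.sheaf.existsUnique_gluing' Us W
    (fun i => homOfLE (by cases i; exacts [hV, hU]))
    (fun p hp => Opens.mem_iSup.mpr ((hW hp).elim (fun h => ⟨true, h⟩) fun h => ⟨false, h⟩))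
    sf (by
      intro i j
      cases i <;> cases j
      · rfl
      · have e := congrArg (res (le_inf inf_le_right inf_le_left : V ⊓ U ≤ U ⊓ V)) h
        rw [res_res, res_res] at e
        exact e.symm
      · exact h
      · rfl)
  exact ⟨s, hs true, hs false⟩

theorem res_injective_of_le {U W : X.Opens} (h : U ≤ W) (h' : W ≤ U) :
    Function.Injective (res h : Γ(X, W) → Γ(X, U)) := fun a b e => by
  have := congrArg (res h') e
  rwa [res_res, res_res, res_self, res_self] at this

/-- A unit near every point is a unit. -/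
theorem isUnit_of_locally {ι : Type*} {W : X.Opens} (U : ι → X.Opens) (hU : ∀ i, U i ≤ W)
    (hcov : ∀ p ∈ W, ∃ i, p ∈ U i) (a : Γ(X, W)) (h : ∀ i, IsUnit (res (hU i) a)) : IsUnit a := by
  refine X.toRingedSpace.isUnit_of_isUnit_germ W a fun p hp => ?_
  obtain ⟨i, hi⟩ := hcov p hp
  have h1 := (h i).map (X.presheaf.germ (U i) p hi).hom
  rwa [res, X.presheaf.germ_res_apply] at h1

/-- A function which is a unit at a point is a unit near it. -/
theorem exists_isUnit_res {W : X.Opens} (a : Γ(X, W)) {p : X} (hp : p ∈ W)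
    (h : IsUnit (X.presheaf.germ W p hp a)) :
    ∃ (V : X.Opens) (hV : V ≤ W), p ∈ V ∧ IsUnit (res hV a) :=
  ⟨X.basicOpen a, X.basicOpen_le a, (X.mem_basicOpen a p hp).mpr h,
    X.toRingedSpace.isUnit_res_basicOpen a⟩

namespace Cocycle

variable (c : Cocycle X)

theorem resSec_resSec {U V W : X.Opens} (h : W ≤ V) (h' : V ≤ U) (s : c.Sec U) :
    c.resSec h (c.resSec h' s) = c.resSec (h.trans h') s :=
  Subtype.ext (funext fun _ => res_res _ _ _)

theorem resSec_apply {U W : X.Opens} (h : W ≤ U) (s : c.Sec U) (x : X) :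
    (c.resSec h s).1 x = res (inf_le_inf_right _ h) (s.1 x) := rfl

/-- Sections which agree on a cover agree. -/
theorem sec_ext {ι : Type*} {W : X.Opens} (U : ι → X.Opens) (hU : ∀ i, U i ≤ W)
    (hcov : ∀ p ∈ W, ∃ i, p ∈ U i) (s t : c.Sec W)
    (h : ∀ i, c.resSec (hU i) s = c.resSec (hU i) t) : s = t := by
  refine Subtype.ext (funext fun x => ?_)
  refine eq_of_res_eq (fun i => U i ⊓ c.nbhd x) (fun i => inf_le_inf_right _ (hU i))
    (fun p hp => ?_) _ _ fun i => congrFun (congrArg Subtype.val (h i)) x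
  obtain ⟨i, hi⟩ := hcov p hp.1
  exact ⟨i, hi, hp.2⟩

/-- Sections on two opens which agree on the overlap glue. -/
theorem exists_glueSec {U V W : X.Opens} (hU : U ≤ W) (hV : V ≤ W) (hW : W ≤ U ⊔ V)
    (s : c.Sec U) (t : c.Sec V)
    (h : c.resSec (inf_le_left : U ⊓ V ≤ U) s = c.resSec (inf_le_right : U ⊓ V ≤ V) t) :
    ∃ r : c.Sec W, c.resSec hU r = s ∧ c.resSec hV r = t := by
  have key : ∀ x, ∃ a : Γ(X, W ⊓ c.nbhd x),
      res (inf_le_inf_right _ hU) a = s.1 x ∧ res (inf_le_inf_right _ hV) a = t.1 x := by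
    intro x
    refine exists_glue (U := U ⊓ c.nbhd x) (V := V ⊓ c.nbhd x) (W := W ⊓ c.nbhd x) _ _ (fun p hp =>
      ((hW hp.1 : p ∈ U ⊔ V) : p ∈ U ∨ p ∈ V).imp (fun h => ⟨h, hp.2⟩) fun h => ⟨h, hp.2⟩) _ _ ?_
    have e := congrArg (res (le_inf (le_inf (inf_le_left.trans inf_le_left)
      (inf_le_right.trans inf_le_left)) (inf_le_left.trans inf_le_right) :
        (U ⊓ c.nbhd x) ⊓ (V ⊓ c.nbhd x) ≤ U ⊓ V ⊓ c.nbhd x))
      (congrFun (congrArg Subtype.val h) x)
    simp only [resSec_apply, res_res] at e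
    exact e
  choose a haU haV using key
  refine ⟨⟨a, fun x y P hP hx hy => ?_⟩, Subtype.ext (funext haU), Subtype.ext (funext haV)⟩
  refine eq_of_res_eq (fun i : Bool => bif i then P ⊓ U else P ⊓ V)
    (fun i => by cases i <;> exact inf_le_left)
    (fun p hp => (hW (hP hp)).elim (fun h => ⟨true, hp, h⟩) fun h => ⟨false, hp, h⟩) _ _ fun i => ?_
  cases i
  · simp only [map_mul, ← coe_resU, resU_gOn, res_res, cond_false]
    have e := t.2 x y (P ⊓ V) inf_le_right (inf_le_left.trans hx) (inf_le_left.trans hy)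
    rw [← haV x, ← haV y, res_res, res_res] at e
    exact e
  · simp only [map_mul, ← coe_resU, resU_gOn, res_res, cond_true]
    have e := s.2 x y (P ⊓ U) inf_le_right (inf_le_left.trans hx) (inf_le_left.trans hy)
    rw [← haU x, ← haU y, res_res, res_res] at e
    exact e

/-- The coordinate at `z` of a section, on an open set inside the neighbourhood. -/
def coord {W : X.Opens} (z : X) {P : X.Opens} (hP : P ≤ W) (hz : P ≤ c.nbhd z) :
    c.Sec W →+ Γ(X, P) where
  toFun s := res (le_inf hP hz) (s.1 z)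
  map_zero' := map_zero _
  map_add' _s _t := map_add _ _ _

theorem coord_smul {W : X.Opens} (z : X) {P : X.Opens} (hP : P ≤ W) (hz : P ≤ c.nbhd z)
    (a : Γ(X, W)) (s : c.Sec W) : c.coord z hP hz (a • s) = res hP a * c.coord z hP hz s := by
  show res _ (res inf_le_left a * s.1 z) = _
  rw [map_mul, res_res]
  rfl

theorem res_coord {W : X.Opens} (z : X) {P P' : X.Opens} (h : P' ≤ P) (hP : P ≤ W)
    (hz : P ≤ c.nbhd z) (s : c.Sec W) :
    res h (c.coord z hP hz s) = c.coord z (h.trans hP) (h.trans hz) s :=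
  res_res _ _ _

theorem coord_resSec {W W' : X.Opens} (h : W' ≤ W) (z : X) {P : X.Opens} (hP : P ≤ W')
    (hz : P ≤ c.nbhd z) (s : c.Sec W) :
    c.coord z hP hz (c.resSec h s) = c.coord z (hP.trans h) hz s :=
  res_res _ _ _

theorem coord_change {W : X.Opens} (y z : X) {P : X.Opens} (hP : P ≤ W) (hy : P ≤ c.nbhd y)
    (hz : P ≤ c.nbhd z) (s : c.Sec W) :
    c.coord y hP hy s = c.gOn y z hy hz * c.coord z hP hz s :=
  s.2 y z P hP hy hz

/-- Pairs of global sections with the same ratios, one pair having unit coordinates near each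
point, give an equivalence of cocycles. -/
theorem equiv_of_sections (d : Cocycle X) {ι : Type*} (v : ι → c.Sec ⊤) (v' : ι → d.Sec ⊤)
    (hv : ∀ z : X, ∃ (P : X.Opens) (_ : z ∈ P) (hc : P ≤ c.nbhd z) (hd : P ≤ d.nbhd z),
      (∀ i j, c.coord z le_top hc (v i) * d.coord z le_top hd (v' j) =
        c.coord z le_top hc (v j) * d.coord z le_top hd (v' i)) ∧
      ∃ i, IsUnit (c.coord z le_top hc (v i)) ∧ IsUnit (d.coord z le_top hd (v' i))) :
    c.Equiv d := by
  choose P hP hc hd hrel i₀ hu hu' using hv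
  refine ⟨P, hP, hc, hd, fun z => (hu' z).unit * (hu z).unit⁻¹, fun x y W hx hy => ?_⟩
  set h : ∀ z, Γ(X, P z)ˣ := fun z => (hu' z).unit * (hu z).unit⁻¹
  have hh : ∀ z j, (h z : Γ(X, P z)) * c.coord z le_top (hc z) (v j) =
      d.coord z le_top (hd z) (v' j) := fun z j => by
    apply (hu z).mul_left_cancel
    rw [← mul_assoc]
    show _ * (((hu' z).unit : Γ(X, P z)) * ((hu z).unit⁻¹ : Γ(X, P z)ˣ)) * _ = _
    calc c.coord z le_top (hc z) (v (i₀ z)) *
          (((hu' z).unit : Γ(X, P z)) * ((hu z).unit⁻¹ : Γ(X, P z)ˣ)) *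
            c.coord z le_top (hc z) (v j)
        = (((hu z).unit : Γ(X, P z)) * ((hu z).unit⁻¹ : Γ(X, P z)ˣ)) *
            (c.coord z le_top (hc z) (v j) * d.coord z le_top (hd z) (v' (i₀ z))) := by
          rw [IsUnit.unit_spec, IsUnit.unit_spec]; ring
      _ = _ := by rw [Units.mul_inv, one_mul, ← hrel z (i₀ z) j]
  refine Units.ext ?_
  simp only [Units.val_mul, coe_resU]
  have e1 := congrArg (res hy) (hh y (i₀ x))
  have e2 := congrArg (res hx) (hh x (i₀ x))
  rw [map_mul, res_coord, res_coord] at e1 e2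
  rw [c.coord_change x y le_top (hx.trans (hc x)) (hy.trans (hc y)),
    d.coord_change x y le_top (hx.trans (hd x)) (hy.trans (hd y)), ← e1] at e2
  have hcy : IsUnit (c.coord y le_top (hy.trans (hc y)) (v (i₀ x))) := by
    have h1 := (hu x).map (res hx)
    rw [res_coord, c.coord_change x y le_top (hx.trans (hc x)) (hy.trans (hc y))] at h1
    exact (IsUnit.mul_iff.mp h1).2
  refine hcy.mul_right_cancel ?_
  linear_combination -e2

end Cocycle

end FLTAgent.RelPicard

end
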