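import Mathlib

/-!
# A split fibre of a free separable algebra over a polynomial ring

If `A` is free over `k[X]` with nonzero discriminant and `k` is algebraically closed, some fibre
`A / (X - c₀)` is a product of copies of `k`, one for each basis element.

Main result: `exists_split_fibre`; used by `CoverExists`.
-/

set_option autoImplicit false

open Polynomial

noncomputable section

namespace FLTAgent.RelPicard

universe u

variable {k : Type u} [Field k] {A : Type u} [CommRing A] [Algebra k A] [Algebra k[X] A]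
  [IsScalarTower k k[X] A] {r : ℕ}

/-- The coordinates of an element in the fibre over `c`. -/
def fibreCoord (b : Module.Basis (Fin r) k[X] A) (c : k) : A →ₗ[k] (Fin r → k) where
  toFun a i := (b.repr a i).eval c
  map_add' a a' := funext fun i => by simp
  map_smul' t a := funext fun i => by
    rw [← IsScalarTower.algebraMap_smul k[X] t a, map_smul]
    simp

theorem fibreCoord_eq_zero_iff (b : Module.Basis (Fin r) k[X] A) (c : k) (a : A) :
    fibreCoord b c a = 0 ↔ algebraMap k[X] A (X - C c) ∣ a := by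
  constructor
  · intro h
    choose q hq using fun i => dvd_iff_isRoot.mpr (congrFun h i)
    refine ⟨∑ i, q i • b i, ?_⟩
    rw [← Algebra.smul_def, Finset.smul_sum]
    conv_lhs => rw [← b.sum_repr a]
    exact Finset.sum_congr rfl fun i _ => by rw [smul_smul, ← hq i]
  · rintro ⟨a', rfl⟩
    funext i
    show (b.repr (algebraMap k[X] A (X - C c) * a') i).eval c = 0
    rw [← Algebra.smul_def, map_smul]
    simp

theorem fibreCoord_surjective (b : Module.Basis (Fin r) k[X] A) (c : k) :
    Function.Surjective (fibreCoord b c) := fun v => by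
  refine ⟨∑ i, C (v i) • b i, funext fun i => ?_⟩
  show (b.repr (∑ i, C (v i) • b i) i).eval c = v i
  rw [b.repr_sum_self, eval_C]

/-- A nilpotent of a fibre with nonzero discriminant is zero. -/
theorem dvd_of_dvd_pow (b : Module.Basis (Fin r) k[X] A) {c : k}
    (hc : (Algebra.discr k[X] b).eval c ≠ 0) {a : A} {n : ℕ}
    (ha : algebraMap k[X] A (X - C c) ∣ a ^ n) : algebraMap k[X] A (X - C c) ∣ a := by
  classical
  let ev : k[X] →+* k := evalRingHom c
  have htr : ∀ z : A, algebraMap k[X] A (X - C c) ∣ z ^ n → ev (Algebra.trace k[X] A z) = 0 := by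
    intro z hz
    obtain ⟨w, hw⟩ := hz
    have h : IsNilpotent (ev.mapMatrix (Algebra.leftMulMatrix b z)) := by
      refine ⟨n, ?_⟩
      rw [← map_pow, ← map_pow, hw, ← Algebra.smul_def, map_smul]
      ext i j
      simp [ev]
    have h2 := (Matrix.isNilpotent_trace_of_isNilpotent h).eq_zero
    rw [Algebra.trace_eq_matrix_trace b, AddMonoidHom.map_trace ev]
    exact h2
  have hv : Matrix.vecMul (fibreCoord b c a) (ev.mapMatrix (Algebra.traceMatrix k[X] b)) = 0 := by
    funext j
    have hj : ev (Algebra.trace k[X] A (a * b j)) = 0 := htr _ (by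
      rw [mul_pow]; exact ha.mul_right _)
    conv at hj => rw [← b.sum_repr a, Finset.sum_mul, map_sum]
    simp only [smul_mul_assoc, map_smul, smul_eq_mul, map_sum, map_mul] at hj
    exact hj
  have hdet : (ev.mapMatrix (Algebra.traceMatrix k[X] b)).det ≠ 0 := by
    rw [← RingHom.map_det]; exact hc
  exact (fibreCoord_eq_zero_iff b c a).mp (Matrix.eq_zero_of_vecMul_eq_zero hdet hv)

/-- Some fibre consists of `r` rational points. -/
theorem exists_split_fibre [IsAlgClosed k] (b : Module.Basis (Fin r) k[X] A)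
    (hd : Algebra.discr k[X] b ≠ 0) :
    ∃ (c₀ : k) (χ : Fin r → A →ₐ[k] k), Function.Surjective (fun a : A => fun j => χ j a) ∧
      ∀ a : A, (∀ j, χ j a = 0) ↔ algebraMap k[X] A (X - C c₀) ∣ a := by
  classical
  obtain ⟨c, hc⟩ : ∃ c : k, (Algebra.discr k[X] b).eval c ≠ 0 := by
    by_contra h
    push Not at h
    exact hd (Polynomial.funext fun x => by rw [h x, eval_zero])
  let I : Ideal A := Ideal.span {algebraMap k[X] A (X - C c)}
  have hI : ∀ a, a ∈ I ↔ algebraMap k[X] A (X - C c) ∣ a := fun a => Ideal.mem_span_singleton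
  have : Module.Finite k (A ⧸ I) := by
    refine Module.Finite.of_surjective (R := k)
      (Fintype.linearCombination k fun i => Ideal.Quotient.mk I (b i)) fun z => ?_
    obtain ⟨a, rfl⟩ := Ideal.Quotient.mk_surjective z
    refine ⟨fibreCoord b c a, ?_⟩
    rw [Fintype.linearCombination_apply,
      ← sub_eq_zero, ← neg_eq_zero, neg_sub]
    have hmem : a - ∑ i, (fibreCoord b c a i) • b i ∈ I := by
      rw [hI, ← fibreCoord_eq_zero_iff b c]
      funext j
      simp only [map_sub, map_sum, map_smul, Pi.sub_apply, Finset.sum_apply, Pi.smul_apply,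
        Pi.zero_apply, smul_eq_mul]
      rw [Finset.sum_eq_single j (fun i _ hij => by simp [fibreCoord, hij])
        (fun h => absurd (Finset.mem_univ j) h)]
      simp [fibreCoord]
    rw [← Ideal.Quotient.eq_zero_iff_mem, map_sub, map_sum] at hmem
    simpa [Algebra.smul_def] using hmem
  have : IsArtinianRing (A ⧸ I) := IsArtinianRing.of_finite k _
  have : _root_.IsReduced (A ⧸ I) := ⟨fun z ⟨n, hn⟩ => by
    obtain ⟨a, rfl⟩ := Ideal.Quotient.mk_surjective z
    rw [← map_pow, Ideal.Quotient.eq_zero_iff_mem, hI] at hn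
    rw [Ideal.Quotient.eq_zero_iff_mem, hI]
    exact dvd_of_dvd_pow b hc hn⟩
  have := Fintype.ofFinite (MaximalSpectrum (A ⧸ I))
  have hbij : ∀ m : MaximalSpectrum (A ⧸ I),
      Function.Bijective (Algebra.ofId k ((A ⧸ I) ⧸ m.asIdeal)) := fun m => by
    have : m.asIdeal.IsMaximal := m.isMaximal
    let := Ideal.Quotient.field m.asIdeal
    have : Algebra.IsIntegral k ((A ⧸ I) ⧸ m.asIdeal) := Algebra.IsIntegral.of_finite k _
    exact IsAlgClosed.algebraMap_bijective_of_isIntegral
  let ψ : MaximalSpectrum (A ⧸ I) → A →ₐ[k] k := fun m =>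
    ((AlgEquiv.ofBijective _ (hbij m)).symm.toAlgHom).comp
      ((Ideal.Quotient.mkₐ k m.asIdeal).comp (Ideal.Quotient.mkₐ k I))
  let e := IsArtinianRing.equivPi (A ⧸ I)
  have hψsurj : Function.Surjective fun a : A => fun m => ψ m a := fun v => by
    obtain ⟨z, hz⟩ := e.surjective fun m => Algebra.ofId k _ (v m)
    obtain ⟨a, rfl⟩ := Ideal.Quotient.mk_surjective z
    refine ⟨a, funext fun m => ?_⟩
    show (AlgEquiv.ofBijective _ (hbij m)).symm _ = v m
    rw [AlgEquiv.symm_apply_eq]
    exact (IsArtinianRing.equivPi_apply (A ⧸ I) _ m).symm.trans (congrFun hz m)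
  have hψker : ∀ a : A, (∀ m, ψ m a = 0) ↔ algebraMap k[X] A (X - C c) ∣ a := fun a => by
    rw [← hI, ← Ideal.Quotient.eq_zero_iff_mem, ← map_eq_zero_iff e e.injective, funext_iff]
    refine forall_congr' fun m => ?_
    show (AlgEquiv.ofBijective _ (hbij m)).symm _ = 0 ↔ _
    rw [map_eq_zero_iff _ (AlgEquiv.injective _), Pi.zero_apply,
      show e (Ideal.Quotient.mk I a) m = Ideal.Quotient.mk m.asIdeal (Ideal.Quotient.mk I a) from
        IsArtinianRing.equivPi_apply (A ⧸ I) _ m]
    rfl
  let Φ : (Fin r → k) →ₗ[k] (MaximalSpectrum (A ⧸ I) → k) :=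
    Fintype.linearCombination k fun i => fun m => ψ m (b i)
  have hΦ : ∀ (v : Fin r → k) m, Φ v m = ψ m (∑ i, v i • b i) := fun v m => by
    simp [Φ, Fintype.linearCombination_apply, map_sum, map_smul]
  have hred : ∀ a : A, ∀ m, ψ m a = Φ (fibreCoord b c a) m := fun a m => by
    rw [hΦ, ← sub_eq_zero, ← map_sub]
    refine (hψker _).mpr ((fibreCoord_eq_zero_iff b c _).mp (funext fun j => ?_)) m
    simp only [map_sub, map_sum, map_smul, Pi.sub_apply, Finset.sum_apply, Pi.smul_apply,
      Pi.zero_apply, smul_eq_mul]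
    rw [Finset.sum_eq_single j (fun i _ hij => by simp [fibreCoord, hij])
      (fun h => absurd (Finset.mem_univ j) h)]
    simp [fibreCoord]
  have hΦb : Function.Bijective Φ := by
    refine ⟨(injective_iff_map_eq_zero Φ).mpr fun v hv => ?_, fun w => ?_⟩
    · obtain ⟨a, rfl⟩ := fibreCoord_surjective b c v
      exact (fibreCoord_eq_zero_iff b c a).mpr ((hψker a).mp fun m => by
        rw [hred, hv, Pi.zero_apply])
    · obtain ⟨a, ha⟩ := hψsurj w
      exact ⟨fibreCoord b c a, funext fun m => (hred a m).symm.trans (congrFun ha m)⟩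
  have hcard : Fintype.card (MaximalSpectrum (A ⧸ I)) = r := by
    rw [← Module.finrank_pi k, ← (LinearEquiv.ofBijective Φ hΦb).finrank_eq, Module.finrank_fin_fun]
  let σ := (Fintype.equivFinOfCardEq hcard).symm
  refine ⟨c, fun j => ψ (σ j), fun v => ?_, fun a => ?_⟩
  · obtain ⟨a, ha⟩ := hψsurj fun m => v (σ.symm m)
    exact ⟨a, funext fun j => by
      have := congrFun ha (σ j)
      simpa using this⟩
  · rw [← hψker]
    exact σ.forall_congr_left.trans (by simp)

end FLTAgent.RelPicard

end
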