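import Fermat.Agent.RelPicard.CoverFinite
import Fermat.Agent.RelPicard.CoverSplit
import Fermat.Agent.AbelianTorsion.FunctionFieldDim
import Fermat.Agent.FFBasic.AffineRing

/-!
# Smooth proper curves have finite functions with a split fibre

A separable transcendental function `f` on a smooth proper integral curve over an algebraically
closed field gives a cover by the affine domains of `f` and `1/f`, free over the polynomial rings,
with a fibre made of rational points.

Main result: `exists_curveCover`; used by S25.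
-/

set_option autoImplicit false

universe u

open CategoryTheory CategoryTheory.Limits AlgebraicGeometry TopologicalSpace NeronModelInfra
open Polynomial IntermediateField

noncomputable section

namespace FLTAgent.RelPicard

open FLTAgent.AbelianTorsion (stalkAlgebra)

section Algebra

variable {k F A : Type u} [Field k] [Field F] [Algebra k F] [CommRing A] [Algebra k[X] A]
  (g : A →+* F) {f : F}

/-- A finite torsion-free algebra over `k[f]` is free on a basis of the function field. -/
theorem exists_polyBasis [Module.Finite k[X] A] (hginj : Function.Injective g)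
    (hg : ∀ p, g (algebraMap k[X] A p) = aeval f p) (hf : Transcendental k f)
    (hfrac : ∀ z : F, ∃ a b : A, b ≠ 0 ∧ z * g b = g a) :
    ∃ (b : Module.Basis (Fin (Module.finrank k⟮f⟯ F)) k[X] A)
      (B : Module.Basis (Fin (Module.finrank k⟮f⟯ F)) k⟮f⟯ F), ∀ i, B i = g (b i) := by
  have : IsDomain A := hginj.isDomain g
  have hsmul : ∀ (p : k[X]) (a : A), g (p • a) = aeval f p * g a := fun p a => by
    rw [Algebra.smul_def, map_mul, hg]
  have hp0 : ∀ p : k[X], aeval f p = 0 → p = 0 := fun p h =>
    by_contra fun hp => hf ⟨p, hp, h⟩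
  have : Module.IsTorsionFree k[X] A := Module.IsTorsionFree.of_smul_eq_zero fun p a h => by
    have h' := congrArg g h
    rw [hsmul, map_zero, mul_eq_zero] at h'
    exact h'.imp (hp0 p) fun h'' => hginj (h''.trans (map_zero g).symm)
  have : Module.Free k[X] A := Module.free_of_finite_type_torsion_free'
  let b := Module.finBasis k[X] A
  have hmem : ∀ p : k[X], aeval f p ∈ k⟮f⟯ := FFBasic.aeval_mem_adjoin_simple f
  have hli : LinearIndependent k⟮f⟯ fun i => g (b i) := by
    refine FFBasic.linearIndependent_adjoin_of_aeval _ fun p hp i => ?_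
    have h0 : ∑ i, p i • b i = 0 := hginj (by
      rw [map_sum, map_zero]
      simp only [hsmul]
      exact hp)
    rw [Fintype.linearIndependent_iff.mp b.linearIndependent p h0 i, map_zero]
  have hspan : ⊤ ≤ Submodule.span k⟮f⟯ (Set.range fun i => g (b i)) := by
    intro z _
    obtain ⟨a, d, hd, hz⟩ := hfrac z
    have : Algebra.IsIntegral k[X] A := Algebra.IsIntegral.of_finite k[X] A
    obtain ⟨q, hq0, a', ha'⟩ := (Algebra.IsIntegral.isIntegral (R := k[X]) d).isAlgebraic
      |>.exists_nonzero_dvd (mem_nonZeroDivisors_of_ne_zero hd)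
    have hq : z * aeval f q = g (a * a') := by
      rw [← hg, ha', map_mul, map_mul, ← mul_assoc, hz]
    have hz' : z = ∑ i, (⟨aeval f (b.repr (a * a') i) * (aeval f q)⁻¹,
        mul_mem (hmem _) (inv_mem (hmem _))⟩ : k⟮f⟯) • g (b i) := by
      simp only [IntermediateField.smul_def, smul_eq_mul]
      have hq' : aeval f q ≠ 0 := fun h => hq0 (hp0 q h)
      refine mul_right_cancel₀ hq' ?_
      rw [hq, Finset.sum_mul]
      conv_lhs => rw [← b.sum_repr (a * a'), map_sum]
      exact Finset.sum_congr rfl fun i _ => by rw [hsmul]; field_simp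
    rw [hz']
    exact sum_mem fun i _ => Submodule.smul_mem _ _ (Submodule.subset_span ⟨i, rfl⟩)
  let B := Module.Basis.mk hli hspan
  have hn : Module.finrank k⟮f⟯ F = Module.finrank k[X] A :=
    (Module.finrank_eq_card_basis B).trans (Fintype.card_fin _)
  exact ⟨b.reindex (finCongr hn.symm), B.reindex (finCongr hn.symm), fun i => by
    simp [B]⟩

/-- Separability gives a nonzero discriminant. -/
theorem discr_ne_zero_of_separable {n : ℕ} (b : Module.Basis (Fin n) k[X] A)
    (B : Module.Basis (Fin n) k⟮f⟯ F) (hg : ∀ p, g (algebraMap k[X] A p) = aeval f p)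
    (hB : ∀ i, B i = g (b i)) [Algebra.IsSeparable k⟮f⟯ F] :
    Algebra.discr k[X] b ≠ 0 := by
  classical
  have : FiniteDimensional k⟮f⟯ F := Module.Finite.of_basis B
  let θ : k[X] →+* k⟮f⟯ := (aeval (AdjoinSimple.gen k f)).toRingHom
  have hθ : ∀ p, (θ p : F) = aeval f p := fun p =>
    (aeval_algHom_apply k⟮f⟯.val (AdjoinSimple.gen k f) p).symm
  have hrepr : ∀ (a : A) i, B.repr (g a) i = θ (b.repr a i) := by
    intro a i
    have h : g a = ∑ j, θ (b.repr a j) • B j := by
      conv_lhs => rw [← b.sum_repr a, map_sum]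
      refine Finset.sum_congr rfl fun j _ => ?_
      rw [Algebra.smul_def, map_mul, hg, IntermediateField.smul_def, smul_eq_mul, hθ, hB]
    rw [h, B.repr_sum_self]
  have htr : ∀ a : A, Algebra.trace k⟮f⟯ F (g a) = θ (Algebra.trace k[X] A a) := by
    intro a
    rw [Algebra.trace_eq_matrix_trace B, Algebra.trace_eq_matrix_trace b,
      AddMonoidHom.map_trace θ]
    congr 1
    refine Matrix.ext fun i j => ?_
    show _ = θ _
    rw [Algebra.leftMulMatrix_eq_repr_mul, Algebra.leftMulMatrix_eq_repr_mul, hB, ← map_mul, hrepr]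
  intro h
  refine Algebra.discr_not_zero_of_basis k⟮f⟯ B ?_
  have : Algebra.discr k⟮f⟯ B = θ (Algebra.discr k[X] b) := by
    rw [Algebra.discr_def, Algebra.discr_def, RingHom.map_det]
    congr 1
    ext i j
    rw [RingHom.mapMatrix_apply, Matrix.map_apply, Algebra.traceMatrix_apply,
      Algebra.traceMatrix_apply, Algebra.traceForm_apply, Algebra.traceForm_apply, hB, hB,
      ← map_mul, htr]
  rw [this, h, map_zero]

end Algebra

theorem isIso_toSpecΓ {C : Scheme.{u}} {U : C.Opens} (hU : IsAffineOpen U) :
    IsIso U.toSpecΓ := by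
  have : IsAffine U.toScheme := hU
  unfold Scheme.Opens.toSpecΓ
  infer_instance

theorem evalAlong_fromSpec {C : Scheme.{u}} {U : C.Opens} (hU : IsAffineOpen U)
    (e : ⊤ ≤ hU.fromSpec ⁻¹ᵁ U) (s : Γ(C, U)) : evalAlong hU.fromSpec U e s = s := by
  have := isIso_toSpecΓ hU
  have hg : inv U.toSpecΓ ≫ U.ι = hU.fromSpec := by
    rw [IsIso.inv_comp_eq, hU.toSpecΓ_fromSpec]
  have e' : ⊤ ≤ (inv U.toSpecΓ ≫ U.ι) ⁻¹ᵁ U := hg ▸ e
  have h := comp_toSpecΓ U (inv U.toSpecΓ) e'
  rw [IsIso.inv_hom_id, ← Spec.map_id] at h
  rw [← evalAlong_congr hg U e' e s]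
  exact (congrArg (fun r => r.hom s) (Spec.map_injective h)).symm

variable (k : Type u) [Field k] [IsAlgClosed k] {C : Scheme.{u}}
  (c : C ⟶ Spec (CommRingCat.of k)) [IsProper c] [SmoothOfRelativeDimension 1 c] [IsIntegral C]

omit [IsAlgClosed k] [IsProper c] [SmoothOfRelativeDimension 1 c]
   [AlgebraicGeometry.IsIntegral C] in
theorem fromSpec_comp {U : C.Opens} (hU : IsAffineOpen U) :
    hU.fromSpec ≫ c = Spec.map (CommRingCat.ofHom (scalarHom c U)) := by
  have := isIso_toSpecΓ hU
  rw [← cancel_epi U.toSpecΓ, hU.toSpecΓ_fromSpec_assoc, toSpecΓ_scalarHom]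

/-- **A smooth proper curve has a finite function with a split fibre.** -/
theorem exists_curveCover : Nonempty (CurveCover k c) := by
  let := stalkAlgebra c (genericPoint C)
  obtain ⟨hess, htr⟩ := AbelianTorsion.essFiniteType_trdeg_functionField c (g := 1)
  have := hess
  have : FFBasic.IsFunctionField k C.functionField :=
    FFBasic.IsFunctionField.of_trdeg_eq_one (by exact_mod_cast htr)
  obtain ⟨f, hf, hsep⟩ := FFBasic.exists_separating (K := k) (F := C.functionField)
  have hf0 : f ≠ 0 := fun h => hf ⟨Polynomial.X, X_ne_zero, by simp [h]⟩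
  have hfinv : Transcendental k f⁻¹ := fun h => hf (by simpa using h.inv)
  have := FFBasic.IsFunctionField.finiteDimensional_adjoin hf
  have key : ∀ t : C.functionField, Transcendental k t →
      ∀ x : Γ(C, regularSet t),
        genGerm (regularSet t) (genericPoint_mem_regularSet t) x = t →
      IsAffineOpen (regularSet t) ∧
        (letI : Algebra k[X] Γ(C, regularSet t) := (polyHom c (regularSet t) x).toAlgebra
        ∃ (b : Module.Basis (Fin (Module.finrank k⟮t⟯ C.functionField)) k[X] Γ(C, regularSet t))
          (B : Module.Basis (Fin (Module.finrank k⟮t⟯ C.functionField)) k⟮t⟯ C.functionField),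
            ∀ i, B i = genGerm (regularSet t) (genericPoint_mem_regularSet t) (b i)) := by
    intro t ht x hx
    obtain ⟨haff, hfin⟩ := isAffineOpen_finite_polyHom c ht hx
    refine ⟨haff, ?_⟩
    let : Algebra k[X] Γ(C, regularSet t) := (polyHom c (regularSet t) x).toAlgebra
    have : Module.Finite k[X] Γ(C, regularSet t) := hfin
    have : Nonempty (regularSet t) := ⟨⟨_, genericPoint_mem_regularSet t⟩⟩
    have := functionField_isFractionRing_of_isAffineOpen C (regularSet t) haff
    refine exists_polyBasis _ (genGerm_injective _ _) (fun p => ?_) ht fun z => ?_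
    · show genGerm (regularSet t) _ (polyHom c (regularSet t) x p) = _
      rw [genGerm_polyHom, hx]
    · obtain ⟨⟨a, d⟩, had⟩ := IsLocalization.surj (nonZeroDivisors Γ(C, regularSet t)) z
      exact ⟨a, d, nonZeroDivisors.coe_ne_zero d, had⟩
  obtain ⟨x, hx⟩ := exists_section f
  obtain ⟨y, hy⟩ := exists_section f⁻¹
  obtain ⟨haffU, bU, BU, hBU⟩ := key f hf x hx
  obtain ⟨haffV, hbV⟩ := key f⁻¹ hfinv y hy
  have hadj : k⟮f⁻¹⟯ = k⟮f⟯ := le_antisymm
    (adjoin_simple_le_iff.mpr (inv_mem (mem_adjoin_simple_self k f)))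
    (adjoin_simple_le_iff.mpr (by simpa using inv_mem (mem_adjoin_simple_self k f⁻¹)))
  have hrank : Module.finrank k⟮f⁻¹⟯ C.functionField = Module.finrank k⟮f⟯ C.functionField :=
    congrArg (fun E : IntermediateField k C.functionField => Module.finrank E C.functionField) hadj
  rw [hrank] at hbV
  obtain ⟨bV, -, -⟩ := hbV
  let algU : Algebra k[X] Γ(C, regularSet f) := (polyHom c (regularSet f) x).toAlgebra
  let : Algebra k Γ(C, regularSet f) := (scalarHom c (regularSet f)).toAlgebra
  have : IsScalarTower k k[X] Γ(C, regularSet f) :=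
    IsScalarTower.of_algebraMap_eq fun t => (eval₂_C _ _).symm
  have hd : Algebra.discr k[X] bU ≠ 0 := by
    have : Algebra.IsSeparable k⟮f⟯ C.functionField := hsep
    exact discr_ne_zero_of_separable _ bU BU (fun p => by
      show genGerm (regularSet f) _ (polyHom c (regularSet f) x p) = _
      rw [genGerm_polyHom, hx]) hBU
  obtain ⟨c₀, χ, hχs, hχk⟩ := exists_split_fibre bU hd
  let pt : Fin (Module.finrank k⟮f⟯ C.functionField) →
      SchemeHomOver (𝟙 (Spec (CommRingCat.of k))) c := fun j =>
    ⟨Spec.map (CommRingCat.ofHom (χ j).toRingHom) ≫ haffU.fromSpec, by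
      rw [Category.assoc, fromSpec_comp k c haffU, ← Spec.map_comp, ← CommRingCat.ofHom_comp,
        ← Spec.map_id]
      congr 1
      exact CommRingCat.hom_ext (RingHom.ext fun t => (χ j).commutes t)⟩
  have efs : ⊤ ≤ haffU.fromSpec ⁻¹ᵁ (regularSet f) := haffU.fromSpec_preimage_self.ge
  have ept : ∀ j, (⊤ : (Spec (CommRingCat.of k)).Opens) ≤ (pt j).1 ⁻¹ᵁ (regularSet f) :=
    fun j p _ => efs trivial
  have hval : ∀ j (a : Γ(C, regularSet f)),
      (Scheme.ΓSpecIso (CommRingCat.of k)).hom (valueAt (pt j).1 (ept j) a) = χ j a := fun j a => by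
    show evalAlong (pt j).1 (regularSet f) (ept j) a = _
    exact (evalAlong_specMap (CommRingCat.ofHom (χ j).toRingHom) haffU.fromSpec (regularSet f) efs
      (ept j) a).trans (congrArg (χ j) (evalAlong_fromSpec haffU efs a))
  have hiso : Function.Bijective ((Scheme.ΓSpecIso (CommRingCat.of k)).hom) :=
    ConcreteCategory.bijective_of_isIso _
  have hpoly : ∀ {r : ℕ} {U : C.Opens} (z : Γ(C, U)),
      letI : Algebra k[X] Γ(C, U) := (polyHom c U z).toAlgebra
      ∀ (b : Module.Basis (Fin r) k[X] Γ(C, U)),
        Function.Bijective (polyComb c U z fun i => b i) := by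
    intro r U z
    let : Algebra k[X] Γ(C, U) := (polyHom c U z).toAlgebra
    intro b
    convert b.equivFun.symm.bijective using 1
    funext p
    rw [Module.Basis.equivFun_symm_apply]
    exact Finset.sum_congr rfl fun i _ => (Algebra.smul_def (p i) (b i)).symm
  refine ⟨{
    U := regularSet f
    V := regularSet f⁻¹
    isAffineU := haffU
    isAffineV := haffV
    cover := regularSet_sup_inv c f
    x := x
    y := y
    basicOpen_x := basicOpen_eq_regularSet_inf hf0 hx
    basicOpen_y := by
      rw [basicOpen_eq_regularSet_inf (inv_ne_zero hf0) hy, inv_inv, inf_comm]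
    x_mul_y := ?_
    r := Module.finrank k⟮f⟯ C.functionField
    r_pos := Module.finrank_pos
    wU := fun i => bU i
    wV := fun i => bV i
    basisU := hpoly x bU
    basisV := hpoly y bV
    c₀ := c₀
    pt := pt
    pt_mem := ept
    split_surjective := ?_
    split_ker := ?_ }⟩
  · have hgen : genericPoint C ∈ regularSet f ⊓ regularSet f⁻¹ :=
      ⟨genericPoint_mem_regularSet f, genericPoint_mem_regularSet f⁻¹⟩
    refine genGerm_injective _ hgen ?_
    rw [map_mul, map_one, genGerm_res, genGerm_res]
    exact (congrArg₂ (· * ·) hx hy).trans (mul_inv_cancel₀ hf0)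
  · intro v
    obtain ⟨a, ha⟩ := hχs fun j => (Scheme.ΓSpecIso (CommRingCat.of k)).hom (v j)
    exact ⟨a, funext fun j => hiso.1 ((hval j a).trans (congrFun ha j))⟩
  · intro a
    have h1 : algebraMap k[X] Γ(C, regularSet f) (Polynomial.X - Polynomial.C c₀) =
        x - scalarHom c (regularSet f) c₀ := by
      show eval₂ (scalarHom c (regularSet f)) x _ = _
      simp
    rw [← h1, ← hχk a]
    refine forall_congr' fun j => ?_
    rw [← hval j a]
    exact (map_eq_zero_iff _ hiso.1).symm

end FLTAgent.RelPicard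

end
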