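import Fermat.Agent.RelPicard.Cover
import Fermat.Agent.AbelianTorsion.Chart
import Fermat.Agent.AbelianTorsion.Variety

/-!
# The finite map of a rational function on a smooth proper curve

For a transcendental rational function `f` on a smooth proper integral curve the open set of the
points where `f` is regular is affine and its ring is finite over `k[f]`.

Main declarations: `regularSet`, `isAffineOpen_finite_polyHom`; used by `CoverExists`.
-/

set_option autoImplicit false

universe u

open CategoryTheory CategoryTheory.Limits AlgebraicGeometry TopologicalSpace NeronModelInfra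
open Polynomial

noncomputable section

namespace FLTAgent.RelPicard

open FLTAgent.AbelianTorsion (regularAt baseRingHom stalkAlgebra)

section Integral

variable {C : Scheme.{u}} [IsIntegral C]

theorem genericPoint_mem {W : C.Opens} {z : C} (hz : z ∈ W) : genericPoint C ∈ W :=
  ((genericPoint_spec C).specializes trivial).mem_open W.2 hz

/-- Functions on an open set as rational functions. -/
def genGerm (W : C.Opens) (hW : genericPoint C ∈ W) : Γ(C, W) →+* C.functionField :=
  (C.presheaf.germ W (genericPoint C) hW).hom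

theorem genGerm_injective (W : C.Opens) (hW : genericPoint C ∈ W) :
    Function.Injective (genGerm W hW) :=
  germ_injective_of_isIntegral C (genericPoint C) hW

theorem genGerm_res {W U : C.Opens} (h : W ≤ U) (hW : genericPoint C ∈ W) (s : Γ(C, U)) :
    genGerm W hW (res h s) = genGerm U (h hW) s :=
  C.presheaf.germ_res_apply (homOfLE h) _ hW s

theorem algebraMap_germ {W : C.Opens} {z : C} (hz : z ∈ W) (s : Γ(C, W)) :
    algebraMap (C.presheaf.stalk z) C.functionField (C.presheaf.germ W z hz s) =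
      genGerm W (genericPoint_mem hz) s := by
  simp only [RingHom.algebraMap_toAlgebra, ← ConcreteCategory.comp_apply]
  rw [C.presheaf.germ_stalkSpecializes]
  rfl

theorem mem_regularAt_iff {z : C} {f : C.functionField} :
    f ∈ regularAt z ↔ ∃ (W : C.Opens) (hz : z ∈ W) (s : Γ(C, W)),
      genGerm W (genericPoint_mem hz) s = f := by
  constructor
  · rintro ⟨w, rfl⟩
    obtain ⟨W, hz, s, rfl⟩ := C.presheaf.exists_germ_eq w
    exact ⟨W, hz, s, (algebraMap_germ hz s).symm⟩
  · rintro ⟨W, hz, s, rfl⟩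
    exact ⟨C.presheaf.germ W z hz s, algebraMap_germ hz s⟩

/-- The points where a rational function is regular. -/
def regularSet (f : C.functionField) : C.Opens where
  carrier := {z | f ∈ regularAt z}
  is_open' := isOpen_iff_forall_mem_open.mpr fun z hz => by
    obtain ⟨W, hzW, s, hs⟩ := mem_regularAt_iff.mp hz
    exact ⟨W, fun w hw => mem_regularAt_iff.mpr ⟨W, hw, s, hs⟩, W.2, hzW⟩

theorem genericPoint_mem_regularSet (f : C.functionField) : genericPoint C ∈ regularSet f := by
  obtain ⟨W, hW, s, hs⟩ := C.presheaf.exists_germ_eq f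
  exact mem_regularAt_iff.mpr ⟨W, hW, s, hs⟩

/-- A rational function is a section over the points where it is regular. -/
theorem exists_section (f : C.functionField) :
    ∃ s : Γ(C, regularSet f), genGerm (regularSet f) (genericPoint_mem_regularSet f) s = f := by
  choose W hzW s hs using fun z : regularSet f => mem_regularAt_iff.mp z.2
  have hle : ∀ z, W z ≤ regularSet f := fun z w hw => mem_regularAt_iff.mpr ⟨W z, hw, s z, hs z⟩
  obtain ⟨t, ht, -⟩ := C.sheaf.existsUnique_gluing' W (regularSet f) (fun z => homOfLE (hle z))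
    (fun z hz => Opens.mem_iSup.mpr ⟨⟨z, hz⟩, hzW _⟩) s (fun i j => by
      have hij : genericPoint C ∈ W i ⊓ W j :=
        ⟨genericPoint_mem (hzW i), genericPoint_mem (hzW j)⟩
      refine genGerm_injective (W i ⊓ W j) hij ?_
      exact ((genGerm_res inf_le_left hij (s i)).trans (hs i)).trans
        ((genGerm_res inf_le_right hij (s j)).trans (hs j)).symm)
  refine ⟨t, ?_⟩
  have i : regularSet f := ⟨genericPoint C, genericPoint_mem_regularSet f⟩
  refine Eq.trans ?_ ((congrArg (genGerm (W i) (genericPoint_mem (hzW i))) (ht i)).trans (hs i))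
  exact (genGerm_res (hle i) (genericPoint_mem (hzW i)) t).symm

theorem basicOpen_eq_regularSet_inf {f : C.functionField} (hf : f ≠ 0) {s : Γ(C, regularSet f)}
    (hs : genGerm (regularSet f) (genericPoint_mem_regularSet f) s = f) :
    C.basicOpen s = regularSet f ⊓ regularSet f⁻¹ := by
  ext z
  constructor
  · intro hz
    have hzU : z ∈ regularSet f := C.basicOpen_le s hz
    obtain ⟨u, hu⟩ := (C.mem_basicOpen s z hzU).mp hz
    refine ⟨hzU, ((u⁻¹ : (C.presheaf.stalk z)ˣ) : C.presheaf.stalk z), ?_⟩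
    rw [map_units_inv, hu, algebraMap_germ, hs]
  · rintro ⟨hzU, w, hw⟩
    refine (C.mem_basicOpen s z hzU).mpr (IsUnit.of_mul_eq_one w ?_)
    refine IsFractionRing.injective (C.presheaf.stalk z) C.functionField ?_
    rw [map_mul, map_one, algebraMap_germ, hs, hw, mul_inv_cancel₀ hf]

end Integral

section Eval

variable {C : Scheme.{u}} {R R' : CommRingCat.{u}}

/-- Evaluation of functions along a morphism from an affine scheme. -/
def evalAlong (m : Spec R ⟶ C) (U : C.Opens) (e : ⊤ ≤ m ⁻¹ᵁ U) : Γ(C, U) →+* R :=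
  (m.appLE U ⊤ e ≫ (Scheme.ΓSpecIso R).hom).hom

theorem evalAlong_res (m : Spec R ⟶ C) {W U : C.Opens} (h : W ≤ U) (e : ⊤ ≤ m ⁻¹ᵁ W)
    (s : Γ(C, U)) :
    evalAlong m W e (res h s) = evalAlong m U (e.trans (m.preimage_mono h)) s := by
  have := Scheme.Hom.map_appLE m e (homOfLE h).op
  exact congrArg (fun g => (g ≫ (Scheme.ΓSpecIso R).hom).hom s) this

theorem evalAlong_specMap (α : R ⟶ R') (m : Spec R ⟶ C) (U : C.Opens) (e : ⊤ ≤ m ⁻¹ᵁ U)
    (e' : ⊤ ≤ (Spec.map α ≫ m) ⁻¹ᵁ U) (s : Γ(C, U)) :
    evalAlong (Spec.map α ≫ m) U e' s = α (evalAlong m U e s) := by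
  have h : (Spec.map α ≫ m).appLE U ⊤ e' ≫ (Scheme.ΓSpecIso R').hom =
      (m.appLE U ⊤ e ≫ (Scheme.ΓSpecIso R).hom) ≫ α := by
    rw [← Scheme.Hom.appLE_comp_appLE (Spec.map α) m U ⊤ ⊤ e (by simp), Category.assoc,
      Category.assoc, ← Scheme.ΓSpecIso_naturality]
    congr 2
  exact congrArg (fun g => g.hom s) h

theorem evalAlong_scalarHom {k : Type u} [CommRing k] (c : C ⟶ Spec (CommRingCat.of k))
    (m : Spec R ⟶ C) (U : C.Opens) (e : ⊤ ≤ m ⁻¹ᵁ U) {α : CommRingCat.of k ⟶ R}
    (hα : m ≫ c = Spec.map α) (t : k) : evalAlong m U e (scalarHom c U t) = α t := by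
  have h : (Scheme.ΓSpecIso (CommRingCat.of k)).inv ≫ c.appLE ⊤ U le_top ≫ m.appLE U ⊤ e ≫
      (Scheme.ΓSpecIso R).hom = α := by
    rw [← Category.assoc (c.appLE ⊤ U le_top)]
    erw [Scheme.Hom.appLE_comp_appLE]
    simp only [hα]
    erw [Scheme.Hom.appLE_eq_app]
    erw [Scheme.ΓSpecIso_naturality, Iso.inv_hom_id_assoc]
  exact congrArg (fun g => g.hom t) h

theorem evalAlong_congr {m m' : Spec R ⟶ C} (h : m = m') (U : C.Opens) (e : ⊤ ≤ m ⁻¹ᵁ U)
    (e' : ⊤ ≤ m' ⁻¹ᵁ U) (s : Γ(C, U)) : evalAlong m U e s = evalAlong m' U e' s := by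
  subst h; rfl

theorem comp_toSpecΓ (U : C.Opens) (g : Spec R ⟶ U.toScheme) (e : ⊤ ≤ (g ≫ U.ι) ⁻¹ᵁ U) :
    g ≫ U.toSpecΓ = Spec.map (CommRingCat.ofHom (evalAlong (g ≫ U.ι) U e)) := by
  have h : CommRingCat.ofHom (evalAlong (g ≫ U.ι) U e) =
      U.topIso.inv ≫ g.appTop ≫ (Scheme.ΓSpecIso R).hom := by
    show (g ≫ U.ι).appLE U ⊤ e ≫ _ = _
    rw [← Scheme.Hom.appLE_comp_appLE g U.ι U ⊤ ⊤ (by simp) (by simp), Category.assoc]
    rw [Scheme.Opens.ι_appLE]
    erw [Scheme.Hom.appLE_eq_app]
    rfl
  rw [h, Spec.map_comp, Spec.map_comp]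
  erw [SpecMap_ΓSpecIso_hom]
  rw [Category.assoc, Scheme.Opens.toSpecΓ, Scheme.toSpecΓ_naturality_assoc]
  rfl

theorem mem_basicOpen_of_isUnit (m : Spec R ⟶ C) (U : C.Opens) (e : ⊤ ≤ m ⁻¹ᵁ U) (s : Γ(C, U))
    (h : IsUnit (evalAlong m U e s)) (p : Spec R) : m p ∈ C.basicOpen s := by
  have h' : IsUnit (m.appLE U ⊤ e s) :=
    (isUnit_map_iff (Scheme.ΓSpecIso R).hom.hom _).mp h
  have h1 := Scheme.basicOpen_of_isUnit _ h'
  rw [Scheme.basicOpen_appLE] at h1
  exact (h1.ge (Set.mem_univ p)).2

theorem notMem_basicOpen_of_eq_zero (m : Spec R ⟶ C) (U : C.Opens) (e : ⊤ ≤ m ⁻¹ᵁ U) (s : Γ(C, U))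
    (h : evalAlong m U e s = 0) (p : Spec R) : m p ∉ C.basicOpen s := fun hp => by
  have h' : m.appLE U ⊤ e s = 0 :=
    (map_eq_zero_iff (Scheme.ΓSpecIso R).hom.hom
      (ConcreteCategory.bijective_of_isIso (Scheme.ΓSpecIso R).hom).1).mp h
  have h1 : p ∈ (Spec R).basicOpen (m.appLE U ⊤ e s) := by
    rw [Scheme.basicOpen_appLE]
    exact ⟨trivial, hp⟩
  rw [h', Scheme.basicOpen_zero] at h1
  exact h1

end Eval

section Curve

variable {k : Type u} [Field k] [IsAlgClosed k] {C : Scheme.{u}}
  (c : C ⟶ Spec (CommRingCat.of k)) [IsProper c] [SmoothOfRelativeDimension 1 c] [IsIntegral C]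

omit [IsAlgClosed k] [IsProper c] [SmoothOfRelativeDimension 1 c] in
theorem genGerm_scalarHom (U : C.Opens) (hU : genericPoint C ∈ U) (t : k) :
    letI := stalkAlgebra c (genericPoint C)
    genGerm U hU (scalarHom c U t) = algebraMap k C.functionField t :=
  congrArg (fun g => g.hom t) (AbelianTorsion.germ_baseRingHom c (genericPoint C) hU)

include c in
omit [IsAlgClosed k] [IsProper c] [AlgebraicGeometry.IsIntegral C] in
theorem exists_closedPoint_specializes (z : C) : ∃ y : C, IsClosed ({y} : Set C) ∧ z ⤳ y := by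
  have := AbelianTorsion.locallyOfFiniteType c (g := 1)
  have : JacobsonSpace C := LocallyOfFiniteType.jacobsonSpace c
  obtain ⟨y, hy, hyc⟩ := nonempty_inter_closedPoints (X := C)
    ⟨z, subset_closure (Set.mem_singleton z)⟩ isClosed_closure.isLocallyClosed
  exact ⟨y, hyc, specializes_iff_mem_closure.mpr hy⟩

include c in
omit [IsProper c] in
theorem stalk_valuationRing {y : C} (hy : IsClosed ({y} : Set C)) :
    IsNoetherianRing (C.presheaf.stalk y) ∧ ValuationRing (C.presheaf.stalk y) := by
  let := stalkAlgebra c y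
  obtain ⟨hN, -, p, hp⟩ := AbelianTorsion.exists_parameters c (g := 1) y hy
  have hpr : (IsLocalRing.maximalIdeal (C.presheaf.stalk y)).IsPrincipal := ⟨⟨p 0, ?_⟩⟩
  · exact ⟨hN, ((tfae_of_isNoetherianRing_of_isLocalRing_of_isDomain
      (C.presheaf.stalk y)).out 4 1).mp hpr⟩
  rw [← hp.span_eq, Set.range_unique, Ideal.submodule_span_eq]
  rfl

include c in
omit [IsProper c] in
theorem mem_or_inv_mem (z : C) (f : C.functionField) : f ∈ regularAt z ∨ f⁻¹ ∈ regularAt z := by
  obtain ⟨y, hy, hzy⟩ := exists_closedPoint_specializes c z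
  have := (stalk_valuationRing c hy).2
  have hle : regularAt y ≤ regularAt z := by
    rintro _ ⟨a, rfl⟩
    exact ⟨_, AbelianTorsion.algebraMap_stalkSpecializes hzy a⟩
  rcases ValuationRing.isInteger_or_isInteger (C.presheaf.stalk y) f with h | h
  · exact Or.inl (hle h)
  · exact Or.inr (hle h)

include c in
omit [IsProper c] in
theorem regularSet_sup_inv (f : C.functionField) : regularSet f ⊔ regularSet f⁻¹ = ⊤ :=
  eq_top_iff.mpr fun z _ => mem_or_inv_mem c z f

include c in
omit [IsProper c] in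
theorem isClosed_of_ne_genericPoint {z : C} (hz : z ≠ genericPoint C) :
    IsClosed ({z} : Set C) := by
  obtain ⟨y, hy, hzy⟩ := exists_closedPoint_specializes c z
  suffices z = y by rwa [this]
  obtain ⟨hN, hV⟩ := stalk_valuationRing c hy
  by_contra hne
  have hz' : z ∈ Set.range (C.fromSpecStalk y) := by rw [Scheme.range_fromSpecStalk]; exact hzy
  obtain ⟨P, hP⟩ := hz'
  by_cases hbot : P.asIdeal = ⊥
  · refine hz ?_
    rw [← hP]
    refine ((genericPoint_spec C).eq ?_).symm
    refine isGenericPoint_def.mpr (Set.eq_univ_of_univ_subset ?_)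
    rw [← (genericPoint_spec C).def]
    refine closure_minimal (Set.singleton_subset_iff.mpr ?_) isClosed_closure
    rw [← specializes_iff_mem_closure]
    obtain ⟨Q, hQ⟩ : genericPoint C ∈ Set.range (C.fromSpecStalk y) := by
      rw [Scheme.range_fromSpecStalk]; exact (genericPoint_spec C).specializes trivial
    rw [← hQ]
    refine Specializes.map ?_ (C.fromSpecStalk y).continuous
    refine (PrimeSpectrum.le_iff_specializes P Q).mp ?_
    show P.asIdeal ≤ Q.asIdeal
    rw [hbot]; exact bot_le
  · refine hne ?_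
    rw [← hP]
    refine Eq.trans ?_ (Scheme.fromSpecStalk_closedPoint (X := C) (x := y))
    congr 1
    have h4 : IsIntegrallyClosed (C.presheaf.stalk y) ∧
        ∀ P : Ideal (C.presheaf.stalk y), P ≠ ⊥ → P.IsPrime → P = IsLocalRing.maximalIdeal _ :=
      ((tfae_of_isNoetherianRing_of_isLocalRing_of_isDomain (C.presheaf.stalk y)).out 1 3).mp hV
    exact PrimeSpectrum.ext (h4.2 P.asIdeal hbot P.isPrime)

include c in
theorem finite_of_isClosed {Z : Set C} (hZ : IsClosed Z) (hgen : genericPoint C ∉ Z) :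
    Z.Finite := by
  have := AbelianTorsion.locallyOfFiniteType c (g := 1)
  have : IsLocallyNoetherian C := LocallyOfFiniteType.isLocallyNoetherian c
  have : CompactSpace C := QuasiCompact.compactSpace_of_compactSpace c
  have : IsNoetherian C := ⟨⟩
  obtain ⟨S, hSf, hS, hZS⟩ := NoetherianSpace.exists_finite_set_closeds_irreducible ⟨Z, hZ⟩
  have hsub : ∀ s ∈ S, (s : Set C).Subsingleton := fun s hs => by
    obtain ⟨w, hw⟩ := QuasiSober.sober (hS s hs) s.2
    have hwZ : w ∈ Z := by
      have : s ≤ sSup S := le_sSup hs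
      rw [← hZS] at this
      exact this hw.mem
    rw [← hw.def, (isClosed_of_ne_genericPoint c fun h => hgen (h ▸ hwZ)).closure_eq]
    exact Set.subsingleton_singleton
  have hcl : Z = ⋃ s ∈ S, (s : Set C) := by
    refine Set.Subset.antisymm ?_ (Set.iUnion₂_subset fun s hs => ?_)
    · have h1 : IsClosed (⋃ s ∈ S, (s : Set C)) := hSf.isClosed_biUnion fun s _ => s.2
      have h2 : sSup S ≤ (⟨_, h1⟩ : Closeds C) :=
        sSup_le fun s hs => Set.subset_biUnion_of_mem (u := fun s : Closeds C => (s : Set C)) hs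
      rw [← hZS] at h2
      exact h2
    · have : s ≤ sSup S := le_sSup hs
      rw [← hZS] at this
      exact this
  rw [hcl]
  exact hSf.biUnion fun s hs => (hsub s hs).finite

/-- Polynomials in a function. -/
def polyHom (U : C.Opens) (x : Γ(C, U)) : k[X] →+* Γ(C, U) :=
  eval₂RingHom (scalarHom c U) x

omit [IsAlgClosed k] [IsProper c] [SmoothOfRelativeDimension 1 c] in
theorem genGerm_polyHom (U : C.Opens) (hU : genericPoint C ∈ U) (x : Γ(C, U)) (p : k[X]) :
    letI := stalkAlgebra c (genericPoint C)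
    genGerm U hU (polyHom c U x p) = aeval (genGerm U hU x) p := by
  let := stalkAlgebra c (genericPoint C)
  rw [polyHom, coe_eval₂RingHom, hom_eval₂, aeval_def]
  congr 1
  exact RingHom.ext fun t => genGerm_scalarHom c U hU t

omit [IsAlgClosed k] [IsProper c] [SmoothOfRelativeDimension 1 c]
   [AlgebraicGeometry.IsIntegral C] in
theorem toSpecΓ_scalarHom (U : C.Opens) :
    U.toSpecΓ ≫ Spec.map (CommRingCat.ofHom (scalarHom c U)) = U.ι ≫ c := by
  have h : CommRingCat.ofHom (scalarHom c U) = ((Scheme.ΓSpecIso (CommRingCat.of k)).inv ≫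
      c.appTop) ≫ C.presheaf.map (homOfLE (le_top : U ≤ ⊤)).op := by
    rw [Category.assoc]
    rfl
  rw [h, Spec.map_comp, Scheme.Opens.toSpecΓ_SpecMap_presheaf_map_top_assoc, Spec.map_comp,
    ← Scheme.toSpecΓ_naturality_assoc, toSpecΓ_SpecMap_ΓSpecIso_inv, Category.comp_id]

/-- The map to the affine line given by a section on an open set. -/
private abbrev polyMap (U : C.Opens) (x : Γ(C, U)) : U.toScheme ⟶ Spec (CommRingCat.of k[X]) :=
  U.toSpecΓ ≫ Spec.map (CommRingCat.ofHom (polyHom c U x))

omit [IsAlgClosed k] [IsProper c] [SmoothOfRelativeDimension 1 c]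
  [AlgebraicGeometry.IsIntegral C] in
/-- The map to the line lies over the structure map. -/
private theorem polyMap_comp (U : C.Opens) (x : Γ(C, U)) :
    polyMap c U x ≫ Spec.map (CommRingCat.ofHom (Polynomial.C : k →+* k[X])) = U.ι ≫ c := by
  rw [Category.assoc, ← Spec.map_comp, ← CommRingCat.ofHom_comp,
    show (polyHom c U x).comp Polynomial.C = scalarHom c U from
      RingHom.ext fun t => eval₂_C _ _, toSpecΓ_scalarHom]

include c in
omit [IsProper c] in
/-- A valuative lift along which `f` stays integral lands where `f` is regular. -/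
private theorem closedPoint_mem_regularSet {f : C.functionField} (hf0 : f ≠ 0)
    {x : Γ(C, regularSet f)}
    (hx : genGerm (regularSet f) (genericPoint_mem_regularSet f) x = f) {R : Type u} [CommRing R]
    [IsDomain R] [ValuationRing R] {L : Type u} [Field L] [Algebra R L] [IsFractionRing R L]
    (l : Spec (CommRingCat.of R) ⟶ C)
    (e₁ : ⊤ ≤ (Spec.map (CommRingCat.ofHom (algebraMap R L)) ≫ l) ⁻¹ᵁ (regularSet f)) {r : R}
    (hx1 : evalAlong (Spec.map (CommRingCat.ofHom (algebraMap R L)) ≫ l) (regularSet f) e₁ x =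
      algebraMap R L r) :
    l (IsLocalRing.closedPoint R) ∈ regularSet f := by
  set ι₀ := CommRingCat.ofHom (algebraMap R L) with hι₀
  obtain ⟨y, hy⟩ := exists_section f⁻¹
  have hby : C.basicOpen y = (regularSet f⁻¹) ⊓ (regularSet f) := by
    rw [basicOpen_eq_regularSet_inf (inv_ne_zero hf0) hy, inv_inv]
  have hgenUV : genericPoint C ∈ (regularSet f) ⊓ (regularSet f⁻¹) :=
    ⟨genericPoint_mem_regularSet f, genericPoint_mem_regularSet f⁻¹⟩
  have hxy : res (inf_le_left : (regularSet f) ⊓ (regularSet f⁻¹) ≤ (regularSet f)) x *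
    res (inf_le_right : (regularSet f) ⊓ (regularSet f⁻¹) ≤ (regularSet f⁻¹)) y = 1 := by
    refine genGerm_injective _ hgenUV ?_
    rw [map_mul, map_one, genGerm_res, genGerm_res]
    exact (congrArg₂ (· * ·) hx hy).trans (mul_inv_cancel₀ hf0)
  by_contra hzU
  have hzV : l (IsLocalRing.closedPoint R) ∈ (regularSet f⁻¹) :=
    (mem_or_inv_mem c _ f).resolve_left hzU
  have eV : ⊤ ≤ l ⁻¹ᵁ regularSet f⁻¹ := fun p _ =>
    ((IsLocalRing.specializes_closedPoint p).map l.continuous).mem_open (regularSet f⁻¹).2 hzV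
  have e₂ : ⊤ ≤ (Spec.map ι₀ ≫ l) ⁻¹ᵁ ((regularSet f) ⊓ (regularSet f⁻¹)) :=
    fun p _ => ⟨e₁ trivial, eV trivial⟩
  have h1 := congrArg (evalAlong (Spec.map ι₀ ≫ l) ((regularSet f) ⊓ (regularSet f⁻¹)) e₂) hxy
  rw [map_mul, map_one, evalAlong_res, evalAlong_res, hx1,
    evalAlong_specMap ι₀ l (regularSet f⁻¹) eV] at h1
  have h2 : IsUnit (evalAlong l (regularSet f⁻¹) eV y) :=
    IsUnit.of_mul_eq_one r (by
    refine IsFractionRing.injective R L ?_
    rw [map_mul, map_one, mul_comm]
    exact h1)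
  have := mem_basicOpen_of_isUnit l (regularSet f⁻¹) eV y h2 (IsLocalRing.closedPoint R)
  rw [hby] at this
  exact hzU this.2

/-- The map to the line satisfies the valuative criterion. -/
private theorem existence_polyMap {f : C.functionField} (hf0 : f ≠ 0) {x : Γ(C, regularSet f)}
    (hx : genGerm (regularSet f) (genericPoint_mem_regularSet f) x = f) :
    ValuativeCriterion.Existence (polyMap c (regularSet f) x) := by
  set φ := polyMap c (regularSet f) x with hφdef
  have hφ := polyMap_comp c (regularSet f) x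
  rintro ⟨R, L, i₁, i₂, ⟨hsq⟩⟩
  obtain ⟨τ, rfl⟩ := Spec.map_surjective i₂
  set ι₀ := CommRingCat.ofHom (algebraMap R L) with hι₀
  have hexc : ValuativeCriterion.Existence c := by
    have h : UniversallyClosed c := inferInstance
    rw [UniversallyClosed.eq_valuativeCriterion] at h
    exact h.1
  obtain ⟨⟨l, hl₁, hl₂⟩⟩ := (hexc ⟨R, L, i₁ ≫ (regularSet f).ι,
    Spec.map τ ≫ Spec.map (CommRingCat.ofHom (Polynomial.C : k →+* k[X])), ⟨by
      exact ((Category.assoc _ _ _).trans (congrArg (i₁ ≫ ·) hφ.symm)).trans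
        ((Category.assoc _ _ _).symm.trans
          ((congrArg (· ≫ _) hsq).trans (Category.assoc _ _ _)))⟩⟩).exists_lift
  simp only at hl₁ hl₂
  have hall : ∀ (W : C.Opens), l (IsLocalRing.closedPoint R) ∈ W → ⊤ ≤ l ⁻¹ᵁ W :=
    fun W hW p _ => ((IsLocalRing.specializes_closedPoint p).map l.continuous).mem_open W.2 hW
  have e₁ : ⊤ ≤ (Spec.map ι₀ ≫ l) ⁻¹ᵁ (regularSet f) := fun p _ => by
    rw [hl₁]; exact (i₁ p).2
  have hx1 : evalAlong (Spec.map ι₀ ≫ l) (regularSet f) e₁ x = ι₀ (τ Polynomial.X) := by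
    have e₁' : ⊤ ≤ (i₁ ≫ (regularSet f).ι) ⁻¹ᵁ (regularSet f) := fun p _ => (i₁ p).2
    have h2 : CommRingCat.ofHom (polyHom c (regularSet f) x) ≫
        CommRingCat.ofHom (evalAlong (i₁ ≫ (regularSet f).ι) (regularSet f) e₁') = τ ≫ ι₀ := by
      apply Spec.map_injective
      rw [Spec.map_comp, Spec.map_comp, ← comp_toSpecΓ, Category.assoc]
      exact hsq
    have h3 := congrArg (fun g => g.hom Polynomial.X) h2
    simp only [CommRingCat.hom_comp, CommRingCat.hom_ofHom, RingHom.comp_apply, polyHom,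
      coe_eval₂RingHom, eval₂_X] at h3
    exact (evalAlong_congr hl₁ _ e₁ e₁' x).trans h3
  have hzU : l (IsLocalRing.closedPoint R) ∈ (regularSet f) :=
    closedPoint_mem_regularSet c hf0 hx l e₁ hx1
  have eU := hall (regularSet f) hzU
  have hrange : Set.range l ⊆ Set.range (regularSet f).ι := by
    rw [Scheme.Opens.range_ι]
    rintro _ ⟨p, rfl⟩
    exact eU trivial
  set g := IsOpenImmersion.lift (regularSet f).ι l hrange
  have hg : g ≫ (regularSet f).ι = l := IsOpenImmersion.lift_fac _ _ _
  refine ⟨⟨⟨g, ?_, ?_⟩⟩⟩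
  · rw [← cancel_mono (regularSet f).ι, Category.assoc, hg, hl₁]
  · have e₃ : ⊤ ≤ (g ≫ (regularSet f).ι) ⁻¹ᵁ (regularSet f) := fun p _ => (g p).2
    show g ≫ (regularSet f).toSpecΓ ≫ Spec.map _ = Spec.map τ
    refine (Category.assoc _ _ _).symm.trans (((congrArg (· ≫ _)
      (comp_toSpecΓ (regularSet f) g e₃)).trans (Spec.map_comp _ _).symm).trans
        (congrArg Spec.map ?_))
    refine CommRingCat.hom_ext (Polynomial.ringHom_ext (fun t => ?_) ?_)
    · show evalAlong (g ≫ (regularSet f).ι)
        (regularSet f) e₃ (polyHom c (regularSet f) x (Polynomial.C t)) = τ (Polynomial.C t)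
      rw [polyHom, coe_eval₂RingHom, eval₂_C]
      exact evalAlong_scalarHom c _ (regularSet f) e₃ (α := CommRingCat.ofHom Polynomial.C ≫ τ)
        (by rw [hg, hl₂, Spec.map_comp]) t
    · show evalAlong (g ≫ (regularSet f).ι)
        (regularSet f) e₃ (polyHom c (regularSet f) x Polynomial.X) = τ Polynomial.X
      rw [polyHom, coe_eval₂RingHom, eval₂_X]
      refine IsFractionRing.injective R L (Eq.trans ?_ hx1)
      simp only [hg]
      exact (evalAlong_specMap ι₀ l (regularSet f) eU e₁ x).symm

/-- A point other than the generic one lies over some `X - a`, with `x - a` vanishing there. -/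
private theorem exists_sub_C_mem {f : C.functionField} (x : Γ(C, regularSet f))
    {P : Spec (CommRingCat.of k[X])} (w : (regularSet f).toScheme)
    (hw : polyMap c (regularSet f) x w = P) (hne : w.1 ≠ genericPoint C) :
    ∃ a : k, (Polynomial.X - Polynomial.C a) ∈ P.asIdeal ∧
      w.1 ∉ C.basicOpen (x - scalarHom c (regularSet f) a) := by
  set φ := polyMap c (regularSet f) x
  set m := pointOfClosedPoint c w.1 (isClosed_of_ne_genericPoint c hne)
  have hm : ∀ p, m p = w.1 := pointOfClosedPoint_apply c _ _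
  have em : ⊤ ≤ m ⁻¹ᵁ (regularSet f) :=
    fun p _ => (show m p ∈ regularSet f from (hm p).symm ▸ w.2)
  set g := IsOpenImmersion.lift (regularSet f).ι m (by
    rw [Scheme.Opens.range_ι]; rintro _ ⟨p, rfl⟩; exact em trivial)
  have hg : g ≫ (regularSet f).ι = m := IsOpenImmersion.lift_fac _ _ _
  let a : k := evalAlong m (regularSet f) em x
  refine ⟨a, ?_, ?_⟩
  · have hgw : g (IsLocalRing.closedPoint k) = w :=
      (regularSet f).ι.isOpenEmbedding.injective
        ((congrArg (fun r => r (IsLocalRing.closedPoint k)) hg).trans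
        (hm _))
    have e₃ : ⊤ ≤ (g ≫ (regularSet f).ι) ⁻¹ᵁ (regularSet f) := fun p _ => (g p).2
    have h : g ≫ φ = Spec.map (CommRingCat.ofHom (polyHom c (regularSet f) x) ≫
        CommRingCat.ofHom (evalAlong (g ≫ (regularSet f).ι) (regularSet f) e₃)) := by
      rw [Spec.map_comp, ← comp_toSpecΓ, Category.assoc]
    rw [← hw, ← hgw]
    show Polynomial.X - Polynomial.C a ∈ ((g ≫ φ) (IsLocalRing.closedPoint k)).asIdeal
    rw [h]
    show evalAlong (g ≫ (regularSet f).ι)
      (regularSet f) e₃ (polyHom c (regularSet f) x (Polynomial.X - Polynomial.C a)) ∈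
      (IsLocalRing.closedPoint k).asIdeal
    rw [map_sub, polyHom, coe_eval₂RingHom, eval₂_X, eval₂_C, map_sub,
      evalAlong_scalarHom c _ (regularSet f) e₃ (α := 𝟙 _)
        (by rw [hg, pointOfClosedPoint_comp, Spec.map_id])]
    simp only [hg]
    rw [show evalAlong m (regularSet f) em x = a from rfl]
    simp
  · rw [← hm (IsLocalRing.closedPoint k)]
    refine notMem_basicOpen_of_eq_zero m (regularSet f) em _ ?_ _
    rw [map_sub, evalAlong_scalarHom c m (regularSet f) em (α := 𝟙 _)
      (by rw [pointOfClosedPoint_comp, Spec.map_id])]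
    exact sub_self a

/-- The map to the line has finite fibres. -/
private theorem finite_preimage_polyMap {f : C.functionField}
    (hf : letI := stalkAlgebra c (genericPoint C); Transcendental k f) {x : Γ(C, regularSet f)}
    (hx : genGerm (regularSet f) (genericPoint_mem_regularSet f) x = f)
    (P : Spec (CommRingCat.of k[X])) : (polyMap c (regularSet f) x ⁻¹' {P}).Finite := by
  let := stalkAlgebra c (genericPoint C)
  set φ := polyMap c (regularSet f) x
  have key := exists_sub_C_mem c x (P := P)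
  by_cases hne : ∃ w, φ w = P ∧ w.1 ≠ genericPoint C
  · obtain ⟨w₀, hw₀, hne₀⟩ := hne
    obtain ⟨a₀, ha₀, -⟩ := key w₀ hw₀ hne₀
    have hD : genericPoint C ∈ C.basicOpen (x - scalarHom c (regularSet f) a₀) := by
      rw [C.mem_basicOpen _ _ (genericPoint_mem_regularSet f), isUnit_iff_ne_zero]
      show genGerm (regularSet f) _ (x - scalarHom c (regularSet f) a₀) ≠ 0
      rw [map_sub, hx, genGerm_scalarHom c (regularSet f), sub_ne_zero]
      exact fun h => hf ⟨Polynomial.X - Polynomial.C a₀, X_sub_C_ne_zero a₀, by simp [h]⟩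
    have hfinZ := finite_of_isClosed c
      (C.basicOpen (x - scalarHom c (regularSet f) a₀)).2.isClosed_compl
      (fun h => h hD)
    refine ((hfinZ.union (Set.finite_singleton (genericPoint C))).preimage
      (regularSet f).ι.isOpenEmbedding.injective.injOn).subset fun w hw => ?_
    by_cases hwg : w.1 = genericPoint C
    · exact Or.inr hwg
    obtain ⟨a, ha, hnot⟩ := key w hw hwg
    suffices a = a₀ by rw [this] at hnot; exact Or.inl hnot
    by_contra haa
    refine P.isPrime.ne_top ((Ideal.eq_top_iff_one _).mpr ?_)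
    have h1 : Polynomial.C (a₀ - a) ∈ P.asIdeal := by
      have h := P.asIdeal.sub_mem ha ha₀
      rwa [sub_sub_sub_cancel_left, ← map_sub] at h
    have h2 := P.asIdeal.mul_mem_left (Polynomial.C (a₀ - a)⁻¹) h1
    rwa [← map_mul, inv_mul_cancel₀ (sub_ne_zero.mpr (Ne.symm haa)), map_one] at h2
  · push Not at hne
    exact ((Set.finite_singleton (genericPoint C)).preimage
      (regularSet f).ι.isOpenEmbedding.injective.injOn).subset fun w hw => hne w hw

omit [IsAlgClosed k] [IsProper c] [SmoothOfRelativeDimension 1 c]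
  [AlgebraicGeometry.IsIntegral C] in
/-- On an affine open set a finite map to the line is a finite ring map. -/
private theorem finite_polyHom {U : C.Opens} (haff : IsAffineOpen U) (x : Γ(C, U))
    [IsFinite (polyMap c U x)] : (polyHom c U x).Finite := by
  have : IsAffine U.toScheme := haff
  have : IsIso U.toSpecΓ := by unfold Scheme.Opens.toSpecΓ; infer_instance
  have : IsFinite (Spec.map (CommRingCat.ofHom (polyHom c U x))) := by
    rw [← IsIso.inv_hom_id_assoc U.toSpecΓ
      (Spec.map (CommRingCat.ofHom (polyHom c U x)))]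
    have : IsFinite (U.toSpecΓ ≫
      Spec.map (CommRingCat.ofHom (polyHom c U x))) := ‹IsFinite (polyMap c U x)›
    infer_instance
  rwa [IsFinite.SpecMap_iff] at this

/-- **The map given by a transcendental function is finite.** -/
theorem isAffineOpen_finite_polyHom {f : C.functionField}
    (hf : letI := stalkAlgebra c (genericPoint C); Transcendental k f) {x : Γ(C, regularSet f)}
    (hx : genGerm (regularSet f) (genericPoint_mem_regularSet f) x = f) :
    IsAffineOpen (regularSet f) ∧ (polyHom c (regularSet f) x).Finite := by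
  let := stalkAlgebra c (genericPoint C)
  have hf0 : f ≠ 0 := fun h => hf ⟨Polynomial.X, X_ne_zero, by simp [h]⟩
  have := AbelianTorsion.locallyOfFiniteType c (g := 1)
  have : IsLocallyNoetherian C := LocallyOfFiniteType.isLocallyNoetherian c
  have : CompactSpace C := QuasiCompact.compactSpace_of_compactSpace c
  have : IsNoetherian C := ⟨⟩
  let φ := polyMap c (regularSet f) x
  have hφ := polyMap_comp c (regularSet f) x
  have : LocallyOfFiniteType (φ ≫ Spec.map (CommRingCat.ofHom (Polynomial.C : k →+* k[X]))) := by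
    rw [hφ]; infer_instance
  have : LocallyOfFiniteType φ := locallyOfFiniteType_of_comp φ
    (Spec.map (CommRingCat.ofHom (Polynomial.C : k →+* k[X])))
  have : IsSeparated (φ ≫ Spec.map (CommRingCat.ofHom (Polynomial.C : k →+* k[X]))) := by
    rw [hφ]; infer_instance
  have : IsSeparated φ := IsSeparated.of_comp φ
    (Spec.map (CommRingCat.ofHom (Polynomial.C : k →+* k[X])))
  have : QuasiCompact φ := by
    have : CompactSpace (regularSet f).toScheme :=
      isCompact_iff_compactSpace.mp (NoetherianSpace.isCompact _)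
    infer_instance
  have : UniversallyClosed φ :=
    UniversallyClosed.of_valuativeCriterion φ (existence_polyMap c hf0 hx)
  have : IsProper φ := ⟨⟩
  have : LocallyQuasiFinite φ :=
    LocallyQuasiFinite.of_finite_preimage_singleton φ (finite_preimage_polyMap c hf hx)
  have : IsFinite φ := IsFinite.of_isProper_of_locallyQuasiFinite φ
  have haff : IsAffineOpen (regularSet f) := isAffine_of_isAffineHom φ
  exact ⟨haff, finite_polyHom c haff x⟩

end Curve

end FLTAgent.RelPicard

end
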