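import Mathlib

/-!
# Algebras with a basis over a polynomial ring in one element

For a basis `w` over `K[z]`: quotients by nonzero elements are finite dimensional, multiplication by
`z` has index `-r`, and the elements which are polynomial in `1 / z` have bounded coordinates.

Main declarations: `basisComb`, `finiteDimensional_quotient_span`, `index_mulLeft`.
-/

set_option autoImplicit false

noncomputable section

open Polynomial

namespace FLTAgent.RelPicard

variable {K : Type*} [Field K] {A : Type*} [CommRing A] [Algebra K A] {r : ℕ} (z : A)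
  (w : Fin r → A)

/-- A vector of polynomials evaluated at `z` and combined with `w`. -/
def basisComb : (Fin r → K[X]) →ₗ[K] A where
  toFun p := ∑ i, aeval z (p i) * w i
  map_add' p p' := by simp only [Pi.add_apply, map_add, add_mul, Finset.sum_add_distrib]
  map_smul' a p := by
    simp only [Pi.smul_apply, map_smul, smul_mul_assoc, RingHom.id_apply, Finset.smul_sum]

theorem basisComb_apply (p : Fin r → K[X]) : basisComb z w p = ∑ i, aeval z (p i) * w i := rfl

theorem basisComb_mul (f : K[X]) (p : Fin r → K[X]) :
    basisComb z w (fun i => f * p i) = aeval z f * basisComb z w p := by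
  simp only [basisComb_apply, map_mul, Finset.mul_sum, mul_assoc]

variable (K) in
/-- The combinations with coefficients of degree less than `E`. -/
def boundedPart (E : ℕ) : Submodule K A :=
  Submodule.span K (Set.range fun x : Fin r × Fin E => z ^ (x.2 : ℕ) * w x.1)

instance finiteDimensional_boundedPart (E : ℕ) : FiniteDimensional K (boundedPart K z w E) :=
  FiniteDimensional.span_of_finite K (Set.finite_range _)

theorem basisComb_mem_boundedPart {E : ℕ} {p : Fin r → K[X]} (h : ∀ i, (p i).natDegree < E) :
    basisComb z w p ∈ boundedPart K z w E := by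
  rw [basisComb_apply]
  refine Submodule.sum_mem _ fun i _ => ?_
  rw [aeval_eq_sum_range' (h i), Finset.sum_mul]
  refine Submodule.sum_mem _ fun l hl => ?_
  rw [smul_mul_assoc]
  exact Submodule.smul_mem _ _ (Submodule.subset_span ⟨(i, ⟨l, Finset.mem_range.mp hl⟩), rfl⟩)

/-- Elements which are polynomial in `1 / z` with given coefficients have bounded degree. -/
theorem exists_degree_bound (hb : Function.Bijective (basisComb (K := K) z w)) {W : Type*}
    [CommRing W] [Algebra K W] (φ : A →ₐ[K] W) (hφ : Function.Injective φ) (v : W)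
    (hzv : φ z * v = 1) {s : ℕ} (β : Fin s → A) :
    ∃ E : ℕ, ∀ (a : A) (g : Fin s → K[X]), φ a = ∑ j, aeval v (g j) * φ (β j) →
      a ∈ boundedPart K z w E := by
  classical
  choose P hP using fun j => hb.2 (β j)
  set D := Finset.univ.sup fun x : Fin s × Fin r => (P x.1 x.2).natDegree with hD
  refine ⟨D + 1, fun a g ha => ?_⟩
  obtain ⟨p, rfl⟩ := hb.2 a
  set Q := Finset.univ.sup fun j => (g j).natDegree with hQ
  let : Invertible v := ⟨φ z, hzv, by rw [mul_comm]; exact hzv⟩
  have hrefl : ∀ j, φ z ^ Q * aeval v (g j) = aeval (φ z) (reflect Q (g j)) := fun j => by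
    have h := eval₂_reflect_mul_pow (algebraMap K W) v Q (g j)
      (Finset.le_sup (f := fun j => (g j).natDegree) (Finset.mem_univ j))
    rw [show ⅟v = φ z from rfl, ← aeval_def, ← aeval_def] at h
    rw [← h, mul_comm, mul_assoc, ← mul_pow, mul_comm v, hzv, one_pow, mul_one]
  have key : basisComb z w (fun i => X ^ Q * p i) =
      basisComb z w (fun i => ∑ j, reflect Q (g j) * P j i) := by
    refine hφ ?_
    have e : basisComb z w (fun i => ∑ j, reflect Q (g j) * P j i) =
        ∑ j, aeval z (reflect Q (g j)) * β j := by
      rw [← Finset.sum_fn, map_sum]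
      simp only [basisComb_mul, hP]
    rw [basisComb_mul, e, map_mul, map_sum, ← aeval_algHom_apply, ha, Finset.mul_sum]
    simp only [map_mul, ← aeval_algHom_apply, map_pow, aeval_X, ← mul_assoc, hrefl]
  refine basisComb_mem_boundedPart z w fun i => Nat.lt_succ_of_le ?_
  rcases eq_or_ne (p i) 0 with h0 | h0
  · simp [h0]
  have h1 := congrFun (hb.1 key) i
  have h2 : (X ^ Q * p i).natDegree = Q + (p i).natDegree := by
    rw [natDegree_mul (pow_ne_zero _ X_ne_zero) h0, natDegree_X_pow]
  have h3 : (∑ j, reflect Q (g j) * P j i).natDegree ≤ Q + D := by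
    refine natDegree_sum_le_of_forall_le _ _ fun j _ => natDegree_mul_le.trans (add_le_add ?_ ?_)
    · exact natDegree_reflect_le.trans (max_le le_rfl
        (Finset.le_sup (f := fun j => (g j).natDegree) (Finset.mem_univ j)))
    · exact Finset.le_sup (f := fun x : Fin s × Fin r => (P x.1 x.2).natDegree)
        (Finset.mem_univ (j, i))
  rw [← h1, h2] at h3
  omega

/-- Quotients by nonzero elements are finite dimensional. -/
theorem finiteDimensional_quotient_span [IsDomain A]
    (hb : Function.Bijective (basisComb (K := K) z w)) {a : A} (ha : a ≠ 0) :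
    FiniteDimensional K (A ⧸ Ideal.span {a}) := by
  classical
  let : Algebra K[X] A := (aeval z).toRingHom.toAlgebra
  have : Module.Finite K[X] A := ⟨⟨Finset.univ.image w, by
    refine eq_top_iff.mpr fun b _ => ?_
    obtain ⟨p, rfl⟩ := hb.2 b
    rw [basisComb_apply]
    refine Submodule.sum_mem _ fun i _ => ?_
    exact Submodule.smul_mem (R := K[X]) _ (p i) (Submodule.subset_span (by simp))⟩⟩
  have hint : IsIntegral K[X] a := Algebra.IsIntegral.isIntegral a
  have hne : (Ideal.span {a}).comap (algebraMap K[X] A) ≠ ⊥ :=
    Ideal.comap_ne_bot_of_integral_mem ha (Ideal.mem_span_singleton_self a) hint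
  obtain ⟨P, hP, hP0⟩ := Submodule.exists_mem_ne_zero_of_ne_bot hne
  set M := P * C P.leadingCoeff⁻¹ with hMdef
  have hM : M.Monic := monic_mul_leadingCoeff_inv hP0
  have hMa : aeval z M ∈ Ideal.span {a} := by
    rw [hMdef, map_mul]
    exact Ideal.mul_mem_right _ _ hP
  let π : A →ₗ[K] A ⧸ Ideal.span {a} := (Ideal.Quotient.mkₐ K _).toLinearMap
  have hsurj : Function.Surjective (π ∘ₗ (boundedPart K z w M.natDegree).subtype) := by
    intro y
    obtain ⟨b, rfl⟩ := Ideal.Quotient.mk_surjective y
    obtain ⟨p, rfl⟩ := hb.2 b
    rcases Nat.eq_zero_or_pos M.natDegree with h0 | hpos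
    · refine ⟨0, ?_⟩
      rw [map_zero]
      have h1 : (Ideal.span {a} : Ideal A) = ⊤ := by
        rw [Ideal.eq_top_iff_one]
        rwa [hM.natDegree_eq_zero.mp h0, map_one] at hMa
      have : Subsingleton (A ⧸ Ideal.span {a}) := Ideal.Quotient.subsingleton_iff.mpr h1
      exact Subsingleton.elim _ _
    refine ⟨⟨basisComb z w (fun i => p i %ₘ M), basisComb_mem_boundedPart z w fun i =>
      natDegree_modByMonic_lt _ hM (fun h => hpos.ne' (by rw [h, natDegree_one]))⟩, ?_⟩
    show Ideal.Quotient.mk _ _ = Ideal.Quotient.mk _ _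
    rw [Ideal.Quotient.mk_eq_mk_iff_sub_mem]
    show basisComb z w _ - basisComb z w p ∈ _
    rw [← map_sub,
      show ((fun i => p i %ₘ M) - p) = fun i => M * -(p i /ₘ M) from funext fun i => by
        simp only [Pi.sub_apply]
        linear_combination modByMonic_add_div (p i) M,
      basisComb_mul]
    exact Ideal.mul_mem_right _ _ hMa
  exact Module.Finite.of_surjective _ hsurj

/-- The cokernel of multiplication by `z` has dimension `r`, and it is injective. -/
theorem index_mulLeft (hb : Function.Bijective (basisComb (K := K) z w)) :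
    Function.Injective (LinearMap.mulLeft K z) ∧
      FiniteDimensional K (A ⧸ LinearMap.range (LinearMap.mulLeft K z)) ∧
      Module.finrank K (A ⧸ LinearMap.range (LinearMap.mulLeft K z)) = r := by
  let e := LinearEquiv.ofBijective (basisComb (K := K) z w) hb
  let ev : A →ₗ[K] (Fin r → K) :=
    (LinearMap.pi fun i => (Polynomial.lcoeff K 0).comp (LinearMap.proj i)) ∘ₗ e.symm.toLinearMap
  have hev : Function.Surjective ev := fun v => ⟨e fun i => C (v i), funext fun i => by simp [ev]⟩
  have hker : LinearMap.ker ev = LinearMap.range (LinearMap.mulLeft K z) := by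
    ext a
    obtain ⟨p, rfl⟩ := e.surjective a
    simp only [LinearMap.mem_ker, ev, LinearMap.coe_comp, LinearEquiv.coe_coe, Function.comp_apply,
      LinearEquiv.symm_apply_apply, funext_iff, LinearMap.pi_apply, LinearMap.proj_apply,
      lcoeff_apply, Pi.zero_apply, LinearMap.mem_range, LinearMap.mulLeft_apply]
    constructor
    · intro h
      refine ⟨e fun i => (p i).divX, ?_⟩
      show z * basisComb z w _ = basisComb z w _
      rw [show z * basisComb z w (fun i => (p i).divX) =
          basisComb z w (fun i => X * (p i).divX) by rw [basisComb_mul, aeval_X]]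
      congr 1
      funext i
      conv_rhs => rw [← divX_mul_X_add (p i), h i, C_0, add_zero]
      rw [mul_comm]
    · rintro ⟨b, hb'⟩ i
      obtain ⟨p', rfl⟩ := e.surjective b
      have h1 : basisComb z w (fun i => X * p' i) = basisComb z w p := by
        rw [basisComb_mul, aeval_X]; exact hb'
      rw [← congrFun (hb.1 h1) i, mul_coeff_zero, coeff_X_zero, zero_mul]
  refine ⟨fun a b hab => ?_, ?_, ?_⟩
  · obtain ⟨p, rfl⟩ := e.surjective a
    obtain ⟨p', rfl⟩ := e.surjective b
    refine congrArg e (funext fun i => mul_left_cancel₀ (X_ne_zero (R := K)) (congrFun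
      (hb.1 (a₁ := fun i => X * p i) (a₂ := fun i => X * p' i) ?_) i))
    rw [basisComb_mul, basisComb_mul, aeval_X]
    exact hab
  · rw [← hker]
    exact Module.Finite.equiv (ev.quotKerEquivOfSurjective hev).symm
  · rw [← hker, (ev.quotKerEquivOfSurjective hev).finrank_eq, Module.finrank_fintype_fun_eq_card,
      Fintype.card_fin]

end FLTAgent.RelPicard

end
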