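import Fermat.Agent.RelPicard.FredholmIndex
import Fermat.Agent.RelPicard.PolyBasis
import Fermat.Agent.RelPicard.SecEquiv

/-!
# Finiteness and twists of the cohomology of a cocycle on an integral fibre

Over a field the difference map of every cocycle has finite dimensional kernel and cokernel, its
index drops by `r` with each twist at infinity, and it is surjective for very negative twists.

Main results: `finiteDimensional_ker`, `finIndex_diff`, `index_diff`,
`exists_surjective_diff`.
-/

set_option autoImplicit false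

universe u

open CategoryTheory CategoryTheory.Limits AlgebraicGeometry TopologicalSpace

noncomputable section

namespace FLTAgent.RelPicard

variable {X : Scheme.{u}}

/-- Functions, to be regarded as an algebra over the base ring. -/
def Fn {R : Type u} [CommRing R] (_ : X ⟶ Spec (CommRingCat.of R)) (W : X.Opens) : Type u :=
  Γ(X, W)

instance {R : Type u} [CommRing R] (π : X ⟶ Spec (CommRingCat.of R)) (W : X.Opens) :
    CommRing (Fn π W) :=
  inferInstanceAs (CommRing Γ(X, W))

instance {R : Type u} [CommRing R] (π : X ⟶ Spec (CommRingCat.of R)) (W : X.Opens) :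
    Algebra R (Fn π W) :=
  RingHom.toAlgebra (R := R) (S := Fn π W) (scalarHom π W)

/-- Restriction as a map of algebras. -/
def fnRes {R : Type u} [CommRing R] (π : X ⟶ Spec (CommRingCat.of R)) {W W' : X.Opens}
    (h : W' ≤ W) : Fn π W →ₐ[R] Fn π W' :=
  { res h with commutes' := fun a => res_scalarHom π h a }

section Integral

variable [IsIntegral X]

theorem res_injective_of_nonempty {W W' : X.Opens} (h : W' ≤ W) (hne : Nonempty W') :
    Function.Injective (res h : Γ(X, W) → Γ(X, W')) :=
  haveI := hne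
  map_injective_of_isIntegral X (homOfLE h)

theorem isDomain_sections {W : X.Opens} (hne : Nonempty W) : IsDomain Γ(X, W) :=
  haveI := hne
  inferInstance

theorem nonempty_inf {U V : X.Opens} (hU : Nonempty U) (hV : Nonempty V) :
    Nonempty (U ⊓ V : X.Opens) := by
  obtain ⟨x, hx⟩ := hU
  obtain ⟨y, hy⟩ := hV
  obtain ⟨z, hz⟩ := nonempty_preirreducible_inter U.isOpen V.isOpen ⟨x, hx⟩ ⟨y, hy⟩
  exact ⟨⟨z, hz⟩⟩

namespace Cocycle

variable (c : Cocycle X)

theorem resSec_injective {W W' : X.Opens} (h : W' ≤ W) (hne : Nonempty W') :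
    Function.Injective (c.resSec h) := fun _s _t e => Subtype.ext (funext fun x =>
  res_injective_of_nonempty (inf_le_inf_right _ h) (nonempty_inf hne ⟨⟨x, c.mem x⟩⟩)
    (congrFun (congrArg Subtype.val e) x))

theorem eq_zero_of_smul_eq_zero {W : X.Opens} (hne : Nonempty W) {a : Γ(X, W)} {s : c.Sec W}
    (h : a • s = 0) (hs : s ≠ 0) : a = 0 := by
  by_contra ha
  refine hs (Subtype.ext (funext fun x => ?_))
  have hn := nonempty_inf hne (V := c.nbhd x) ⟨⟨x, c.mem x⟩⟩
  have := isDomain_sections hn
  have e : res inf_le_left a * s.1 x = 0 := congrFun (congrArg Subtype.val h) x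
  refine (mul_eq_zero.mp e).resolve_left fun h0 => ha ?_
  exact res_injective_of_nonempty inf_le_left hn (h0.trans (map_zero _).symm)

omit [IsIntegral X] in
/-- Extension of sections with poles along an equation. -/
theorem exists_extend_of_eq {U W : X.Opens} (hU : IsAffineOpen U) (f : Γ(X, U)) (hle : W ≤ U)
    (hW : X.basicOpen f = W) (s₀ : c.Sec W) :
    ∃ (N : ℕ) (s : c.Sec U), c.resSec hle s = res hle f ^ N • s₀ := by
  subst hW
  exact c.exists_extend hU f s₀

end Cocycle

end Integral

section OneMul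

variable {R : Type u} [CommRing R] (π : X ⟶ Spec (CommRingCat.of R)) [Nonempty X]

/-- The function of a section of the trivial cocycle. -/
def oneCoord (W : X.Opens) : Cocycle.one.Sec W →ₗ[Γ(X, W)] Γ(X, W) :=
  Cocycle.one.coordOn (Classical.arbitrary X) le_top

theorem oneCoord_bijective (W : X.Opens) : Function.Bijective (oneCoord (X := X) W) :=
  ⟨Cocycle.one.coordOn_injective _ _, fun a =>
    ⟨a • Cocycle.one.frameOn (Classical.arbitrary X) le_top, by
    rw [oneCoord, map_smul, Cocycle.coordOn_frameOn, smul_eq_mul, mul_one]⟩⟩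

theorem oneCoord_resSec {W W' : X.Opens} (h : W' ≤ W) (s : Cocycle.one.Sec W) :
    oneCoord W' (Cocycle.one.resSec h s) = res h (oneCoord W s) :=
  Cocycle.one.coordOn_resSec _ h le_top s

/-- The function of a section of the trivial cocycle, as a linear bijection over the base. -/
def oneFn (W : X.Opens) : SecOver π Cocycle.one W ≃ₗ[R] Fn π W :=
  LinearEquiv.ofBijective
    ({ toFun := fun s => (oneCoord W (show Cocycle.one.Sec W from s) : Γ(X, W))
       map_add' := fun a b => (oneCoord W).map_add a b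
       map_smul' := fun a s => (oneCoord W).map_smul (scalarHom π W a)
         (show Cocycle.one.Sec W from s) } : SecOver π Cocycle.one W →ₗ[R] Fn π W)
    (oneCoord_bijective W)

/-- Multiplication of functions by a section. -/
def oneMul (N : Cocycle X) {W : X.Opens} (s : SecOver π N W) :
    SecOver π Cocycle.one W →ₗ[R] SecOver π N W where
  toFun a := (oneCoord W a • (show N.Sec W from s) : N.Sec W)
  map_add' a b := (congrArg (fun v : Γ(X, W) => (v • (show N.Sec W from s) : N.Sec W))
    ((oneCoord W).map_add a b)).trans (add_smul _ _ _)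
  map_smul' x a := (congrArg (fun v : Γ(X, W) => (v • (show N.Sec W from s) : N.Sec W))
    ((oneCoord W).map_smul (scalarHom π W x) a)).trans (smul_assoc _ _ _)

theorem secRes_oneMul (N : Cocycle X) {W W' : X.Opens} (h : W' ≤ W) (s : SecOver π N W)
    (a : SecOver π Cocycle.one W) :
    secRes π N h (oneMul π N s a) = oneMul π N (secRes π N h s) (secRes π Cocycle.one h a) :=
  (N.resSec_smul h _ s).trans
    (congrArg (fun v : Γ(X, W') => (v • N.resSec h s : N.Sec W')) (oneCoord_resSec h a).symm)

theorem secMul_oneMul (N : Cocycle X) {W : X.Opens} (b : Γ(X, W)) (s : SecOver π N W)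
    (a : SecOver π Cocycle.one W) :
    secMul π N b (oneMul π N s a) = oneMul π N s (secMul π Cocycle.one b a) :=
  (smul_smul b _ (show N.Sec W from s)).trans
    (congrArg (fun v : Γ(X, W) => (v • (show N.Sec W from s) : N.Sec W))
      ((oneCoord W).map_smul b a).symm)

theorem oneMul_secMul_section (N : Cocycle X) {W : X.Opens} (b : Γ(X, W)) (s : SecOver π N W)
    (a : SecOver π Cocycle.one W) :
    oneMul π N (secMul π N b s) a = secMul π N b (oneMul π N s a) :=
  smul_comm (oneCoord W a) b (show N.Sec W from s)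

end OneMul

section Field

variable {K : Type u} [Field K] (π : X ⟶ Spec (CommRingCat.of K)) [IsIntegral X] {r : ℕ}

theorem oneMul_injective (N : Cocycle X) {W : X.Opens} (hne : Nonempty W) (s : SecOver π N W)
    (hs : s ≠ 0) : Function.Injective (oneMul π N s) :=
  (injective_iff_map_eq_zero (oneMul π N s)).mpr fun _a ha =>
    (oneCoord_bijective W).1 ((N.eq_zero_of_smul_eq_zero hne ha hs).trans (map_zero _).symm)

/-- On a chart multiplication of functions by a nonzero section has finite index. -/
theorem finIndex_oneMul (N : Cocycle X) {W : X.Opens} (hW : IsAffineOpen W) (hne : Nonempty W)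
    {z : Fn π W} {w : Fin r → Fn π W} (hb : Function.Bijective (basisComb (K := K) z w))
    (s : SecOver π N W) (hs : s ≠ 0) : FinIndex (oneMul π N s) := by
  classical
  obtain ⟨F⟩ := N.nonempty_secFrame hW
  obtain ⟨i, hi⟩ : ∃ i, N.pair (F.τ i) s ≠ 0 := by
    by_contra! h
    refine hs ((F.sum_smul (show N.Sec W from s)).symm.trans (Finset.sum_eq_zero fun i _ => ?_))
    rw [h i, zero_smul]
  set a : Fn π W := (N.pair (F.τ i) s : Γ(X, W))
  have : IsDomain (Fn π W) := isDomain_sections hne
  have := finiteDimensional_quotient_span z w hb (a := a) hi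
  set Q := SecOver π N W ⧸ LinearMap.range (oneMul π N s)
  let term : Fin F.n → (Fn π W →ₗ[K] Q) := fun j =>
    (Submodule.mkQ _).comp
      ({ toFun := fun b => ((show Γ(X, W) from b) • F.σ j : N.Sec W)
         map_add' := fun b b' => add_smul (show Γ(X, W) from b) (show Γ(X, W) from b') (F.σ j)
         map_smul' := fun x b => mul_smul (scalarHom π W x) (show Γ(X, W) from b) (F.σ j) } :
        Fn π W →ₗ[K] SecOver π N W)
  have hkill : ∀ j, (Ideal.span {a}).restrictScalars K ≤ LinearMap.ker (term j) := by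
    intro j b hb'
    obtain ⟨b', rfl⟩ := Ideal.mem_span_singleton'.mp hb'
    let cj : Fn π W := (N.pair (F.τ i) (F.σ j) : Γ(X, W))
    refine (Submodule.Quotient.mk_eq_zero _).mpr ⟨(oneFn π W).symm (b' * cj), ?_⟩
    have h1 := (F.toFrame).swap (N.pairL (F.τ i)) (F.σ j) s
    show oneCoord W _ • (show N.Sec W from s) = ((show Γ(X, W) from b') * N.pair (F.τ i) s) • F.σ j
    rw [mul_smul]
    refine Eq.trans ?_ (congrArg ((show Γ(X, W) from b') • ·) h1)
    exact (congrArg (fun v : Γ(X, W) => (v • (show N.Sec W from s) : N.Sec W))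
      ((oneFn π W).apply_symm_apply _)).trans (mul_smul _ _ _)
  let total : (Fin F.n → (Fn π W ⧸ (Ideal.span {a}).restrictScalars K)) →ₗ[K] Q :=
    ∑ j, (Submodule.liftQ _ (term j) (hkill j)).comp (LinearMap.proj j)
  have htot : Function.Surjective total := by
    intro y
    obtain ⟨m, rfl⟩ := Submodule.Quotient.mk_surjective _ y
    refine ⟨fun j => Submodule.Quotient.mk (N.pair (F.τ j) m : Fn π W), ?_⟩
    simp only [total, LinearMap.sum_apply, LinearMap.coe_comp, LinearMap.proj_apply,
      Function.comp_apply]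
    let g : Fin F.n → SecOver π N W := fun j => (N.pair (F.τ j) m • F.σ j : N.Sec W)
    refine (map_sum (Submodule.mkQ (LinearMap.range (oneMul π N s))) g Finset.univ).symm.trans
      (congrArg (Submodule.mkQ _) ?_)
    exact F.sum_smul (show N.Sec W from m)
  have : FiniteDimensional K (Fn π W ⧸ (Ideal.span {a}).restrictScalars K) :=
    Module.Finite.equiv (Submodule.Quotient.restrictScalarsEquiv K (Ideal.span {a})).symm
  have : FiniteDimensional K Q := Module.Finite.of_surjective total htot
  exact FinIndex.of_injective (oneMul_injective π N hne s hs)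

end Field

namespace CurveCover

variable {k : Type u} [Field k] {C : Scheme.{u}} {c : C ⟶ Spec (CommRingCat.of k)}
  (D : CurveCover k c) {K : Type u} [Field K]
  (t : Spec (CommRingCat.of K) ⟶ Spec (CommRingCat.of k))

/-- `x` as an element of the algebra of the chart. -/
abbrev xFn : Fn (pullback.snd c t) (D.UT t) := D.xT t

/-- `y` as an element of the algebra of the chart. -/
abbrev yFn : Fn (pullback.snd c t) (D.VT t) := D.yT t

theorem basisComb_UT :
    Function.Bijective (basisComb (K := K) (D.xFn t)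
      (fun i => (D.wUT t i : Fn (pullback.snd c t) (D.UT t)))) :=
  D.bijective_polyComb_UT t

theorem basisComb_VT :
    Function.Bijective (basisComb (K := K) (D.yFn t)
      (fun i => (D.wVT t i : Fn (pullback.snd c t) (D.VT t)))) :=
  D.bijective_polyComb_VT t

theorem nonempty_UT : Nonempty (D.UT t) := by
  by_contra h
  have : Subsingleton Γ(pullback c t, D.UT t) := by
    have : D.UT t = ⊥ := eq_bot_iff.mpr fun x hx => (h ⟨⟨x, hx⟩⟩).elim
    rw [this]; infer_instance
  have : Subsingleton (Fn (pullback.snd c t) (D.UT t)) := ‹Subsingleton Γ(pullback c t, D.UT t)›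
  have : Nonempty (Fin D.r) := ⟨⟨0, D.r_pos⟩⟩
  exact not_subsingleton (Fin D.r → Polynomial K) ((D.basisComb_UT t).1.subsingleton (β := Fn _ _))

variable [IsIntegral (pullback c t)]

theorem nonempty_WT : Nonempty (D.WT t) := by
  have h : D.xT t ≠ 0 := fun h0 => by
    have e := @basisComb_mul K _ (Fn (pullback.snd c t) (D.UT t)) _ _ _ (D.xFn t)
      (fun i => D.wUT t i) Polynomial.X (Pi.single ⟨0, D.r_pos⟩ 1)
    rw [Polynomial.aeval_X] at e
    have e0 : D.xFn t = 0 := h0
    have e1 := (D.basisComb_UT t).1 (a₂ := 0)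
      (e.trans (((congrArg (· * _) e0).trans (zero_mul _)).trans (map_zero _).symm))
    simpa using congrFun e1 ⟨0, D.r_pos⟩
  by_contra hne
  refine h ((basicOpen_eq_bot_iff _).mp ?_)
  rw [D.basicOpen_xT]
  exact eq_bot_iff.mpr fun x hx => (hne ⟨⟨x, hx⟩⟩).elim

theorem nonempty_VT : Nonempty (D.VT t) := by
  obtain ⟨⟨x, hx⟩⟩ := D.nonempty_WT t
  exact ⟨⟨x, hx.2⟩⟩

omit [IsIntegral (pullback c t)] in
theorem diff_eq_zero_iff (N : Cocycle (pullback c t)) (n : ℤ)
    (p : SecOver (pullback.snd c t) N (D.UT t) × SecOver (pullback.snd c t) N (D.VT t)) :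
    D.diff t N n p = 0 ↔
      N.resSec inf_le_left p.1 = ((D.yUnit t ^ n : Γ(pullback c t, D.WT t)ˣ) :
        Γ(pullback c t, D.WT t)) • N.resSec (inf_le_right : D.WT t ≤ D.VT t) p.2 :=
  ⟨fun h => sub_eq_zero.mp ((D.diff_apply t N n p).symm.trans h),
    fun h => (D.diff_apply t N n p).trans (sub_eq_zero.mpr h)⟩

/-- Functions at zero with bounded pole at infinity have bounded coordinates. -/
theorem exists_bound (d : ℤ) :
    ∃ E : ℕ, ∀ (a : Γ(pullback c t, D.UT t)) (b : Γ(pullback c t, D.VT t)),
      res inf_le_left a = ((D.yUnit t ^ d : Γ(pullback c t, D.WT t)ˣ) : Γ(pullback c t, D.WT t)) *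
        res inf_le_right b →
      (a : Fn (pullback.snd c t) (D.UT t)) ∈
        boundedPart K (D.xFn t) (fun i => D.wUT t i) E := by
  classical
  choose α f hf using fun j => D.exists_overlap_eq t (res inf_le_right (D.wVT t j))
  set f₀ := Finset.univ.sup f + (-d).toNat with hf₀
  set β : Fin D.r → Γ(pullback c t, D.UT t) := fun j => α j * D.xT t ^ (f₀ - f j) with hβ
  have hwy : ∀ j, res (inf_le_right : D.WT t ≤ D.VT t) (D.wVT t j) =
      res inf_le_left (β j) * res (inf_le_right : D.WT t ≤ D.VT t) (D.yT t) ^ f₀ := fun j => by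
    have hle : f j ≤ f₀ := (Finset.le_sup (Finset.mem_univ j)).trans (Nat.le_add_right _ _)
    obtain ⟨d', hd'⟩ := Nat.exists_eq_add_of_le hle
    rw [hf j, hβ, map_mul, map_pow, hd', Nat.add_sub_cancel_left, pow_add, mul_assoc,
      mul_left_comm (_ ^ d'), ← mul_pow, D.xT_mul_yT, one_pow, mul_one]
  obtain ⟨E, hE⟩ := exists_degree_bound (D.xFn t) (fun i => D.wUT t i) (D.basisComb_UT t)
    (fnRes (pullback.snd c t) (inf_le_left : D.WT t ≤ D.UT t))
    (res_injective_of_nonempty _ (D.nonempty_WT t))
    (res (inf_le_right : D.WT t ≤ D.VT t) (D.yT t) : Fn (pullback.snd c t) (D.WT t))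
    (D.xT_mul_yT t) (fun j => (β j : Fn (pullback.snd c t) (D.UT t)))
  refine ⟨E, fun a b h => ?_⟩
  obtain ⟨g, hg⟩ := (D.basisComb_VT t).2
    (show Γ(pullback c t, D.VT t) from b * D.yT t ^ (d + f₀).toNat)
  refine hE a g ?_
  let wV : Fin D.r → Fn (pullback.snd c t) (D.VT t) := fun i => D.wVT t i
  have h1 : fnRes (pullback.snd c t) (inf_le_right : D.WT t ≤ D.VT t)
      (∑ i, Polynomial.aeval (D.yFn t) (g i) * wV i) = _ :=
    congrArg (fnRes (pullback.snd c t) inf_le_right) hg
  rw [map_sum] at h1
  simp only [map_mul, ← Polynomial.aeval_algHom_apply] at h1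
  set w₁ : Γ(pullback c t, D.WT t) := res inf_le_right (D.yT t) with hw₁
  let bU : Fin D.r → Fn (pullback.snd c t) (D.UT t) := fun j => β j
  let w₁' : Fn (pullback.snd c t) (D.WT t) := w₁
  have h2 : ∀ j, (fnRes (pullback.snd c t) (inf_le_right : D.WT t ≤ D.VT t))
      (wV j) =
      fnRes (pullback.snd c t) (inf_le_left : D.WT t ≤ D.UT t) (bU j) * w₁' ^ f₀ := hwy
  simp only [h2, ← mul_assoc, ← Finset.sum_mul] at h1
  have hu : IsUnit (w₁' ^ f₀) :=
    ((D.yUnit t).isUnit.pow f₀ : IsUnit (w₁ ^ f₀))
  refine hu.mul_right_cancel ?_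
  refine Eq.trans ?_ h1.symm
  suffices e : (res inf_le_left a * w₁ ^ f₀ : Γ(pullback c t, D.WT t)) =
      res inf_le_right (b * D.yT t ^ (d + f₀).toNat) from e
  rw [h, map_mul, map_pow, ← hw₁, mul_right_comm, mul_comm (res _ b)]
  refine congrArg (· * _) ?_
  have hy : w₁ = (D.yUnit t : Γ(pullback c t, D.WT t)) := rfl
  rw [hy, ← Units.val_pow_eq_pow_val, ← Units.val_pow_eq_pow_val, ← Units.val_mul,
    ← zpow_natCast (D.yUnit t) f₀, ← zpow_natCast (D.yUnit t) (d + f₀).toNat, ← zpow_add,
    Int.toNat_of_nonneg (by omega)]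

/-- The kernel is finite dimensional. -/
theorem finiteDimensional_ker (N : Cocycle (pullback c t)) (n : ℤ) :
    FiniteDimensional K (LinearMap.ker (D.diff t N n)) := by
  classical
  obtain ⟨F⟩ := N.nonempty_secFrame (D.isAffineOpen_UT t)
  choose e τ' hτ' using fun i => N.inv.exists_extend_of_eq (D.isAffineOpen_VT t) (D.yT t)
    (inf_le_right : D.WT t ≤ D.VT t) (D.basicOpen_yT t) (N.inv.resSec inf_le_left (F.τ i))
  choose E hE using fun i => D.exists_bound t (n - e i)
  have hmem' : ∀ (u : N.Sec (D.UT t)) (v : N.Sec (D.VT t)),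
      N.resSec inf_le_left u = ((D.yUnit t ^ n : Γ(pullback c t, D.WT t)ˣ) :
        Γ(pullback c t, D.WT t)) • N.resSec (inf_le_right : D.WT t ≤ D.VT t) v →
      ∀ i, (N.pair (F.τ i) u : Fn (pullback.snd c t) (D.UT t)) ∈
        boundedPart K (D.xFn t) (fun j => D.wUT t j) (E i) := by
    intro u v h0 i
    refine hE i _ (N.pair (τ' i) v) ?_
    have h1 : res inf_le_right (N.pair (τ' i) v) =
        ((D.yUnit t ^ (e i : ℤ) : Γ(pullback c t, D.WT t)ˣ) : Γ(pullback c t, D.WT t)) *
          N.pair (N.inv.resSec inf_le_left (F.τ i)) (N.resSec inf_le_right v) := by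
      rw [← N.pair_resSec, hτ' i, N.smul_pair, zpow_natCast, Units.val_pow_eq_pow_val]
      rfl
    rw [← N.pair_resSec, h0, N.pair_smul, h1, ← mul_assoc, ← Units.val_mul, ← zpow_add,
      sub_add_cancel]
  have hmem : ∀ (p : LinearMap.ker (D.diff t N n)) i,
      (N.pair (F.τ i) p.1.1 : Fn (pullback.snd c t) (D.UT t)) ∈
        boundedPart K (D.xFn t) (fun j => D.wUT t j) (E i) := fun p i =>
    hmem' p.1.1 p.1.2 ((D.diff_eq_zero_iff t N n p.1).mp (LinearMap.mem_ker.mp p.2)) i
  let φ : LinearMap.ker (D.diff t N n) →ₗ[K]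
      (i : Fin F.n) → boundedPart K (D.xFn t) (fun j => D.wUT t j) (E i) :=
    LinearMap.pi fun i => LinearMap.codRestrict _
      { toFun := fun p => (N.pair (F.τ i) p.1.1 : Fn (pullback.snd c t) (D.UT t))
        map_add' := fun p p' => (N.pairL (F.τ i)).map_add p.1.1 p'.1.1
        map_smul' := fun a p => (N.pairL (F.τ i)).map_smul
          (scalarHom (pullback.snd c t) (D.UT t) a) p.1.1 } fun p => hmem p i
  have : ∀ i, FiniteDimensional K (boundedPart K (D.xFn t)
      (fun j => (D.wUT t j : Fn (pullback.snd c t) (D.UT t))) (E i)) :=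
    fun i => finiteDimensional_boundedPart _ _ _
  refine FiniteDimensional.of_injective φ ((injective_iff_map_eq_zero φ).mpr ?_)
  rintro ⟨⟨u, v⟩, hp⟩ h
  have hu : u = 0 := by
    refine (F.sum_smul u).symm.trans (Finset.sum_eq_zero fun i _ => ?_)
    have h' : N.pair (F.τ i) u = 0 := congrArg Subtype.val (congrFun h i)
    rw [h', zero_smul]
  subst hu
  have h0 := (D.diff_eq_zero_iff t N n (0, v)).mp (LinearMap.mem_ker.mp hp)
  replace h0 := (map_zero (N.resSec (inf_le_left : D.WT t ≤ D.UT t))).symm.trans h0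
  have hv : N.resSec inf_le_right v = 0 :=
    (IsUnit.smul_eq_zero (D.yUnit t ^ n).isUnit).mp h0.symm
  have hv' : v = 0 :=
    N.resSec_injective _ (D.nonempty_WT t) (hv.trans (map_zero (N.resSec _)).symm)
  subst hv'
  rfl

omit [AlgebraicGeometry.IsIntegral (pullback c t)] in
/-- The cokernel is finite dimensional, and vanishes for very negative twists. -/
theorem exists_coker (N : Cocycle (pullback c t)) :
    ∃ e : ℤ, ∀ n : ℤ, FiniteDimensional K
        (SecOver (pullback.snd c t) N (D.WT t) ⧸ LinearMap.range (D.diff t N n)) ∧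
      (n ≤ -e → Function.Surjective (D.diff t N n)) := by
  classical
  obtain ⟨F⟩ := N.nonempty_secFrame (D.isAffineOpen_UT t)
  set y := D.yUnit t
  let g₀ : Fin D.r × Fin F.n → N.Sec (D.WT t) := fun x =>
    N.resSec inf_le_left (D.wUT t x.1 • F.σ x.2)
  choose e v hv using fun x => N.exists_extend_of_eq (D.isAffineOpen_VT t) (D.yT t)
    (inf_le_right : D.WT t ≤ D.VT t) (D.basicOpen_yT t) (g₀ x)
  set e₀ : ℤ := ((Finset.univ.sup e : ℕ) : ℤ)
  have hv' : ∀ x, ∀ a : ℕ, N.resSec inf_le_right (D.yT t ^ a • v x) =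
      ((y ^ ((a : ℤ) + e x) : Γ(pullback c t, D.WT t)ˣ) : Γ(pullback c t, D.WT t)) • g₀ x := by
    intro x a
    rw [N.resSec_smul, hv x, smul_smul, zpow_add, zpow_natCast, zpow_natCast, Units.val_mul,
      Units.val_pow_eq_pow_val, Units.val_pow_eq_pow_val, map_pow]
    rfl
  let sm : Γ(pullback c t, D.WT t) → Fin D.r × Fin F.n →
      SecOver (pullback.snd c t) N (D.WT t) := fun b x => (b • g₀ x : N.Sec (D.WT t))
  have hsm : ∀ (a : K) b x, a • sm b x = sm (scalarHom (pullback.snd c t) (D.WT t) a * b) x :=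
    fun a b x => (mul_smul (scalarHom (pullback.snd c t) (D.WT t) a) b (g₀ x)).symm
  let G : ℤ → Fin D.r × Fin F.n → SecOver (pullback.snd c t) N (D.WT t) := fun a x =>
    sm ((y ^ (-a) : Γ(pullback c t, D.WT t)ˣ) : Γ(pullback c t, D.WT t)) x
  have hsec : ∀ w : N.Sec (D.WT t), (show SecOver (pullback.snd c t) N (D.WT t) from w) ∈
      Submodule.span K (Set.range fun p : ℤ × (Fin D.r × Fin F.n) => G p.1 p.2) := by
    intro w
    obtain ⟨m, s, hs⟩ := N.exists_extend_of_eq (D.isAffineOpen_UT t) (D.xT t)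
      (inf_le_left : D.WT t ≤ D.UT t) (D.basicOpen_xT t) w
    have hw : w = ((y ^ m : Γ(pullback c t, D.WT t)ˣ) : Γ(pullback c t, D.WT t)) •
        N.resSec inf_le_left s := by
      rw [hs, ← mul_smul, Units.val_pow_eq_pow_val, ← mul_pow,
        show (y : Γ(pullback c t, D.WT t)) * res inf_le_left (D.xT t) = 1 from y.val_inv, one_pow,
        one_smul]
    choose p hp using fun i =>
      (D.basisComb_UT t).2 (N.pair (F.τ i) s : Fn (pullback.snd c t) (D.UT t))
    have hterm : ∀ (i : Fin F.n) (j : Fin D.r) (f : Polynomial K),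
        sm (((y ^ m : Γ(pullback c t, D.WT t)ˣ) : Γ(pullback c t, D.WT t)) *
          res inf_le_left (Polynomial.eval₂ (scalarHom (pullback.snd c t) (D.UT t)) (D.xT t) f))
            (j, i) ∈
          Submodule.span K (Set.range fun p : ℤ × (Fin D.r × Fin F.n) => G p.1 p.2) := by
      intro i j f
      induction f using Polynomial.induction_on' with
      | add f f' hf hf' =>
        rw [Polynomial.eval₂_add, map_add, mul_add,
          show ∀ b b' x, sm (b + b') x = sm b x + sm b' x from fun b b' x => add_smul b b' (g₀ x)]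
        exact Submodule.add_mem _ hf hf'
      | monomial l a =>
        have e' : ((y ^ m : Γ(pullback c t, D.WT t)ˣ) : Γ(pullback c t, D.WT t)) *
            res inf_le_left (Polynomial.eval₂ (scalarHom (pullback.snd c t) (D.UT t)) (D.xT t)
              (Polynomial.monomial l a)) = scalarHom (pullback.snd c t) (D.WT t) a *
            ((y ^ (-((l : ℤ) - m)) : Γ(pullback c t, D.WT t)ˣ) : Γ(pullback c t, D.WT t)) := by
          rw [Polynomial.eval₂_monomial, map_mul, map_pow, res_scalarHom, neg_sub, zpow_sub,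
            zpow_natCast, zpow_natCast, Units.val_mul, ← inv_pow, Units.val_pow_eq_pow_val,
            Units.val_pow_eq_pow_val, show ((y⁻¹ : Γ(pullback c t, D.WT t)ˣ) :
              Γ(pullback c t, D.WT t)) = res inf_le_left (D.xT t) from rfl]
          ring
        rw [e', ← hsm]
        exact Submodule.smul_mem _ a (Submodule.subset_span ⟨((l : ℤ) - m, (j, i)), rfl⟩)
    have hfinal : w = ∑ i, ∑ j, ((((y ^ m : Γ(pullback c t, D.WT t)ˣ) : Γ(pullback c t, D.WT t)) *
        res inf_le_left (Polynomial.eval₂ (scalarHom (pullback.snd c t) (D.UT t)) (D.xT t) (p i j)))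
          • g₀ (j, i) : N.Sec (D.WT t)) := by
      rw [hw]
      conv_lhs => rw [← F.sum_smul s, map_sum]
      refine Finset.smul_sum.trans (Finset.sum_congr rfl fun i _ => ?_)
      have hpi : N.pair (F.τ i) s = ∑ j, Polynomial.eval₂ (scalarHom (pullback.snd c t) (D.UT t))
          (D.xT t) (p i j) * D.wUT t j := (hp i).symm
      rw [hpi, Finset.sum_smul, map_sum]
      refine Finset.smul_sum.trans (Finset.sum_congr rfl fun j _ => ?_)
      simp only [g₀, mul_smul, N.resSec_smul]
    refine (congrArg (fun v : N.Sec (D.WT t) =>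
      (show SecOver (pullback.snd c t) N (D.WT t) from v) ∈
      Submodule.span K _) hfinal).mpr ?_
    exact Submodule.sum_mem _ fun i _ => Submodule.sum_mem _ fun j _ => hterm i j (p i j)
  have hspan : ∀ w, w ∈ Submodule.span K
      (Set.range fun p : ℤ × (Fin D.r × Fin F.n) => G p.1 p.2) := fun w => hsec w
  refine ⟨e₀, fun n => ?_⟩
  set I : Finset ℤ := Finset.Ioo (-(e₀ + n)) 0
  have hall : ∀ a x, a ∉ I → G a x ∈ LinearMap.range (D.diff t N n) := by
    intro a x ha
    rw [Finset.mem_Ioo, not_and_or, not_lt, not_lt] at ha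
    rcases ha with ha | ha
    · have hle : (e x : ℤ) ≤ e₀ :=
        Int.ofNat_le.mpr (Finset.le_sup (f := e) (Finset.mem_univ x))
      refine ⟨(0, -(D.yT t ^ (-a - e x - n).toNat • v x : N.Sec (D.VT t))), ?_⟩
      refine (D.diff_apply t N n _).trans ?_
      show N.resSec inf_le_left 0 - _ • N.resSec inf_le_right (-(_ • v x)) = _
      rw [map_zero, zero_sub, map_neg, smul_neg, neg_neg, hv' x, smul_smul, ← Units.val_mul,
        ← zpow_add, Int.toNat_of_nonneg (by omega)]
      show _ = ((y ^ (-a) : Γ(pullback c t, D.WT t)ˣ) : Γ(pullback c t, D.WT t)) • g₀ x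
      congr 3
      ring
    · refine ⟨((D.xT t ^ a.toNat * D.wUT t x.1) • F.σ x.2, 0), ?_⟩
      refine (D.diff_apply t N n _).trans ?_
      show N.resSec inf_le_left _ - _ • N.resSec inf_le_right 0 = _
      rw [map_zero, smul_zero, sub_zero, mul_smul, N.resSec_smul]
      show _ = ((y ^ (-a) : Γ(pullback c t, D.WT t)ˣ) : Γ(pullback c t, D.WT t)) • g₀ x
      congr 1
      have hx : res inf_le_left (D.xT t) =
          ((y⁻¹ : Γ(pullback c t, D.WT t)ˣ) : Γ(pullback c t, D.WT t)) := rfl
      rw [map_pow, hx, ← Units.val_pow_eq_pow_val, inv_pow, ← zpow_natCast,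
        Int.toNat_of_nonneg ha, zpow_neg]
  have htop : ∀ w, w ∈ LinearMap.range (D.diff t N n) ⊔ Submodule.span K
      ((fun p : ℤ × (Fin D.r × Fin F.n) => G p.1 p.2) ''
        ↑(I ×ˢ (Finset.univ : Finset (Fin D.r × Fin F.n)))) := by
    intro w
    refine Submodule.span_le.mpr ?_ (hspan w)
    rintro _ ⟨⟨a, x⟩, rfl⟩
    by_cases ha : a ∈ I
    · exact Submodule.mem_sup_right (Submodule.subset_span ⟨(a, x), by simp [ha], rfl⟩)
    · exact Submodule.mem_sup_left (hall a x ha)
  refine ⟨?_, fun hn w => ?_⟩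
  · have : FiniteDimensional K (Submodule.span K
        ((fun p : ℤ × (Fin D.r × Fin F.n) => G p.1 p.2) ''
          ↑(I ×ˢ (Finset.univ : Finset (Fin D.r × Fin F.n))))) :=
      FiniteDimensional.span_of_finite K ((Finset.finite_toSet _).image _)
    refine Module.Finite.of_surjective ((Submodule.mkQ _).comp (Submodule.span K
        ((fun p : ℤ × (Fin D.r × Fin F.n) => G p.1 p.2) ''
          ↑(I ×ˢ (Finset.univ : Finset (Fin D.r × Fin F.n))))).subtype)
      fun q => ?_
    obtain ⟨w, rfl⟩ := Submodule.Quotient.mk_surjective _ q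
    obtain ⟨a, ha, b, hb, hab⟩ := Submodule.mem_sup.mp (htop w)
    refine ⟨⟨b, hb⟩, ?_⟩
    show Submodule.Quotient.mk b = Submodule.Quotient.mk w
    rw [Submodule.Quotient.eq, ← hab, sub_add_cancel_right]
    exact Submodule.neg_mem _ ha
  · have h := htop w
    have hI : I = ∅ := Finset.eq_empty_of_forall_notMem fun a ha => by
      have := Finset.mem_Ioo.mp ha
      omega
    rw [hI] at h
    simpa using h

/-- The difference map has finite index. -/
theorem finIndex_diff (N : Cocycle (pullback c t)) (n : ℤ) : FinIndex (D.diff t N n) := by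
  obtain ⟨e, he⟩ := D.exists_coker t N
  exact ⟨D.finiteDimensional_ker t N n, (he n).1⟩

omit [AlgebraicGeometry.IsIntegral (pullback c t)] in
/-- Very negative twists kill the first cohomology. -/
theorem exists_surjective_diff (N : Cocycle (pullback c t)) :
    ∃ n₀ : ℤ, ∀ n ≤ n₀, Function.Surjective (D.diff t N n) := by
  obtain ⟨e, he⟩ := D.exists_coker t N
  exact ⟨-e, fun n hn => (he n).2 hn⟩

/-- Multiplication by `y` has index `-r`. -/
theorem finIndex_secMul_y (N : Cocycle (pullback c t)) :
    FinIndex (secMul (pullback.snd c t) N (D.yT t)) ∧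
      (secMul (pullback.snd c t) N (D.yT t)).index = -(D.r : ℤ) := by
  set π := pullback.snd c t
  obtain ⟨hinj, hfin, hrank⟩ := index_mulLeft (D.yFn t) _ (D.basisComb_VT t)
  have := hfin
  have hL : FinIndex (LinearMap.mulLeft K (D.yFn t)) := FinIndex.of_injective hinj
  have hLi : (LinearMap.mulLeft K (D.yFn t)).index = -(D.r : ℤ) := by
    rw [LinearMap.index_of_injective hinj, hrank]
  set e := oneFn π (D.VT t)
  have hone : secMul π Cocycle.one (D.yT t) =
      (e.symm : Fn π (D.VT t) →ₗ[K] SecOver π Cocycle.one (D.VT t)) ∘ₗ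
        (LinearMap.mulLeft K (D.yFn t) ∘ₗ
          (e : SecOver π Cocycle.one (D.VT t) →ₗ[K] Fn π (D.VT t))) := by
    refine LinearMap.ext fun a => e.injective ?_
    simp only [LinearMap.coe_comp, Function.comp_apply, LinearEquiv.coe_coe,
      LinearEquiv.apply_symm_apply]
    exact (oneCoord (D.VT t)).map_smul (D.yT t) a
  have h1 : FinIndex (secMul π Cocycle.one (D.yT t)) ∧
      (secMul π Cocycle.one (D.yT t)).index = -(D.r : ℤ) := by
    rw [hone]
    have he := FinIndex.of_linearEquiv e
    have he' := FinIndex.of_linearEquiv e.symm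
    refine ⟨he'.comp (hL.comp he), ?_⟩
    rw [he'.index_comp (hL.comp he), hL.index_comp he, hLi, LinearEquiv.index_eq_zero,
      LinearEquiv.index_eq_zero]
    ring
  obtain ⟨F⟩ := N.nonempty_secFrame (D.isAffineOpen_VT t)
  obtain ⟨i, hi⟩ : ∃ i, F.σ i ≠ 0 := by
    by_contra! h
    have h2 := F.sum_pair
    simp only [h] at h2
    have := isDomain_sections (D.nonempty_VT t)
    refine zero_ne_one (α := Γ(pullback c t, D.VT t))
      ((Finset.sum_eq_zero fun j _ => ?_).symm.trans h2)
    exact (N.pairL (F.τ j)).map_zero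
  have hs := finIndex_oneMul π N (D.isAffineOpen_VT t) (D.nonempty_VT t)
    (D.basisComb_VT t) (F.σ i) hi
  obtain ⟨h2, h3⟩ := index_of_square hs hs h1.1
    (f' := secMul π N (D.yT t)) (LinearMap.ext fun a => secMul_oneMul π N (D.yT t) (F.σ i) a)
  exact ⟨h2, by rw [h1.2] at h3; linarith⟩

omit [IsIntegral (pullback c t)] in
theorem diff_succ (N : Cocycle (pullback c t)) (n : ℤ) :
    D.diff t N (n + 1) =
      D.diff t N n ∘ₗ LinearMap.id.prodMap (secMul (pullback.snd c t) N (D.yT t)) := by
  refine LinearMap.ext fun p => ?_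
  refine (D.diff_apply t N (n + 1) p).trans (Eq.trans ?_ (D.diff_apply t N n _).symm)
  show _ = N.resSec inf_le_left p.1 - _ •
    N.resSec inf_le_right (D.yT t • (show N.Sec (D.VT t) from p.2))
  rw [N.resSec_smul, smul_smul, zpow_add_one, Units.val_mul]
  rfl

/-- Each twist lowers the index by `r`. -/
theorem index_diff (N : Cocycle (pullback c t)) (n : ℤ) :
    (D.diff t N n).index = D.chi t N - n * D.r := by
  obtain ⟨hy, hyi⟩ := D.finIndex_secMul_y t N
  have hid : FinIndex (LinearMap.id : SecOver (pullback.snd c t) N (D.UT t) →ₗ[K] _) :=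
    FinIndex.of_linearEquiv (LinearEquiv.refl K _)
  have step : ∀ m : ℤ, (D.diff t N (m + 1)).index = (D.diff t N m).index - D.r := fun m => by
    rw [D.diff_succ t N m, (D.finIndex_diff t N m).index_comp (hid.prodMap hy),
      hid.index_prodMap hy, hyi, LinearMap.index_id]
    ring
  induction n with
  | zero => simp [CurveCover.chi, CurveCover.h0, CurveCover.h1, LinearMap.index_eq_finrank_sub]
  | succ m ih => rw [step, ih]; ring
  | pred m ih =>
    have h := step (-(m : ℤ) - 1)
    rw [sub_add_cancel, ih] at h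
    linarith

omit [IsIntegral (pullback c t)] in
theorem index_diff_eq (N : Cocycle (pullback c t)) (n : ℤ) :
    (D.diff t N n).index = (D.h0 t N n : ℤ) - D.h1 t N n :=
  LinearMap.index_eq_finrank_sub

end CurveCover

end FLTAgent.RelPicard

end
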