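import Fermat.Agent.RelPicard.Bridge.Classes
import Fermat.Agent.RelPicard.CutDegree
import Fermat.Agent.RelPicard.Assembly
import Fermat.Agent.RelPicard.AbelMap

/-!
# The cut by algebraic equivalence on modules and degree zero on classes

Algebraic equivalence to zero of an invertible module is the linkage of its class to the trivial
class. Fibrewise, this turns the cut of S25 into degree zero, by the criterion
`degZero_iff_picLinked`.

Main declarations: `fibrewiseAlgEquivZero_iff_picLinked`, `classDictionary`; used by `Main`.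
-/

set_option autoImplicit false

universe u

open CategoryTheory CategoryTheory.Limits AlgebraicGeometry AlgebraicGeometry.RelPicard
  NeronModelInfra

noncomputable section

namespace FLTAgent.RelPicard

section Linked

variable {K : Type u} [Field K] {A A' : Scheme.{u}} {a : A ⟶ Spec (CommRingCat.of K)}
  {a' : A' ⟶ Spec (CommRingCat.of K)}

theorem isAlgEquivZero_iff_picLinked {L : A.Modules} (hL : Scheme.Modules.IsInvertible L) :
    IsAlgEquivZero a L ↔ PicLinked a (classOf hL) := by
  constructor
  · rintro ⟨T', h, hft, hgi, M, hM, t₀, t₁, e₀, e₁⟩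
    refine ⟨T', h, hft, hgi, classOf hM, t₀, t₁, ?_, ?_⟩
    · rw [← classOf_pullback]
      exact (classOf_eq_one_iff _).mpr e₀
    · rw [← classOf_pullback, ← classOf_pullback]
      exact (classOf_eq_iff _ _).mpr e₁
  · rintro ⟨T', h, hft, hgi, m, t₀, t₁, h₀, h₁⟩
    obtain ⟨M, hM, rfl⟩ := classOf_surjective m
    rw [← classOf_pullback] at h₀ h₁
    rw [← classOf_pullback] at h₁
    exact ⟨T', h, hft, hgi, M, hM, t₀, t₁, (classOf_eq_one_iff _).mp h₀,
      (classOf_eq_iff _ _).mp h₁⟩

/-- Linkage is preserved by pullback along a morphism over the field. -/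
theorem PicLinked.map (e : A' ⟶ A) (he : e ≫ a = a') {L : Pic A} (hL : PicLinked a L) :
    PicLinked a' (Pic.map e L) := by
  obtain ⟨L, hL', rfl⟩ := classOf_surjective L
  rw [← isAlgEquivZero_iff_picLinked] at hL
  rw [← classOf_pullback, ← isAlgEquivZero_iff_picLinked]
  exact hL.pullback e he

theorem picLinked_map_iff (e : A' ⟶ A) [IsIso e] (he : e ≫ a = a') {L : Pic A} :
    PicLinked a' (Pic.map e L) ↔ PicLinked a L := by
  refine ⟨fun h => ?_, fun h => h.map e he⟩
  have := h.map (inv e) (a' := a) (by rw [← he, IsIso.inv_hom_id_assoc])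
  rwa [← Pic.map_comp, IsIso.inv_hom_id, Pic.map_id] at this

end Linked

section Fibre

variable {k : Type u} [Field k] {C : Scheme.{u}} {c : C ⟶ Spec (CommRingCat.of k)}
  {ε : SchemeHomOver (𝟙 (Spec (CommRingCat.of k))) c}

/-- The fibre at a point is the base change to the point. -/
theorem picLinked_fibreAt_iff {T : Scheme.{u}} {t : T ⟶ Spec (CommRingCat.of k)} {K : Type u}
    [Field K] (s : Spec (CommRingCat.of K) ⟶ T) (L : Pic (pullback c t)) :
    PicLinked (fibreAt c t s) (Pic.map (pullback.fst (pullback.snd c t) s) L) ↔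
      PicLinked (pullback.snd c (s ≫ t))
        (Pic.map (baseChangeSnd c (⟨s, rfl⟩ : SchemeHomOver (s ≫ t) t)) L) := by
  have h : pullback.fst (pullback.snd c t) s = (pullbackLeftPullbackSndIso c t s).hom ≫
      baseChangeSnd c (⟨s, rfl⟩ : SchemeHomOver (s ≫ t) t) := by
    refine pullback.hom_ext ?_ ?_
    · simp only [baseChangeSnd, Category.assoc, pullback.lift_fst, Category.comp_id,
        pullbackLeftPullbackSndIso_hom_fst]
    · simp only [baseChangeSnd, Category.assoc, pullback.lift_snd,
        pullbackLeftPullbackSndIso_hom_snd_assoc]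
      exact pullback.condition
  rw [h, Pic.map_comp]
  exact picLinked_map_iff _ (pullbackLeftPullbackSndIso_hom_snd c t s)

theorem fibrewiseAlgEquivZero_iff_picLinked {T : Scheme.{u}} {t : T ⟶ Spec (CommRingCat.of k)}
    (M : RigidifiedLineBundle c ε t) :
    FibrewiseAlgEquivZero M ↔ ∀ (K : Type u) [Field K] [IsAlgClosed K]
      (s : Spec (CommRingCat.of K) ⟶ T), PicLinked (pullback.snd c (s ≫ t))
        (Pic.map (baseChangeSnd c (⟨s, rfl⟩ : SchemeHomOver (s ≫ t) t))
          (classOf M.isInvertible)) := by
  refine forall_congr' fun K => forall_congr' fun _ => forall_congr' fun _ =>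
    forall_congr' fun s => ?_
  rw [isAlgEquivZero_iff_picLinked (M.isInvertible.pullback _), classOf_pullback,
    picLinked_fibreAt_iff]

variable (D : CurveCover k c)

variable [IsAlgClosed k] [IsProper c] [SmoothOfRelativeDimension 1 c] [IsIntegral C]

/-- The dictionary between rigidified bundles and classes. -/
def classDictionary : ClassDictionary D ε where
  toPic _ M := classOf M.isInvertible
  eq_iff _ M M' := classOf_eq_iff M.isInvertible M'.isInvertible
  mem _ M := classOf_mem_rigPic M
  surj t L hL := by
    obtain ⟨q, hq⟩ := (classesEquiv c ε t).surjective ⟨L, hL⟩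
    obtain ⟨M, rfl⟩ := Quotient.exists_rep q
    exact ⟨M, congrArg Subtype.val hq⟩
  natural _ _ ψ M := classOf_pullbackAlong M ψ
  unit _ := classOf_unit
  cut t M := (fibrewiseAlgEquivZero_iff_picLinked M).trans (D.degZero_iff_picLinked _).symm

end Fibre

end FLTAgent.RelPicard

end
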