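import Fermat.Agent.RelPicard.PointClass
import Fermat.Agent.RelPicard.SecEquiv
import Fermat.Agent.RelPicard.FredholmIndex

/-!
# Global sections and removal of points

The dimension of sections stays on removing a point exactly when all sections vanish at the
point; two points that each remove no sections remove none together.

Main declarations: `AllVanish`, `h0_mul_point_eq_iff`, `h0_pair`.
-/

set_option autoImplicit false

universe u

open CategoryTheory CategoryTheory.Limits AlgebraicGeometry AlgebraicGeometry.RelPicard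
  NeronModelInfra TopologicalSpace

noncomputable section

namespace FLTAgent.RelPicard

theorem Cocycle.coord_eq_coordOn {X : Scheme.{u}} (M : Cocycle X) {W P : X.Opens} (z : X)
    (hP : P ≤ W) (hz : P ≤ M.nbhd z) (s : M.Sec W) :
    M.coord z hP hz s = M.coordOn z hz (M.resSec hP s) :=
  (res_res (le_inf le_rfl hz) (inf_le_inf_right _ hP) (s.1 z)).symm

variable {k : Type u} [Field k] [IsAlgClosed k] {C : Scheme.{u}}
  {c : C ⟶ Spec (CommRingCat.of k)} [IsSeparated c] [SmoothOfRelativeDimension 1 c] [IsIntegral C]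
  (D : CurveCover k c) {K : Type u} [Field K]
  {t : Spec (CommRingCat.of K) ⟶ Spec (CommRingCat.of k)} (s : SchemeHomOver t c)

omit [IsAlgClosed k] [IsSeparated c] [SmoothOfRelativeDimension 1 c]
   [AlgebraicGeometry.IsIntegral C] in
/-- Vanishing at a point does not depend on the representative of a class. -/
theorem evPoint_secEquiv_eq_zero_iff {M M' : Cocycle (pullback c t)} (e : Cocycle.IsoData M M')
    {W : (pullback c t).Opens} (h : ptImage c s ∈ W) (r : SecOver (pullback.snd c t) M W) :
    evPoint c s M' W h (secEquiv (pullback.snd c t) e W r) = 0 ↔ evPoint c s M W h r = 0 := by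
  set z := ptImage c s
  rw [evPoint_eq_zero_iff c s M h r z (P := W ⊓ e.V z) inf_le_left
      (inf_le_right.trans (e.le_src z)) ⟨h, e.mem z⟩,
    evPoint_eq_zero_iff c s M' h _ z (P := W ⊓ e.V z) inf_le_left
      (inf_le_right.trans (e.le_tgt z)) ⟨h, e.mem z⟩, M'.coord_eq_coordOn, M.coord_eq_coordOn]
  show z ∉ (pullback c t).basicOpen
      (M'.coordOn z _ (M'.resSec _ (e.mapSec (show M.Sec W from r)))) ↔ _
  rw [e.coordOn_mapSec inf_le_left z inf_le_right, Scheme.basicOpen_mul,
    Scheme.basicOpen_of_isUnit _ ((e.h z).isUnit.map _)]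
  exact not_congr ⟨fun hh => hh.2, fun hh => ⟨⟨h, e.mem z⟩, hh⟩⟩

/-- Both components of a pair of sections vanish at the point. -/
def VanishAt (M : Cocycle (pullback c t))
    (r : SecOver (pullback.snd c t) M (D.UT t) × SecOver (pullback.snd c t) M (D.VT t)) : Prop :=
  (∀ h, evPoint c s M (D.UT t) h r.1 = 0) ∧ ∀ h, evPoint c s M (D.VT t) h r.2 = 0

/-- All global sections vanish at the point. -/
def AllVanish (M : Cocycle (pullback c t)) (n : ℤ) : Prop :=
  ∀ r, D.diff t M n r = 0 → VanishAt D s M r

/-- Multiplication of pairs by the equation of the point. -/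
def mulPair (M : Cocycle (pullback c t)) :
    (SecOver (pullback.snd c t) M (D.UT t) × SecOver (pullback.snd c t) M (D.VT t)) →ₗ[K]
      SecOver (pullback.snd c t) (M.mul (pointCocycle c s)) (D.UT t) ×
        SecOver (pullback.snd c t) (M.mul (pointCocycle c s)) (D.VT t) :=
  (mulPoint c s M (D.UT t)).prodMap (mulPoint c s M (D.VT t))

theorem diff_mulPair (M : Cocycle (pullback c t)) (n : ℤ) (q) :
    D.diff t (M.mul (pointCocycle c s)) n (mulPair D s M q) =
      mulPoint c s M (D.WT t) (D.diff t M n q) := by
  simp only [CurveCover.diff, LinearMap.sub_apply, LinearMap.coe_comp, Function.comp_apply,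
    LinearMap.fst_apply, LinearMap.snd_apply, map_sub, mulPair, LinearMap.prodMap_apply]
  rw [secRes_mulPoint, secRes_mulPoint, secMul_mulPoint]

theorem exists_mulPoint_eq {M : Cocycle (pullback c t)} {W : (pullback c t).Opens}
    (a : SecOver (pullback.snd c t) (M.mul (pointCocycle c s)) W)
    (ha : ∀ h, evPoint c s (M.mul (pointCocycle c s)) W h a = 0) :
    ∃ b, mulPoint c s M W b = a := by
  by_cases h : ptImage c s ∈ W
  · have h1 : a ∈ LinearMap.range (mulPoint c s M W) := by
      rw [range_mulPoint c s M h]; exact ha h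
    exact h1
  · exact (mulPoint_bijective c s M h).2 a

/-- The global sections vanishing at the point are the multiples of the equation. -/
theorem vanishAt_iff (M : Cocycle (pullback c t)) (n : ℤ) {r}
    (hr : D.diff t (M.mul (pointCocycle c s)) n r = 0) :
    VanishAt D s (M.mul (pointCocycle c s)) r ↔
      ∃ q, D.diff t M n q = 0 ∧ mulPair D s M q = r := by
  constructor
  · rintro ⟨h1, h2⟩
    obtain ⟨a, ha⟩ := exists_mulPoint_eq s r.1 h1
    obtain ⟨b, hb⟩ := exists_mulPoint_eq s r.2 h2
    refine ⟨(a, b), mulPoint_injective c s M ?_, Prod.ext ha hb⟩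
    rw [map_zero, ← diff_mulPair, show mulPair D s M (a, b) = r from Prod.ext ha hb, hr]
  · rintro ⟨q, -, rfl⟩
    refine ⟨fun h => ?_, fun h => ?_⟩ <;>
      exact LinearMap.mem_ker.mp ((range_mulPoint c s M h).le (LinearMap.mem_range_self _ _))

/-- Multiplication on global sections. -/
def mulKer (M : Cocycle (pullback c t)) (n : ℤ) :
    LinearMap.ker (D.diff t M n) →ₗ[K] LinearMap.ker (D.diff t (M.mul (pointCocycle c s)) n) :=
  LinearMap.restrict (mulPair D s M) fun q hq => by
    rw [LinearMap.mem_ker] at hq ⊢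
    rw [diff_mulPair, hq, map_zero]

theorem mulKer_injective (M : Cocycle (pullback c t)) (n : ℤ) :
    Function.Injective (mulKer D s M n) := fun q q' h => by
  have h' : mulPair D s M q.1 = mulPair D s M q'.1 := congrArg Subtype.val h
  exact Subtype.ext (Prod.ext (mulPoint_injective c s M (congrArg Prod.fst h'))
    (mulPoint_injective c s M (congrArg Prod.snd h')))

theorem mem_range_mulKer_iff (M : Cocycle (pullback c t)) (n : ℤ)
    (r : LinearMap.ker (D.diff t (M.mul (pointCocycle c s)) n)) :
    r ∈ LinearMap.range (mulKer D s M n) ↔ VanishAt D s (M.mul (pointCocycle c s)) r.1 := by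
  rw [vanishAt_iff D s M n (LinearMap.mem_ker.mp r.2)]
  exact ⟨fun ⟨q, hq⟩ => ⟨q.1, LinearMap.mem_ker.mp q.2, congrArg Subtype.val hq⟩,
    fun ⟨q, hq, hq'⟩ => ⟨⟨q, LinearMap.mem_ker.mpr hq⟩, Subtype.ext hq'⟩⟩

theorem CurveCover.h0_mul_point_eq_iff (M : Cocycle (pullback c t)) (n : ℤ)
    (hfin : FinIndex (D.diff t (M.mul (pointCocycle c s)) n)) :
    D.h0 t (M.mul (pointCocycle c s)) n = D.h0 t M n ↔
      AllVanish D s (M.mul (pointCocycle c s)) n := by
  have := hfin.ker
  have : FiniteDimensional K (LinearMap.ker (D.diff t M n)) :=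
    Module.Finite.of_injective _ (mulKer_injective D s M n)
  constructor
  · intro h r hr
    refine (mem_range_mulKer_iff D s M n ⟨r, LinearMap.mem_ker.mpr hr⟩).mp ?_
    exact (LinearMap.injective_iff_surjective_of_finrank_eq_finrank h.symm).mp
      (mulKer_injective D s M n) _
  · intro h
    exact (LinearEquiv.ofBijective (mulKer D s M n) ⟨mulKer_injective D s M n, fun r =>
      (mem_range_mulKer_iff D s M n r).mpr (h r.1 (LinearMap.mem_ker.mp r.2))⟩).finrank_eq.symm

omit [IsAlgClosed k] [IsSeparated c] [SmoothOfRelativeDimension 1 c]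
   [AlgebraicGeometry.IsIntegral C] in
theorem allVanish_congr {M M' : Cocycle (pullback c t)} (e : M.Equiv M') (n : ℤ)
    (h : AllVanish D s M n) : AllVanish D s M' n := by
  obtain ⟨e⟩ := e.nonempty_isoData
  intro r hr
  obtain ⟨q, rfl⟩ := ((secEquiv (pullback.snd c t) e (D.UT t)).prodCongr
    (secEquiv (pullback.snd c t) e (D.VT t))).surjective r
  have h1 : D.diff t M n q = 0 := by
    refine (secEquiv (pullback.snd c t) e (D.WT t)).injective ?_
    rw [map_zero, ← hr]
    exact (LinearMap.congr_fun (diff_secEquiv D t e n) q).symm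
  exact ⟨fun hx => (evPoint_secEquiv_eq_zero_iff s e hx q.1).mpr ((h q h1).1 hx),
    fun hx => (evPoint_secEquiv_eq_zero_iff s e hx q.2).mpr ((h q h1).2 hx)⟩

/-- Vanishing at one point passes through multiplication by the equation of another. -/
theorem allVanish_of_mul {s' : SchemeHomOver t c} (M : Cocycle (pullback c t)) (n : ℤ)
    (hev : ∀ (W : (pullback c t).Opens) (h : ptImage c s' ∈ W)
      (r : SecOver (pullback.snd c t) M W),
      evPoint c s' (M.mul (pointCocycle c s)) W h (mulPoint c s M W r) = 0 ↔
        evPoint c s' M W h r = 0)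
    (hall : AllVanish D s' (M.mul (pointCocycle c s)) n) : AllVanish D s' M n := fun r hr => by
  have h := hall (mulPair D s M r) (by rw [diff_mulPair, hr, map_zero])
  exact ⟨fun hx => (hev _ hx r.1).mp (h.1 hx), fun hx => (hev _ hx r.2).mp (h.2 hx)⟩

/-- Two points that each remove no sections remove none together. -/
theorem CurveCover.h0_pair {s' : SchemeHomOver t c} (M L L' : Cocycle (pullback c t)) (n : ℤ)
    (hfin : ∀ M : Cocycle (pullback c t), FinIndex (D.diff t M n))
    (hev : ∀ (W : (pullback c t).Opens) (h : ptImage c s' ∈ W)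
      (r : SecOver (pullback.snd c t) (M.mul (pointCocycle c s')) W),
      evPoint c s' ((M.mul (pointCocycle c s')).mul (pointCocycle c s)) W h
          (mulPoint c s (M.mul (pointCocycle c s')) W r) = 0 ↔
        evPoint c s' (M.mul (pointCocycle c s')) W h r = 0)
    (hL : L.Equiv ((M.mul (pointCocycle c s')).mul (pointCocycle c s)))
    (hL' : L.Equiv (L'.mul (pointCocycle c s')))
    (heq : D.h0 t L' n = D.h0 t L n) :
    D.h0 t M n = D.h0 t (M.mul (pointCocycle c s')) n := by
  have h1 : AllVanish D s' (L'.mul (pointCocycle c s')) n :=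
    (D.h0_mul_point_eq_iff s' L' n (hfin _)).mp (by rw [heq, D.h0_congr t hL' n])
  have h2 := allVanish_congr D s' (hL'.symm.trans hL) n h1
  exact ((D.h0_mul_point_eq_iff s' M n (hfin _)).mpr
    (allVanish_of_mul D s _ n hev h2)).symm

end FLTAgent.RelPicard

end
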