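import Fermat.Agent.RelPicard.CurveIndex
import Fermat.Agent.RelPicard.CurveBasics

/-!
# Sections and degree on an integral fibre

A nonzero element of the kernel of the `n`-th difference map bounds the degree below by `n r`; in
case of equality it generates on both charts, so a nonzero section of a class of degree zero is
nowhere zero and trivialises the class.

Main results: `le_deg_of_diff_eq_zero`, `isUnit_coord_of_deg_eq_zero`,
`mk_eq_one_of_isUnit_coord`.
-/

set_option autoImplicit false

universe u

open CategoryTheory CategoryTheory.Limits AlgebraicGeometry TopologicalSpace Module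

noncomputable section

namespace FLTAgent.RelPicard

variable {X : Scheme.{u}}

namespace Cocycle

variable (N : Cocycle X)

/-- A class with a nowhere vanishing section is trivial. -/
theorem equiv_one_of_isUnit_coord [Nonempty X] (s : N.Sec ⊤)
    (hu : ∀ (z : X) {P : X.Opens} (hz : P ≤ N.nbhd z), IsUnit (N.coord z le_top hz s)) :
    N.Equiv Cocycle.one := by
  obtain ⟨o, ho⟩ := (oneCoord_bijective (X := X) ⊤).2 1
  refine N.equiv_of_sections Cocycle.one (fun _ : Unit => s) (fun _ => o) fun z =>
    ⟨N.nbhd z, N.mem z, le_rfl, le_top, fun _ _ => rfl, (), hu z le_rfl, ?_⟩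
  have h : Cocycle.one.coordOn z (W := ⊤) le_top o = 1 := by
    rw [Cocycle.one.coordOn_change z (Classical.arbitrary X) le_top le_top o, gOn_one,
      Units.val_one, one_mul]
    exact ho
  have h' : Cocycle.one.coord z (le_top : N.nbhd z ≤ ⊤) le_top o =
    res le_top (Cocycle.one.coordOn z (W := ⊤) le_top o) :=
    (res_res _ _ _).symm
  rw [h', h, map_one]
  exact isUnit_one

end Cocycle

section OneMul

variable {K : Type u} [Field K] (π : X ⟶ Spec (CommRingCat.of K)) (N : Cocycle X)

theorem isUnit_coord_of_oneMul_surjective [Nonempty X] {U : X.Opens} (hU : IsAffineOpen U)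
    (s : SecOver π N U) (hs : Function.Surjective (oneMul π N s)) (z : X) {P : X.Opens}
    (hP : P ≤ U) (hz : P ≤ N.nbhd z) : IsUnit (N.coord z hP hz (show N.Sec U from s)) := by
  obtain ⟨F⟩ := N.nonempty_secFrame hU
  choose a ha using fun i => hs (show SecOver π N U from F.σ i)
  have hcoord : ∀ m : N.Sec U, N.coord z hP hz m = N.coordOn z hz (N.resSec hP m) := fun m =>
    (res_res _ _ _).symm
  have h1 := congrArg (res hP) F.sum_pair
  rw [map_sum, map_one] at h1
  refine IsUnit.of_mul_eq_one (∑ i, res hP (oneCoord U (a i)) *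
    N.inv.coordOn z hz (N.inv.resSec hP (F.τ i))) ?_
  rw [Finset.mul_sum]
  refine Eq.trans (Finset.sum_congr rfl fun i _ => ?_) h1
  have hi : F.σ i = oneCoord U (a i) • (show N.Sec U from s) := (ha i).symm
  rw [hcoord, hi, N.pair_smul, map_mul, ← N.pair_resSec, N.pair_eq_coordOn hz]
  ring

variable [IsIntegral X]

/-- Passing to the locus where a function is invertible does not increase the cokernel. -/
theorem finrank_coker_oneMul_le {U W : X.Opens} (hU : IsAffineOpen U) (f : Γ(X, U)) (hle : W ≤ U)
    (hW : X.basicOpen f = W) (s : SecOver π N U) (hfin : FinIndex (oneMul π N s)) :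
    finrank K (SecOver π N W ⧸ LinearMap.range (oneMul π N (secRes π N hle s))) ≤
      finrank K (SecOver π N U ⧸ LinearMap.range (oneMul π N s)) := by
  have := hfin.coker
  set w := secRes π N hle s
  have hu : IsUnit (res hle f) := by
    subst hW
    exact X.toRingedSpace.isUnit_res_basicOpen f
  set ψ := Submodule.mapQ (LinearMap.range (oneMul π N s)) (LinearMap.range (oneMul π N w))
    (secRes π N hle) (by
      rintro _ ⟨a, rfl⟩
      exact ⟨_, (secRes_oneMul π N hle s a).symm⟩)
  have hmul : ∀ b : Γ(X, W), LinearMap.range (oneMul π N w) ≤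
      (LinearMap.range (oneMul π N w)).comap (secMul π N b) := by
    rintro b _ ⟨a, rfl⟩
    exact ⟨_, (secMul_oneMul π N b w a).symm⟩
  let μ : Γ(X, W) → _ →ₗ[K] _ := fun b =>
    Submodule.mapQ (LinearMap.range (oneMul π N w)) (LinearMap.range (oneMul π N w)) _ (hmul b)
  have hμ : ∀ b b' q, μ b (μ b' q) = μ (b * b') q := by
    intro b b' q
    obtain ⟨m, rfl⟩ := Submodule.Quotient.mk_surjective _ q
    exact congrArg Submodule.Quotient.mk (smul_smul b b' (show N.Sec W from m))
  have hμ1 : ∀ q, μ 1 q = q := by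
    intro q
    obtain ⟨m, rfl⟩ := Submodule.Quotient.mk_surjective _ q
    exact congrArg Submodule.Quotient.mk (one_smul _ (show N.Sec W from m))
  set S := LinearMap.range ψ
  have hstab : ∀ q ∈ S, μ (res hle f) q ∈ S := by
    rintro _ ⟨q, rfl⟩
    obtain ⟨m, rfl⟩ := Submodule.Quotient.mk_surjective _ q
    exact ⟨Submodule.Quotient.mk (secMul π N f m),
      congrArg Submodule.Quotient.mk (N.resSec_smul hle f (show N.Sec U from m))⟩
  have hsurj : Function.Surjective ((μ (res hle f)).restrict hstab) :=
    LinearMap.injective_iff_surjective.mp fun p q h => Subtype.ext (by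
      have e := congrArg (μ (↑hu.unit⁻¹)) (congrArg Subtype.val h)
      simp only [LinearMap.coe_restrict_apply, hμ, IsUnit.val_inv_mul, hμ1] at e
      exact e)
  have hinv : ∀ q ∈ S, μ (↑hu.unit⁻¹) q ∈ S := by
    intro q hq
    obtain ⟨⟨q', hq'⟩, e⟩ := hsurj ⟨q, hq⟩
    have e' : μ (res hle f) q' = q := congrArg Subtype.val e
    rwa [← e', hμ, IsUnit.val_inv_mul, hμ1]
  have htop : ∀ q, q ∈ S := by
    intro q
    obtain ⟨m, rfl⟩ := Submodule.Quotient.mk_surjective _ q
    obtain ⟨l, m₀, hm⟩ := N.exists_extend_of_eq hU f hle hW (show N.Sec W from m)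
    have h0 : μ (res hle f ^ l) (Submodule.Quotient.mk m) ∈ S :=
      ⟨Submodule.Quotient.mk (show SecOver π N U from m₀), congrArg Submodule.Quotient.mk hm⟩
    have hpow : ∀ l : ℕ, ∀ q ∈ S, μ ((↑hu.unit⁻¹ : Γ(X, W)) ^ l) q ∈ S := by
      intro l
      induction l with
      | zero => intro q hq; rwa [pow_zero, hμ1]
      | succ l ih => intro q hq; rw [pow_succ, ← hμ]; exact ih _ (hinv q hq)
    have h1 := hpow l _ h0
    rwa [hμ, ← mul_pow, IsUnit.val_inv_mul, one_pow, hμ1] at h1
  have hψ : S = ⊤ := Submodule.eq_top_iff'.mpr htop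
  rw [← finrank_top K (SecOver π N W ⧸ LinearMap.range (oneMul π N w)), ← hψ]
  exact LinearMap.finrank_range_le ψ

end OneMul

namespace CurveCover

variable {k : Type u} [Field k] {C : Scheme.{u}} {c : C ⟶ Spec (CommRingCat.of k)}
  (D : CurveCover k c) {K : Type u} [Field K]
  (t : Spec (CommRingCat.of K) ⟶ Spec (CommRingCat.of k)) [IsIntegral (pullback c t)]

/-- A nonzero element of the kernel bounds the degree, with generators in case of equality. -/
theorem le_deg_of_diff_eq_zero (N : Cocycle (pullback c t)) (n : ℤ)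
    (p : SecOver (pullback.snd c t) N (D.UT t) × SecOver (pullback.snd c t) N (D.VT t))
    (hp : D.diff t N n p = 0) (hne : p ≠ 0) :
    n * D.r ≤ D.deg t (Pic.mk N) ∧ (D.deg t (Pic.mk N) = n * D.r →
      Function.Surjective (oneMul (pullback.snd c t) N p.1) ∧
        Function.Surjective (oneMul (pullback.snd c t) N p.2)) := by
  obtain ⟨u, v⟩ := p
  set w := secRes (pullback.snd c t) N (inf_le_left : D.WT t ≤ D.UT t) u
  have hw : w = secMul (pullback.snd c t) N
    ((D.yUnit t ^ n : Γ(pullback c t, D.WT t)ˣ) : Γ(pullback c t, D.WT t))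
      (secRes (pullback.snd c t) N (inf_le_right : D.WT t ≤ D.VT t) v) :=
    (D.diff_eq_zero_iff t N n (u, v)).mp hp
  have hu : u ≠ 0 := by
    intro h
    refine hne (Prod.ext h ?_)
    have h0 : secMul (pullback.snd c t) N
      ((D.yUnit t ^ n : Γ(pullback c t, D.WT t)ˣ) : Γ(pullback c t, D.WT t))
        (secRes (pullback.snd c t) N (inf_le_right : D.WT t ≤ D.VT t) v) = 0 := by
      rw [← hw]
      exact (congrArg (secRes (pullback.snd c t) N _) h).trans (map_zero _)
    refine N.resSec_injective (inf_le_right : D.WT t ≤ D.VT t) (D.nonempty_WT t)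
      (((IsUnit.smul_eq_zero (D.yUnit t ^ n).isUnit).mp h0).trans
        (map_zero (N.resSec (inf_le_right : D.WT t ≤ D.VT t))).symm)
  have hv : v ≠ 0 := by
    intro h
    refine hu (N.resSec_injective _ (D.nonempty_WT t) (Eq.trans ?_ (map_zero (N.resSec
      (inf_le_left : D.WT t ≤ D.UT t))).symm))
    refine hw.trans ?_
    rw [h, map_zero, map_zero]
    rfl
  have hw0 : w ≠ 0 := fun h => hu (N.resSec_injective _ (D.nonempty_WT t)
    (h.trans (map_zero (N.resSec (inf_le_left : D.WT t ≤ D.UT t))).symm))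
  have hoU := finIndex_oneMul (pullback.snd c t) N (D.isAffineOpen_UT t) (D.nonempty_UT t)
    (D.basisComb_UT t) u hu
  have hoV := finIndex_oneMul (pullback.snd c t) N (D.isAffineOpen_VT t) (D.nonempty_VT t)
    (D.basisComb_VT t) v hv
  have hsq : D.diff t N n ∘ₗ (oneMul (pullback.snd c t) N u).prodMap
    (oneMul (pullback.snd c t) N v) =
      oneMul (pullback.snd c t) N w ∘ₗ D.diff t Cocycle.one 0 := by
    refine LinearMap.ext fun a => ?_
    show secRes (pullback.snd c t) N (inf_le_left : D.WT t ≤ D.UT t)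
          (oneMul (pullback.snd c t) N u a.1) -
        secMul (pullback.snd c t) N
          ((D.yUnit t ^ n : Γ(pullback c t, D.WT t)ˣ) : Γ(pullback c t, D.WT t))
          (secRes (pullback.snd c t) N (inf_le_right : D.WT t ≤ D.VT t)
            (oneMul (pullback.snd c t) N v a.2)) =
      oneMul (pullback.snd c t) N w
        (secRes (pullback.snd c t) Cocycle.one (inf_le_left : D.WT t ≤ D.UT t) a.1 -
          secMul (pullback.snd c t) Cocycle.one
            ((D.yUnit t ^ (0 : ℤ) : Γ(pullback c t, D.WT t)ˣ) : Γ(pullback c t, D.WT t))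
            (secRes (pullback.snd c t) Cocycle.one (inf_le_right : D.WT t ≤ D.VT t) a.2))
    rw [secRes_oneMul, secRes_oneMul, map_sub, zpow_zero, Units.val_one, ← oneMul_secMul_section,
      ← hw]
    exact congrArg₂ (· - ·) rfl (congrArg (oneMul (pullback.snd c t) N w)
      (one_smul Γ(pullback c t, D.WT t)
      (show Cocycle.one.Sec (D.WT t) from
        secRes (pullback.snd c t) Cocycle.one (inf_le_right : D.WT t ≤ D.VT t) a.2)).symm)
  have hd := D.finIndex_diff t N n
  have h1 := D.finIndex_diff t Cocycle.one 0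
  have hL := hd.comp (hoU.prodMap hoV)
  rw [hsq] at hL
  have hoW : FinIndex (oneMul (pullback.snd c t) N w) := hL.of_comp_left h1
  have hindex := congrArg LinearMap.index hsq
  rw [hd.index_comp (hoU.prodMap hoV), hoW.index_comp h1, hoU.index_prodMap hoV,
    D.index_diff t N n, D.index_diff t Cocycle.one 0,
    LinearMap.index_of_injective (oneMul_injective (pullback.snd c t) N (D.nonempty_UT t) u hu),
    LinearMap.index_of_injective (oneMul_injective (pullback.snd c t) N (D.nonempty_VT t) v hv),
    LinearMap.index_of_injective (oneMul_injective (pullback.snd c t) N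
      (D.nonempty_WT t) w hw0), zero_mul,
    sub_zero] at hindex
  have hWU : finrank K (SecOver (pullback.snd c t) N (D.WT t) ⧸
    LinearMap.range (oneMul (pullback.snd c t) N w)) ≤
      finrank K (SecOver (pullback.snd c t) N (D.UT t) ⧸
        LinearMap.range (oneMul (pullback.snd c t) N u)) :=
    finrank_coker_oneMul_le (pullback.snd c t) N (D.isAffineOpen_UT t) (D.xT t)
      (inf_le_left : D.WT t ≤ D.UT t) (D.basicOpen_xT t) u hoU
  have hWV : finrank K (SecOver (pullback.snd c t) N (D.WT t) ⧸
      LinearMap.range (oneMul (pullback.snd c t) N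
        (secRes (pullback.snd c t) N (inf_le_right : D.WT t ≤ D.VT t) v))) ≤
      finrank K (SecOver (pullback.snd c t) N (D.VT t) ⧸
        LinearMap.range (oneMul (pullback.snd c t) N v)) :=
    finrank_coker_oneMul_le (pullback.snd c t) N (D.isAffineOpen_VT t) (D.yT t)
      (inf_le_right : D.WT t ≤ D.VT t) (D.basicOpen_yT t) v hoV
  have hWeq : finrank K (SecOver (pullback.snd c t) N (D.WT t) ⧸
    LinearMap.range (oneMul (pullback.snd c t) N w)) =
      finrank K (SecOver (pullback.snd c t) N (D.WT t) ⧸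
        LinearMap.range (oneMul (pullback.snd c t) N
          (secRes (pullback.snd c t) N (inf_le_right : D.WT t ≤ D.VT t) v))) := by
    refine (Submodule.quotEquivOfEq _ _ ?_).finrank_eq
    set yn := ((D.yUnit t ^ n : Γ(pullback c t, D.WT t)ˣ) : Γ(pullback c t, D.WT t))
    ext m
    constructor
    · rintro ⟨a, rfl⟩
      refine ⟨secMul (pullback.snd c t) Cocycle.one yn a, ?_⟩
      rw [hw, oneMul_secMul_section, secMul_oneMul]
    · rintro ⟨a, rfl⟩
      refine ⟨secMul (pullback.snd c t) Cocycle.one
        ((D.yUnit t ^ n)⁻¹ : Γ(pullback c t, D.WT t)ˣ) a, ?_⟩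
      rw [hw, oneMul_secMul_section, secMul_oneMul]
      refine congrArg (fun b => oneMul (pullback.snd c t) N _ b) ?_
      show yn • (((D.yUnit t ^ n)⁻¹ : Γ(pullback c t, D.WT t)ˣ) : Γ(pullback c t, D.WT t)) •
        (show Cocycle.one.Sec (D.WT t) from a) = a
      rw [smul_smul, Units.mul_inv, one_smul]
  rw [D.deg_mk]
  refine ⟨by linarith [hWU], fun heq => ⟨?_, ?_⟩⟩
  · have e : finrank K (SecOver (pullback.snd c t) N (D.UT t) ⧸
        LinearMap.range (oneMul (pullback.snd c t) N u)) = 0 := by omega
    have := hoU.coker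
    exact LinearMap.range_eq_top.mp
      (Submodule.Quotient.subsingleton_iff.mp ((finrank_zero_iff (R := K)).mp e))
  · have e : finrank K (SecOver (pullback.snd c t) N (D.VT t) ⧸
        LinearMap.range (oneMul (pullback.snd c t) N v)) = 0 := by omega
    have := hoV.coker
    exact LinearMap.range_eq_top.mp
      (Submodule.Quotient.subsingleton_iff.mp ((finrank_zero_iff (R := K)).mp e))

/-- Below `n r` the twist has no sections. -/
theorem h0_eq_zero_of_deg_lt (N : Cocycle (pullback c t)) (n : ℤ)
    (h : D.deg t (Pic.mk N) < n * D.r) : D.h0 t N n = 0 := by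
  have hbot : LinearMap.ker (D.diff t N n) = ⊥ := (Submodule.eq_bot_iff _).mpr fun p hp => by
    by_contra hne
    exact absurd (D.le_deg_of_diff_eq_zero t N n p hp hne).1 (not_le.mpr h)
  rw [CurveCover.h0, hbot, finrank_bot]

omit [IsIntegral (pullback c t)] in
/-- A global section as an element of the kernel. -/
theorem diff_resSec (N : Cocycle (pullback c t)) (s : N.Sec ⊤) :
    D.diff t N 0 (N.resSec le_top s, N.resSec le_top s) = 0 := by
  refine (D.diff_eq_zero_iff t N 0 _).mpr ?_
  rw [zpow_zero, Units.val_one, one_smul]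
  exact (N.resSec_resSec _ _ s).trans (N.resSec_resSec _ _ s).symm

theorem resSec_ne_zero (N : Cocycle (pullback c t)) {s : N.Sec ⊤} (hs : s ≠ 0) :
    N.resSec (le_top : D.UT t ≤ ⊤) s ≠ 0 := fun h =>
  hs (N.resSec_injective _ (D.nonempty_UT t) (h.trans (map_zero (N.resSec _)).symm))

/-- A class with a nonzero section has degree at least zero. -/
theorem deg_nonneg_of_sec (N : Cocycle (pullback c t)) (s : N.Sec ⊤) (hs : s ≠ 0) :
    0 ≤ D.deg t (Pic.mk N) := by
  have h := (D.le_deg_of_diff_eq_zero t N 0 _ (D.diff_resSec t N s)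
    fun e => D.resSec_ne_zero t N hs (congrArg Prod.fst e)).1
  rwa [zero_mul] at h

/-- A nonzero section of a class of degree zero is nowhere zero. -/
theorem isUnit_coord_of_deg_eq_zero (N : Cocycle (pullback c t)) (s : N.Sec ⊤) (hs : s ≠ 0)
    (h : D.deg t (Pic.mk N) = 0) (z : ↥(pullback c t)) {P : (pullback c t).Opens}
    (hz : P ≤ N.nbhd z) : IsUnit (N.coord z le_top hz s) := by
  obtain ⟨hU, hV⟩ := (D.le_deg_of_diff_eq_zero t N 0 _ (D.diff_resSec t N s)
    fun e => D.resSec_ne_zero t N hs (congrArg Prod.fst e)).2 (by rw [h, zero_mul])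
  refine isUnit_of_locally (fun b : Bool => bif b then P ⊓ D.UT t else P ⊓ D.VT t)
    (fun b => by cases b <;> exact inf_le_left) (fun q hq => ?_) _ fun b => ?_
  · have hq' : q ∈ D.UT t ⊔ D.VT t := by rw [D.UT_sup_VT]; trivial
    exact hq'.elim (fun h => ⟨true, hq, h⟩) fun h => ⟨false, hq, h⟩
  · rw [Cocycle.res_coord]
    cases b
    · rw [← N.coord_resSec (le_top : D.VT t ≤ ⊤) z inf_le_right (inf_le_left.trans hz)]
      exact isUnit_coord_of_oneMul_surjective (pullback.snd c t) N (D.isAffineOpen_VT t) _ hV z _ _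
    · rw [← N.coord_resSec (le_top : D.UT t ≤ ⊤) z inf_le_right (inf_le_left.trans hz)]
      exact isUnit_coord_of_oneMul_surjective (pullback.snd c t) N (D.isAffineOpen_UT t) _ hU z _ _

omit [IsIntegral (pullback c t)] in
/-- A kernel element of the untwisted map comes from a global section. -/
theorem exists_sec_of_diff_eq_zero (N : Cocycle (pullback c t))
    (p : SecOver (pullback.snd c t) N (D.UT t) × SecOver (pullback.snd c t) N (D.VT t))
    (h : D.diff t N 0 p = 0) :
    ∃ s : N.Sec ⊤, N.resSec le_top s = p.1 ∧ N.resSec le_top s = p.2 := by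
  refine N.exists_glueSec le_top le_top (D.UT_sup_VT t).ge p.1 p.2 ?_
  have h' := (D.diff_eq_zero_iff t N 0 p).mp h
  rwa [zpow_zero, Units.val_one, one_smul] at h'

/-- A class with a nowhere zero section is trivial. -/
theorem mk_eq_one_of_isUnit_coord (N : Cocycle (pullback c t)) (s : N.Sec ⊤)
    (hu : ∀ (z : ↥(pullback c t)) {P : (pullback c t).Opens} (hz : P ≤ N.nbhd z),
      IsUnit (N.coord z le_top hz s)) : Pic.mk N = 1 :=
  Pic.one_def.symm ▸ Pic.mk_eq_mk.mpr (N.equiv_one_of_isUnit_coord s hu)

/-- The genus of a fibre. -/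
def genus : ℕ := D.h1 t Cocycle.one 0

section Constants

variable [IsAlgClosed K] [IsProper c]

/-- The only global functions are constants. -/
theorem h0_one : D.h0 t Cocycle.one 0 = 1 := by
  set π := pullback.snd c t
  have : Nonempty (D.UT t) := D.nonempty_UT t
  obtain ⟨o, ho⟩ := (oneCoord_bijective (X := pullback c t) ⊤).2 1
  set p₀ : LinearMap.ker (D.diff t Cocycle.one 0) :=
    ⟨(Cocycle.one.resSec le_top o, Cocycle.one.resSec le_top o), D.diff_resSec t _ o⟩
  refine finrank_eq_one p₀ (fun h => ?_) fun q => ?_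
  · have h1 := congrArg (fun q => oneCoord (D.UT t) q.1.1) h
    have h2 : oneCoord (D.UT t) (Cocycle.one.resSec le_top o) = 1 := by
      rw [oneCoord_resSec, ho, map_one]
    exact one_ne_zero (h2.symm.trans (h1.trans (map_zero _)))
  · obtain ⟨s, hsU, hsV⟩ := D.exists_sec_of_diff_eq_zero t _ q.1 q.2
    obtain ⟨a, ha⟩ := (scalarHom_top_bijective π).2 (oneCoord ⊤ s)
    have hs : scalarHom π ⊤ a • o = s :=
      (oneCoord_bijective (X := pullback c t) ⊤).1 (by rw [map_smul, ho, smul_eq_mul, mul_one, ha])
    refine ⟨a, Subtype.ext (Prod.ext (Eq.trans ?_ hsU) (Eq.trans ?_ hsV))⟩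
    · rw [← hs, Cocycle.one.resSec_smul, res_scalarHom]
      rfl
    · rw [← hs, Cocycle.one.resSec_smul, res_scalarHom]
      rfl

theorem chi_one : D.chi t Cocycle.one = 1 - D.genus t := by
  rw [CurveCover.chi, D.h0_one t]
  rfl

end Constants

end CurveCover

end FLTAgent.RelPicard

end
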