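import Fermat.Agent.RelPicard.DegreePoint
import Fermat.Agent.RelPicard.GreedyPairs
import Fermat.Agent.RelPicard.SectionDegree

/-!
# Effective classes and additivity of the degree

Over an algebraically closed field a class with a nonzero global section is a product of point
classes, as many as its degree.  Every class is such a product over a power of one point, hence
the degree is additive.

Main results: `exists_prod_of_sec`, `exists_eq_prod_pointClass`, `deg_mul`.
-/

set_option autoImplicit false

universe u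

open CategoryTheory CategoryTheory.Limits AlgebraicGeometry AlgebraicGeometry.RelPicard
  NeronModelInfra TopologicalSpace

noncomputable section

namespace FLTAgent.RelPicard

attribute [local instance] isIntegral_fibre

variable {k : Type u} [Field k] [IsAlgClosed k] {C : Scheme.{u}}
  {c : C ⟶ Spec (CommRingCat.of k)} [IsProper c] [SmoothOfRelativeDimension 1 c] [IsIntegral C]
  {K : Type u} [Field K] [IsAlgClosed K] {t : Spec (CommRingCat.of K) ⟶ Spec (CommRingCat.of k)}

omit [IsProper c] [IsAlgClosed k] [AlgebraicGeometry.IsIntegral C] [IsAlgClosed K] in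
theorem jacobsonSpace_fibre : JacobsonSpace ↥(pullback c t) :=
  haveI := smoothOfRelativeDimension_fibre c t (n := 1)
  jacobsonSpace_curve (pullback.snd c t)

omit [IsAlgClosed k] [SmoothOfRelativeDimension 1 c] [AlgebraicGeometry.IsIntegral C] in
/-- A closed point of the fibre is the image of a point. -/
theorem exists_ptImage_eq {x : ↥(pullback c t)} (hx : IsClosed {x}) :
    ∃ s : SchemeHomOver t c, ptImage c s = x := by
  obtain ⟨σ, hσ, -⟩ := existsUnique_point_fibre c t hx
  have h : (σ.1 ≫ pullback.fst c t) ≫ c = t := by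
    rw [Category.assoc, pullback.condition, ← Category.assoc, σ.2, Category.id_comp]
  refine ⟨⟨σ.1 ≫ pullback.fst c t, h⟩, ?_⟩
  have e : graphSection c t (σ.1 ≫ pullback.fst c t) h = σ.1 := by
    apply pullback.hom_ext
    · rw [graphSection_fst]
    · rw [graphSection_snd, σ.2]
  show (graphSection c t (σ.1 ≫ pullback.fst c t) h).base (IsLocalRing.closedPoint K) = x
  rw [e]
  exact hσ

theorem nonempty_points : Nonempty (SchemeHomOver t c) := by
  have := jacobsonSpace_fibre (c := c) (t := t)
  have := isIntegral_fibre c t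
  obtain ⟨x, -, hx⟩ := nonempty_inter_closedPoints (X := ↥(pullback c t)) Set.univ_nonempty
    isOpen_univ.isLocallyClosed
  obtain ⟨s, -⟩ := exists_ptImage_eq hx
  exact ⟨s⟩

omit [IsAlgClosed k] [AlgebraicGeometry.IsIntegral C] in
/-- A section with a coordinate which is not a unit vanishes at some point. -/
theorem exists_point_of_not_isUnit (N : Cocycle (pullback c t)) (s : N.Sec ⊤)
    (z : ↥(pullback c t)) {P : (pullback c t).Opens} (hz : P ≤ N.nbhd z)
    (hu : ¬ IsUnit (N.coord z le_top hz s)) :
    ∃ p : SchemeHomOver t c, ∀ h, evPoint c p N ⊤ h s = 0 := by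
  have := jacobsonSpace_fibre (c := c) (t := t)
  have hne : ((P : Set ↥(pullback c t)) ∩
      ((pullback c t).basicOpen (N.coord z le_top hz s) : Set ↥(pullback c t))ᶜ).Nonempty := by
    by_contra hemp
    refine hu ((pullback c t).toRingedSpace.isUnit_of_isUnit_germ P _ fun x hx => ?_)
    refine ((pullback c t).mem_basicOpen _ x hx).mp ?_
    by_contra hxb
    exact hemp ⟨x, hx, hxb⟩
  obtain ⟨x, ⟨hxP, hxb⟩, hx⟩ := nonempty_inter_closedPoints hne
    (P.isOpen.isLocallyClosed.inter
      ((Opens.isOpen _).isClosed_compl.isLocallyClosed))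
  obtain ⟨p, rfl⟩ := exists_ptImage_eq hx
  exact ⟨p, fun h => (evPoint_eq_zero_iff c p N h s z le_top hz hxP).mpr hxb⟩

namespace CurveCover

variable (D : CurveCover k c)

omit [IsAlgClosed K] in
theorem deg_mul_pointClass_pow (s : SchemeHomOver t c) (L : Pic (pullback c t)) :
    ∀ n : ℕ, D.deg t (L * pointClass c s ^ n) = D.deg t L + n
  | 0 => by simp
  | n + 1 => by
    rw [pow_succ, ← mul_assoc, D.deg_mul_pointClass, deg_mul_pointClass_pow s L n]
    push_cast; ring

omit [IsAlgClosed K] in
theorem deg_mul_prod_pointClass {ι : Type*} (T : Finset ι) (p : ι → SchemeHomOver t c)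
    (L : Pic (pullback c t)) :
    D.deg t (L * ∏ i ∈ T, pointClass c (p i)) = D.deg t L + T.card := by
  classical
  induction T using Finset.induction generalizing L with
  | empty => simp
  | @insert i T hi ih =>
    rw [Finset.prod_insert hi, ← mul_assoc, ih, D.deg_mul_pointClass,
      Finset.card_insert_of_notMem hi]
    push_cast; ring

theorem exists_prod_of_sec_of_deg_eq (d : ℕ) : ∀ (N : Cocycle (pullback c t)) (s : N.Sec ⊤), s ≠ 0 →
    D.deg t (Pic.mk N) = d → ∃ P : Fin d → SchemeHomOver t c,
      Pic.mk N = ∏ i, pointClass c (P i) := by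
  classical
  induction d with
  | zero =>
    intro N s hs hd
    refine ⟨Fin.elim0, ?_⟩
    rw [Fin.prod_univ_zero]
    exact CurveCover.mk_eq_one_of_isUnit_coord t N s fun z P hz =>
      D.isUnit_coord_of_deg_eq_zero t N s hs (by simpa using hd) z hz
  | succ d ih =>
    intro N s hs hd
    obtain ⟨z, P, hz, hu⟩ : ∃ (z : ↥(pullback c t)) (P : (pullback c t).Opens)
        (hz : P ≤ N.nbhd z), ¬ IsUnit (N.coord z le_top hz s) := by
      by_contra hall
      push Not at hall
      rw [CurveCover.mk_eq_one_of_isUnit_coord t N s fun z P hz => hall z P hz, D.deg_one] at hd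
      exact absurd hd (by push_cast; omega)
    obtain ⟨p, hp⟩ := exists_point_of_not_isUnit N s z hz hu
    set N' : Cocycle (pullback c t) := N.mul (pointCocycle c p).inv
    have hmk : Pic.mk (N'.mul (pointCocycle c p)) = Pic.mk N := by
      rw [← Pic.mk_mul, ← Pic.mk_mul, ← Pic.mk_inv, inv_mul_cancel_right]
    obtain ⟨e⟩ := (Pic.mk_eq_mk.mp hmk.symm).nonempty_isoData
    set s' := secEquiv (pullback.snd c t) e ⊤ s
    have hmem : s' ∈ LinearMap.range (mulPoint c p N' ⊤) := by
      rw [range_mulPoint c p N' (W := ⊤) trivial]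
      exact (evPoint_secEquiv_eq_zero_iff p e _ s).mpr (hp _)
    obtain ⟨r, hr⟩ := hmem
    have hr0 : r ≠ 0 := fun h0 => hs ((secEquiv (pullback.snd c t) e ⊤).injective
      ((hr.symm.trans (by rw [h0, map_zero])).trans (map_zero _).symm))
    have hdeg : D.deg t (Pic.mk N) = D.deg t (Pic.mk N') + 1 := by
      rw [← hmk, ← Pic.mk_mul]
      exact D.deg_mul_pointClass p (Pic.mk N')
    obtain ⟨Q, hQ⟩ := ih N' r hr0 (by push_cast at hd ⊢; omega)
    refine ⟨Fin.cons p Q, ?_⟩
    rw [Fin.prod_univ_succ, Fin.cons_zero]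
    simp only [Fin.cons_succ]
    rw [← hQ, ← hmk, ← Pic.mk_mul, mul_comm]
    rfl

/-- A class with a nonzero global section is a product of point classes. -/
theorem exists_prod_of_sec (N : Cocycle (pullback c t)) (s : N.Sec ⊤) (hs : s ≠ 0) :
    ∃ (m : ℕ) (P : Fin m → SchemeHomOver t c),
      (m : ℤ) = D.deg t (Pic.mk N) ∧ Pic.mk N = ∏ i, pointClass c (P i) := by
  have h := D.deg_nonneg_of_sec t N s hs
  obtain ⟨P, hP⟩ := D.exists_prod_of_sec_of_deg_eq (D.deg t (Pic.mk N)).toNat N s hs
    (Int.toNat_of_nonneg h).symm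
  exact ⟨_, P, Int.toNat_of_nonneg h, hP⟩

omit [SmoothOfRelativeDimension 1 c] in
/-- A class of degree at least the genus has a nonzero global section. -/
theorem exists_sec_ne_zero_of_genus_le (N : Cocycle (pullback c t))
    (h : (D.genus t : ℤ) ≤ D.deg t (Pic.mk N)) : ∃ s : N.Sec ⊤, s ≠ 0 := by
  have hchi : 1 ≤ D.chi t N := by
    rw [D.deg_mk, D.chi_one] at h
    omega
  have hpos : 0 < D.h0 t N 0 := by
    unfold CurveCover.chi at hchi
    omega
  have := Module.nontrivial_of_finrank_pos (R := K) hpos
  obtain ⟨p, hp⟩ := exists_ne (0 : LinearMap.ker (D.diff t N 0))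
  obtain ⟨s, h1, h2⟩ := D.exists_sec_of_diff_eq_zero t N p.1 (LinearMap.mem_ker.mp p.2)
  refine ⟨s, fun hs => hp (Subtype.ext (Prod.ext ?_ ?_))⟩
  · rw [← h1, hs, map_zero]; rfl
  · rw [← h2, hs, map_zero]; rfl

/-- A class times a large power of a point is a product of point classes. -/
theorem exists_eq_prod_pointClass (L : Pic (pullback c t)) (e : SchemeHomOver t c) (m : ℕ)
    (hm : (D.genus t : ℤ) ≤ D.deg t L + m) :
    ∃ P : Fin (D.deg t L + m).toNat → SchemeHomOver t c,
      L * pointClass c e ^ m = ∏ i, pointClass c (P i) := by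
  obtain ⟨N, hN⟩ := Pic.mk_surjective (L * pointClass c e ^ m)
  have hdeg : D.deg t (Pic.mk N) = D.deg t L + m := by rw [hN, D.deg_mul_pointClass_pow]
  obtain ⟨s, hs⟩ := D.exists_sec_ne_zero_of_genus_le N (hdeg.ge.trans' hm)
  obtain ⟨m', P, hm', hP⟩ := D.exists_prod_of_sec N s hs
  obtain rfl : m' = (D.deg t L + m).toNat := by omega
  exact ⟨P, hN ▸ hP⟩

/-- A class of degree zero is a product of genus many point classes over a power of one. -/
theorem exists_eq_prod_pointClass_div (L : Pic (pullback c t)) (hL : D.deg t L = 0)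
    (e : SchemeHomOver t c) :
    ∃ P : Fin (D.genus t) → SchemeHomOver t c,
      L = (∏ i, pointClass c (P i)) * (pointClass c e ^ D.genus t)⁻¹ := by
  obtain ⟨P, hP⟩ := D.exists_eq_prod_pointClass L e (D.genus t) (by omega)
  have hn : D.genus t = (D.deg t L + (D.genus t : ℤ)).toNat := by omega
  refine ⟨fun i => P (Fin.cast hn i), ?_⟩
  rw [Fintype.prod_equiv (finCongr hn) (fun i => pointClass c (P (Fin.cast hn i)))
    (fun i => pointClass c (P i)) fun _ => rfl, ← hP, mul_inv_cancel_right]

/-- The degree is additive. -/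
theorem deg_mul (L L' : Pic (pullback c t)) : D.deg t (L * L') = D.deg t L + D.deg t L' := by
  obtain ⟨e⟩ := nonempty_points (c := c) (t := t)
  set m : ℕ := ((D.genus t : ℤ) - D.deg t L').toNat with hmdef
  obtain ⟨P, hP⟩ := D.exists_eq_prod_pointClass L' e m (by omega)
  have h1 := D.deg_mul_pointClass_pow e (L * L') m
  rw [mul_assoc, hP, D.deg_mul_prod_pointClass, Finset.card_univ, Fintype.card_fin] at h1
  omega

end CurveCover

end FLTAgent.RelPicard

end
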