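import Fermat.Agent.RelPicard.PointEval
import Fermat.Agent.RelPicard.CurveBasics

/-!
# The bundle of a point of a curve

The bundle and the canonical section of a point of a curve with values in a scheme are pulled
back from the diagonal.  Over a field, multiplication by the section identifies the sections of a
bundle with the sections of the product whose value at the point is zero.

Main declarations: `pointClass`, `pointSec`, `evPoint`, `mulPoint_bijective`,
`range_mulPoint`.
-/

set_option autoImplicit false

universe u

open CategoryTheory CategoryTheory.Limits AlgebraicGeometry AlgebraicGeometry.RelPicard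
  NeronModelInfra TopologicalSpace

noncomputable section

namespace FLTAgent.RelPicard

attribute [local instance] isIntegral_square

variable {k : Type u} [Field k] [IsAlgClosed k] {C : Scheme.{u}}
  (c : C ⟶ Spec (CommRingCat.of k)) [IsSeparated c] [SmoothOfRelativeDimension 1 c] [IsIntegral C]

section General

variable {T : Scheme.{u}} {t : T ⟶ Spec (CommRingCat.of k)}

/-- The cocycle of the divisor of a point with values in a scheme. -/
def pointCocycle (s : SchemeHomOver t c) : Cocycle (pullback c t) :=
  (diagCocycle c).pullback (graphMap c t s.1 s.2)

/-- The class of the divisor of a point with values in a scheme. -/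
def pointClass (s : SchemeHomOver t c) : Pic (pullback c t) := Pic.mk (pointCocycle c s)

/-- The canonical section of the bundle of a point. -/
def pointSec (s : SchemeHomOver t c) : (pointCocycle c s).Sec ⊤ :=
  (diagCocycle c).pullSec (graphMap c t s.1 s.2) (W := ⊤) (fun _ _ => trivial) (diagSec c)

theorem pointClass_eq_map (s : SchemeHomOver t c) :
    pointClass c s = Pic.map (graphMap c t s.1 s.2) (Pic.mk (diagCocycle c)) := rfl

omit [IsAlgClosed k] [IsSeparated c] [SmoothOfRelativeDimension 1 c]
   [AlgebraicGeometry.IsIntegral C] in
theorem baseChangeSnd_graphMap {T' : Scheme.{u}} {t' : T' ⟶ Spec (CommRingCat.of k)}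
    (ψ : SchemeHomOver t' t) (s : SchemeHomOver t c) :
    baseChangeSnd c ψ ≫ graphMap c t s.1 s.2 =
      graphMap c t' (postComp s ψ).1 (postComp s ψ).2 := by
  apply pullback.hom_ext
  · rw [Category.assoc, graphMap_fst, graphMap_fst, baseChangeSnd, pullback.lift_fst,
      Category.comp_id]
  · rw [Category.assoc, graphMap_snd, graphMap_snd, baseChangeSnd, pullback.lift_snd_assoc]
    simp only [postComp, Category.assoc]

/-- Point classes commute with base change. -/
theorem map_pointClass {T' : Scheme.{u}} {t' : T' ⟶ Spec (CommRingCat.of k)}
    (ψ : SchemeHomOver t' t) (s : SchemeHomOver t c) :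
    Pic.map (baseChangeSnd c ψ) (pointClass c s) = pointClass c (postComp s ψ) := by
  rw [pointClass_eq_map, pointClass_eq_map, ← Pic.map_comp, baseChangeSnd_graphMap]

end General

section FieldPoint

variable {K : Type u} [Field K] {t : Spec (CommRingCat.of K) ⟶ Spec (CommRingCat.of k)}
  (s : SchemeHomOver t c)

/-- The point of the base changed curve. -/
def ptImage : ↥(pullback c t) :=
  (graphSection c t s.1 s.2).base (IsLocalRing.closedPoint K)

omit [IsAlgClosed k] [SmoothOfRelativeDimension 1 c] [AlgebraicGeometry.IsIntegral C] in
theorem isAffineHom_point : IsAffineHom s.1 := by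
  have : IsAffineHom (s.1 ≫ c) := by rw [s.2]; infer_instance
  exact IsAffineHom.of_comp s.1 c

/-- The canonical section is an equation of the point. -/
theorem point_isEquation :
    IsEquation (graphSection c t s.1 s.2) (pointCocycle c s) (pointSec c s) := by
  have := isIntegral_fibre c t
  refine (diagEquations c).isEquation_pullback (isPullback_graph c t s.1 s.2) (fun x h0 => ?_) _
  have := isAffineHom_point c s
  have := isAffineHom_graphMap c t s.1 s.2
  have := smoothOfRelativeDimension_fibre c t (n := 1)
  have : Nonempty (graphMap c t s.1 s.2 ⁻¹ᵁ (diagEquations c).nbhd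
    ((graphMap c t s.1 s.2).base x) :
      (pullback c t).Opens) := ⟨⟨x, (diagEquations c).mem _⟩⟩
  refine ker_app_ne_bot (π := pullback.snd c t) (graphSection c t s.1 s.2)
    (graphSection_snd c t s.1 s.2)
    (W := graphMap c t s.1 s.2 ⁻¹ᵁ (diagEquations c).nbhd ((graphMap c t s.1 s.2).base x))
    (((diagEquations c).affine _).preimage (graphMap c t s.1 s.2)) ?_
  rw [ker_graphSection c t s.1 s.2 ((diagEquations c).affine _) ((diagEquations c).ker _)
    (((diagEquations c).affine _).preimage (graphMap c t s.1 s.2)) le_rfl]
  exact Ideal.span_singleton_eq_bot.mpr h0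

/-- Multiplication by the canonical section of the point. -/
def mulPoint (N : Cocycle (pullback c t)) (W : (pullback c t).Opens) :
    SecOver (pullback.snd c t) N W →ₗ[K]
      SecOver (pullback.snd c t) (N.mul (pointCocycle c s)) W :=
  (point_isEquation c s).mulLin N (pullback.snd c t) W

/-- The value at the point of a section. -/
def evPoint (M : Cocycle (pullback c t)) (W : (pullback c t).Opens) (h : ptImage c s ∈ W) :
    SecOver (pullback.snd c t) M W →ₗ[K] K :=
  secValue (graphSection c t s.1 s.2) (graphSection_snd c t s.1 s.2) M W h

variable (N : Cocycle (pullback c t)) {W : (pullback c t).Opens}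

theorem mulPoint_injective : Function.Injective (mulPoint c s N W) :=
  (point_isEquation c s).mulLin_injective N _ W

theorem secRes_mulPoint {W' : (pullback c t).Opens} (hW : W' ≤ W)
    (r : SecOver (pullback.snd c t) N W) :
    secRes (pullback.snd c t) _ hW (mulPoint c s N W r) =
      mulPoint c s N W' (secRes (pullback.snd c t) N hW r) :=
  (point_isEquation c s).secRes_mulLin N _ hW r

theorem secMul_mulPoint (b : Γ(pullback c t, W)) (r : SecOver (pullback.snd c t) N W) :
    secMul (pullback.snd c t) _ b (mulPoint c s N W r) =
      mulPoint c s N W (secMul (pullback.snd c t) N b r) :=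
  ((point_isEquation c s).mulEq_smul N b r).symm

/-- Over an open set missing the point multiplication is bijective. -/
theorem mulPoint_bijective (h : ptImage c s ∉ W) : Function.Bijective (mulPoint c s N W) :=
  ⟨mulPoint_injective c s N,
    (point_isEquation c s).mulLin_surjective N _ W (preimage_eq_bot_of_notMem _ h)⟩

/-- The image of multiplication is the kernel of the value at the point. -/
theorem range_mulPoint (h : ptImage c s ∈ W) :
    LinearMap.range (mulPoint c s N W) =
      LinearMap.ker (evPoint c s (N.mul (pointCocycle c s)) W h) :=
  (point_isEquation c s).range_mulLin_eq_ker (graphSection_snd c t s.1 s.2) N W h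

section Values

omit [IsAlgClosed k] [IsSeparated c] [SmoothOfRelativeDimension 1 c]
   [AlgebraicGeometry.IsIntegral C]

variable (M : Cocycle (pullback c t))

theorem evPoint_surjective (h : ptImage c s ∈ W) (hW : IsAffineOpen W) :
    Function.Surjective (evPoint c s M W h) :=
  secValue_surjective _ _ M h hW

theorem evPoint_secRes {W' : (pullback c t).Opens} (hW : W' ≤ W) (h' : ptImage c s ∈ W')
    (r : SecOver (pullback.snd c t) M W) :
    evPoint c s M W' h' (secRes (pullback.snd c t) M hW r) = evPoint c s M W (hW h') r :=
  secValue_secRes _ _ M hW h' r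

theorem evPoint_secMul (h : ptImage c s ∈ W) (b : Γ(pullback c t, W))
    (r : SecOver (pullback.snd c t) M W) :
    evPoint c s M W h (secMul (pullback.snd c t) M b r) =
      pointValue (graphSection c t s.1 s.2) h b * evPoint c s M W h r :=
  secValue_secMul _ _ M h b r

/-- The value is zero iff the point is outside the nonvanishing locus of a coordinate. -/
theorem evPoint_eq_zero_iff (h : ptImage c s ∈ W) (r : SecOver (pullback.snd c t) M W)
    (p : ↥(pullback c t)) {P : (pullback c t).Opens} (hP : P ≤ W) (hp : P ≤ M.nbhd p)
    (hxP : ptImage c s ∈ P) :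
    evPoint c s M W h r = 0 ↔ ptImage c s ∉
      (pullback c t).basicOpen (M.coord p hP hp (show M.Sec W from r)) :=
  secValue_eq_zero_iff_notMem _ _ M h r p hP hp hxP

end Values

end FieldPoint

end FLTAgent.RelPicard

end
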