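import Fermat.Agent.RelPicard.CurveIndex
import Fermat.Agent.RelPicard.PointClass

/-!
# Degree and cohomology after multiplication by a point

Multiplication by the section of a point has index minus one on an affine open set containing the
point and zero on one missing it.  So it raises the index of the difference map by one, and the
global sections grow by one exactly when some section is nonzero at the point.

Main results: `deg_mul_pointClass`, `ker_pointEval`, `h0_pointMul`.
-/

set_option autoImplicit false

universe u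

open CategoryTheory CategoryTheory.Limits AlgebraicGeometry AlgebraicGeometry.RelPicard
  NeronModelInfra TopologicalSpace

noncomputable section

namespace FLTAgent.RelPicard

attribute [local instance] isIntegral_fibre

variable {k : Type u} [Field k] [IsAlgClosed k] {C : Scheme.{u}}
  {c : C ⟶ Spec (CommRingCat.of k)} [IsSeparated c] [SmoothOfRelativeDimension 1 c] [IsIntegral C]
  {K : Type u} [Field K] {t : Spec (CommRingCat.of K) ⟶ Spec (CommRingCat.of k)}

open scoped Classical in
/-- One on the open sets containing the point, zero on the others. -/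
def pointDelta (s : SchemeHomOver t c) (W : (pullback c t).Opens) : ℤ :=
  if ptImage c s ∈ W then 1 else 0

theorem finIndex_mulPoint (s : SchemeHomOver t c) (N : Cocycle (pullback c t))
    {W : (pullback c t).Opens} (hW : IsAffineOpen W) :
    FinIndex (mulPoint c s N W) ∧ (mulPoint c s N W).index = -pointDelta s W := by
  classical
  by_cases h : ptImage c s ∈ W
  · let e : (SecOver (pullback.snd c t) (N.mul (pointCocycle c s)) W ⧸
        LinearMap.range (mulPoint c s N W)) ≃ₗ[K] K :=
      (Submodule.quotEquivOfEq _ _ (range_mulPoint c s N h)).trans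
        ((evPoint c s _ W h).quotKerEquivOfSurjective (evPoint_surjective c s _ h hW))
    have : FiniteDimensional K (SecOver (pullback.snd c t) (N.mul (pointCocycle c s)) W ⧸
        LinearMap.range (mulPoint c s N W)) := Module.Finite.equiv e.symm
    refine ⟨FinIndex.of_injective (mulPoint_injective c s N), ?_⟩
    rw [LinearMap.index_of_injective (mulPoint_injective c s N), e.finrank_eq,
      Module.finrank_self, pointDelta, if_pos h, Nat.cast_one]
  · let e := LinearEquiv.ofBijective (mulPoint c s N W) (mulPoint_bijective c s N h)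
    rw [show mulPoint c s N W = (e : _ →ₗ[K] _) from rfl, pointDelta, if_neg h, neg_zero]
    exact ⟨FinIndex.of_linearEquiv e, e.index_eq_zero⟩

namespace CurveCover

variable (D : CurveCover k c) (s : SchemeHomOver t c)

omit [IsAlgClosed k] [IsSeparated c] [SmoothOfRelativeDimension 1 c]
   [AlgebraicGeometry.IsIntegral C] in
theorem isAffineOpen_WT_fibre : IsAffineOpen (D.WT t) := by
  show IsAffineOpen (D.UT t ⊓ D.VT t)
  rw [← D.basicOpen_xT t]
  exact (D.isAffineOpen_UT t).basicOpen (D.xT t)

theorem diff_mulPoint (N : Cocycle (pullback c t)) (n : ℤ) :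
    D.diff t (N.mul (pointCocycle c s)) n ∘ₗ
        (mulPoint c s N (D.UT t)).prodMap (mulPoint c s N (D.VT t)) =
      mulPoint c s N (D.WT t) ∘ₗ D.diff t N n := by
  refine LinearMap.ext fun p => ?_
  simp only [CurveCover.diff, LinearMap.sub_apply, LinearMap.coe_comp, Function.comp_apply, map_sub,
    secRes_mulPoint, secMul_mulPoint, LinearMap.fst_apply, LinearMap.snd_apply,
    LinearMap.prodMap_apply]

omit [IsAlgClosed k] [IsSeparated c] [SmoothOfRelativeDimension 1 c]
   [AlgebraicGeometry.IsIntegral C] in
theorem mem_VT_of_notMem_UT (h : ptImage c s ∉ D.UT t) : ptImage c s ∈ D.VT t :=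
  ((D.UT_sup_VT t).ge (trivial : ptImage c s ∈ (⊤ : (pullback c t).Opens))).resolve_left h

/-- A point raises the index of the difference map by one. -/
theorem index_diff_mul_point (N : Cocycle (pullback c t)) (n : ℤ) :
    (D.diff t (N.mul (pointCocycle c s)) n).index = (D.diff t N n).index + 1 := by
  classical
  obtain ⟨hU, eU⟩ := finIndex_mulPoint s N (D.isAffineOpen_UT t)
  obtain ⟨hV, eV⟩ := finIndex_mulPoint s N (D.isAffineOpen_VT t)
  obtain ⟨hW, eW⟩ := finIndex_mulPoint s N (D.isAffineOpen_WT_fibre (t := t))
  obtain ⟨-, e⟩ := index_of_square (hU.prodMap hV) hW (D.finIndex_diff t N n)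
    (D.diff_mulPoint s N n)
  rw [hU.index_prodMap hV, eU, eV, eW] at e
  have hW' : ptImage c s ∈ D.WT t ↔ ptImage c s ∈ D.UT t ∧ ptImage c s ∈ D.VT t := Iff.rfl
  have hdelta : pointDelta s (D.UT t) + pointDelta s (D.VT t) - pointDelta s (D.WT t) = 1 := by
    by_cases h1 : ptImage c s ∈ D.UT t
    · by_cases h2 : ptImage c s ∈ D.VT t <;> simp [pointDelta, hW', h1, h2]
    · simp [pointDelta, hW', h1, D.mem_VT_of_notMem_UT s h1]
  linarith

/-- A point adds one to the degree. -/
theorem deg_mul_pointClass (L : Pic (pullback c t)) :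
    D.deg t (L * pointClass c s) = D.deg t L + 1 := by
  obtain ⟨N, rfl⟩ := Pic.mk_surjective L
  rw [pointClass, Pic.mk_mul, D.deg_mk, D.deg_mk]
  have e := D.index_diff_mul_point s N 0
  rw [D.index_diff, D.index_diff] at e
  linarith

/-- Multiplication by the point on global sections. -/
def kerMulPoint (N : Cocycle (pullback c t)) (n : ℤ) :
    LinearMap.ker (D.diff t N n) →ₗ[K] LinearMap.ker (D.diff t (N.mul (pointCocycle c s)) n) :=
  ((mulPoint c s N (D.UT t)).prodMap (mulPoint c s N (D.VT t))).restrict fun p hp => by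
    refine LinearMap.mem_ker.mpr ((DFunLike.congr_fun (D.diff_mulPoint s N n) p).trans ?_)
    rw [LinearMap.comp_apply, LinearMap.mem_ker.mp hp, map_zero]

theorem kerMulPoint_injective (N : Cocycle (pullback c t)) (n : ℤ) :
    Function.Injective (D.kerMulPoint s N n) := fun _p _p' e => Subtype.ext (Prod.ext
  (mulPoint_injective c s N (congrArg Prod.fst (congrArg Subtype.val e)))
  (mulPoint_injective c s N (congrArg Prod.snd (congrArg Subtype.val e))))

open scoped Classical in
/-- The value at the point of a global section, taken on a chart containing it. -/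
def pointEval (M : Cocycle (pullback c t)) (n : ℤ) : LinearMap.ker (D.diff t M n) →ₗ[K] K :=
  if h : ptImage c s ∈ D.UT t then
    evPoint c s M (D.UT t) h ∘ₗ LinearMap.fst K _ _ ∘ₗ (LinearMap.ker (D.diff t M n)).subtype
  else
    evPoint c s M (D.VT t) (D.mem_VT_of_notMem_UT s h) ∘ₗ LinearMap.snd K _ _ ∘ₗ
      (LinearMap.ker (D.diff t M n)).subtype

section Values

omit [IsAlgClosed k] [IsSeparated c] [SmoothOfRelativeDimension 1 c]
   [AlgebraicGeometry.IsIntegral C]

theorem pointEval_of_mem (M : Cocycle (pullback c t)) (n : ℤ) (h : ptImage c s ∈ D.UT t)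
    (p : LinearMap.ker (D.diff t M n)) :
    D.pointEval s M n p = evPoint c s M (D.UT t) h p.1.1 := by
  rw [pointEval, dif_pos h]
  rfl

theorem pointEval_of_notMem (M : Cocycle (pullback c t)) (n : ℤ) (h : ptImage c s ∉ D.UT t)
    (p : LinearMap.ker (D.diff t M n)) :
    D.pointEval s M n p = evPoint c s M (D.VT t) (D.mem_VT_of_notMem_UT s h) p.1.2 := by
  rw [pointEval, dif_neg h]
  rfl

/-- On the overlap the two values differ by a nonzero factor. -/
theorem evPoint_fst_eq_zero_iff (M : Cocycle (pullback c t)) (n : ℤ)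
    (p : LinearMap.ker (D.diff t M n)) (hU : ptImage c s ∈ D.UT t) (hV : ptImage c s ∈ D.VT t) :
    evPoint c s M (D.UT t) hU p.1.1 = 0 ↔ evPoint c s M (D.VT t) hV p.1.2 = 0 := by
  have hW : ptImage c s ∈ D.WT t := ⟨hU, hV⟩
  have e := congrArg (evPoint c s M (D.WT t) hW) (LinearMap.mem_ker.mp p.2)
  simp only [CurveCover.diff, LinearMap.sub_apply, LinearMap.coe_comp, Function.comp_apply,
    LinearMap.fst_apply, LinearMap.snd_apply, map_sub, map_zero, evPoint_secRes,
    evPoint_secMul, sub_eq_zero] at e
  rw [e, mul_eq_zero]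
  exact ⟨fun H => H.resolve_left ((Units.isUnit _).map _).ne_zero, Or.inr⟩

theorem pointEval_eq_zero_iff_V (M : Cocycle (pullback c t)) (n : ℤ)
    (hV : ptImage c s ∈ D.VT t) (p : LinearMap.ker (D.diff t M n)) :
    D.pointEval s M n p = 0 ↔ evPoint c s M (D.VT t) hV p.1.2 = 0 := by
  by_cases hU : ptImage c s ∈ D.UT t
  · rw [D.pointEval_of_mem s M n hU]
    exact D.evPoint_fst_eq_zero_iff s M n p hU hV
  · rw [D.pointEval_of_notMem s M n hU]

end Values

/-- The global sections which vanish at the point are those divisible by it. -/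
theorem ker_pointEval (N : Cocycle (pullback c t)) (n : ℤ) :
    LinearMap.ker (D.pointEval s (N.mul (pointCocycle c s)) n) =
      LinearMap.range (D.kerMulPoint s N n) := by
  have hrange : ∀ (W : (pullback c t).Opens)
      (q : SecOver (pullback.snd c t) (N.mul (pointCocycle c s)) W),
      (∀ h, evPoint c s _ W h q = 0) → ∃ r, mulPoint c s N W r = q := fun W q hq => by
    by_cases h : ptImage c s ∈ W
    · exact LinearMap.mem_range.mp ((range_mulPoint c s N h).symm ▸ LinearMap.mem_ker.mpr (hq h))
    · exact (mulPoint_bijective c s N h).2 q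
  ext p
  rw [LinearMap.mem_ker, LinearMap.mem_range]
  constructor
  · intro h0
    obtain ⟨a, ha⟩ := hrange _ p.1.1 fun h => (D.pointEval_of_mem s _ n h p).symm.trans h0
    obtain ⟨b, hb⟩ := hrange _ p.1.2 fun h => (D.pointEval_eq_zero_iff_V s _ n h p).mp h0
    have hab : D.diff t N n (a, b) = 0 := by
      refine mulPoint_injective c s N ?_
      rw [map_zero, ← LinearMap.comp_apply, ← D.diff_mulPoint, LinearMap.comp_apply,
        LinearMap.prodMap_apply, ha, hb]
      exact LinearMap.mem_ker.mp p.2
    exact ⟨⟨(a, b), hab⟩, Subtype.ext (Prod.ext ha hb)⟩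
  · rintro ⟨q, rfl⟩
    by_cases h : ptImage c s ∈ D.UT t
    · rw [D.pointEval_of_mem s _ n h]
      exact LinearMap.mem_ker.mp ((range_mulPoint c s N h) ▸ LinearMap.mem_range_self _ q.1.1)
    · rw [D.pointEval_of_notMem s _ n h]
      exact LinearMap.mem_ker.mp
        ((range_mulPoint c s N (D.mem_VT_of_notMem_UT s h)) ▸ LinearMap.mem_range_self _ q.1.2)

theorem h0_pointMul (N : Cocycle (pullback c t)) (n : ℤ) :
    D.h0 t (N.mul (pointCocycle c s)) n =
      D.h0 t N n + Module.finrank K (LinearMap.range
        (D.pointEval s (N.mul (pointCocycle c s)) n)) := by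
  have := D.finiteDimensional_ker t (N.mul (pointCocycle c s)) n
  rw [h0, h0, ← LinearMap.finrank_range_add_finrank_ker
    (D.pointEval s (N.mul (pointCocycle c s)) n), D.ker_pointEval s N n,
    LinearMap.finrank_range_of_inj (D.kerMulPoint_injective s N n), add_comm]

theorem h0_le_pointMul (N : Cocycle (pullback c t)) (n : ℤ) :
    D.h0 t N n ≤ D.h0 t (N.mul (pointCocycle c s)) n := by
  rw [D.h0_pointMul s N n]
  exact Nat.le_add_right _ _

theorem h0_pointMul_le (N : Cocycle (pullback c t)) (n : ℤ) :
    D.h0 t (N.mul (pointCocycle c s)) n ≤ D.h0 t N n + 1 := by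
  rw [D.h0_pointMul s N n]
  exact Nat.add_le_add_left ((Submodule.finrank_le _).trans (Module.finrank_self K).le) _

end CurveCover

end FLTAgent.RelPicard

end
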