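import Fermat.Agent.RelPicard.FrameSystems

/-!
# Descent of classes rigidified along a section

Let `π : X ⟶ T` have a section `σ` and suppose that units on preimages of open sets of `T` are
determined by their restrictions along `σ`.  Then classes which are trivial along `σ` are determined
by their restrictions to the members of an open cover of `T`, and they glue.

Main declarations: `UnitsAlong`, `Pic.eq_of_locally`, `Pic.exists_glue_locally`; used by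
`PicSheaf`.
-/

set_option autoImplicit false

universe u

open CategoryTheory AlgebraicGeometry TopologicalSpace

noncomputable section

namespace FLTAgent.RelPicard

variable {X T : Scheme.{u}}

/-- A section along which units on preimages of open sets are detected. -/
structure UnitsAlong (π : X ⟶ T) (σ : T ⟶ X) : Prop where
  sec : σ ≫ π = 𝟙 T
  eq_one : ∀ (U : T.Opens) (a : Γ(X, π ⁻¹ᵁ U)ˣ) (h : U ≤ σ ⁻¹ᵁ (π ⁻¹ᵁ U)),
    pullU σ h a = 1 → a = 1

namespace UnitsAlong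

variable {π : X ⟶ T} {σ : T ⟶ X} (H : UnitsAlong π σ)

include H

theorem preimage_preimage (U : T.Opens) : σ ⁻¹ᵁ (π ⁻¹ᵁ U) = U := by
  rw [← Scheme.Hom.comp_preimage, H.sec, Scheme.Hom.id_preimage]

theorem le_of_le_preimage {P : X.Opens} {Q U : T.Opens} (hP : P ≤ π ⁻¹ᵁ U) (hQ : Q ≤ σ ⁻¹ᵁ P) :
    Q ≤ U :=
  (hQ.trans ((Opens.map σ.base).map (homOfLE hP)).le).trans (H.preimage_preimage U).le

theorem pullU_pullU_section {U : T.Opens} {P : X.Opens} {Q : T.Opens} (hP : P ≤ π ⁻¹ᵁ U)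
    (hQ : Q ≤ σ ⁻¹ᵁ P) (u : Γ(T, U)ˣ) :
    pullU σ hQ (pullU π hP u) = resU (H.le_of_le_preimage hP hQ) u := by
  rw [pullU_pullU, pullU_congr H.sec _ (H.le_of_le_preimage hP hQ)]
  exact Units.ext (pull_id _ _)

end UnitsAlong

section Normalised

variable {π : X ⟶ T} {σ : T ⟶ X} (H : UnitsAlong π σ) {ι ι' ι'' : Type u}
  {A : Frames X ι} {B : Frames X ι'} {C : Frames X ι''}
  {UA UB UC U : T.Opens} (rA : Link (Frames.trivial T) (A.pullback σ) UA)
  (rB : Link (Frames.trivial T) (B.pullback σ) UB)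
  (rC : Link (Frames.trivial T) (C.pullback σ) UC) (hA : U ≤ UA) (hB : U ≤ UB) (hC : U ≤ UC)

/-- A link compatible with given trivialisations along the section. -/
def Link.IsNormalised (l : Link A B (π ⁻¹ᵁ U)) (rA : Link (Frames.trivial T) (A.pullback σ) UA)
    (rB : Link (Frames.trivial T) (B.pullback σ) UB) (hA : U ≤ UA) (hB : U ≤ UB) : Prop :=
  ∀ (a : ι) (b : ι') (P : X.Opens) (hW : P ≤ π ⁻¹ᵁ U) (ha : P ≤ A.nbhd a) (hb : P ≤ B.nbhd b)
    (Q : T.Opens) (hQ : Q ≤ σ ⁻¹ᵁ P) (hQU : Q ≤ U),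
    rA.h PUnit.unit a Q (hQU.trans hA) le_top (fun _ hp => ha (hQ hp)) *
      pullU σ hQ (l.h a b P hW ha hb) =
      rB.h PUnit.unit b Q (hQU.trans hB) le_top (fun _ hp => hb (hQ hp))

theorem Link.IsNormalised.restrict {U' : T.Opens} (h : U' ≤ U) {l : Link A B (π ⁻¹ᵁ U)}
    (hl : l.IsNormalised rA rB hA hB) :
    (l.restrict ((Opens.map π.base).map (homOfLE h)).le).IsNormalised rA rB (h.trans hA)
      (h.trans hB) :=
  fun a b P hW ha hb Q hQ hQU =>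
    hl a b P (hW.trans ((Opens.map π.base).map (homOfLE h)).le) ha hb Q hQ (hQU.trans h)

theorem Link.section_change (l : Link A B (π ⁻¹ᵁ U)) (a a' : ι) (b b' : ι') (P : X.Opens)
    (hW : P ≤ π ⁻¹ᵁ U) (ha : P ≤ A.nbhd a) (ha' : P ≤ A.nbhd a') (hb : P ≤ B.nbhd b)
    (hb' : P ≤ B.nbhd b') (Q : T.Opens) (hQ : Q ≤ σ ⁻¹ᵁ P) (hQA : Q ≤ UA) :
    rA.h PUnit.unit a' Q hQA le_top (fun _ hp => ha' (hQ hp)) *
        pullU σ hQ (l.h a' b' P hW ha' hb') =
      rA.h PUnit.unit a Q hQA le_top (fun _ hp => ha (hQ hp)) * pullU σ hQ (l.h a b P hW ha hb) *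
        (B.pullback σ).g b b' Q (fun _ hp => hb (hQ hp)) (fun _ hp => hb' (hQ hp)) := by
  rw [← l.h_change a a' b b' P hW ha ha' hb hb', map_mul, map_mul, Frames.pullU_g,
    Frames.pullU_g, ← mul_assoc, ← mul_assoc]
  erw [rA.mul_g]

include H in
theorem Link.exists_normalised (l : Link A B (π ⁻¹ᵁ U)) (hAc : A.Covers (π ⁻¹ᵁ U))
    (hBc : B.Covers (π ⁻¹ᵁ U)) : ∃ l' : Link A B (π ⁻¹ᵁ U), l'.IsNormalised rA rB hA hB := by
  let O : ι × ι' → X.Opens := fun i => π ⁻¹ᵁ U ⊓ (A.nbhd i.1 ⊓ B.nbhd i.2)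
  let R : ι × ι' → T.Opens := fun i => σ ⁻¹ᵁ O i
  have hR : ∀ i, R i ≤ U := fun i => H.le_of_le_preimage inf_le_left le_rfl
  let f : ∀ i, Γ(T, R i)ˣ := fun i =>
    rB.h PUnit.unit i.2 (R i) ((hR i).trans hB) le_top (fun _ hp => hp.2.2) *
      (rA.h PUnit.unit i.1 (R i) ((hR i).trans hA) le_top (fun _ hp => hp.2.1) *
        pullU σ le_rfl (l.h i.1 i.2 (O i) inf_le_left (inf_le_right.trans inf_le_left)
          (inf_le_right.trans inf_le_right)))⁻¹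
  obtain ⟨u, hu⟩ := exists_glueUnit R hR (fun p hp => by
      have hp' : σ p ∈ π ⁻¹ᵁ U := (H.preimage_preimage U).ge hp
      obtain ⟨a, ha⟩ := hAc _ hp'
      obtain ⟨b, hb⟩ := hBc _ hp'
      exact ⟨(a, b), hp', ha, hb⟩) f fun i j => by
    obtain ⟨a, b⟩ := i
    obtain ⟨a', b'⟩ := j
    have hQ : R (a, b) ⊓ R (a', b') ≤ σ ⁻¹ᵁ (O (a, b) ⊓ O (a', b')) := fun _ hp => hp
    simp only [f, map_mul, map_inv, resU_pullU]
    erw [rA.res_h, rA.res_h, rB.res_h, rB.res_h, ← pullU_resU σ inf_le_left hQ,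
      ← pullU_resU σ inf_le_right hQ, l.res_h, l.res_h]
    have hU' : R (a, b) ⊓ R (a', b') ≤ U := inf_le_left.trans (hR _)
    have e := Link.section_change rA l a a' b b' (O (a, b) ⊓ O (a', b'))
      (fun _ h => h.1.1) (fun _ h => h.1.2.1) (fun _ h => h.2.2.1)
      (fun _ h => h.1.2.2) (fun _ h => h.2.2.2) (R (a, b) ⊓ R (a', b')) hQ (hU'.trans hA)
    have e' := rB.mul_g PUnit.unit b b' (R (a, b) ⊓ R (a', b')) (hU'.trans hB) le_top
      (fun _ h => h.1.2.2) (fun _ h => h.2.2.2)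
    simp only [← div_eq_mul_inv]
    exact (mul_div_mul_right_eq_div _ _ _).symm.trans (congrArg₂ (· / ·) e' e.symm)
  refine ⟨l.smul (pullU π le_rfl u), fun a b P hW ha hb Q hQ hQU => ?_⟩
  have hQR : Q ≤ R (a, b) := fun _ hp => ⟨hW (hQ hp), ha (hQ hp), hb (hQ hp)⟩
  have hPO : P ≤ O (a, b) := le_inf hW (le_inf ha hb)
  have h := congrArg (resU hQR) (hu (a, b))
  simp only [f, map_mul, map_inv, resU_resU, resU_pullU] at h
  erw [rA.res_h, rB.res_h] at h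
  rw [← pullU_resU σ hPO hQ] at h
  erw [l.res_h] at h
  show _ * pullU σ hQ (resU hW (pullU π le_rfl u) * l.h a b P hW ha hb) = _
  rw [map_mul, resU_pullU, H.pullU_pullU_section _ hQ, h, mul_left_comm, inv_mul_cancel_right]

include H in
theorem Link.IsNormalised.unique {l l' : Link A B (π ⁻¹ᵁ U)} (hl : l.IsNormalised rA rB hA hB)
    (hl' : l'.IsNormalised rA rB hA hB) (hAc : A.Covers (π ⁻¹ᵁ U)) (hBc : B.Covers (π ⁻¹ᵁ U))
    (a : ι) (b : ι') (P : X.Opens) (hW : P ≤ π ⁻¹ᵁ U) (ha : P ≤ A.nbhd a) (hb : P ≤ B.nbhd b) :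
    l.h a b P hW ha hb = l'.h a b P hW ha hb := by
  obtain ⟨v, hv⟩ := l.exists_unit l' hAc hBc
  suffices v = 1 by rw [hv, this, map_one, one_mul]
  refine H.eq_one U v (H.preimage_preimage U).ge ?_
  let O : ι × ι' → X.Opens := fun i => π ⁻¹ᵁ U ⊓ (A.nbhd i.1 ⊓ B.nbhd i.2)
  refine unit_eq_of_resU_eq (fun i => σ ⁻¹ᵁ O i)
    (fun i => H.le_of_le_preimage inf_le_left le_rfl) (fun p hp => ?_) _ _ fun i => ?_
  · have hp' : σ p ∈ π ⁻¹ᵁ U := (H.preimage_preimage U).ge hp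
    obtain ⟨a, ha⟩ := hAc _ hp'
    obtain ⟨b, hb⟩ := hBc _ hp'
    exact ⟨(a, b), hp', ha, hb⟩
  obtain ⟨a, b⟩ := i
  have hQ : σ ⁻¹ᵁ O (a, b) ≤ U := H.le_of_le_preimage inf_le_left le_rfl
  have h1 := hl a b (O (a, b)) inf_le_left (inf_le_right.trans inf_le_left)
    (inf_le_right.trans inf_le_right) (σ ⁻¹ᵁ O (a, b)) le_rfl hQ
  have h2 := hl' a b (O (a, b)) inf_le_left (inf_le_right.trans inf_le_left)
    (inf_le_right.trans inf_le_right) (σ ⁻¹ᵁ O (a, b)) le_rfl hQ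
  rw [hv, map_mul, pullU_resU, ← h2, mul_right_inj, mul_eq_right] at h1
  rw [resU_pullU, map_one]
  exact h1

include H in
/-- Normalised links compose. -/
theorem Link.IsNormalised.comp {l₁ : Link A B (π ⁻¹ᵁ U)} {l₂ : Link B C (π ⁻¹ᵁ U)}
    {l₃ : Link A C (π ⁻¹ᵁ U)} (h₁ : l₁.IsNormalised rA rB hA hB)
    (h₂ : l₂.IsNormalised rB rC hB hC) (h₃ : l₃.IsNormalised rA rC hA hC)
    (hAc : A.Covers (π ⁻¹ᵁ U)) (hBc : B.Covers (π ⁻¹ᵁ U)) (hCc : C.Covers (π ⁻¹ᵁ U))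
    (a : ι) (b : ι') (c : ι'') (P : X.Opens) (hW : P ≤ π ⁻¹ᵁ U) (ha : P ≤ A.nbhd a)
    (hb : P ≤ B.nbhd b) (hc : P ≤ C.nbhd c) :
    l₁.h a b P hW ha hb * l₂.h b c P hW hb hc = l₃.h a c P hW ha hc := by
  let O : ι × ι' × ι'' → X.Opens := fun i =>
    π ⁻¹ᵁ U ⊓ (A.nbhd i.1 ⊓ (B.nbhd i.2.1 ⊓ C.nbhd i.2.2))
  have o1 : ∀ i, O i ≤ A.nbhd i.1 := fun i => inf_le_right.trans inf_le_left
  have o2 : ∀ i, O i ≤ B.nbhd i.2.1 := fun i => inf_le_right.trans (inf_le_right.trans inf_le_left)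
  have o3 : ∀ i, O i ≤ C.nbhd i.2.2 := fun i =>
    inf_le_right.trans (inf_le_right.trans inf_le_right)
  let f : ∀ i, Γ(X, O i)ˣ := fun i =>
    l₁.h i.1 i.2.1 (O i) inf_le_left (o1 i) (o2 i) *
        l₂.h i.2.1 i.2.2 (O i) inf_le_left (o2 i) (o3 i) *
      (l₃.h i.1 i.2.2 (O i) inf_le_left (o1 i) (o3 i))⁻¹
  have hcov : ∀ p ∈ π ⁻¹ᵁ U, ∃ i, p ∈ O i := fun p hp => by
    obtain ⟨a, ha⟩ := hAc p hp
    obtain ⟨b, hb⟩ := hBc p hp
    obtain ⟨c, hc⟩ := hCc p hp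
    exact ⟨(a, b, c), hp, ha, hb, hc⟩
  obtain ⟨v, hv⟩ := exists_glueUnit O (fun _ => inf_le_left) hcov f fun i j => by
    obtain ⟨a, b, c⟩ := i
    obtain ⟨a', b', c'⟩ := j
    simp only [f, map_mul, map_inv, Link.res_h]
    have h1 := (inf_le_left : O (a, b, c) ⊓ O (a', b', c') ≤ _)
    have h2 := (inf_le_right : O (a, b, c) ⊓ O (a', b', c') ≤ _)
    have hW' := h1.trans (inf_le_left : O (a, b, c) ≤ π ⁻¹ᵁ U)
    rw [← l₁.h_change a a' b b' _ hW' (h1.trans (o1 _)) (h2.trans (o1 _)) (h1.trans (o2 _))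
        (h2.trans (o2 _)),
      ← l₂.h_change b b' c c' _ hW' (h1.trans (o2 _)) (h2.trans (o2 _)) (h1.trans (o3 _))
        (h2.trans (o3 _)),
      ← l₃.h_change a a' c c' _ hW' (h1.trans (o1 _)) (h2.trans (o1 _)) (h1.trans (o3 _))
        (h2.trans (o3 _))]
    have hg : B.g b b' _ (h1.trans (o2 (a, b, c))) (h2.trans (o2 (a', b', c'))) *
        B.g b' b _ (h2.trans (o2 (a', b', c'))) (h1.trans (o2 (a, b, c))) = 1 := by
      rw [B.mul_g, B.g_self]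
    rw [mul_assoc (A.g a' a _ _ _ * _) (B.g b b' _ _ _), ← mul_assoc (B.g b b' _ _ _),
      ← mul_assoc (B.g b b' _ _ _), hg, one_mul, ← mul_assoc, mul_assoc (A.g a' a _ _ _) _
      (l₂.h b c _ _ _ _), ← div_eq_mul_inv, ← div_eq_mul_inv, mul_div_mul_right_eq_div,
      mul_div_mul_left_eq_div]
  have key : v = 1 := by
    refine H.eq_one U v (H.preimage_preimage U).ge ?_
    refine unit_eq_of_resU_eq (fun i => σ ⁻¹ᵁ O i)
      (fun i => H.le_of_le_preimage inf_le_left le_rfl) (fun p hp => ?_) _ _ fun i => ?_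
    · exact hcov (σ p) ((H.preimage_preimage U).ge hp)
    have hQ : σ ⁻¹ᵁ O i ≤ U := H.le_of_le_preimage inf_le_left le_rfl
    rw [resU_pullU, map_one, ← pullU_resU σ (inf_le_left : O i ≤ π ⁻¹ᵁ U) le_rfl, hv, map_mul,
      map_mul, map_inv, mul_inv_eq_one]
    refine mul_left_cancel (a := rA.h PUnit.unit i.1 (σ ⁻¹ᵁ O i) (hQ.trans hA) le_top
      (fun _ hp => o1 i hp)) ?_
    rw [← mul_assoc, h₁ i.1 i.2.1 (O i) inf_le_left (o1 i) (o2 i) _ le_rfl hQ,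
      h₂ i.2.1 i.2.2 (O i) inf_le_left (o2 i) (o3 i) _ le_rfl hQ,
      h₃ i.1 i.2.2 (O i) inf_le_left (o1 i) (o3 i) _ le_rfl hQ]
  have h := congrArg (resU (le_inf hW (le_inf ha (le_inf hb hc)) : P ≤ O (a, b, c))) (hv (a, b, c))
  simp only [f, key, map_one, map_mul, map_inv] at h
  erw [l₁.res_h, l₂.res_h, l₃.res_h] at h
  exact mul_inv_eq_one.mp h.symm

end Normalised

/-- A link on an open set containing the image gives an equivalence of the modelled cocycles. -/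
theorem equiv_of_link {Z : Scheme.{u}} {ι ι' : Type u} {A : Frames X ι} {B : Frames X ι'}
    (j : Z ⟶ X) {M M' : Cocycle Z} {e : Z → ι} {e' : Z → ι'}
    (hM : A.Models M j e) (hM' : B.Models M' j e') {W : X.Opens} (l : Link A B W)
    (hW : ∀ z, j z ∈ W) : Cocycle.Equiv M' M := by
  let O : Z → X.Opens := fun z => W ⊓ (A.nbhd (e z) ⊓ B.nbhd (e' z))
  let t : ∀ z, Γ(Z, M.nbhd z ⊓ M'.nbhd z)ˣ := fun z =>
    pullU j (fun p hp => ⟨hW p, hM.nbhd_le z hp.1, hM'.nbhd_le z hp.2⟩ :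
      M.nbhd z ⊓ M'.nbhd z ≤ j ⁻¹ᵁ O z)
      (l.h (e z) (e' z) (O z) inf_le_left (inf_le_right.trans inf_le_left)
        (inf_le_right.trans inf_le_right))
  refine ⟨fun z => M.nbhd z ⊓ M'.nbhd z, fun z => ⟨M.mem z, M'.mem z⟩, fun _ => inf_le_right,
    fun _ => inf_le_left, t, fun x y P hx hy => ?_⟩
  let Q : X.Opens := O x ⊓ O y
  have hPQ : P ≤ j ⁻¹ᵁ Q := fun p hp =>
    ⟨⟨hW p, hM.nbhd_le x (hx hp).1, hM'.nbhd_le x (hx hp).2⟩,
      ⟨hW p, hM.nbhd_le y (hy hp).1, hM'.nbhd_le y (hy hp).2⟩⟩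
  have qW : Q ≤ W := inf_le_left.trans inf_le_left
  have qa : Q ≤ A.nbhd (e x) := inf_le_left.trans (inf_le_right.trans inf_le_left)
  have qa' : Q ≤ A.nbhd (e y) := inf_le_right.trans (inf_le_right.trans inf_le_left)
  have qb : Q ≤ B.nbhd (e' x) := inf_le_left.trans (inf_le_right.trans inf_le_right)
  have qb' : Q ≤ B.nbhd (e' y) := inf_le_right.trans (inf_le_right.trans inf_le_right)
  have ht : ∀ (w : Z) (hw : P ≤ M.nbhd w ⊓ M'.nbhd w) (hQw : Q ≤ O w), resU hw (t w) =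
      pullU j hPQ (resU hQw (l.h (e w) (e' w) (O w) inf_le_left (inf_le_right.trans inf_le_left)
        (inf_le_right.trans inf_le_right))) := fun w hw hQw => by
    rw [pullU_resU]; exact resU_pullU j hw _ _
  rw [ht x hx inf_le_left, ht y hy inf_le_right,
    ← hM.g_eq x y P (hx.trans inf_le_left) (hy.trans inf_le_left),
    ← hM'.g_eq x y P (hx.trans inf_le_right) (hy.trans inf_le_right),
    Frames.pullback_g _ j _ _ hPQ _ _ qa qa', Frames.pullback_g _ j _ _ hPQ _ _ qb qb',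
    ← map_mul, ← map_mul]
  refine congrArg (pullU j hPQ) ?_
  rw [l.res_h, l.res_h, l.g_mul (e y) (e x) (e' y) Q qW qa' qa qb',
    l.mul_g (e x) (e' x) (e' y) Q qW qa qb qb']

theorem exists_link_section {σ : T ⟶ X} {Y Z : Scheme.{u}} {ι : Type u} {A : Frames X ι}
    {M : Cocycle Y} {j : Y ⟶ X} {e : Y → ι} (hM : A.Models M j e) (s : Z ⟶ Y) (i : Z ⟶ T)
    [IsOpenImmersion i] (w : s ≫ j = i ≫ σ) (hs : Pic.map s (Pic.mk M) = 1) {U : T.Opens}
    (hU : U ≤ i.opensRange) : Nonempty (Link (Frames.trivial T) (A.pullback σ) U) :=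
  exists_link i (Frames.models_trivial i) (hM.square σ s i w) (Pic.mk_eq_mk.mp hs) hU

theorem exists_link_ofCocycle {σ : T ⟶ X} (N : Cocycle X) (hN : Pic.map σ (Pic.mk N) = 1) :
    Nonempty (Link (Frames.trivial T) ((Frames.ofCocycle N).pullback σ) ⊤) := by
  have h := (Frames.models_ofCocycle N σ).square σ (𝟙 T) (𝟙 T) rfl
  refine exists_link (𝟙 T) (Frames.models_trivial _) h (Pic.mk_eq_mk.mp ?_) (fun p _ => ⟨p, rfl⟩)
  rw [← Pic.map_mk, Pic.map_id, ← Pic.map_mk, hN]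
  rfl

/-- Rigidified classes which agree locally on the base are equal. -/
theorem Pic.eq_of_locally {π : X ⟶ T} {σ : T ⟶ X} (H : UnitsAlong π σ) {κ : Type u}
    (U : κ → T.Opens) (hU : ⨆ i, U i = ⊤) {Y : κ → Scheme.{u}} (j : ∀ i, Y i ⟶ X)
    [∀ i, IsOpenImmersion (j i)] (hj : ∀ i, π ⁻¹ᵁ U i ≤ (j i).opensRange) {L L' : Pic X}
    (hL : Pic.map σ L = 1) (hL' : Pic.map σ L' = 1)
    (heq : ∀ i, Pic.map (j i) L = Pic.map (j i) L') : L = L' := by
  obtain ⟨N, rfl⟩ := Pic.mk_surjective L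
  obtain ⟨N', rfl⟩ := Pic.mk_surjective L'
  obtain ⟨r⟩ := exists_link_ofCocycle N hL
  obtain ⟨r'⟩ := exists_link_ofCocycle N' hL'
  have hcov : ∀ (M : Cocycle X) (W : X.Opens), (Frames.ofCocycle M).Covers W :=
    fun M W p _ => ⟨p, M.mem p⟩
  have hl : ∀ i, ∃ l : Link (Frames.ofCocycle N') (Frames.ofCocycle N) (π ⁻¹ᵁ U i),
      l.IsNormalised r' r le_top le_top := fun i => by
    obtain ⟨l⟩ := exists_link (j i) (Frames.models_ofCocycle N' (j i))
      (Frames.models_ofCocycle N (j i)) (Pic.mk_eq_mk.mp (heq i)) (hj i)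
    exact Link.exists_normalised H r' r le_top le_top l (hcov _ _) (hcov _ _)
  choose l hl using hl
  have hix : ∀ x : X, ∃ i, x ∈ π ⁻¹ᵁ U i := fun x => by
    have hx : π x ∈ ⨆ i, U i := by rw [hU]; trivial
    obtain ⟨i, hi⟩ := Opens.mem_iSup.mp hx
    exact ⟨i, hi⟩
  choose ix hix using hix
  refine Pic.mk_eq_mk.mpr ⟨fun x => π ⁻¹ᵁ U (ix x) ⊓ (N'.nbhd x ⊓ N.nbhd x),
    fun x => ⟨hix x, N'.mem x, N.mem x⟩, fun _ => inf_le_right.trans inf_le_right,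
    fun _ => inf_le_right.trans inf_le_left,
    fun x => (l (ix x)).h x x _ inf_le_left (inf_le_right.trans inf_le_left)
      (inf_le_right.trans inf_le_right), fun x y P hx hy => ?_⟩
  rw [(l (ix x)).res_h, (l (ix y)).res_h]
  have hxy : P ≤ π ⁻¹ᵁ (U (ix x) ⊓ U (ix y)) :=
    fun p hp => ⟨(hx hp).1, (hy hp).1⟩
  have a1 : P ≤ N'.nbhd x := hx.trans (inf_le_right.trans inf_le_left)
  have a2 : P ≤ N'.nbhd y := hy.trans (inf_le_right.trans inf_le_left)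
  have b1 : P ≤ N.nbhd x := hx.trans (inf_le_right.trans inf_le_right)
  have b2 : P ≤ N.nbhd y := hy.trans (inf_le_right.trans inf_le_right)
  have e : (l (ix x)).h x y P (hx.trans inf_le_left) a1 b2 =
      (l (ix y)).h x y P (hy.trans inf_le_left) a1 b2 :=
    ((hl (ix x)).restrict r' r le_top le_top (inf_le_left : U (ix x) ⊓ U (ix y) ≤ _)).unique H r' r
      le_top le_top ((hl (ix y)).restrict r' r le_top le_top inf_le_right) (hcov _ _) (hcov _ _)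
      x y P hxy a1 b2
  show (Frames.ofCocycle N').g x y P a1 a2 * _ = _ * (Frames.ofCocycle N).g x y P b1 b2
  rw [(l (ix y)).g_mul y x y P _ a2 a1 b2, (l (ix x)).mul_g x x y P _ a1 b1 b2, e]

/-- Rigidified classes given locally on the base which agree on the overlaps glue. -/
theorem Pic.exists_glue_locally {π : X ⟶ T} {σ : T ⟶ X} (H : UnitsAlong π σ) {κ : Type u}
    (U : κ → T.Opens) (hU : ⨆ i, U i = ⊤) {Y : κ → Scheme.{u}} (j : ∀ i, Y i ⟶ X)
    [∀ i, IsOpenImmersion (j i)] (hj : ∀ i, (j i).opensRange = π ⁻¹ᵁ U i)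
    {S : κ → Scheme.{u}} (s : ∀ i, S i ⟶ Y i) (u : ∀ i, S i ⟶ T) [∀ i, IsOpenImmersion (u i)]
    (hs : ∀ i, s i ≫ j i = u i ≫ σ) (hu : ∀ i, U i ≤ (u i).opensRange)
    {Z : κ → κ → Scheme.{u}} (p : ∀ i i', Z i i' ⟶ Y i) (q : ∀ i i', Z i i' ⟶ Y i')
    (z : ∀ i i', Z i i' ⟶ X) [∀ i i', IsOpenImmersion (z i i')]
    (hp : ∀ i i', p i i' ≫ j i = z i i') (hq : ∀ i i', q i i' ≫ j i' = z i i')
    (hz : ∀ i i', π ⁻¹ᵁ (U i ⊓ U i') ≤ (z i i').opensRange)
    (L : ∀ i, Pic (Y i)) (hL : ∀ i, Pic.map (s i) (L i) = 1)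
    (hagree : ∀ i i', Pic.map (p i i') (L i) = Pic.map (q i i') (L i')) :
    ∃ L₀ : Pic X, Pic.map σ L₀ = 1 ∧ ∀ i, Pic.map (j i) L₀ = L i := by
  choose M hM using fun i => Pic.mk_surjective (L i)
  let A : ∀ i, Frames X (Y i) := fun i => Frames.push (M i) (j i)
  have hr : ∀ i, Nonempty (Link (Frames.trivial T) ((A i).pullback σ) (U i)) := fun i =>
    exists_link_section (Frames.models_push (M i) (j i)) (s i) (u i) (hs i)
      (by rw [hM]; exact hL i) (hu i)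
  let r : ∀ i, Nonempty (Link (Frames.trivial T) ((A i).pullback σ) (U i)) := hr
  have hA : ∀ i, (A i).Covers (π ⁻¹ᵁ U i) := fun i => Frames.covers_push _ _ (hj i).ge
  have hl : ∀ i i', ∃ l : Link (A i) (A i') (π ⁻¹ᵁ (U i ⊓ U i')),
      l.IsNormalised (r i).some (r i').some inf_le_left inf_le_right := fun i i' => by
    have h1 := (Frames.models_push (M i) (j i)).pullback (p i i')
    rw [hp] at h1
    have h2 := (Frames.models_push (M i') (j i')).pullback (q i i')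
    rw [hq] at h2
    obtain ⟨l⟩ := exists_link (z i i') h1 h2
      (Pic.mk_eq_mk.mp (by rw [← Pic.map_mk, ← Pic.map_mk, hM, hM, hagree])) (hz i i')
    exact Link.exists_normalised H _ _ _ _ l (fun x hx => hA i x hx.1) (fun x hx => hA i' x hx.2)
  choose l hl using hl
  have comp : ∀ i i' i'' a b c (P : X.Opens) (h : P ≤ π ⁻¹ᵁ (U i ⊓ U i'))
      (h' : P ≤ π ⁻¹ᵁ (U i' ⊓ U i'')) (h'' : P ≤ π ⁻¹ᵁ (U i ⊓ U i''))
      (ha : P ≤ (A i).nbhd a) (hb : P ≤ (A i').nbhd b) (hc : P ≤ (A i'').nbhd c),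
      (l i i').h a b P h ha hb * (l i' i'').h b c P h' hb hc = (l i i'').h a c P h'' ha hc := by
    intro i i' i'' a b c P h h' h'' ha hb hc
    have e1 : U i ⊓ U i' ⊓ U i'' ≤ U i ⊓ U i' := inf_le_left
    have e2 : U i ⊓ U i' ⊓ U i'' ≤ U i' ⊓ U i'' := inf_le_inf_right _ inf_le_right
    have e3 : U i ⊓ U i' ⊓ U i'' ≤ U i ⊓ U i'' := inf_le_inf_right _ inf_le_left
    exact Link.IsNormalised.comp H _ _ _ _ _ _ ((hl i i').restrict _ _ _ _ e1)
      ((hl i' i'').restrict _ _ _ _ e2) ((hl i i'').restrict _ _ _ _ e3)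
      (fun x hx => hA i x hx.1.1) (fun x hx => hA i' x hx.1.2) (fun x hx => hA i'' x hx.2)
      a b c P (fun x hx => ⟨h hx, (h' hx).2⟩) ha hb hc
  have hidx : ∀ x : X, ∃ (i : κ) (a : Y i), x ∈ π ⁻¹ᵁ U i ⊓ (A i).nbhd a := fun x => by
    have hx : π x ∈ ⨆ i, U i := by rw [hU]; trivial
    obtain ⟨i, hi⟩ := Opens.mem_iSup.mp hx
    obtain ⟨a, ha⟩ := hA i x hi
    exact ⟨i, a, hi, ha⟩
  choose ix ax hxa using hidx
  let nb : X → X.Opens := fun x => π ⁻¹ᵁ U (ix x) ⊓ (A (ix x)).nbhd (ax x)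
  have hnb : ∀ {x y : X} {P : X.Opens}, P ≤ nb x → P ≤ nb y →
      P ≤ π ⁻¹ᵁ (U (ix x) ⊓ U (ix y)) := fun hx hy p hp => ⟨(hx hp).1, (hy hp).1⟩
  let N : Cocycle X :=
    { nbhd := nb
      mem := hxa
      g := fun x y => (l (ix x) (ix y)).h (ax x) (ax y) (nb x ⊓ nb y)
        (hnb inf_le_left inf_le_right) (inf_le_left.trans inf_le_right)
        (inf_le_right.trans inf_le_right)
      cocycle := fun x y w P hx hy hw => by
        rw [(l _ _).res_h, (l _ _).res_h, (l _ _).res_h]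
        exact comp _ _ _ _ _ _ P _ _ _ _ _ _ }
  have hN : ∀ (x y : X) (P : X.Opens) (hx : P ≤ nb x) (hy : P ≤ nb y), N.gOn x y hx hy =
      (l (ix x) (ix y)).h (ax x) (ax y) P (hnb hx hy) (hx.trans inf_le_right)
        (hy.trans inf_le_right) := fun x y P hx hy => (l (ix x) (ix y)).res_h _ _ _ _ _ _
  refine ⟨Pic.mk N, ?_, fun i => ?_⟩
  · have hQ : ∀ {x : X} {Q : T.Opens}, Q ≤ σ ⁻¹ᵁ nb x → Q ≤ U (ix x) := fun h =>
      H.le_of_le_preimage inf_le_left h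
    let lT : Link (Frames.trivial T) ((Frames.ofCocycle N).pullback σ) ⊤ :=
      { h := fun _ x Q _ _ hb => (r (ix x)).some.h PUnit.unit (ax x) Q (hQ hb) le_top
          (fun p hp => (hb hp).2)
        res_h := fun _ x _ _ h _ _ _ => (r (ix x)).some.res_h _ _ _ _ _ _
        g_mul := fun _ _ x Q _ _ _ _ => one_mul _
        mul_g := fun _ x y Q _ _ hx hy => by
          have hx' : Q ≤ σ ⁻¹ᵁ nb x := hx
          have hy' : Q ≤ σ ⁻¹ᵁ nb y := hy
          rw [Frames.pullback_g _ σ x y ((le_inf hx hy).trans (le_preimage_inf σ _ _)) hx hy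
            inf_le_left inf_le_right]
          exact (congrArg (HMul.hMul _) (congrArg (pullU σ _)
            (hN x y (nb x ⊓ nb y) inf_le_left inf_le_right))).trans
              (hl (ix x) (ix y) (ax x) (ax y) (nb x ⊓ nb y) _ _ _ Q
                ((le_inf hx hy).trans (le_preimage_inf σ _ _)) (le_inf (hQ hx') (hQ hy'))) }
    have h := (Frames.models_ofCocycle N σ).square σ (𝟙 T) (𝟙 T) rfl
    have e := Pic.mk_eq_mk.mpr (equiv_of_link (𝟙 T)
      (Frames.models_trivial (𝟙 T)) h lT fun _ => trivial)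
    rw [← Pic.map_mk, Pic.map_id, ← Pic.map_mk] at e
    exact e.trans Pic.one_def.symm
  · have hP : ∀ {x : X} {P : X.Opens}, P ≤ π ⁻¹ᵁ U i → P ≤ nb x →
        P ≤ π ⁻¹ᵁ (U (ix x) ⊓ U i) := fun hi hx p hp => ⟨(hx hp).1, hi hp⟩
    let lX : Link (Frames.ofCocycle N) (A i) (π ⁻¹ᵁ U i) :=
      { h := fun x b P hW hx hb => (l (ix x) i).h (ax x) b P (hP hW hx) (hx.trans inf_le_right) hb
        res_h := fun x b _ _ h _ _ _ => (l (ix x) i).res_h _ _ _ _ _ _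
        g_mul := fun x y b P hW hx hy hb => by
          show N.gOn y x hy hx * _ = _
          rw [hN y x P hy hx]
          exact comp _ _ _ _ _ _ P _ _ _ _ _ _
        mul_g := fun x b b' P hW hx hb hb' => (l (ix x) i).mul_g _ _ _ _ _ _ _ _ }
    rw [← hM i, Pic.map_mk]
    exact (Pic.mk_eq_mk.mpr (equiv_of_link (j i) (Frames.models_ofCocycle N (j i))
      (Frames.models_push (M i) (j i)) lX fun y => (hj i).le ⟨y, rfl⟩)).symm

end FLTAgent.RelPicard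

end
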