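import Mathlib
import Fermat.Agent.AbelianTorsion.Product

/-!
# The diagonal of a smooth curve is locally cut out by one equation

For a separated morphism smooth of relative dimension one every point of the fibre square has an
affine neighbourhood on which the ideal of the diagonal is principal, generated by a non-zero
function. The generator pulls back to an equation of the image of any section.

Main declarations: `exists_diagonal_equation`, `graphMap`, `graphSection`, `ker_graphSection`.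
-/

set_option autoImplicit false

universe u

open CategoryTheory CategoryTheory.Limits AlgebraicGeometry TopologicalSpace TensorProduct

noncomputable section

namespace FLTAgent.RelPicard

/-- If the module of differentials is free of rank one, the ideal of the diagonal is principal
after inverting an element congruent to one modulo it. -/
theorem exists_kaehler_generator {R B : Type u} [CommRing R] [CommRing B] [Algebra R B]
    [Algebra.EssFiniteType R B] [Nontrivial B] (ω : Module.Basis (Fin 1) B Ω[B⁄R]) :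
    ∃ δ e : B ⊗[R] B, δ ∈ KaehlerDifferential.ideal R B ∧
      δ ∉ KaehlerDifferential.ideal R B ^ 2 ∧ e - 1 ∈ KaehlerDifferential.ideal R B ∧
      ∀ z ∈ KaehlerDifferential.ideal R B, e * z ∈ Ideal.span {δ} := by
  set I := KaehlerDifferential.ideal R B with hI
  obtain ⟨⟨δ, hδ⟩, hδω⟩ := KaehlerDifferential.fromIdeal_surjective R B (ω 0)
  have hδ2 : δ ∉ I ^ 2 := fun h => ω.ne_zero 0 (by
    rw [← hδω]
    exact (Ideal.toCotangent_eq_zero _ ⟨δ, hδ⟩).mpr h)
  have hle : I ≤ Ideal.span {δ} ⊔ I • I := by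
    intro z hz
    set b : B := ω.repr (KaehlerDifferential.fromIdeal R B ⟨z, hz⟩) 0 with hb
    have h1 : KaehlerDifferential.fromIdeal R B ⟨z, hz⟩ =
        KaehlerDifferential.fromIdeal R B (algebraMap B (B ⊗[R] B) b • ⟨δ, hδ⟩) := by
      rw [map_smul, hδω, algebraMap_smul]
      conv_lhs => rw [← ω.sum_repr (KaehlerDifferential.fromIdeal R B ⟨z, hz⟩)]
      rw [Fin.sum_univ_one]
    have h2 : z - algebraMap B (B ⊗[R] B) b * δ ∈ I ^ 2 := (Ideal.toCotangent_eq I).mp h1
    refine Submodule.mem_sup.mpr ⟨algebraMap B (B ⊗[R] B) b * δ,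
      Ideal.mul_mem_left _ _ (Ideal.mem_span_singleton_self δ), _, ?_, add_sub_cancel _ z⟩
    rwa [smul_eq_mul, ← pow_two]
  obtain ⟨e, he, hes⟩ := Submodule.exists_sub_one_mem_and_smul_le_of_fg_of_le_sup
    (KaehlerDifferential.ideal_fg R B) le_rfl hle
  exact ⟨δ, e, hδ, hδ2, he, fun z hz => hes (Submodule.smul_mem_pointwise_smul z e _ hz)⟩

/-- In a pushout of rings the kernel of a base change of a surjection is generated by its kernel. -/
theorem ker_of_isPushout {A B A' B' : CommRingCat.{u}} {f : A ⟶ B} {g : A ⟶ A'} {h : B ⟶ B'}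
    {i : A' ⟶ B'} (H : IsPushout f g h i) (hf : Function.Surjective f) {δ : A}
    (hker : RingHom.ker f.hom = Ideal.span {δ}) :
    RingHom.ker i.hom = Ideal.span {g δ} := by
  have hw : ∀ a, h.hom (f.hom a) = i.hom (g.hom a) := fun a =>
    DFunLike.congr_fun (congrArg CommRingCat.Hom.hom H.w) a
  apply le_antisymm
  · set J : Ideal A' := Ideal.span {g δ}
    have hle : RingHom.ker f.hom ≤ RingHom.ker ((Ideal.Quotient.mk J).comp g.hom) := by
      rw [hker, Ideal.span_le, Set.singleton_subset_iff]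
      exact Ideal.Quotient.eq_zero_iff_mem.mpr (Ideal.mem_span_singleton_self _)
    let l : B →+* A' ⧸ J := f.hom.liftOfSurjective hf ⟨(Ideal.Quotient.mk J).comp g.hom, hle⟩
    have hl : ∀ a, l (f.hom a) = Ideal.Quotient.mk J (g.hom a) := fun a =>
      RingHom.liftOfRightInverse_comp_apply _ _ _ _ a
    let d : B' ⟶ CommRingCat.of (A' ⧸ J) :=
      H.desc (CommRingCat.ofHom l) (CommRingCat.ofHom (Ideal.Quotient.mk J))
        (CommRingCat.hom_ext (RingHom.ext hl))
    intro z hz
    have hd : d.hom (i.hom z) = Ideal.Quotient.mk J z :=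
      DFunLike.congr_fun (congrArg CommRingCat.Hom.hom (H.inr_desc _ _ _)) z
    rw [RingHom.mem_ker.mp hz, map_zero, eq_comm, Ideal.Quotient.eq_zero_iff_mem] at hd
    exact hd
  · rw [Ideal.span_le, Set.singleton_subset_iff, SetLike.mem_coe, RingHom.mem_ker, ← hw]
    rw [RingHom.mem_ker.mp (hker.symm.le (Ideal.mem_span_singleton_self δ)), map_zero]

theorem ker_app_eq_ker_appLE {X Y : Scheme.{u}} (f : X ⟶ Y) (U : Y.Opens) (V : X.Opens)
    (e : V ≤ f ⁻¹ᵁ U) (hV : V = f ⁻¹ᵁ U) :
    RingHom.ker (f.app U).hom = RingHom.ker (f.appLE U V e).hom := by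
  subst hV
  rw [Scheme.Hom.app_eq_appLE]

section Diagonal

variable {X S : Scheme.{u}} (f : X ⟶ S)

/-- Near a point of the diagonal its ideal is generated by one function. -/
theorem exists_diagonal_equation_at [IsSeparated f] [SmoothOfRelativeDimension 1 f] (x : X) :
    ∃ (W : (pullback.diagonalObj f).Opens) (_ : IsAffineOpen W),
      pullback.diagonal f x ∈ W ∧ ∃ δ : Γ(pullback.diagonalObj f, W), δ ≠ 0 ∧
        RingHom.ker ((pullback.diagonal f).app W).hom = Ideal.span {δ} := by
  obtain ⟨U, hU, V, hV, hxV, eV, hstd⟩ :=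
    SmoothOfRelativeDimension.exists_isStandardSmoothOfRelativeDimension (n := 1) (f := f) x
  set P := pullback.diagonalObj f
  set p₁ : P ⟶ X := pullback.fst f f
  set p₂ : P ⟶ X := pullback.snd f f
  set Δ : X ⟶ P := pullback.diagonal f
  let W₀ : P.Opens := p₁ ⁻¹ᵁ V ⊓ p₂ ⁻¹ᵁ V
  have hP : IsPullback p₁ p₂ f f := IsPullback.of_hasPullback f f
  have hW₀ : IsAffineOpen W₀ := by
    have : IsAffine _ := hU
    have : IsAffine _ := hV
    exact .of_isIso (Scheme.Hom.isPullback_resLE hP (UY := W₀) eV eV rfl).isoPullback.hom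
  have := isIso_pushoutSection_of_isAffineOpen hP (UY := W₀) eV eV rfl hU hV hV
  have hpush := (isIso_pushoutSection_iff hP (UY := W₀) eV eV rfl).mp inferInstance
  let : Algebra Γ(S, U) Γ(X, V) := (f.appLE U V eV).hom.toAlgebra
  have : Algebra.IsStandardSmoothOfRelativeDimension 1 Γ(S, U) Γ(X, V) := hstd
  have : Algebra.IsStandardSmooth Γ(S, U) Γ(X, V) :=
    Algebra.IsStandardSmoothOfRelativeDimension.isStandardSmooth 1
  have : Nonempty V := ⟨⟨x, hxV⟩⟩
  obtain ⟨δ, e, hδ, hδ2, he, hgen⟩ := exists_kaehler_generator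
    (Module.finBasisOfFinrankEq Γ(X, V) Ω[Γ(X, V)⁄Γ(S, U)] (Module.finrank_eq_of_rank_eq
      (Algebra.IsStandardSmoothOfRelativeDimension.rank_kaehlerDifferential 1)))
  set I := KaehlerDifferential.ideal Γ(S, U) Γ(X, V)
  have hten := CommRingCat.isPushout_tensorProduct Γ(S, U) Γ(X, V) Γ(X, V)
  let iso := hten.isoIsPushout _ _ hpush
  let χ : Γ(X, V) ⊗[Γ(S, U)] Γ(X, V) →+* Γ(P, W₀) := iso.hom.hom
  have hχ : Function.Bijective χ := ConcreteCategory.bijective_of_isIso iso.hom
  have hχl : ∀ b, χ (b ⊗ₜ 1) = (p₁.appLE V W₀ inf_le_left).hom b := fun b =>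
    DFunLike.congr_fun (congrArg CommRingCat.Hom.hom (hten.inl_isoIsPushout_hom _ _ hpush)) b
  have hχr : ∀ b, χ (1 ⊗ₜ b) = (p₂.appLE V W₀ inf_le_right).hom b := fun b =>
    DFunLike.congr_fun (congrArg CommRingCat.Hom.hom (hten.inr_isoIsPushout_hom _ _ hpush)) b
  have hΔ₁ : Δ ⁻¹ᵁ (p₁ ⁻¹ᵁ V) = V := by
    rw [← Scheme.Hom.comp_preimage, pullback.diagonal_fst, Scheme.Hom.id_preimage]
  have hΔ₂ : Δ ⁻¹ᵁ (p₂ ⁻¹ᵁ V) = V := by
    rw [← Scheme.Hom.comp_preimage, pullback.diagonal_snd, Scheme.Hom.id_preimage]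
  have hΔW₀ : Δ ⁻¹ᵁ W₀ = V := by
    show Δ ⁻¹ᵁ (p₁ ⁻¹ᵁ V) ⊓ Δ ⁻¹ᵁ (p₂ ⁻¹ᵁ V) = V
    rw [hΔ₁, hΔ₂, inf_idem]
  let φ₀ : Γ(P, W₀) →+* Γ(X, V) := (Δ.appLE W₀ V hΔW₀.ge).hom
  have hid : ∀ (g : X ⟶ X) (hg : g = 𝟙 X) (h : V ≤ g ⁻¹ᵁ V) (b : Γ(X, V)),
      (g.appLE V V h).hom b = b := by
    rintro _ rfl h b
    simp only [Scheme.Hom.appLE, Scheme.Hom.id_app]
    exact DFunLike.congr_fun (congrArg CommRingCat.Hom.hom (X.presheaf.map_id (.op V))) b
  have hφχ : ∀ z, φ₀ (χ z) = Algebra.TensorProduct.lmul' Γ(S, U) z := by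
    intro z
    induction z using TensorProduct.induction_on with
    | zero => rw [map_zero, map_zero, map_zero]
    | tmul a b =>
      have hmul : a ⊗ₜ[Γ(S, U)] b = (a ⊗ₜ 1) * (1 ⊗ₜ b) := by
        rw [Algebra.TensorProduct.tmul_mul_tmul, mul_one, one_mul]
      rw [Algebra.TensorProduct.lmul'_apply_tmul, hmul, map_mul, map_mul, hχl, hχr]
      refine congrArg₂ (· * ·) ?_ ?_
      · refine Eq.trans ?_ (hid (Δ ≫ p₁) (pullback.diagonal_fst f)
          (hΔ₁.ge.trans_eq (Scheme.Hom.comp_preimage _ _ _).symm) a)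
        rw [← Scheme.Hom.appLE_comp_appLE _ _ V W₀ V inf_le_left hΔW₀.ge]
        rfl
      · refine Eq.trans ?_ (hid (Δ ≫ p₂) (pullback.diagonal_snd f)
          (hΔ₂.ge.trans_eq (Scheme.Hom.comp_preimage _ _ _).symm) b)
        rw [← Scheme.Hom.appLE_comp_appLE _ _ V W₀ V inf_le_right hΔW₀.ge]
        rfl
    | add a b ha hb => rw [map_add, map_add, map_add, ha, hb]
  have hφe : φ₀ (χ e) = 1 := by
    rw [hφχ, ← sub_eq_zero, ← map_one (Algebra.TensorProduct.lmul' Γ(S, U)), ← map_sub]
    exact he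
  set W : P.Opens := P.basicOpen (χ e) with hWdef
  have hWle : W ≤ W₀ := P.basicOpen_le _
  have hW : IsAffineOpen W := hW₀.basicOpen _
  have hΔW : V = Δ ⁻¹ᵁ W := by
    refine le_antisymm ?_ ((Δ.preimage_mono hWle).trans_eq hΔW₀)
    have h1 := X.basicOpen_res (Δ.app W₀ (χ e)) (homOfLE hΔW₀.ge).op
    rw [← Scheme.preimage_basicOpen, ← hWdef] at h1
    have h2 : X.basicOpen (φ₀ (χ e)) = V := by rw [hφe, X.basicOpen_of_isUnit isUnit_one]
    have h3 : X.basicOpen (φ₀ (χ e)) = V ⊓ Δ ⁻¹ᵁ W := h1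
    rw [h2] at h3
    exact inf_eq_left.mp h3.symm
  let : Algebra Γ(P, W₀) Γ(P, W) := (P.presheaf.map (homOfLE hWle).op).hom.toAlgebra
  have hloc : IsLocalization.Away (χ e) Γ(P, W) := hW₀.isLocalization_basicOpen (χ e)
  let φ : Γ(P, W) →+* Γ(X, V) := (Δ.appLE W V hΔW.le).hom
  have hφres : ∀ z : Γ(P, W₀), φ (algebraMap Γ(P, W₀) Γ(P, W) z) = φ₀ z := fun z =>
    DFunLike.congr_fun (congrArg CommRingCat.Hom.hom (Δ.map_appLE hΔW.le (homOfLE hWle).op)) z
  have hue : IsUnit (algebraMap Γ(P, W₀) Γ(P, W) (χ e)) :=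
    IsLocalization.Away.algebraMap_isUnit (χ e)
  refine ⟨W, hW, (hΔW.le hxV :), algebraMap Γ(P, W₀) Γ(P, W) (χ δ), fun h0 => hδ2 ?_, ?_⟩
  · rw [IsLocalization.map_eq_zero_iff (Submonoid.powers (χ e))] at h0
    obtain ⟨⟨_, n, rfl⟩, hn⟩ := h0
    have hn' : e ^ n * δ = 0 := hχ.1 (by rw [map_mul, map_pow, map_zero]; exact hn)
    have hsub : 1 - e ^ n ∈ I := by
      have h : e - 1 ∣ e ^ n - 1 := sub_one_dvd_pow_sub_one _ _
      obtain ⟨w, hw⟩ := h
      rw [show 1 - e ^ n = -(e ^ n - 1) by ring, hw]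
      exact neg_mem (I.mul_mem_right _ he)
    rw [pow_two, show δ = (1 - e ^ n) * δ by rw [sub_mul, one_mul, hn', sub_zero]]
    exact Ideal.mul_mem_mul hsub hδ
  · rw [ker_app_eq_ker_appLE Δ W V hΔW.le hΔW]
    change RingHom.ker φ = _
    apply le_antisymm
    · intro w hw
      obtain ⟨⟨a, ⟨_, n, rfl⟩⟩, hs⟩ := IsLocalization.surj (Submonoid.powers (χ e)) w
      obtain ⟨a, rfl⟩ := hχ.2 a
      have ha : a ∈ I := by
        show Algebra.TensorProduct.lmul' Γ(S, U) a = 0
        rw [← hφχ, ← hφres, ← hs, map_mul, RingHom.mem_ker.mp hw, zero_mul]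
      obtain ⟨v, hv⟩ := Ideal.mem_span_singleton'.mp (hgen a ha)
      refine (Ideal.mul_unit_mem_iff_mem _ ((hue.pow n).mul hue)).mp
        (Ideal.mem_span_singleton'.mpr ⟨algebraMap Γ(P, W₀) Γ(P, W) (χ v), ?_⟩)
      rw [← map_mul, ← map_mul, hv, ← map_pow, ← mul_assoc]
      show algebraMap Γ(P, W₀) Γ(P, W) (χ (e * a)) = _
      rw [map_mul χ, map_mul, ← hs, map_pow]
      ring
    · rw [Ideal.span_le, Set.singleton_subset_iff, SetLike.mem_coe, RingHom.mem_ker, hφres, hφχ]
      exact hδ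

/-- **The diagonal is locally principal.** -/
theorem exists_diagonal_equation [IsSeparated f] [SmoothOfRelativeDimension 1 f]
    (z : ↥(pullback.diagonalObj f)) :
    ∃ (W : (pullback.diagonalObj f).Opens) (_ : IsAffineOpen W),
      z ∈ W ∧ IsAffineOpen (pullback.diagonal f ⁻¹ᵁ W) ∧
        ∃ δ : Γ(pullback.diagonalObj f, W), δ ≠ 0 ∧
          RingHom.ker ((pullback.diagonal f).app W).hom = Ideal.span {δ} := by
  by_cases hz : z ∈ Set.range (pullback.diagonal f)
  · obtain ⟨x, rfl⟩ := hz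
    obtain ⟨W, hW, hxW, h⟩ := exists_diagonal_equation_at f x
    exact ⟨W, hW, hxW, hW.preimage _, h⟩
  · obtain ⟨_, ⟨W, hW, rfl⟩, hzW, hsub⟩ :=
      (pullback.diagonalObj f).isBasis_affineOpens.exists_subset_of_mem_open hz
        (pullback.diagonal f).isClosedEmbedding.isClosed_range.isOpen_compl
    have hW' : IsAffineOpen W := hW
    have : Nonempty W := ⟨⟨z, hzW⟩⟩
    refine ⟨W, hW', hzW, hW'.preimage _, 1, one_ne_zero, ?_⟩
    have hbot : pullback.diagonal f ⁻¹ᵁ W = ⊥ :=
      le_bot_iff.mp fun y hy => (hsub hy ⟨y, rfl⟩).elim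
    have : Subsingleton Γ(X, pullback.diagonal f ⁻¹ᵁ W) := by
      rw [hbot]
      infer_instance
    rw [Ideal.span_singleton_one, eq_top_iff]
    exact fun w _ => RingHom.mem_ker.mpr (Subsingleton.elim _ _)

end Diagonal

section BaseChange

/-- The equation of a closed immersion pulls back to an equation of its base change. -/
theorem ker_app_of_isPullback {X Z X' Z' : Scheme.{u}} {Δ : Z ⟶ X} {g : X' ⟶ X} {σ : Z' ⟶ X'}
    {h : Z' ⟶ Z} [IsClosedImmersion Δ] (H : IsPullback h σ Δ g) {W : X.Opens}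
    (hW : IsAffineOpen W) {δ : Γ(X, W)}
    (hker : RingHom.ker (Δ.app W).hom = Ideal.span {δ})
    {W' : X'.Opens} (hW' : IsAffineOpen W') (e : W' ≤ g ⁻¹ᵁ W) :
    RingHom.ker (σ.app W').hom = Ideal.span {(g.appLE W W' e).hom δ} := by
  have hUY : σ ⁻¹ᵁ W' = h ⁻¹ᵁ (Δ ⁻¹ᵁ W) ⊓ σ ⁻¹ᵁ W' := by
    rw [right_eq_inf]
    refine (σ.preimage_mono e).trans_eq ?_
    rw [← Scheme.Hom.comp_preimage, ← Scheme.Hom.comp_preimage, H.w]
  have := isIso_pushoutSection_of_isAffineOpen H (UX := Δ ⁻¹ᵁ W) e le_rfl hUY hW hW'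
    (hW.preimage Δ)
  have hpush := (isIso_pushoutSection_iff H (UX := Δ ⁻¹ᵁ W) e le_rfl hUY).mp inferInstance
  have hsurj : Function.Surjective (Δ.appLE W (Δ ⁻¹ᵁ W) le_rfl) := by
    rw [← Scheme.Hom.app_eq_appLE]
    exact Δ.app_surjective W hW
  rw [ker_app_eq_ker_appLE σ W' (σ ⁻¹ᵁ W') le_rfl rfl]
  refine ker_of_isPushout hpush hsurj ?_
  rw [← ker_app_eq_ker_appLE Δ W _ le_rfl rfl]
  exact hker

variable {X S T : Scheme.{u}} (f : X ⟶ S) (t : T ⟶ S) (s : T ⟶ X) (hs : s ≫ f = t)

/-- The map `(x, t) ↦ (x, s t)` to the fibre square. -/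
def graphMap : pullback f t ⟶ pullback.diagonalObj f :=
  pullback.lift (pullback.fst f t) (pullback.snd f t ≫ s)
    (by rw [Category.assoc, hs]; exact pullback.condition)

/-- The section `t ↦ (s t, t)`. -/
def graphSection : T ⟶ pullback f t :=
  pullback.lift s (𝟙 T) (by rw [hs, Category.id_comp])

theorem graphSection_fst : graphSection f t s hs ≫ pullback.fst f t = s := pullback.lift_fst _ _ _

theorem graphSection_snd : graphSection f t s hs ≫ pullback.snd f t = 𝟙 T := pullback.lift_snd _ _ _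

theorem graphMap_fst : graphMap f t s hs ≫ pullback.fst f f = pullback.fst f t :=
  pullback.lift_fst _ _ _

theorem graphMap_snd : graphMap f t s hs ≫ pullback.snd f f = pullback.snd f t ≫ s :=
  pullback.lift_snd _ _ _

/-- A section is the preimage of the diagonal. -/
theorem isPullback_graph :
    IsPullback s (graphSection f t s hs) (pullback.diagonal f) (graphMap f t s hs) := by
  have w : s ≫ pullback.diagonal f = graphSection f t s hs ≫ graphMap f t s hs := by
    apply pullback.hom_ext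
    · rw [Category.assoc, Category.assoc, pullback.diagonal_fst, graphMap, pullback.lift_fst,
        graphSection_fst, Category.comp_id]
    · rw [Category.assoc, Category.assoc, pullback.diagonal_snd, graphMap, pullback.lift_snd,
        ← Category.assoc (graphSection f t s hs), graphSection_snd, Category.id_comp,
        Category.comp_id]
  refine IsPullback.of_isLimit' ⟨w⟩ ?_
  have hfst : ∀ c : PullbackCone (pullback.diagonal f) (graphMap f t s hs),
      c.fst = c.snd ≫ pullback.fst f t ∧ c.fst = c.snd ≫ pullback.snd f t ≫ s := fun c => by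
    constructor
    · have := congrArg (· ≫ pullback.fst f f) c.condition
      rwa [Category.assoc, Category.assoc, pullback.diagonal_fst, graphMap_fst,
        Category.comp_id] at this
    · have := congrArg (· ≫ pullback.snd f f) c.condition
      rwa [Category.assoc, Category.assoc, pullback.diagonal_snd, graphMap_snd,
        Category.comp_id] at this
  refine PullbackCone.IsLimit.mk _ (fun c => c.snd ≫ pullback.snd f t) (fun c => ?_) (fun c => ?_)
    fun c m h₁ h₂ => ?_
  · rw [Category.assoc, ← (hfst c).2]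
  · apply pullback.hom_ext
    · rw [Category.assoc, graphSection_fst, Category.assoc, ← (hfst c).2, ← (hfst c).1]
    · rw [Category.assoc, graphSection_snd, Category.comp_id]
  · rw [← h₂, Category.assoc, graphSection_snd, Category.comp_id]

/-- The equation of the diagonal pulls back to an equation of a section. -/
theorem ker_graphSection [IsSeparated f] {W : (pullback.diagonalObj f).Opens} (hW : IsAffineOpen W)
    {δ : Γ(pullback.diagonalObj f, W)}
    (hker : RingHom.ker ((pullback.diagonal f).app W).hom = Ideal.span {δ})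
    {W' : (pullback f t).Opens} (hW' : IsAffineOpen W') (e : W' ≤ graphMap f t s hs ⁻¹ᵁ W) :
    RingHom.ker ((graphSection f t s hs).app W').hom =
      Ideal.span {((graphMap f t s hs).appLE W W' e).hom δ} :=
  ker_app_of_isPullback (isPullback_graph f t s hs) hW hker hW' e

/-- `(x, t) ↦ (x, s t)` is the base change of `s`. -/
theorem isPullback_graphMap :
    IsPullback (graphMap f t s hs) (pullback.snd f t) (pullback.snd f f) s := by
  have h : IsPullback (graphMap f t s hs ≫ pullback.fst f f) (pullback.snd f t) f (s ≫ f) := by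
    rw [graphMap_fst, hs]
    exact IsPullback.of_hasPullback f t
  exact IsPullback.of_right h (graphMap_snd f t s hs) (IsPullback.of_hasPullback f f)

theorem isAffineHom_graphMap [IsAffineHom s] : IsAffineHom (graphMap f t s hs) :=
  MorphismProperty.of_isPullback (isPullback_graphMap f t s hs).flip ‹_›

end BaseChange

/-- The square of a curve over an algebraically closed field is integral. -/
theorem isIntegral_square {k : Type u} [Field k] [IsAlgClosed k] {C : Scheme.{u}}
    (c : C ⟶ Spec (CommRingCat.of k)) [IsIntegral C] : IsIntegral (pullback c c) :=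
  FLTAgent.AbelianTorsion.isIntegral_pullback c c

end FLTAgent.RelPicard
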