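import Fermat.Agent.RelPicard.Diagonal
import Fermat.Agent.RelPicard.Defs
import Fermat.Agent.RelPicard.CocycleSections

/-!
# Effective divisors given by local equations, and the bundle of the diagonal

A cocycle with a section whose coordinates are regular and generate the ideal of a closed
immersion: multiplication by the section identifies the sections of `N` with the sections of the
product vanishing on the subscheme. The diagonal of a smooth curve carries such a cocycle.

Main declarations: `IsEquation`, `range_mulEq`, `LocalEquations.bundle`, `diagCocycle`,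
`diagSec`.
-/

set_option autoImplicit false

universe u

open CategoryTheory CategoryTheory.Limits AlgebraicGeometry TopologicalSpace

noncomputable section

namespace FLTAgent.RelPicard

variable {X T : Scheme.{u}}

/-- The coordinates of the section are regular and generate the ideal of the closed subscheme. -/
structure IsEquation (σ : T ⟶ X) (D : Cocycle X) (v : D.Sec ⊤) : Prop where
  regular : ∀ (x : X) (W : X.Opens) (hx : W ≤ D.nbhd x) (a : Γ(X, W)),
    a * D.coord x le_top hx v = 0 → a = 0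
  ker : ∀ (x : X) (W : X.Opens) (_ : IsAffineOpen W) (hx : W ≤ D.nbhd x),
    RingHom.ker (σ.app W).hom = Ideal.span {D.coord x le_top hx v}

/-- A section vanishes on the image of a morphism. -/
def Cocycle.VanishesOn (σ : T ⟶ X) (c : Cocycle X) {W : X.Opens} (t : c.Sec W) : Prop :=
  ∀ (p : X) (V : X.Opens) (hV : V ≤ W) (hp : V ≤ c.nbhd p),
    (σ.app V).hom (c.coord p hV hp t) = 0

theorem app_res_eq (σ : T ⟶ X) {V W : X.Opens} (h : V ≤ W) (a : Γ(X, W)) :
    (σ.app V).hom (res h a) = res (σ.preimage_mono h) ((σ.app W).hom a) :=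
  DFunLike.congr_fun (congrArg CommRingCat.Hom.hom (σ.naturality (homOfLE h).op)) a

namespace IsEquation

variable {σ : T ⟶ X} {D : Cocycle X} {v : D.Sec ⊤} (h : IsEquation σ D v) (N : Cocycle X)

/-- Multiplication by the equation. -/
def mulEq (_ : IsEquation σ D v) {W : X.Opens} (s : N.Sec W) : (N.mul D).Sec W :=
  N.mulSec D s (D.resSec le_top v)

theorem coord_mulEq {W : X.Opens} (s : N.Sec W) (p : X) {V : X.Opens} (hV : V ≤ W)
    (hp : V ≤ (N.mul D).nbhd p) :
    (N.mul D).coord p hV hp (h.mulEq N s) =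
      N.coord p hV (hp.trans inf_le_left) s * D.coord p le_top (hp.trans inf_le_right) v := by
  show res (le_inf hV hp) (res _ (s.1 p) * res _ (res _ (v.1 p))) = _
  rw [map_mul, res_res, res_res, res_res]
  rfl

include h in
theorem eq_of_mul_coord (p : X) {V : X.Opens} (hp : V ≤ D.nbhd p) (a b : Γ(X, V))
    (e : a * D.coord p le_top hp v = b * D.coord p le_top hp v) : a = b :=
  sub_eq_zero.mp (h.regular p V hp (a - b) (by rw [sub_mul, e, sub_self]))

theorem mulEq_injective {W : X.Opens} : Function.Injective (h.mulEq N (W := W)) := by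
  intro s s' e
  refine Subtype.ext (funext fun x => ?_)
  refine eq_of_res_eq (fun q : X => W ⊓ N.nbhd x ⊓ (N.mul D).nbhd q) (fun q => inf_le_left)
    (fun q hq => ⟨q, hq, (N.mul D).mem q⟩) _ _ fun q => ?_
  set V := W ⊓ N.nbhd x ⊓ (N.mul D).nbhd q
  have hVW : V ≤ W := inf_le_left.trans inf_le_left
  have hVx : V ≤ N.nbhd x := inf_le_left.trans inf_le_right
  have hVq : V ≤ N.nbhd q := inf_le_right.trans inf_le_left
  have e1 : ∀ r : N.Sec W, res inf_le_left (r.1 x) =
    (↑(N.gOn x q hVx hVq) : Γ(X, V)) * N.coord q hVW hVq r :=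
    fun r => N.coord_change x q hVW hVx hVq r
  rw [e1, e1]
  congr 1
  refine h.eq_of_mul_coord q (inf_le_right.trans inf_le_right) _ _ ?_
  rw [← h.coord_mulEq N s q hVW inf_le_right, ← h.coord_mulEq N s' q hVW inf_le_right, e]

theorem vanishesOn_mulEq {W : X.Opens} (s : N.Sec W) :
    (N.mul D).VanishesOn σ (h.mulEq N s) := by
  intro p V hV hp
  refine eq_of_res_eq (X := T) (fun A : {A : X.affineOpens // A.1 ≤ V} => σ ⁻¹ᵁ A.1.1)
    (fun A => σ.preimage_mono A.2) (fun q hq => ?_) _ 0 fun A => ?_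
  · obtain ⟨_, ⟨A, hA, rfl⟩, hqA, hAV⟩ :=
      X.isBasis_affineOpens.exists_subset_of_mem_open hq V.2
    exact ⟨⟨⟨A, hA⟩, hAV⟩, hqA⟩
  · rw [map_zero, ← app_res_eq σ A.2, Cocycle.res_coord, h.coord_mulEq N]
    refine RingHom.mem_ker.mp (Ideal.mul_mem_left _ _ ?_)
    rw [h.ker p A.1.1 A.1.2 ((A.2.trans hp).trans inf_le_right)]
    exact Ideal.mem_span_singleton_self _

/-- A function `a` on `V` is the coordinate at `x` of a quotient of `t` by the equation. -/
def IsQuot (v : D.Sec ⊤) {W : X.Opens} (t : (N.mul D).Sec W) (x : X) {V : X.Opens}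
    (hVx : V ≤ N.nbhd x) (hVW : V ≤ W) (a : Γ(X, V)) : Prop :=
  ∀ (p : X) (P : X.Opens) (hP : P ≤ V) (hp : P ≤ (N.mul D).nbhd p),
    (↑(N.gOn p x (hp.trans inf_le_left) (hP.trans hVx)) : Γ(X, P)) * res hP a *
      D.coord p le_top (hp.trans inf_le_right) v = (N.mul D).coord p (hP.trans hVW) hp t

include h in
theorem isQuot_unique {W : X.Opens} (t : (N.mul D).Sec W) (x : X) {V : X.Opens}
    (hVx : V ≤ N.nbhd x) (hVW : V ≤ W) {a b : Γ(X, V)} (ha : IsQuot N v t x hVx hVW a)
    (hb : IsQuot N v t x hVx hVW b) : a = b := by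
  refine eq_of_res_eq (fun q : X => V ⊓ (N.mul D).nbhd q) (fun q => inf_le_left)
    (fun q hq => ⟨q, hq, (N.mul D).mem q⟩) a b fun q => ?_
  exact (N.gOn q x _ _).isUnit.mul_left_cancel (h.eq_of_mul_coord q _ _ _
    ((ha q _ inf_le_left inf_le_right).trans (hb q _ inf_le_left inf_le_right).symm))

theorem IsQuot.res_le {N : Cocycle X} {W : X.Opens} {t : (N.mul D).Sec W} {x : X} {V V' : X.Opens}
    {hVx : V ≤ N.nbhd x} {hVW : V ≤ W} {a : Γ(X, V)} (ha : IsQuot N v t x hVx hVW a) (hV : V' ≤ V) :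
    IsQuot N v t x (hV.trans hVx) (hV.trans hVW) (res hV a) := fun p P hP hp => by
  rw [res_res]
  exact ha p P (hP.trans hV) hp

include h in
theorem exists_isQuot_near {W : X.Opens} (t : (N.mul D).Sec W) (ht : (N.mul D).VanishesOn σ t)
    (x : X) {q : X} (hq : q ∈ W ⊓ N.nbhd x) :
    ∃ (V : X.Opens) (hV : V ≤ W ⊓ N.nbhd x) (_ : q ∈ V) (a : Γ(X, V)),
      IsQuot N v t x (hV.trans inf_le_right) (hV.trans inf_le_left) a := by
  obtain ⟨_, ⟨A, hA, rfl⟩, hqA, hAsub⟩ := X.isBasis_affineOpens.exists_subset_of_mem_open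
    (show q ∈ W ⊓ N.nbhd x ⊓ (N.mul D).nbhd q from ⟨hq, (N.mul D).mem q⟩) (Opens.isOpen _)
  have hle : A ≤ W ⊓ N.nbhd x ⊓ (N.mul D).nbhd q := hAsub
  have hAW : A ≤ W := hle.trans (inf_le_left.trans inf_le_left)
  have hAx : A ≤ N.nbhd x := hle.trans (inf_le_left.trans inf_le_right)
  have hAq : A ≤ (N.mul D).nbhd q := hle.trans inf_le_right
  have hmem : (N.mul D).coord q hAW hAq t ∈
    Ideal.span {D.coord q le_top (hAq.trans inf_le_right) v} := by
    rw [← h.ker q A hA (hAq.trans inf_le_right)]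
    exact RingHom.mem_ker.mpr (ht q A hAW hAq)
  obtain ⟨b, hb⟩ := Ideal.mem_span_singleton'.mp hmem
  refine ⟨A, hle.trans inf_le_left, hqA, N.gOn x q hAx (hAq.trans inf_le_left) * b,
    fun p P hP hp => ?_⟩
  rw [map_mul, ← coe_resU, Cocycle.resU_gOn, ← mul_assoc, ← Units.val_mul, N.gOn_mul,
    (N.mul D).coord_change p q (hP.trans hAW) hp (hP.trans hAq) t,
    ← (N.mul D).res_coord q hP hAW hAq t, ← hb, map_mul, Cocycle.res_coord,
    Cocycle.gOn_mul_cocycle, Units.val_mul,
    D.coord_change p q le_top (hp.trans inf_le_right) ((hP.trans hAq).trans inf_le_right) v]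
  ring

include h in
/-- A section vanishing on the subscheme is a multiple of the equation. -/
theorem exists_mulEq_eq {W : X.Opens} (t : (N.mul D).Sec W) (ht : (N.mul D).VanishesOn σ t) :
    ∃ s : N.Sec W, h.mulEq N s = t := by
  have key : ∀ x, ∃ a : Γ(X, W ⊓ N.nbhd x), IsQuot N v t x inf_le_right inf_le_left a := by
    intro x
    choose V hV hqV a ha using fun q : {q : X // q ∈ W ⊓ N.nbhd x} =>
      h.exists_isQuot_near N t ht x q.2
    obtain ⟨s, hs, -⟩ := X.sheaf.existsUnique_gluing' V (W ⊓ N.nbhd x) (fun q => homOfLE (hV q))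
      (fun q hq => Opens.mem_iSup.mpr ⟨⟨q, hq⟩, hqV ⟨q, hq⟩⟩) a (fun i j =>
        h.isQuot_unique N t x ((inf_le_left.trans (hV i)).trans inf_le_right)
          ((inf_le_left.trans (hV i)).trans inf_le_left) ((ha i).res_le inf_le_left)
          ((ha j).res_le inf_le_right))
    have hs' : ∀ q, res (hV q) s = a q := hs
    refine ⟨s, fun p P hP hp => ?_⟩
    refine eq_of_res_eq (fun q => P ⊓ V q) (fun q => inf_le_left)
      (fun r hr => ⟨⟨r, hP hr⟩, hr, hqV ⟨r, hP hr⟩⟩) _ _ fun q => ?_
    rw [map_mul, map_mul, ← coe_resU, Cocycle.resU_gOn, res_res, Cocycle.res_coord,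
      Cocycle.res_coord]
    refine Eq.trans ?_ (ha q p (P ⊓ V q) inf_le_right (inf_le_left.trans hp))
    rw [← hs' q, res_res]
  choose s hs using key
  have hsec : s ∈ N.sections W := by
    intro x y V hV hx hy
    have h1 : IsQuot N v t x hx hV (res (le_inf hV hx) (s x)) := (hs x).res_le (le_inf hV hx)
    refine h.isQuot_unique N t x hx hV h1 fun p P hP hp => ?_
    rw [map_mul, ← coe_resU, Cocycle.resU_gOn, ← mul_assoc, ← Units.val_mul, N.gOn_mul, res_res]
    exact hs y p P (hP.trans (le_inf hV hy)) hp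
  refine ⟨⟨s, hsec⟩, Subtype.ext (funext fun x => ?_)⟩
  have e := hs x x (W ⊓ (N.mul D).nbhd x) (inf_le_inf_left _ inf_le_left) inf_le_right
  rw [N.gOn_self, Units.val_one, one_mul] at e
  have e' := (h.coord_mulEq N (⟨s, hsec⟩ : N.Sec W) x (inf_le_left) inf_le_right).trans e
  rw [Cocycle.coord, AddMonoidHom.coe_mk, ZeroHom.coe_mk] at e'
  simpa only [res_self] using e'

/-- The image of multiplication by the equation consists of the sections vanishing on the
subscheme. -/
theorem range_mulEq {W : X.Opens} (t : (N.mul D).Sec W) :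
    (∃ s, h.mulEq N s = t) ↔ (N.mul D).VanishesOn σ t :=
  ⟨fun ⟨s, hs⟩ => hs ▸ h.vanishesOn_mulEq N s, h.exists_mulEq_eq N t⟩

theorem mulEq_resSec {W W' : X.Opens} (hW : W' ≤ W) (s : N.Sec W) :
    (N.mul D).resSec hW (h.mulEq N s) = h.mulEq N (N.resSec hW s) :=
  Subtype.ext (funext fun x => by
    show res _ (res _ (s.1 x) * res _ (res _ (v.1 x))) =
      res _ (res _ (s.1 x)) * res _ (res _ (v.1 x))
    simp only [map_mul, res_res])

theorem mulEq_smul {W : X.Opens} (a : Γ(X, W)) (s : N.Sec W) :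
    h.mulEq N (a • s) = a • h.mulEq N s :=
  Subtype.ext (funext fun x => by
    show res _ (res inf_le_left a * s.1 x) * _ = res inf_le_left a * (res _ (s.1 x) * _)
    rw [map_mul, res_res, mul_assoc])

/-- Multiplication by the equation over a base ring. -/
def mulLin {R : Type u} [CommRing R] (π : X ⟶ Spec (CommRingCat.of R)) (W : X.Opens) :
    SecOver π N W →ₗ[R] SecOver π (N.mul D) W where
  toFun s := h.mulEq N s
  map_add' s s' := Subtype.ext (funext fun x => by
    show res _ ((show N.Sec W from s).1 x + (show N.Sec W from s').1 x) * _ = _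
    rw [map_add, add_mul]
    rfl)
  map_smul' a s := h.mulEq_smul N (scalarHom π W a) s

theorem mulLin_injective {R : Type u} [CommRing R] (π : X ⟶ Spec (CommRingCat.of R)) (W : X.Opens) :
    Function.Injective (h.mulLin N π W) := h.mulEq_injective N

theorem secRes_mulLin {R : Type u} [CommRing R] (π : X ⟶ Spec (CommRingCat.of R)) {W W' : X.Opens}
    (hW : W' ≤ W) (s : SecOver π N W) :
    secRes π (N.mul D) hW (h.mulLin N π W s) = h.mulLin N π W' (secRes π N hW s) :=
  h.mulEq_resSec N hW s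

/-- Multiplication by the equation is onto over an open set missing the subscheme. -/
theorem mulLin_surjective {R : Type u} [CommRing R] (π : X ⟶ Spec (CommRingCat.of R)) (W : X.Opens)
    (hW : σ ⁻¹ᵁ W = ⊥) : Function.Surjective (h.mulLin N π W) := fun t =>
  h.exists_mulEq_eq N t fun p V hV _ => by
    have : Subsingleton Γ(T, σ ⁻¹ᵁ V) := by
      rw [show σ ⁻¹ᵁ V = ⊥ from le_bot_iff.mp ((σ.preimage_mono hV).trans hW.le)]
      infer_instance
    exact Subsingleton.elim _ _

end IsEquation

section OfEquations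

/-- Local equations of a closed subscheme of an integral scheme, one for each point. -/
structure LocalEquations (σ : T ⟶ X) where
  nbhd : X → X.Opens
  affine : ∀ x, IsAffineOpen (nbhd x)
  mem : ∀ x, x ∈ nbhd x
  eqn : ∀ x, Γ(X, nbhd x)
  ne_zero : ∀ x, eqn x ≠ 0
  ker : ∀ x, RingHom.ker (σ.app (nbhd x)).hom = Ideal.span {eqn x}

variable {σ : T ⟶ X} [IsClosedImmersion σ] [IsIntegral X] (E : LocalEquations σ)

omit [AlgebraicGeometry.IsIntegral X] in
theorem LocalEquations.ker_affine (x : X) {V : X.Opens} (hV : IsAffineOpen V)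
    (hx : V ≤ E.nbhd x) :
    RingHom.ker (σ.app V).hom = Ideal.span {res hx (E.eqn x)} := by
  have h := ker_app_of_isPullback (IsPullback.id_horiz σ) (E.affine x) (E.ker x) hV
    (show V ≤ (𝟙 X : X ⟶ X) ⁻¹ᵁ E.nbhd x from hx)
  rw [h]
  exact congrArg (fun z => Ideal.span {z}) (pull_id hx (E.eqn x))

omit [IsClosedImmersion σ] in
theorem LocalEquations.cancel (x : X) {V : X.Opens} (hx : V ≤ E.nbhd x) (a b : Γ(X, V))
    (e : a * res hx (E.eqn x) = b * res hx (E.eqn x)) : a = b := by
  rcases eq_or_ne V ⊥ with rfl | hV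
  · exact Subsingleton.elim _ _
  · have : Nonempty V := Set.nonempty_coe_sort.mpr ((Opens.ne_bot_iff_nonempty _).mp hV)
    exact mul_right_cancel₀ (fun h => E.ne_zero x
      (map_injective_of_isIntegral X (homOfLE hx) (h.trans (map_zero (res hx)).symm))) e

theorem LocalEquations.exists_ratio (x y : X) : ∃ g : Γ(X, E.nbhd x ⊓ E.nbhd y)ˣ,
    res inf_le_left (E.eqn x) =
      (↑g : Γ(X, E.nbhd x ⊓ E.nbhd y)) * res inf_le_right (E.eqn y) := by
  set W := E.nbhd x ⊓ E.nbhd y
  have loc : ∀ (x y : X) (V : X.affineOpens) (hx : V.1 ≤ E.nbhd x) (hy : V.1 ≤ E.nbhd y),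
      ∃ a : Γ(X, V.1), res hx (E.eqn x) = a * res hy (E.eqn y) := by
    intro x y V hx hy
    obtain ⟨a, ha⟩ := Ideal.mem_span_singleton'.mp
      (show res hx (E.eqn x) ∈ Ideal.span {res hy (E.eqn y)} by
        rw [← E.ker_affine y V.2 hy, E.ker_affine x V.2 hx]
        exact Ideal.mem_span_singleton_self _)
    exact ⟨a, ha.symm⟩
  choose a ha using fun V : {V : X.affineOpens // V.1 ≤ W} =>
    loc x y V.1 (V.2.trans inf_le_left) (V.2.trans inf_le_right)
  have hcov : ∀ p ∈ W, ∃ V : {V : X.affineOpens // V.1 ≤ W}, p ∈ V.1.1 := fun p hp => by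
    obtain ⟨_, ⟨A, hA, rfl⟩, hpA, hAW⟩ := X.isBasis_affineOpens.exists_subset_of_mem_open hp W.2
    exact ⟨⟨⟨A, hA⟩, hAW⟩, hpA⟩
  obtain ⟨g, hg, -⟩ := X.sheaf.existsUnique_gluing'
    (fun V : {V : X.affineOpens // V.1 ≤ W} => V.1.1)
    W (fun V => homOfLE V.2) (fun p hp => Opens.mem_iSup.mpr (hcov p hp)) a (fun i j => by
      refine E.cancel y ((inf_le_left.trans i.2).trans inf_le_right) _ _ ?_
      have ei := congrArg (res (inf_le_left : i.1.1 ⊓ j.1.1 ≤ i.1.1)) (ha i)
      have ej := congrArg (res (inf_le_right : i.1.1 ⊓ j.1.1 ≤ j.1.1)) (ha j)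
      rw [map_mul, res_res, res_res] at ei ej
      exact ei.symm.trans ej)
  have hg' : ∀ V : {V : X.affineOpens // V.1 ≤ W}, res V.2 g = a V := hg
  have hunit : IsUnit g := by
    refine isUnit_of_locally (fun V : {V : X.affineOpens // V.1 ≤ W} => V.1.1) (fun V => V.2) hcov g
      fun V => ?_
    obtain ⟨b, hb⟩ := loc y x V.1 (V.2.trans inf_le_right) (V.2.trans inf_le_left)
    refine IsUnit.of_mul_eq_one b ?_
    refine E.cancel y (V.2.trans inf_le_right) _ _ ?_
    rw [one_mul, hg', mul_comm (a V) b, mul_assoc, ← ha V, ← hb]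
  refine ⟨hunit.unit, ?_⟩
  refine eq_of_res_eq (fun V : {V : X.affineOpens // V.1 ≤ W} => V.1.1) (fun V => V.2) hcov _ _
    fun V => ?_
  rw [map_mul, IsUnit.unit_spec, hg', res_res, res_res]
  exact ha V

/-- The unit ratio of two equations. -/
def LocalEquations.ratio (x y : X) : Γ(X, E.nbhd x ⊓ E.nbhd y)ˣ := (E.exists_ratio x y).choose

theorem LocalEquations.res_ratio (x y : X) {V : X.Opens} (hx : V ≤ E.nbhd x) (hy : V ≤ E.nbhd y) :
    res hx (E.eqn x) = (↑(resU (le_inf hx hy) (E.ratio x y)) : Γ(X, V)) * res hy (E.eqn y) := by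
  have h := congrArg (res (le_inf hx hy)) (E.exists_ratio x y).choose_spec
  rw [map_mul, res_res, res_res] at h
  exact h

/-- The cocycle of the subscheme. -/
def LocalEquations.bundle : Cocycle X where
  nbhd := E.nbhd
  mem := E.mem
  g := E.ratio
  cocycle x y z W hx hy hz := Units.ext (E.cancel z hz _ _ (by
    rw [Units.val_mul, mul_assoc, ← E.res_ratio y z hy hz, ← E.res_ratio x y hx hy,
      ← E.res_ratio x z hx hz]))

/-- The equation as a section. -/
def LocalEquations.sec : E.bundle.Sec ⊤ :=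
  ⟨fun x => res inf_le_right (E.eqn x), fun x y V _ hx hy => by
    rw [res_res, res_res]
    exact E.res_ratio x y hx hy⟩

theorem LocalEquations.coord_pullSec {X' : Scheme.{u}} (g : X' ⟶ X) (x : X') {V : X'.Opens}
    (hx : V ≤ (E.bundle.pullback g).nbhd x) (h : (⊤ : X'.Opens) ≤ g ⁻¹ᵁ ⊤) :
    (E.bundle.pullback g).coord x le_top hx (E.bundle.pullSec g h E.sec) =
      pull g hx (E.eqn (g.base x)) := by
  show res _ (pull g _ (res _ (E.eqn (g.base x)))) = _
  rw [pull_res, res_pull]
  rfl

/-- The pulled back equations are equations of the base change. -/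
theorem LocalEquations.isEquation_pullback {X' T' : Scheme.{u}} [IsIntegral X'] {g : X' ⟶ X}
    {σ' : T' ⟶ X'} {h' : T' ⟶ T} (H : IsPullback h' σ' σ g)
    (hne : ∀ x : X', pull g (le_refl (g ⁻¹ᵁ E.nbhd (g.base x))) (E.eqn (g.base x)) ≠ 0)
    (h : (⊤ : X'.Opens) ≤ g ⁻¹ᵁ ⊤) :
    IsEquation σ' (E.bundle.pullback g) (E.bundle.pullSec g h E.sec) where
  regular x W hx a ha := by
    rcases eq_or_ne W ⊥ with rfl | hW
    · exact Subsingleton.elim _ _
    · have : Nonempty W := Set.nonempty_coe_sort.mpr ((Opens.ne_bot_iff_nonempty _).mp hW)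
      rw [E.coord_pullSec g x hx h] at ha
      refine (mul_eq_zero.mp ha).resolve_right fun h0 => hne x ?_
      refine map_injective_of_isIntegral X' (homOfLE hx) ?_
      exact ((res_pull g hx le_rfl _).trans h0).trans (map_zero (res hx)).symm
  ker x W hW hx := by
    rw [E.coord_pullSec g x hx h]
    exact ker_app_of_isPullback H (E.affine _) (E.ker _) hW hx

end OfEquations

section Diagonal

variable {C S : Scheme.{u}} (f : C ⟶ S) [IsSeparated f] [SmoothOfRelativeDimension 1 f]

/-- Chosen equations of the diagonal. -/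
def diagEquations : LocalEquations (pullback.diagonal f) :=
  { nbhd := fun z => (exists_diagonal_equation f z).choose
    affine := fun z => (exists_diagonal_equation f z).choose_spec.choose
    mem := fun z => (exists_diagonal_equation f z).choose_spec.choose_spec.1
    eqn := fun z => (exists_diagonal_equation f z).choose_spec.choose_spec.2.2.choose
    ne_zero := fun z =>
      (exists_diagonal_equation f z).choose_spec.choose_spec.2.2.choose_spec.1
    ker := fun z =>
      (exists_diagonal_equation f z).choose_spec.choose_spec.2.2.choose_spec.2 }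

variable [IsIntegral (pullback.diagonalObj f)]

/-- The cocycle of the diagonal. -/
def diagCocycle : Cocycle (pullback.diagonalObj f) := (diagEquations f).bundle

/-- The canonical section of the diagonal. -/
def diagSec : (diagCocycle f).Sec ⊤ := (diagEquations f).sec

end Diagonal

end FLTAgent.RelPicard

end
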