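import Fermat.Agent.RelPicard.Cocycle
import Fermat.Agent.RelPicard.CocycleSections

/-!
# Systems of frames and links between them

A system of frames is a cocycle on a part of a scheme with an arbitrary index type; a link between
two systems is an isomorphism of the bundles they define, given by transition functions from the
frames of the one to the frames of the other.

Main declarations: `Frames`, `Models`, `Link`, `exists_link`; used by `Descent`.
-/

set_option autoImplicit false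

universe u

open CategoryTheory AlgebraicGeometry TopologicalSpace

noncomputable section

namespace FLTAgent.RelPicard

variable {X Y : Scheme.{u}}

theorem resU_pullU (f : X ⟶ Y) {U : Y.Opens} {W W' : X.Opens} (h' : W' ≤ W) (h : W ≤ f ⁻¹ᵁ U)
    (a : Γ(Y, U)ˣ) : resU h' (pullU f h a) = pullU f (h'.trans h) a :=
  Units.ext (res_pull f h' h _)

theorem pullU_resU (f : X ⟶ Y) {U U' : Y.Opens} {W : X.Opens} (h' : U' ≤ U) (h : W ≤ f ⁻¹ᵁ U')
    (a : Γ(Y, U)ˣ) : pullU f h (resU h' a) =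
      pullU f (h.trans ((Opens.map f.base).map (homOfLE h')).le) a :=
  Units.ext (pull_res f h' h _)

theorem pullU_pullU {Z : Scheme.{u}} (f : X ⟶ Y) (g : Y ⟶ Z) {U : Z.Opens} {V : Y.Opens}
    {W : X.Opens} (h : W ≤ f ⁻¹ᵁ V) (h' : V ≤ g ⁻¹ᵁ U) (a : Γ(Z, U)ˣ) :
    pullU f h (pullU g h' a) =
      pullU (f ≫ g) (h.trans ((Opens.map f.base).map (homOfLE h')).le) a :=
  Units.ext (pull_pull f g h h' _)

theorem pullU_congr {f g : X ⟶ Y} (e : f = g) {U : Y.Opens} {W : X.Opens} (h : W ≤ f ⁻¹ᵁ U)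
    (h' : W ≤ g ⁻¹ᵁ U) (a : Γ(Y, U)ˣ) : pullU f h a = pullU g h' a :=
  Units.ext (pull_congr e h h' _)

/-- Units which agree on the members of a cover agree. -/
theorem unit_eq_of_resU_eq {κ : Type*} {W : X.Opens} (U : κ → X.Opens) (hU : ∀ i, U i ≤ W)
    (hcov : ∀ p ∈ W, ∃ i, p ∈ U i) (a b : Γ(X, W)ˣ) (h : ∀ i, resU (hU i) a = resU (hU i) b) :
    a = b :=
  Units.ext (eq_of_res_eq U hU hcov _ _ fun i => congrArg Units.val (h i))

/-- Units agreeing on overlaps glue. -/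
theorem exists_glueUnit {κ : Type*} {W : X.Opens} (U : κ → X.Opens) (hU : ∀ i, U i ≤ W)
    (hcov : ∀ p ∈ W, ∃ i, p ∈ U i) (a : ∀ i, Γ(X, U i)ˣ)
    (h : ∀ i j, resU (inf_le_left : U i ⊓ U j ≤ U i) (a i) =
      resU (inf_le_right : U i ⊓ U j ≤ U j) (a j)) :
    ∃ b : Γ(X, W)ˣ, ∀ i, resU (hU i) b = a i := by
  obtain ⟨s, hs, -⟩ := X.sheaf.existsUnique_gluing' U W (fun i => homOfLE (hU i))
    (fun p hp => by
      obtain ⟨i, hi⟩ := hcov p hp
      exact Opens.mem_iSup.mpr ⟨i, hi⟩)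
    (fun i => (a i : Γ(X, U i))) (fun i j => congrArg Units.val (h i j))
  have hs' : ∀ i, res (hU i) s = (a i : Γ(X, U i)) := hs
  have hu : IsUnit s := isUnit_of_locally U hU hcov s fun i => by
    rw [hs' i]
    exact Units.isUnit _
  exact ⟨hu.unit, fun i => Units.ext ((congrArg (res (hU i)) hu.unit_spec).trans (hs' i))⟩

/-- Pullback along an open immersion is bijective on open sets inside the range. -/
theorem pull_bijective (j : Y ⟶ X) [IsOpenImmersion j] {P : X.Opens} (hP : P ≤ j.opensRange) :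
    Function.Bijective (pull j (le_refl (j ⁻¹ᵁ P))) := by
  have := j.isIso_app P hP
  have e : j.app P = j.appLE P (j ⁻¹ᵁ P) le_rfl := Scheme.Hom.app_eq_appLE j
  rw [pull, ← e]
  exact ConcreteCategory.bijective_of_isIso _

theorem pullU_injective (j : Y ⟶ X) [IsOpenImmersion j] {P : X.Opens} (hP : P ≤ j.opensRange) :
    Function.Injective (pullU j (le_refl (j ⁻¹ᵁ P))) := fun _ _ h =>
  Units.ext ((pull_bijective j hP).1 (congrArg Units.val h))

theorem pullU_surjective (j : Y ⟶ X) [IsOpenImmersion j] {P : X.Opens} (hP : P ≤ j.opensRange) :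
    Function.Surjective (pullU j (le_refl (j ⁻¹ᵁ P))) := fun b => by
  obtain ⟨a, ha⟩ := (pull_bijective j hP).2 (b : Γ(Y, j ⁻¹ᵁ P))
  obtain ⟨a', ha'⟩ := (pull_bijective j hP).2 (↑b⁻¹ : Γ(Y, j ⁻¹ᵁ P))
  exact ⟨⟨a, a', (pull_bijective j hP).1 (by rw [map_mul, map_one, ha, ha', Units.mul_inv]),
    (pull_bijective j hP).1 (by rw [map_mul, map_one, ha, ha', Units.inv_mul])⟩, Units.ext ha⟩

variable (X) in
/-- A system of frames. -/
structure Frames (ι : Type u) where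
  nbhd : ι → X.Opens
  g : ∀ (a b : ι) (P : X.Opens), P ≤ nbhd a → P ≤ nbhd b → Γ(X, P)ˣ
  res_g : ∀ (a b : ι) {P Q : X.Opens} (h : Q ≤ P) (ha : P ≤ nbhd a) (hb : P ≤ nbhd b),
    resU h (g a b P ha hb) = g a b Q (h.trans ha) (h.trans hb)
  mul_g : ∀ (a b c : ι) (P : X.Opens) (ha : P ≤ nbhd a) (hb : P ≤ nbhd b) (hc : P ≤ nbhd c),
    g a b P ha hb * g b c P hb hc = g a c P ha hc

namespace Frames

variable {ι : Type u} (A : Frames X ι)

/-- The frames cover an open set. -/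
def Covers (W : X.Opens) : Prop := ∀ p ∈ W, ∃ a, p ∈ A.nbhd a

theorem g_self (a : ι) (P : X.Opens) (ha : P ≤ A.nbhd a) : A.g a a P ha ha = 1 := by
  have h := A.mul_g a a a P ha ha ha
  rwa [mul_eq_left] at h

/-- The frames of a cocycle. -/
@[reducible] def ofCocycle (N : Cocycle X) : Frames X X where
  nbhd := N.nbhd
  g a b _ ha hb := N.gOn a b ha hb
  res_g a b _ _ h ha hb := N.resU_gOn a b h ha hb
  mul_g a b c _ ha hb hc := N.gOn_mul a b c ha hb hc

variable (X) in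
/-- The standard frame of the trivial bundle. -/
@[reducible] def trivial : Frames X PUnit.{u+1} where
  nbhd _ := ⊤
  g _ _ _ _ _ := 1
  res_g _ _ _ _ h _ _ := map_one (resU h)
  mul_g _ _ _ _ _ _ _ := one_mul 1

/-- Pullback of frames. -/
@[reducible] def pullback (f : Y ⟶ X) : Frames Y ι where
  nbhd a := f ⁻¹ᵁ A.nbhd a
  g a b P ha hb := pullU f ((le_inf ha hb).trans (le_preimage_inf f _ _))
    (A.g a b (A.nbhd a ⊓ A.nbhd b) inf_le_left inf_le_right)
  res_g a b _ _ h ha hb := resU_pullU f h _ _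
  mul_g a b c P ha hb hc := by
    have hP : P ≤ f ⁻¹ᵁ (A.nbhd a ⊓ A.nbhd b ⊓ A.nbhd c) := fun p hp => ⟨⟨ha hp, hb hp⟩, hc hp⟩
    have key : ∀ (x y : ι) (hx : A.nbhd a ⊓ A.nbhd b ⊓ A.nbhd c ≤ A.nbhd x)
        (hy : A.nbhd a ⊓ A.nbhd b ⊓ A.nbhd c ≤ A.nbhd y)
        (h' : P ≤ f ⁻¹ᵁ (A.nbhd x ⊓ A.nbhd y)),
        pullU f h' (A.g x y (A.nbhd x ⊓ A.nbhd y) inf_le_left inf_le_right) =
          pullU f hP (A.g x y _ hx hy) := fun x y hx hy h' => by
      rw [← A.res_g x y (le_inf hx hy) inf_le_left inf_le_right, pullU_resU]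
    rw [key a b (inf_le_left.trans inf_le_left) (inf_le_left.trans inf_le_right),
      key b c (inf_le_left.trans inf_le_right) inf_le_right,
      key a c (inf_le_left.trans inf_le_left) inf_le_right, ← map_mul, A.mul_g]

theorem pullback_g (f : Y ⟶ X) (a b : ι) {P : Y.Opens} {Q : X.Opens} (h : P ≤ f ⁻¹ᵁ Q)
    (ha : P ≤ f ⁻¹ᵁ A.nbhd a) (hb : P ≤ f ⁻¹ᵁ A.nbhd b) (ha' : Q ≤ A.nbhd a)
    (hb' : Q ≤ A.nbhd b) : (A.pullback f).g a b P ha hb = pullU f h (A.g a b Q ha' hb') := by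
  show pullU f _ (A.g a b (A.nbhd a ⊓ A.nbhd b) inf_le_left inf_le_right) = _
  rw [← A.res_g a b (le_inf ha' hb') inf_le_left inf_le_right, pullU_resU]

theorem pullU_g (j : Y ⟶ X) (a b : ι) {P : Y.Opens} {Q : X.Opens} (h : P ≤ j ⁻¹ᵁ Q)
    (ha : Q ≤ A.nbhd a) (hb : Q ≤ A.nbhd b) :
    pullU j h (A.g a b Q ha hb) = (A.pullback j).g a b P
      (h.trans ((Opens.map j.base).map (homOfLE ha)).le)
      (h.trans ((Opens.map j.base).map (homOfLE hb)).le) :=
  (A.pullback_g j a b h _ _ ha hb).symm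

section Push

variable (M : Cocycle Y) (j : Y ⟶ X) [IsOpenImmersion j]

theorem preimage_le_nbhd {P : X.Opens} {y : Y} (h : P ≤ j ''ᵁ M.nbhd y) : j ⁻¹ᵁ P ≤ M.nbhd y :=
  ((Opens.map j.base).map (homOfLE h)).le.trans (j.preimage_image_eq _).le

/-- The transition functions transported along an open immersion. -/
def pushG (a b : Y) (P : X.Opens) (ha : P ≤ j ''ᵁ M.nbhd a) (hb : P ≤ j ''ᵁ M.nbhd b) :
    Γ(X, P)ˣ :=
  (pullU_surjective j (ha.trans (Set.image_subset_range _ _))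
    (M.gOn a b (preimage_le_nbhd M j ha) (preimage_le_nbhd M j hb))).choose

theorem pullU_pushG (a b : Y) (P : X.Opens) (ha : P ≤ j ''ᵁ M.nbhd a) (hb : P ≤ j ''ᵁ M.nbhd b) :
    pullU j (le_refl (j ⁻¹ᵁ P)) (pushG M j a b P ha hb) =
      M.gOn a b (preimage_le_nbhd M j ha) (preimage_le_nbhd M j hb) :=
  (pullU_surjective j (ha.trans (Set.image_subset_range _ _))
    (M.gOn a b (preimage_le_nbhd M j ha) (preimage_le_nbhd M j hb))).choose_spec

/-- The frames on the range of an open immersion given by a cocycle on the source. -/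
@[reducible] def push : Frames X Y where
  nbhd y := j ''ᵁ M.nbhd y
  g a b P ha hb := pushG M j a b P ha hb
  res_g a b P Q h ha hb := by
    refine pullU_injective j ((h.trans ha).trans (Set.image_subset_range _ _)) ?_
    rw [pullU_resU, ← resU_pullU j (((Opens.map j.base).map (homOfLE h)).le) le_rfl,
      pullU_pushG, pullU_pushG, Cocycle.resU_gOn]
  mul_g a b c P ha hb hc := by
    refine pullU_injective j (ha.trans (Set.image_subset_range _ _)) ?_
    rw [map_mul, pullU_pushG, pullU_pushG, pullU_pushG, Cocycle.gOn_mul]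

theorem pullU_push_g (a b : Y) {P : X.Opens} (ha : P ≤ (push M j).nbhd a)
    (hb : P ≤ (push M j).nbhd b) :
    pullU j (le_refl (j ⁻¹ᵁ P)) ((push M j).g a b P ha hb) =
      M.gOn a b (preimage_le_nbhd M j ha) (preimage_le_nbhd M j hb) :=
  pullU_pushG M j a b P ha hb

theorem covers_push {W : X.Opens} (hW : W ≤ j.opensRange) : (push M j).Covers W := fun p hp => by
  obtain ⟨y, rfl⟩ := hW hp
  exact ⟨y, y, M.mem y, rfl⟩

end Push

/-- The frames restrict along `j` to the cocycle `M`. -/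
structure Models (M : Cocycle Y) (j : Y ⟶ X) (e : Y → ι) : Prop where
  nbhd_le : ∀ y, M.nbhd y ≤ j ⁻¹ᵁ A.nbhd (e y)
  g_eq : ∀ (y y' : Y) (P : Y.Opens) (hy : P ≤ M.nbhd y) (hy' : P ≤ M.nbhd y'),
    (A.pullback j).g (e y) (e y') P (hy.trans (nbhd_le y)) (hy'.trans (nbhd_le y')) =
      M.gOn y y' hy hy'

theorem models_ofCocycle (N : Cocycle X) (j : Y ⟶ X) :
    (ofCocycle N).Models (N.pullback j) j j.base :=
  ⟨fun _ => le_rfl, fun y y' P hy hy' => by
    rw [Cocycle.gOn_pullback j N y y' (W₀ := N.nbhd (j.base y) ⊓ N.nbhd (j.base y'))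
      ((le_inf hy hy').trans (le_preimage_inf j _ _)) hy hy' inf_le_left inf_le_right]⟩

theorem models_push (M : Cocycle Y) (j : Y ⟶ X) [IsOpenImmersion j] :
    (push M j).Models M j id :=
  ⟨fun y => (j.preimage_image_eq _).ge, fun y y' P hy hy' => by
    have hP : P ≤ j ⁻¹ᵁ (j ''ᵁ M.nbhd y ⊓ j ''ᵁ M.nbhd y') := fun p hp =>
      ⟨⟨p, hy hp, rfl⟩, ⟨p, hy' hp, rfl⟩⟩
    show pullU j _ ((push M j).g y y' ((push M j).nbhd y ⊓ (push M j).nbhd y') _ _) = _
    rw [← resU_pullU j hP le_rfl, pullU_push_g, Cocycle.resU_gOn]⟩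

theorem models_trivial (j : Y ⟶ X) :
    (trivial X).Models Cocycle.one j fun _ => PUnit.unit :=
  ⟨fun _ _ _ => True.intro, fun y y' P hy hy' => by rw [Cocycle.gOn_one, Frames.g_self]⟩

variable {A}

theorem Models.pullback {Z : Scheme.{u}} {M : Cocycle Y} {j : Y ⟶ X} {e : Y → ι}
    (h : A.Models M j e) (f : Z ⟶ Y) : A.Models (M.pullback f) (f ≫ j) (e ∘ f.base) :=
  ⟨fun z _ hp => h.nbhd_le _ hp, fun z z' P hz hz' => by
    have hP : P ≤ f ⁻¹ᵁ (M.nbhd (f.base z) ⊓ M.nbhd (f.base z')) :=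
      (le_inf hz hz').trans (le_preimage_inf f _ _)
    rw [Cocycle.gOn_pullback f M z z' hP hz hz' inf_le_left inf_le_right,
      ← h.g_eq _ _ _ inf_le_left inf_le_right]
    exact (pullU_pullU f j hP _ _).symm⟩

/-- Pullback of a model along a commutative square. -/
theorem Models.square {X' Y' : Scheme.{u}} {M : Cocycle Y} {j : Y ⟶ X} {e : Y → ι}
    (h : A.Models M j e) (f : X' ⟶ X) (f' : Y' ⟶ Y) (j' : Y' ⟶ X') (w : f' ≫ j = j' ≫ f) :
    (A.pullback f).Models (M.pullback f') j' (e ∘ f'.base) := by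
  have h' := h.pullback f'
  rw [w] at h'
  refine ⟨fun y => h'.nbhd_le y, fun y y' P hy hy' => ?_⟩
  rw [← h'.g_eq y y' P hy hy']
  exact pullU_pullU j' f _ _ _

end Frames

/-- An isomorphism on an open set between the bundles of two systems of frames. -/
structure Link {ι ι' : Type u} (A : Frames X ι) (B : Frames X ι') (W : X.Opens) where
  h : ∀ (a : ι) (b : ι') (P : X.Opens), P ≤ W → P ≤ A.nbhd a → P ≤ B.nbhd b → Γ(X, P)ˣ
  res_h : ∀ (a : ι) (b : ι') {P Q : X.Opens} (hQ : Q ≤ P) (hW : P ≤ W) (ha : P ≤ A.nbhd a)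
    (hb : P ≤ B.nbhd b), resU hQ (h a b P hW ha hb) =
      h a b Q (hQ.trans hW) (hQ.trans ha) (hQ.trans hb)
  g_mul : ∀ (a a' : ι) (b : ι') (P : X.Opens) (hW : P ≤ W) (ha : P ≤ A.nbhd a)
    (ha' : P ≤ A.nbhd a') (hb : P ≤ B.nbhd b),
    A.g a' a P ha' ha * h a b P hW ha hb = h a' b P hW ha' hb
  mul_g : ∀ (a : ι) (b b' : ι') (P : X.Opens) (hW : P ≤ W) (ha : P ≤ A.nbhd a)
    (hb : P ≤ B.nbhd b) (hb' : P ≤ B.nbhd b'),
    h a b P hW ha hb * B.g b b' P hb hb' = h a b' P hW ha hb'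

namespace Link

variable {ι ι' : Type u} {A : Frames X ι} {B : Frames X ι'}

theorem h_change {W : X.Opens} (l : Link A B W) (a a' : ι) (b b' : ι') (P : X.Opens) (hW : P ≤ W)
    (ha : P ≤ A.nbhd a) (ha' : P ≤ A.nbhd a') (hb : P ≤ B.nbhd b) (hb' : P ≤ B.nbhd b') :
    A.g a' a P ha' ha * l.h a b P hW ha hb * B.g b b' P hb hb' = l.h a' b' P hW ha' hb' := by
  rw [l.g_mul, l.mul_g]

/-- Restriction to a smaller open set. -/
def restrict {W W' : X.Opens} (l : Link A B W) (h : W' ≤ W) : Link A B W' where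
  h a b P hP := l.h a b P (hP.trans h)
  res_h a b _ _ hQ hW := l.res_h a b hQ (hW.trans h)
  g_mul a a' b P hW := l.g_mul a a' b P (hW.trans h)
  mul_g a b b' P hW := l.mul_g a b b' P (hW.trans h)

/-- Multiplication by a unit. -/
def smul {W : X.Opens} (u : Γ(X, W)ˣ) (l : Link A B W) : Link A B W where
  h a b P hW ha hb := resU hW u * l.h a b P hW ha hb
  res_h a b P Q hQ hW ha hb := by rw [map_mul, resU_resU, l.res_h]
  g_mul a a' b P hW ha ha' hb := by rw [mul_left_comm, l.g_mul]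
  mul_g a b b' P hW ha hb hb' := by rw [mul_assoc, l.mul_g]

/-- Two links differ by a unit. -/
theorem exists_unit {W : X.Opens} (l l' : Link A B W) (hA : A.Covers W) (hB : B.Covers W) :
    ∃ u : Γ(X, W)ˣ, ∀ a b P hW ha hb, l.h a b P hW ha hb = resU hW u * l'.h a b P hW ha hb := by
  let O : ι × ι' → X.Opens := fun i => W ⊓ (A.nbhd i.1 ⊓ B.nbhd i.2)
  let f : ∀ i, Γ(X, O i)ˣ := fun i =>
    l.h i.1 i.2 (O i) inf_le_left (inf_le_right.trans inf_le_left)
      (inf_le_right.trans inf_le_right) *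
      (l'.h i.1 i.2 (O i) inf_le_left (inf_le_right.trans inf_le_left)
        (inf_le_right.trans inf_le_right))⁻¹
  obtain ⟨u, hu⟩ := exists_glueUnit O (fun _ => inf_le_left)
    (fun p hp => by
      obtain ⟨a, ha⟩ := hA p hp
      obtain ⟨b, hb⟩ := hB p hp
      exact ⟨(a, b), hp, ha, hb⟩) f fun i j => by
      obtain ⟨a, b⟩ := i
      obtain ⟨a', b'⟩ := j
      simp only [f, map_mul, map_inv, l.res_h, l'.res_h]
      have h1 : O (a, b) ⊓ O (a', b') ≤ A.nbhd a := fun _ hp => hp.1.2.1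
      have h2 : O (a, b) ⊓ O (a', b') ≤ A.nbhd a' := fun _ hp => hp.2.2.1
      have h3 : O (a, b) ⊓ O (a', b') ≤ B.nbhd b := fun _ hp => hp.1.2.2
      have h4 : O (a, b) ⊓ O (a', b') ≤ B.nbhd b' := fun _ hp => hp.2.2.2
      have hW : O (a, b) ⊓ O (a', b') ≤ W := fun _ hp => hp.1.1
      rw [← l.h_change a a' b b' _ hW h1 h2 h3 h4, ← l'.h_change a a' b b' _ hW h1 h2 h3 h4,
        ← div_eq_mul_inv, ← div_eq_mul_inv, mul_div_mul_right_eq_div, mul_div_mul_left_eq_div]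
  refine ⟨u, fun a b P hW ha hb => ?_⟩
  have h := congrArg (resU (le_inf hW (le_inf ha hb) : P ≤ O (a, b))) (hu (a, b))
  simp only [f, map_mul, map_inv, resU_resU] at h
  erw [l.res_h, l'.res_h] at h
  rw [h, inv_mul_cancel_right]

end Link

/-- An equivalence of the cocycles modelling two systems of frames along an open immersion gives
a link on its range. -/
theorem exists_link {Z : Scheme.{u}} {ι ι' : Type u} {A : Frames X ι} {B : Frames X ι'}
    (j : Z ⟶ X) [IsOpenImmersion j] {M M' : Cocycle Z} {e : Z → ι} {e' : Z → ι'}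
    (hM : A.Models M j e) (hM' : B.Models M' j e') (H : Cocycle.Equiv M' M) {W : X.Opens}
    (hW : W ≤ j.opensRange) : Nonempty (Link A B W) := by
  obtain ⟨V, hV, hc, hd, t, ht⟩ := H
  let Q : Z → X.Opens := fun z => W ⊓ j ''ᵁ V z
  have hQA : ∀ z, Q z ≤ A.nbhd (e z) := fun z p hp => by
    obtain ⟨w, hw, rfl⟩ := hp.2
    exact hM.nbhd_le z (hd z hw)
  have hQB : ∀ z, Q z ≤ B.nbhd (e' z) := fun z p hp => by
    obtain ⟨w, hw, rfl⟩ := hp.2
    exact hM'.nbhd_le z (hc z hw)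
  have hQV : ∀ z, j ⁻¹ᵁ Q z ≤ V z := fun z p hp => (j.preimage_image_eq (V z)).le hp.2
  have hQj : ∀ z, Q z ≤ j.opensRange := fun z => inf_le_left.trans hW
  choose tau htau using fun z => pullU_surjective j (hQj z) (resU (hQV z) (t z))
  have compat : ∀ z z' (P : X.Opens) (hz : P ≤ Q z) (hz' : P ≤ Q z'),
      A.g (e z) (e z') P (hz.trans (hQA z)) (hz'.trans (hQA z')) * resU hz' (tau z') =
        resU hz (tau z) * B.g (e' z) (e' z') P (hz.trans (hQB z)) (hz'.trans (hQB z')) := by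
    intro z z' P hz hz'
    refine pullU_injective j (hz.trans (hQj z)) ?_
    have h1 : j ⁻¹ᵁ P ≤ V z := fun p hp => hQV z (hz hp)
    have h2 : j ⁻¹ᵁ P ≤ V z' := fun p hp => hQV z' (hz' hp)
    have hres : ∀ (w : Z) (hw : P ≤ Q w) (hw' : j ⁻¹ᵁ P ≤ V w),
        pullU j (le_refl (j ⁻¹ᵁ P)) (resU hw (tau w)) = resU hw' (t w) := fun w hw hw' => by
      rw [pullU_resU, ← resU_pullU j ((Opens.map j.base).map (homOfLE hw)).le le_rfl, htau,
        resU_resU]
    rw [map_mul, map_mul, hres z' hz' h2, hres z hz h1, Frames.pullU_g, Frames.pullU_g,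
      hM.g_eq z z' _ (h1.trans (hd z)) (h2.trans (hd z')),
      hM'.g_eq z z' _ (h1.trans (hc z)) (h2.trans (hc z'))]
    exact ht z z' _ h1 h2
  have hcov : ∀ p ∈ W, ∃ z, p ∈ Q z := fun p hp => by
    obtain ⟨z, rfl⟩ := hW hp
    exact ⟨z, hp, z, hV z, rfl⟩
  let f : ∀ (a : ι) (b : ι') (P : X.Opens), P ≤ A.nbhd a → P ≤ B.nbhd b → ∀ z, Γ(X, P ⊓ Q z)ˣ :=
    fun a b P ha hb z =>
      A.g a (e z) _ (inf_le_left.trans ha) (inf_le_right.trans (hQA z)) *
        resU inf_le_right (tau z) *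
        B.g (e' z) b _ (inf_le_right.trans (hQB z)) (inf_le_left.trans hb)
  have hglue : ∀ (a : ι) (b : ι') (P : X.Opens) (_ : P ≤ W) (ha : P ≤ A.nbhd a)
      (hb : P ≤ B.nbhd b), ∃ u : Γ(X, P)ˣ, ∀ z,
        resU (inf_le_left : P ⊓ Q z ≤ P) u = f a b P ha hb z := by
    intro a b P hPW ha hb
    refine exists_glueUnit (fun z => P ⊓ Q z) (fun _ => inf_le_left)
      (fun p hp => (hcov p (hPW hp)).imp fun z hz => ⟨hp, hz⟩) _ fun z z' => ?_
    simp only [f, map_mul, resU_resU, Frames.res_g]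
    have hz : P ⊓ Q z ⊓ (P ⊓ Q z') ≤ Q z := fun _ h => h.1.2
    have hz' : P ⊓ Q z ⊓ (P ⊓ Q z') ≤ Q z' := fun _ h => h.2.2
    rw [← A.mul_g a (e z) (e z') _ ((inf_le_left.trans inf_le_left).trans ha) (hz.trans (hQA z))
      (hz'.trans (hQA z')),
      mul_assoc (A.g a (e z) _ _ _) (A.g (e z) (e z') _ _ _), compat z z' _ hz hz']
    simp only [mul_assoc, Frames.mul_g]
  choose u hu using hglue
  refine ⟨⟨u, fun a b P Q' hQ hPW ha hb => ?_, fun a a' b P hPW ha ha' hb => ?_,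
    fun a b b' P hPW ha hb hb' => ?_⟩⟩
  · refine unit_eq_of_resU_eq (fun z => Q' ⊓ Q z) (fun _ => inf_le_left)
      (fun p hp => (hcov p (hPW (hQ hp))).imp fun z hz => ⟨hp, hz⟩) _ _ fun z => ?_
    rw [hu, resU_resU, ← resU_resU (inf_le_inf_right (Q z) hQ) (inf_le_left : P ⊓ Q z ≤ P), hu]
    simp only [f, map_mul, resU_resU, Frames.res_g]
  · refine unit_eq_of_resU_eq (fun z => P ⊓ Q z) (fun _ => inf_le_left)
      (fun p hp => (hcov p (hPW hp)).imp fun z hz => ⟨hp, hz⟩) _ _ fun z => ?_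
    rw [map_mul, hu, hu, Frames.res_g]
    simp only [f, ← mul_assoc, Frames.mul_g]
  · refine unit_eq_of_resU_eq (fun z => P ⊓ Q z) (fun _ => inf_le_left)
      (fun p hp => (hcov p (hPW hp)).imp fun z hz => ⟨hp, hz⟩) _ _ fun z => ?_
    rw [map_mul, hu, hu, Frames.res_g]
    simp only [f, mul_assoc, Frames.mul_g]

end FLTAgent.RelPicard

end
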