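import Mathlib

/-!
# Greedy removal of points

The bookkeeping of the greedy argument: a class without higher cohomology loses its sections one
at a time on removing points of a sufficiently large finite set.

Main declarations: `GreedyData`, `exists_subset`.
-/

set_option autoImplicit false

universe u v

namespace FLTAgent.RelPicard

/-- What the greedy argument uses of dimensions of cohomology and of the points `p`. -/
structure GreedyData (G : Type u) [CommGroup G] (ι : Type v) where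
  f0 : G → ℕ
  f1 : G → ℕ
  d : G → ℤ
  e : ℤ
  p : ι → G
  chi : ∀ L, (f0 L : ℤ) - f1 L = d L + e
  d_div : ∀ L i, d (L * (p i)⁻¹) = d L - 1
  f0_div_le : ∀ L i, f0 (L * (p i)⁻¹) ≤ f0 L
  f0_le_div : ∀ L i, f0 L ≤ f0 (L * (p i)⁻¹) + 1
  pair : ∀ L i j, i ≠ j → f0 (L * (p i)⁻¹) = f0 L → f0 (L * (p j)⁻¹) = f0 L →
    f0 (L * (p i)⁻¹ * (p j)⁻¹) = f0 (L * (p i)⁻¹)
  nonneg : ∀ L, 0 < f0 L → 0 ≤ d L

namespace GreedyData

variable {G : Type u} [CommGroup G] {ι : Type v} (Γ : GreedyData G ι)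

theorem f0_prod_eq (T : Finset ι) : ∀ L : G, (∀ i ∈ T, Γ.f0 (L * (Γ.p i)⁻¹) = Γ.f0 L) →
    Γ.f0 (L * (∏ i ∈ T, Γ.p i)⁻¹) = Γ.f0 L := by
  classical
  induction T using Finset.induction with
  | empty => intro L _; simp
  | @insert i T hi ih =>
    intro L h
    have hL := h i (Finset.mem_insert_self i T)
    rw [Finset.prod_insert hi, mul_inv, ← mul_assoc, ih, hL]
    intro j hj
    exact Γ.pair L i j (fun e => hi (e ▸ hj)) hL (h j (Finset.mem_insert_of_mem hj))

theorem d_prod (T : Finset ι) (L : G) : Γ.d (L * (∏ i ∈ T, Γ.p i)⁻¹) = Γ.d L - T.card := by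
  classical
  induction T using Finset.induction generalizing L with
  | empty => simp
  | @insert i T hi ih =>
    rw [Finset.prod_insert hi, mul_inv, ← mul_assoc, ih, Γ.d_div, Finset.card_insert_of_notMem hi]
    push_cast; ring

/-- The greedy choice. -/
theorem exists_subset (L : G) (S : Finset ι) (h1 : Γ.f1 L = 0) (hS : Γ.d L < S.card) :
    ∃ A ⊆ S, A.card = Γ.f0 L ∧ Γ.f0 (L * (∏ i ∈ A, Γ.p i)⁻¹) = 0 ∧
      Γ.f1 (L * (∏ i ∈ A, Γ.p i)⁻¹) = 0 := by
  classical
  induction hm : Γ.f0 L generalizing L S with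
  | zero => exact ⟨∅, Finset.empty_subset S, rfl, by simp [hm, h1]⟩
  | succ m ih =>
    obtain ⟨i, hiS, hi⟩ : ∃ i ∈ S, Γ.f0 (L * (Γ.p i)⁻¹) ≠ Γ.f0 L := by
      by_contra h
      push Not at h
      have h' := Γ.f0_prod_eq S L h
      have := Γ.nonneg (L * (∏ j ∈ S, Γ.p j)⁻¹) (by omega)
      rw [d_prod] at this
      omega
    have hf0 : Γ.f0 (L * (Γ.p i)⁻¹) = m := by
      have := Γ.f0_div_le L i
      have := Γ.f0_le_div L i
      omega
    have hf1 : Γ.f1 (L * (Γ.p i)⁻¹) = 0 := by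
      have ha := Γ.chi L
      have hb := Γ.chi (L * (Γ.p i)⁻¹)
      rw [Γ.d_div] at hb
      omega
    obtain ⟨A, hA, hcard, hA0, hA1⟩ := ih _ (S.erase i) hf1 (by
      rw [Γ.d_div, Finset.card_erase_of_mem hiS]
      have := Finset.card_pos.mpr ⟨i, hiS⟩
      omega) hf0
    have hiA : i ∉ A := fun h => Finset.notMem_erase i S (hA h)
    refine ⟨insert i A, Finset.insert_subset hiS (hA.trans (Finset.erase_subset i S)), ?_, ?_, ?_⟩
    · rw [Finset.card_insert_of_notMem hiA, hcard]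
    · rwa [Finset.prod_insert hiA, mul_inv, ← mul_assoc]
    · rwa [Finset.prod_insert hiA, mul_inv, ← mul_assoc]

end GreedyData

end FLTAgent.RelPicard
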