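import Fermat.Agent.RelPicard.CoverFinite
import Fermat.Agent.RelPicard.CutDegree

/-!
# Rational points for the greedy argument

A curve over an algebraically closed field has infinitely many rational points, and distinct
rational points stay apart after any extension of the field.

Main results: `CurveCover.infinite_points`, `constPoint_apply_ne`.
-/

set_option autoImplicit false

universe u

open CategoryTheory CategoryTheory.Limits AlgebraicGeometry AlgebraicGeometry.RelPicard
  NeronModelInfra TopologicalSpace

noncomputable section

namespace FLTAgent.RelPicard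

variable {k : Type u} [Field k] [IsAlgClosed k] {C : Scheme.{u}}
  {c : C ⟶ Spec (CommRingCat.of k)} [IsProper c] [SmoothOfRelativeDimension 1 c] [IsIntegral C]

omit [IsAlgClosed k] [IsProper c] [SmoothOfRelativeDimension 1 c] in
theorem CurveCover.genericPoint_notMem_closedPoints (D : CurveCover k c) :
    ¬ IsClosed ({genericPoint C} : Set C) := by
  intro h
  have hall : ∀ z : C, z = genericPoint C := fun z => by
    have h1 : z ∈ closure ({genericPoint C} : Set C) := by
      rw [genericPoint_closure]
      trivial
    rwa [h.closure_eq] at h1
  have hsing : Subsingleton C := ⟨fun a b => (hall a).trans (hall b).symm⟩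
  -- the unit `x` would make `x - c₀` a unit or zero, against the split fibre
  let j : Fin D.r := ⟨0, D.r_pos⟩
  have hmem : genericPoint C ∈ D.U := by
    rw [← hall ((D.pt j).1 (IsLocalRing.closedPoint k))]
    exact D.pt_mem j trivial
  set z := D.x - scalarHom c D.U D.c₀ with hz
  have hbo : genericPoint C ∉ C.basicOpen z := by
    rw [← hall ((D.pt j).1 (IsLocalRing.closedPoint k))]
    refine notMem_basicOpen_of_eq_zero (D.pt j).1 D.U (D.pt_mem j) z ?_ _
    have h0 := ((D.split_ker z).mpr dvd_rfl) j
    show (Scheme.ΓSpecIso (CommRingCat.of k)).hom (valueAt (D.pt j).1 (D.pt_mem j) z) = 0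
    rw [h0, map_zero]
  have hz0 : z = 0 := by
    refine genGerm_injective D.U hmem ?_
    rw [map_zero]
    by_contra hne
    exact hbo ((C.mem_basicOpen z _ hmem).mpr (isUnit_iff_ne_zero.mpr hne))
  -- so `x` is a constant and the polynomial basis is not free
  have hinj := D.basisU.1
  let i : Fin D.r := ⟨0, D.r_pos⟩
  have h2 := @hinj (Pi.single i (Polynomial.X - Polynomial.C D.c₀)) 0 (by
    simp only [polyComb, Pi.zero_apply, Polynomial.eval₂_zero, zero_mul, Finset.sum_const_zero]
    refine Finset.sum_eq_zero fun l _ => ?_
    by_cases hl : l = i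
    · subst hl
      rw [Pi.single_eq_same, Polynomial.eval₂_sub, Polynomial.eval₂_X, Polynomial.eval₂_C, ← hz,
        hz0, zero_mul]
    · rw [Pi.single_eq_of_ne hl, Polynomial.eval₂_zero, zero_mul])
  have h3 := congrFun h2 i
  rw [Pi.single_eq_same, Pi.zero_apply] at h3
  exact Polynomial.X_sub_C_ne_zero D.c₀ h3

omit [IsProper c] in
/-- There are infinitely many rational points. -/
theorem CurveCover.infinite_points (D : CurveCover k c) :
    Infinite (SchemeHomOver (𝟙 (Spec (CommRingCat.of k))) c) := by
  have := AbelianTorsion.locallyOfFiniteType c (g := 1)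
  have : JacobsonSpace C := LocallyOfFiniteType.jacobsonSpace c
  have hinf : Infinite (closedPoints C) := by
    refine Set.infinite_coe_iff.mpr fun hfin => ?_
    have hcl : IsClosed (closedPoints C) := by
      rw [← Set.biUnion_of_singleton (closedPoints C)]
      exact hfin.isClosed_biUnion fun z hz => hz
    have hall : closedPoints C = Set.univ := by
      have h := JacobsonSpace.closure_inter_closedPoints_eq_closure
        (isClosed_univ (X := C)).isLocallyClosed
      rwa [Set.univ_inter, hcl.closure_eq, closure_univ] at h
    have hgen : genericPoint C ∈ closedPoints C := hall.symm ▸ Set.mem_univ _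
    exact D.genericPoint_notMem_closedPoints hgen
  exact (pointEquivClosedPoint c).infinite_iff.mpr hinf

omit [IsProper c] [AlgebraicGeometry.IsIntegral C] in
/-- Distinct rational points give distinct points over any extension. -/
theorem constPoint_apply_ne {P Q : SchemeHomOver (𝟙 (Spec (CommRingCat.of k))) c} (h : P ≠ Q)
    {K : Type u} [Field K] (t : Spec (CommRingCat.of K) ⟶ Spec (CommRingCat.of k))
    (s : Spec (CommRingCat.of K)) : (constPoint P t).1 s ≠ (constPoint Q t).1 s := by
  have := AbelianTorsion.locallyOfFiniteType c (g := 1)
  intro e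
  refine h (Subtype.ext (ext_of_apply_closedPoint_eq c P.2 Q.2 ?_))
  have ht : t s = IsLocalRing.closedPoint k := Subsingleton.elim _ _
  have e' : P.1 (t s) = Q.1 (t s) := e
  rwa [ht] at e'

end FLTAgent.RelPicard

end
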