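import Fermat.Agent.RelPicard.SecEquiv

/-!
# The class at infinity

A cocycle given by a unit on the overlap of two opens, and the shift of the twist parameter by
tensoring with the power of `1 / x`.

Main declarations: `twoChart`, `mulFrame`, `CurveCover.exists_h1_shift`.
-/

set_option autoImplicit false

universe u

open CategoryTheory CategoryTheory.Limits AlgebraicGeometry TopologicalSpace

noncomputable section

namespace FLTAgent.RelPicard

variable {X : Scheme.{u}}

namespace Cocycle

variable (N I : Cocycle X)

/-- A section with unit coordinates identifies the sections of `N` with those of the product. -/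
theorem bijective_mulSec {W : X.Opens} (σ : I.Sec W) (hσ : ∀ x, IsUnit (σ.1 x)) :
    Function.Bijective fun s : N.Sec W => N.mulSec I s σ := by
  have hcoord : ∀ (z : X) {P : X.Opens} (hP : P ≤ W) (hz : P ≤ N.nbhd z ⊓ I.nbhd z) (s : N.Sec W),
      (N.mul I).coordOn z hz ((N.mul I).resSec hP (N.mulSec I s σ)) =
        N.coordOn z (hz.trans inf_le_left) (N.resSec hP s) *
          res (le_inf hP (hz.trans inf_le_right)) (σ.1 z) := by
    intro z P hP hz s
    show res _ (res _ (res _ (s.1 z) * res _ (σ.1 z))) = res _ (res _ (s.1 z)) * _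
    simp only [map_mul, res_res]
  let P : X → X.Opens := fun z => W ⊓ (N.nbhd z ⊓ I.nbhd z)
  have hcov : W ≤ ⨆ z, P z := (N.mul I).nbhd_cover W
  refine ⟨fun s s' h => N.sec_ext_cover P (fun _ => inf_le_left) hcov fun z =>
    N.coordOn_injective z (inf_le_right.trans inf_le_left) ?_, fun t => ?_⟩
  · have e := congrArg (fun t => (N.mul I).coordOn z inf_le_right
      ((N.mul I).resSec (inf_le_left : P z ≤ W) t)) h
    simp only [hcoord] at e
    exact ((hσ z).map _).mul_right_cancel e
  · let a : ∀ z, Γ(X, P z) := fun z =>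
      (N.mul I).coordOn z inf_le_right ((N.mul I).resSec (inf_le_left : P z ≤ W) t) *
        res (le_inf inf_le_left (inf_le_right.trans inf_le_right)) (((hσ z).unit⁻¹ : _ˣ) : _)
    obtain ⟨s, hs⟩ := N.exists_glueSec_iSup P (fun _ => inf_le_left) hcov
      (fun z => a z • N.frameOn z (inf_le_right.trans inf_le_left)) fun z z' => by
        refine N.coordOn_injective z (inf_le_left.trans (inf_le_right.trans inf_le_left)) ?_
        rw [N.coordOn_change z z' _ (inf_le_right.trans (inf_le_right.trans inf_le_left))
          (N.resSec inf_le_right _)]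
        rw [N.coordOn_resSec z inf_le_left (inf_le_right.trans inf_le_left),
          N.coordOn_resSec z' inf_le_right (inf_le_right.trans inf_le_left), LinearMap.map_smul,
          LinearMap.map_smul, coordOn_frameOn, coordOn_frameOn, smul_eq_mul, smul_eq_mul, mul_one,
          mul_one]
        have hz : P z ⊓ P z' ≤ W ⊓ I.nbhd z := inf_le_left.trans (inf_le_inf_left _ inf_le_right)
        have hz' : P z ⊓ P z' ≤ W ⊓ I.nbhd z' :=
          inf_le_right.trans (inf_le_inf_left _ inf_le_right)
        refine ((hσ z).map (res hz)).mul_right_cancel ?_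
        simp only [a, map_mul, res_res]
        rw [mul_assoc, ← map_mul, IsUnit.val_inv_mul, map_one, mul_one,
          σ.2 z z' _ (inf_le_left.trans inf_le_left) (hz.trans inf_le_right)
            (hz'.trans inf_le_right), mul_mul_mul_comm, mul_assoc _ _ (res hz' _), ← map_mul,
          IsUnit.val_inv_mul, map_one, mul_one, ← Units.val_mul,
          ← gOn_mul_cocycle N I z z' (inf_le_left.trans inf_le_right)
            (inf_le_right.trans inf_le_right),
          ← coordOn_resSec, ← coordOn_resSec, resSec_resSec, resSec_resSec]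
        exact (N.mul I).coordOn_change z z' _ _ _
    refine ⟨s, (N.mul I).sec_ext_cover P (fun _ => inf_le_left) hcov fun z =>
      (N.mul I).coordOn_injective z inf_le_right ?_⟩
    rw [hcoord z inf_le_left inf_le_right, hs z, LinearMap.map_smul, coordOn_frameOn, smul_eq_mul,
      mul_one]
    simp only [a]
    rw [mul_assoc, ← map_mul, IsUnit.val_inv_mul, map_one, mul_one]

theorem mulSec_add {W : X.Opens} (σ : I.Sec W) (s s' : N.Sec W) :
    N.mulSec I (s + s') σ = N.mulSec I s σ + N.mulSec I s' σ :=
  Subtype.ext (funext fun x => by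
    show res _ ((s + s').1 x) * res _ (σ.1 x) = _
    rw [AddSubgroup.coe_add, Pi.add_apply, map_add, add_mul]; rfl)

theorem mulSec_smul_left {W : X.Opens} (a : Γ(X, W)) (σ : I.Sec W) (s : N.Sec W) :
    N.mulSec I (a • s) σ = a • N.mulSec I s σ :=
  Subtype.ext (funext fun x => by
    show res _ (res inf_le_left a * s.1 x) * res _ (σ.1 x) = res inf_le_left a * (_ * _)
    rw [map_mul, res_res, mul_assoc])

theorem mulSec_smul_right {W : X.Opens} (a : Γ(X, W)) (σ : I.Sec W) (s : N.Sec W) :
    N.mulSec I s (a • σ) = a • N.mulSec I s σ :=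
  Subtype.ext (funext fun x => by
    show res _ (s.1 x) * res _ (res inf_le_left a * σ.1 x) = res inf_le_left a * (_ * _)
    rw [map_mul, res_res, mul_left_comm])

theorem resSec_mulSec {W W' : X.Opens} (h : W' ≤ W) (σ : I.Sec W) (s : N.Sec W) :
    (N.mul I).resSec h (N.mulSec I s σ) = N.mulSec I (N.resSec h s) (I.resSec h σ) :=
  Subtype.ext (funext fun x => by
    show res _ (res _ (s.1 x) * res _ (σ.1 x)) = res _ (res _ (s.1 x)) * res _ (res _ (σ.1 x))
    simp only [map_mul, res_res])

section TwoChart

variable (O : Bool → X.Opens) (hO : ∀ x : X, x ∈ O true ∨ x ∈ O false)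
  (u : Γ(X, O true ⊓ O false)ˣ)

/-- The transition units of two charts. -/
def chartUnit : ∀ i j : Bool, Γ(X, O i ⊓ O j)ˣ
  | true, false => u
  | false, true => (resU (le_inf inf_le_right inf_le_left) u)⁻¹
  | true, true => 1
  | false, false => 1

theorem chartUnit_mul (i j l : Bool) (W : X.Opens) (hi : W ≤ O i) (hj : W ≤ O j) (hl : W ≤ O l) :
    resU (le_inf hi hj) (chartUnit O u i j) * resU (le_inf hj hl) (chartUnit O u j l) =
      resU (le_inf hi hl) (chartUnit O u i l) := by
  cases i <;> cases j <;> cases l <;>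
    simp only [chartUnit, map_one, map_inv, one_mul, mul_one, resU_resU, mul_inv_cancel,
      inv_mul_cancel]

/-- The chart of a point. -/
def chartOf (x : X) : Bool := by
  classical
  exact decide (x ∈ O true)

include hO in
theorem mem_chartOf (x : X) : x ∈ O (chartOf O x) := by
  classical
  by_cases h : x ∈ O true
  · rw [show chartOf O x = true by simp [chartOf, h]]; exact h
  · rw [show chartOf O x = false by simp [chartOf, h]]; exact (hO x).resolve_left h

/-- The cocycle of a unit on the overlap of two charts. -/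
def twoChart : Cocycle X where
  nbhd x := O (chartOf O x)
  mem := mem_chartOf O hO
  g x y := chartUnit O u (chartOf O x) (chartOf O y)
  cocycle _ _ _ := chartUnit_mul O u _ _ _

/-- The frame of a chart. -/
def chartSec (i : Bool) : (twoChart O hO u).Sec (O i) :=
  ⟨fun x => ((resU (le_inf inf_le_right inf_le_left) (chartUnit O u (chartOf O x) i) :
      Γ(X, O i ⊓ O (chartOf O x))ˣ) : Γ(X, O i ⊓ O (chartOf O x))),
    fun x y V hV hx hy => congrArg Units.val ((resU_resU (X := X) (le_inf hV hx) _ _).trans
      ((chartUnit_mul O u (chartOf O x) (chartOf O y) i V hx hy hV).symm.trans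
        (congrArg (_ * ·) (resU_resU (X := X) (le_inf hV hy) _ _).symm)))⟩

theorem isUnit_chartSec (i : Bool) (x : X) : IsUnit ((chartSec O hO u i).1 x) :=
  Units.isUnit _

theorem chartSec_change (i j : Bool) :
    (twoChart O hO u).resSec (inf_le_right : O i ⊓ O j ≤ O j) (chartSec O hO u j) =
      (chartUnit O u i j : Γ(X, O i ⊓ O j)) •
        (twoChart O hO u).resSec (inf_le_left : O i ⊓ O j ≤ O i) (chartSec O hO u i) :=
  Subtype.ext (funext fun x => congrArg Units.val ((resU_resU (X := X)
    (inf_le_inf_right (O (chartOf O x)) (inf_le_right : O i ⊓ O j ≤ O j)) _ _).trans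
    (((chartUnit_mul O u (chartOf O x) i j ((O i ⊓ O j) ⊓ O (chartOf O x)) inf_le_right
      (inf_le_left.trans inf_le_left) (inf_le_left.trans inf_le_right)).symm.trans
        (mul_comm _ _)).trans
      (congrArg (_ * ·) (resU_resU (X := X)
        (inf_le_inf_right (O (chartOf O x)) (inf_le_left : O i ⊓ O j ≤ O i)) _ _).symm))))

end TwoChart

end Cocycle

section Shift

variable {k : Type u} [Field k] {C : Scheme.{u}} {c : C ⟶ Spec (CommRingCat.of k)}
  (D : CurveCover k c) {K : Type u} [Field K]
  (t : Spec (CommRingCat.of K) ⟶ Spec (CommRingCat.of k))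

/-- Multiplication by a section with unit coordinates. -/
def mulFrame {R : Type u} [CommRing R] (π : X ⟶ Spec (CommRingCat.of R)) (N I : Cocycle X)
    {W : X.Opens} (σ : I.Sec W) (hσ : ∀ x, IsUnit (σ.1 x)) :
    SecOver π N W ≃ₗ[R] SecOver π (N.mul I) W :=
  LinearEquiv.ofBijective
    (show SecOver π N W →ₗ[R] SecOver π (N.mul I) W from
    { toFun := fun s => N.mulSec I s σ
      map_add' := N.mulSec_add I σ
      map_smul' := fun a s => N.mulSec_smul_left I (scalarHom π W a) σ s })
    (N.bijective_mulSec I σ hσ)

/-- Tensoring with the two-chart cocycle of a power of `1 / x` shifts the twist. -/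
theorem CurveCover.exists_h1_shift (m : ℤ) :
    ∃ I : Cocycle (pullback c t), ∀ (N : Cocycle (pullback c t)) (n : ℤ),
      D.h1 t (N.mul I) n = D.h1 t N (n + m) := by
  let O : Bool → (pullback c t).Opens := fun b => bif b then D.UT t else D.VT t
  have hO : ∀ x : (pullback c t : Scheme.{u}), x ∈ O true ∨ x ∈ O false := fun x => by
    have h : x ∈ (⊤ : (pullback c t).Opens) := trivial
    rw [← D.UT_sup_VT t] at h
    exact h
  let u : Γ(pullback c t, O true ⊓ O false)ˣ := D.yUnit t ^ m
  let I := Cocycle.twoChart O hO u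
  refine ⟨I, fun N n => ?_⟩
  let σU : I.Sec (D.UT t) := Cocycle.chartSec O hO u true
  let σV : I.Sec (D.VT t) := Cocycle.chartSec O hO u false
  let σW : I.Sec (D.WT t) := I.resSec inf_le_left σU
  have hU : ∀ x, IsUnit (σU.1 x) := Cocycle.isUnit_chartSec O hO u true
  have hV : ∀ x, IsUnit (σV.1 x) := Cocycle.isUnit_chartSec O hO u false
  have hW : ∀ x, IsUnit (σW.1 x) := fun x => (hU x).map _
  let π := pullback.snd c t
  let a := (mulFrame π N I σU hU).prodCongr (mulFrame π N I σV hV)
  have hσ : I.resSec (inf_le_right : D.WT t ≤ D.VT t) σV =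
      ((D.yUnit t ^ m : Γ(pullback c t, D.WT t)ˣ) : Γ(pullback c t, D.WT t)) • σW :=
    Cocycle.chartSec_change O hO u true false
  have hcomm : D.diff t (N.mul I) n ∘ₗ a.toLinearMap =
      (mulFrame π N I σW hW).toLinearMap ∘ₗ D.diff t N (n + m) := by
    refine LinearMap.ext fun p => ?_
    show (N.mul I).resSec inf_le_left (N.mulSec I p.1 σU) -
        ((D.yUnit t ^ n : Γ(pullback c t, D.WT t)ˣ) : Γ(pullback c t, D.WT t)) •
          (N.mul I).resSec inf_le_right (N.mulSec I p.2 σV) =
      mulFrame π N I σW hW (secRes π N inf_le_left p.1 -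
        secMul π N ((D.yUnit t ^ (n + m) : Γ(pullback c t, D.WT t)ˣ) : Γ(pullback c t, D.WT t))
          (secRes π N inf_le_right p.2))
    rw [map_sub]
    show _ = N.mulSec I (N.resSec inf_le_left p.1) σW -
      N.mulSec I (((D.yUnit t ^ (n + m) : Γ(pullback c t, D.WT t)ˣ) : Γ(pullback c t, D.WT t)) •
        N.resSec inf_le_right p.2) σW
    erw [N.resSec_mulSec I, N.resSec_mulSec I, hσ, N.mulSec_smul_right I,
      N.mulSec_smul_left I, ← mul_smul, ← Units.val_mul, ← zpow_add]
    rfl
  refine (LinearEquiv.finrank_eq (Submodule.Quotient.equiv _ _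
    (mulFrame π N I σW hW) ?_)).symm
  have h := congrArg LinearMap.range hcomm
  rw [LinearMap.range_comp_of_range_eq_top _ (LinearEquiv.range _), LinearMap.range_comp] at h
  exact h.symm

end Shift

end FLTAgent.RelPicard

end
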