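import Fermat.Agent.RelPicard.PointClass

/-!
# The bundle of one point seen at another point

`evPoint_mulPoint_eq_zero_iff`: multiplication by the section of the bundle of one point does not
change whether a section vanishes at another point.  Used by `GreedyTwists`.
-/

set_option autoImplicit false

universe u

open CategoryTheory CategoryTheory.Limits AlgebraicGeometry AlgebraicGeometry.RelPicard
  NeronModelInfra TopologicalSpace

noncomputable section

namespace FLTAgent.RelPicard

/-- Away from the subscheme the equation has nonzero value. -/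
theorem IsEquation.secValue_mulLin_eq_zero_iff {K : Type u} [Field K] {X T : Scheme.{u}}
    {π : X ⟶ Spec (CommRingCat.of K)} {σ : T ⟶ X} [IsClosedImmersion σ] {D : Cocycle X}
    {v : D.Sec ⊤} (he : IsEquation σ D v) (τ : Spec (CommRingCat.of K) ⟶ X) (hτ : τ ≫ π = 𝟙 _)
    (N : Cocycle X) {W : X.Opens} (h : τ.base (IsLocalRing.closedPoint K) ∈ W)
    (hy : τ.base (IsLocalRing.closedPoint K) ∉ Set.range σ.base) (r : SecOver π N W) :
    secValue τ hτ (N.mul D) W h (he.mulLin N π W r) = 0 ↔ secValue τ hτ N W h r = 0 := by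
  set y := τ.base (IsLocalRing.closedPoint K)
  obtain ⟨_, ⟨A, hA, rfl⟩, hyA, hsub⟩ := X.isBasis_affineOpens.exists_subset_of_mem_open
    (show y ∈ ((W ⊓ (N.mul D).nbhd y : X.Opens) : Set X) ∩ (Set.range σ.base)ᶜ from
      ⟨⟨h, (N.mul D).mem y⟩, hy⟩)
    ((Opens.isOpen _).inter σ.isClosedEmbedding.isClosed_range.isOpen_compl)
  have hAW : A ≤ W := fun p hp => (hsub hp).1.1
  have hAy : A ≤ (N.mul D).nbhd y := fun p hp => (hsub hp).1.2
  have hD : IsUnit (D.coord y le_top (hAy.trans inf_le_right) v) := by
    have : Subsingleton Γ(T, σ ⁻¹ᵁ A) := by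
      rw [show σ ⁻¹ᵁ A = ⊥ from le_bot_iff.mp fun p hp => ((hsub hp).2 ⟨p, rfl⟩).elim]
      infer_instance
    rw [← Ideal.span_singleton_eq_top, ← he.ker y A hA (hAy.trans inf_le_right), eq_top_iff]
    exact fun a _ => RingHom.mem_ker.mpr (Subsingleton.elim _ _)
  rw [secValue_eq_zero_iff τ hτ (N.mul D) h _ y hAW hAy hyA,
    secValue_eq_zero_iff τ hτ N h r y hAW (hAy.trans inf_le_left) hyA]
  show pointValue τ hyA ((N.mul D).coord y hAW hAy (he.mulEq N r)) = 0 ↔ _
  rw [he.coord_mulEq, map_mul, mul_eq_zero]
  exact ⟨fun H => H.resolve_right (hD.map (pointValue τ hyA)).ne_zero, Or.inl⟩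

variable {k : Type u} [Field k] [IsAlgClosed k] {C : Scheme.{u}}
  (c : C ⟶ Spec (CommRingCat.of k)) [IsSeparated c] [SmoothOfRelativeDimension 1 c] [IsIntegral C]
  {K : Type u} [Field K] {t : Spec (CommRingCat.of K) ⟶ Spec (CommRingCat.of k)}
  (s s' : SchemeHomOver t c)

omit [IsAlgClosed k] [SmoothOfRelativeDimension 1 c] [AlgebraicGeometry.IsIntegral C] in
theorem isClosedImmersion_graphSection : IsClosedImmersion (graphSection c t s.1 s.2) := by
  have : IsClosedImmersion (graphSection c t s.1 s.2 ≫ pullback.snd c t) := by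
    rw [graphSection_snd]
    infer_instance
  exact IsClosedImmersion.of_comp _ (pullback.snd c t)

/-- Multiplication by the section of a point does not change vanishing at another point. -/
theorem evPoint_mulPoint_eq_zero_iff (N : Cocycle (pullback c t)) {W : (pullback c t).Opens}
    (h : ptImage c s' ∈ W) (hne : ptImage c s ≠ ptImage c s')
    (r : SecOver (pullback.snd c t) N W) :
    evPoint c s' (N.mul (pointCocycle c s)) W h (mulPoint c s N W r) = 0 ↔
      evPoint c s' N W h r = 0 := by
  have := isClosedImmersion_graphSection c s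
  refine (point_isEquation c s).secValue_mulLin_eq_zero_iff _ _ N h (fun hmem => ?_) r
  obtain ⟨p, hp⟩ := hmem
  rw [Subsingleton.elim p (IsLocalRing.closedPoint K)] at hp
  exact hne hp

end FLTAgent.RelPicard

end
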