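import Fermat.Agent.RelPicard.GreedyChoice
import Fermat.Agent.RelPicard.GreedyPoints
import Fermat.Agent.RelPicard.GreedyPairs
import Fermat.Agent.RelPicard.DegreePoint
import Fermat.Agent.RelPicard.DegreeEffective
import Fermat.Agent.RelPicard.DegreeFamily
import Fermat.Agent.RelPicard.PointPair
import Fermat.Agent.RelPicard.InfClass
import Fermat.Agent.RelPicard.ChartTwists

/-!
# Existence of the twists

A fixed finite set of rational points gives finitely many twists: on every geometric fibre some of
them kills the cohomology of a given class of degree zero.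

Main result: `CurveCover.nonempty_twists`, used by S25.
-/

set_option autoImplicit false

universe u

open CategoryTheory CategoryTheory.Limits AlgebraicGeometry AlgebraicGeometry.RelPicard
  NeronModelInfra TopologicalSpace

noncomputable section

namespace FLTAgent.RelPicard

attribute [local instance] isIntegral_fibre

variable {k : Type u} [Field k] [IsAlgClosed k] {C : Scheme.{u}}
  {c : C ⟶ Spec (CommRingCat.of k)} [IsProper c] [SmoothOfRelativeDimension 1 c] [IsIntegral C]

theorem Pic.mk_out {X : Scheme.{u}} (L : Pic X) :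
    Pic.mk (Quotient.out (s := Cocycle.setoid _) L) = L :=
  Quotient.out_eq L

omit [IsProper c] [AlgebraicGeometry.IsIntegral C] in
theorem ptImage_constPoint_ne {P Q : SchemeHomOver (𝟙 (Spec (CommRingCat.of k))) c} (h : P ≠ Q)
    {K : Type u} [Field K] (t : Spec (CommRingCat.of K) ⟶ Spec (CommRingCat.of k)) :
    ptImage c (constPoint P t) ≠ ptImage c (constPoint Q t) := fun e => by
  refine constPoint_apply_ne h t (IsLocalRing.closedPoint K) ?_
  have h1 : ∀ R : SchemeHomOver (𝟙 (Spec (CommRingCat.of k))) c,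
      (pullback.fst c t).base (ptImage c (constPoint R t)) =
        (constPoint R t).1 (IsLocalRing.closedPoint K) := fun R => by
    show (graphSection c t _ _ ≫ pullback.fst c t).base (IsLocalRing.closedPoint K) = _
    rw [graphSection_fst]
  rw [← h1, ← h1, e]

namespace CurveCover

variable (D : CurveCover k c)

omit [IsAlgClosed k] [IsProper c] [SmoothOfRelativeDimension 1 c]
   [AlgebraicGeometry.IsIntegral C] in
/-- Cohomology of the trivial class is that over the ground field. -/
theorem h_one_eq
    {K : Type u} [Field K] (t : Spec (CommRingCat.of K) ⟶ Spec (CommRingCat.of k)) (n : ℤ) :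
    D.h0 t Cocycle.one n = D.h0 (𝟙 (Spec (CommRingCat.of k))) Cocycle.one n ∧
      D.h1 t Cocycle.one n = D.h1 (𝟙 (Spec (CommRingCat.of k))) Cocycle.one n := by
  obtain ⟨f, hf⟩ : ∃ f : k →+* K,
      t = Spec.map (CommRingCat.ofHom f) ≫ 𝟙 (Spec (CommRingCat.of k)) :=
    ⟨(Spec.preimage t).hom, by rw [Category.comp_id]; exact (Spec.map_preimage t).symm⟩
  subst hf
  exact ⟨(D.h0_congr _ (equiv_one_pullback
    (mapT (c := c) (𝟙 (Spec (CommRingCat.of k))) f)).symm n).trans
    (D.h0_pullback _ f Cocycle.one n), D.h1_one_pullback _ f n⟩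

variable {K : Type u} [Field K] [IsAlgClosed K]
  (t : Spec (CommRingCat.of K) ⟶ Spec (CommRingCat.of k))

omit [IsProper c] [SmoothOfRelativeDimension 1 c] [IsAlgClosed K] in
theorem h0_sub_h1 (N : Cocycle (pullback c t)) (n : ℤ) :
    (D.h0 t N n : ℤ) - D.h1 t N n = D.chi t N - n * D.r := by
  rw [← D.index_diff_eq t N n, D.index_diff t N n]

/-- Dimensions of cohomology in the twist by one at infinity, and the constant points. -/
def greedyData :
    GreedyData (Pic (pullback c t)) (SchemeHomOver (𝟙 (Spec (CommRingCat.of k))) c) where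
  f0 L := D.h0 t (Quotient.out (s := Cocycle.setoid _) L) 1
  f1 L := D.h1 t (Quotient.out (s := Cocycle.setoid _) L) 1
  d := D.deg t
  e := D.chi t Cocycle.one - D.r
  p P := pointClass c (constPoint P t)
  chi L := by
    rw [D.h0_sub_h1, CurveCover.deg]
    ring
  d_div L P := by
    have h := D.deg_mul_pointClass (constPoint P t) (L * (pointClass c (constPoint P t))⁻¹)
    rw [inv_mul_cancel_right] at h
    omega
  f0_div_le L P := by
    set M := Quotient.out (s := Cocycle.setoid _) (L * (pointClass c (constPoint P t))⁻¹)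
    refine (D.h0_le_pointMul (constPoint P t) M 1).trans
      (D.h0_congr t (Pic.mk_eq_mk.mp ?_) 1).le
    rw [← Pic.mk_mul, show Pic.mk M = _ from Quotient.out_eq _,
      show Pic.mk (Quotient.out (s := Cocycle.setoid _) L) = L from Quotient.out_eq _]
    exact inv_mul_cancel_right _ _
  f0_le_div L P := by
    set M := Quotient.out (s := Cocycle.setoid _) (L * (pointClass c (constPoint P t))⁻¹)
    refine (D.h0_congr t (Pic.mk_eq_mk.mp ?_) 1).le.trans
      (D.h0_pointMul_le (constPoint P t) M 1)
    rw [← Pic.mk_mul, show Pic.mk M = _ from Quotient.out_eq _,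
      show Pic.mk (Quotient.out (s := Cocycle.setoid _) L) = L from Quotient.out_eq _]
    exact (inv_mul_cancel_right _ _).symm
  pair L P Q hPQ _ hQ := by
    have hout : ∀ x : Pic (pullback c t),
        Pic.mk (Quotient.out (s := Cocycle.setoid _) x) = x := fun x => Quotient.out_eq x
    set M := Quotient.out (s := Cocycle.setoid _)
      (L * (pointClass c (constPoint P t))⁻¹ * (pointClass c (constPoint Q t))⁻¹)
    set L₁ := Quotient.out (s := Cocycle.setoid _) (L * (pointClass c (constPoint P t))⁻¹)
    set L₂ := Quotient.out (s := Cocycle.setoid _) (L * (pointClass c (constPoint Q t))⁻¹)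
    have e1 : Cocycle.Equiv (M.mul (pointCocycle c (constPoint Q t))) L₁ := Pic.mk_eq_mk.mp (by
      rw [← Pic.mk_mul, hout, hout]
      exact inv_mul_cancel_right _ _)
    refine (D.h0_pair (constPoint P t) (s' := constPoint Q t) M
      (Quotient.out (s := Cocycle.setoid _) L) L₂ 1 (fun N => D.finIndex_diff t N 1)
      (fun W h r => evPoint_mulPoint_eq_zero_iff c _ _ _ h (ptImage_constPoint_ne hPQ t) r)
      (Pic.mk_eq_mk.mp ?_) (Pic.mk_eq_mk.mp ?_) hQ).trans (D.h0_congr t e1 1)
    · rw [← Pic.mk_mul, ← Pic.mk_mul, hout, hout]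
      show L = L * _ * _ * pointClass c (constPoint Q t) * pointClass c (constPoint P t)
      rw [inv_mul_cancel_right, inv_mul_cancel_right]
    · rw [← Pic.mk_mul, hout, hout]
      exact (inv_mul_cancel_right _ _).symm
  nonneg L hL := by
    by_contra hlt
    rw [← Pic.mk_out L] at hlt
    rw [D.h0_eq_zero_of_deg_lt t _ 1 (by omega)] at hL
    exact lt_irrefl 0 hL

omit [IsAlgClosed K] in
/-- The first cohomology does not grow on adding a point. -/
theorem f1_mul_point_le (L : Pic (pullback c t)) (P : SchemeHomOver t c) :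
    (D.greedyData t).f1 (L * pointClass c P) ≤ (D.greedyData t).f1 L := by
  have h1 : (D.greedyData t).f0 (L * pointClass c P) ≤ (D.greedyData t).f0 L + 1 := by
    refine (D.h0_congr t ?_ 1).le.trans
      (D.h0_pointMul_le P (Quotient.out (s := Cocycle.setoid _) L) 1)
    exact Pic.mk_eq_mk.mp ((Pic.mk_out _).trans
      ((congrArg (· * _) (Pic.mk_out L).symm).trans (Pic.mk_mul _ _)))
  have h2 := (D.greedyData t).chi (L * pointClass c P)
  have h3 := (D.greedyData t).chi L
  have h4 := D.deg_mul_pointClass P L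
  simp only [greedyData] at h1 h2 h3 ⊢
  omega

omit [IsAlgClosed K] in
theorem f1_mul_prod_le {ι : Type*} (T : Finset ι) (p : ι → SchemeHomOver t c)
    (L : Pic (pullback c t)) :
    (D.greedyData t).f1 (L * ∏ i ∈ T, pointClass c (p i)) ≤ (D.greedyData t).f1 L := by
  classical
  induction T using Finset.induction generalizing L with
  | empty => simp
  | @insert i T hi ih =>
    rw [Finset.prod_insert hi, ← mul_assoc]
    exact (ih _).trans (D.f1_mul_point_le t L _)

/-- A class of large degree has no first cohomology. -/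
theorem f1_eq_zero (hpts : Infinite (SchemeHomOver (𝟙 (Spec (CommRingCat.of k))) c))
    (L : Pic (pullback c t)) (hL : (D.genus t : ℤ) - D.chi t Cocycle.one + D.r ≤ D.deg t L) :
    (D.greedyData t).f1 L = 0 := by
  obtain ⟨n, hn⟩ : ∃ n, D.h1 t Cocycle.one n = 0 := by
    obtain ⟨n, hn⟩ := D.exists_surjective_diff t Cocycle.one
    have : Subsingleton (SecOver (pullback.snd c t) Cocycle.one (D.WT t) ⧸
        LinearMap.range (D.diff t Cocycle.one n)) :=
      Submodule.Quotient.subsingleton_iff.mpr (LinearMap.range_eq_top.mpr (hn n le_rfl))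
    exact ⟨n, Module.finrank_zero_of_subsingleton⟩
  obtain ⟨I, hI⟩ := D.exists_h1_shift t (n - 1)
  set L₁ := Pic.mk (Cocycle.one.mul I)
  have hL₁ : (D.greedyData t).f1 L₁ = 0 := by
    show D.h1 t (Quotient.out (s := Cocycle.setoid _) L₁) 1 = 0
    rw [D.h1_congr t (Pic.mk_eq_mk.mp (Quotient.out_eq L₁)) 1, hI, add_sub_cancel, hn]
  obtain ⟨S, hS⟩ := Infinite.exists_subset_card_eq
    (SchemeHomOver (𝟙 (Spec (CommRingCat.of k))) c) ((D.deg t L₁).toNat + 1)
  obtain ⟨A, -, -, hA0, hA1⟩ := (D.greedyData t).exists_subset L₁ S hL₁ (by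
    show D.deg t L₁ < (S.card : ℤ)
    rw [hS]; omega)
  set L₀ := L₁ * (∏ P ∈ A, (D.greedyData t).p P)⁻¹
  have hd : D.deg t L₀ = D.r - D.chi t Cocycle.one := by
    have h := (D.greedyData t).chi L₀
    rw [hA0, hA1] at h
    simp only [greedyData] at h
    omega
  obtain ⟨P₀⟩ := hpts.nonempty
  have hx : D.deg t (L * L₀⁻¹) = D.deg t L - D.deg t L₀ := by
    have h := D.deg_mul (L * L₀⁻¹) L₀
    rw [inv_mul_cancel_right] at h
    omega
  obtain ⟨Q, hQ⟩ := D.exists_eq_prod_pointClass (L * L₀⁻¹) (constPoint P₀ t) 0 (by omega)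
  rw [pow_zero, mul_one, mul_inv_eq_iff_eq_mul, mul_comm] at hQ
  rw [hQ]
  exact Nat.le_zero.mp ((D.f1_mul_prod_le t _ _ _).trans hA1.le)

end CurveCover

/-- The class on the curve of a rational point. -/
def pointClassOn (P : SchemeHomOver (𝟙 (Spec (CommRingCat.of k))) c) : Pic C :=
  Pic.map (pullback.lift (𝟙 C) c (by rw [Category.id_comp, Category.comp_id])) (pointClass c P)

theorem twistOn_pointClassOn (P : SchemeHomOver (𝟙 (Spec (CommRingCat.of k))) c)
    {T : Scheme.{u}} (t : T ⟶ Spec (CommRingCat.of k)) :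
    twistOn (pointClassOn P) t = pointClass c (constPoint P t) := by
  rw [twistOn, pointClassOn, ← Pic.map_comp, constPoint, ← map_pointClass]
  refine congrFun (congrArg DFunLike.coe (Pic.map_congr ?_)) _
  apply pullback.hom_ext
  · rw [Category.assoc, pullback.lift_fst, baseChangeSnd, pullback.lift_fst, Category.comp_id]
    try rw [Category.comp_id]
  · rw [Category.assoc, pullback.lift_snd, baseChangeSnd, pullback.lift_snd]
    exact pullback.condition

/-- The twists exist. -/
theorem CurveCover.nonempty_twists (D : CurveCover k c) : Nonempty D.Twists := by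
  classical
  set g := D.h1 (𝟙 (Spec (CommRingCat.of k))) Cocycle.one 0
  set χ := D.chi (𝟙 (Spec (CommRingCat.of k))) Cocycle.one
  have hfib : ∀ {K : Type u} [Field K] (t : Spec (CommRingCat.of K) ⟶ Spec (CommRingCat.of k)),
      D.genus t = g ∧ D.chi t Cocycle.one = χ := fun t =>
    ⟨(D.h_one_eq t 0).2, congrArg₂ (fun a b : ℕ => (a : ℤ) - b) (D.h_one_eq t 0).1
      (D.h_one_eq t 0).2⟩
  have := D.infinite_points
  set ι₀ := SchemeHomOver (𝟙 (Spec (CommRingCat.of k))) c
  obtain ⟨P₀⟩ := (inferInstance : Nonempty ι₀)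
  set N := ((g : ℤ) - χ + D.r).toNat
  obtain ⟨S, hS⟩ := Infinite.exists_subset_card_eq ι₀ (N + 1)
  let ι := {A : Finset ι₀ // A ⊆ S ∧ (A.card : ℤ) = N + (χ - D.r)}
  have hι : Finite ι := by
    refine Finite.of_injective (fun A : ι =>
      (⟨A.1, Finset.mem_powerset.mpr A.2.1⟩ : S.powerset)) fun A B h => Subtype.ext ?_
    exact congrArg (fun x : (S.powerset : Finset _) => x.1) h
  let W : ι → Pic C := fun A => pointClassOn P₀ ^ N * (∏ P ∈ A.1, pointClassOn P)⁻¹
  have hW : ∀ (A : ι) {K : Type u} [Field K]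
      (t : Spec (CommRingCat.of K) ⟶ Spec (CommRingCat.of k)), twistOn (W A) t =
        pointClass c (constPoint P₀ t) ^ N * (∏ P ∈ A.1, pointClass c (constPoint P t))⁻¹ := by
    intro A K _ t
    simp only [W, twistOn, map_mul, map_pow, map_inv, map_prod]
    simp only [← twistOn_pointClassOn]
    rfl
  refine ⟨⟨ι, hι, W, fun K _ _ t L hL => ?_, fun K _ _ t A M hM => ?_⟩⟩
  · obtain ⟨hg, hc⟩ := hfib t
    set L₂ := L * pointClass c (constPoint P₀ t) ^ N
    have hd : D.deg t L₂ = N := by rw [D.deg_mul_pointClass_pow, hL, zero_add]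
    have h1 : (D.greedyData t).f1 L₂ = 0 := D.f1_eq_zero t inferInstance L₂ (by omega)
    obtain ⟨A, hAS, hA, hA0, hA1⟩ := (D.greedyData t).exists_subset L₂ S h1 (by
      show D.deg t L₂ < (S.card : ℤ)
      omega)
    have hchi := (D.greedyData t).chi L₂
    rw [h1, ← hA] at hchi
    simp only [CurveCover.greedyData] at hchi
    refine ⟨⟨A, hAS, by omega⟩, Quotient.out (s := Cocycle.setoid _)
      (L₂ * (∏ P ∈ A, (D.greedyData t).p P)⁻¹), ?_, ?_⟩
    · rw [hW]
      refine (Pic.mk_out _).trans ?_
      exact mul_assoc L _ _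
    · have := (D.finIndex_diff t (Quotient.out (s := Cocycle.setoid _)
        (L₂ * (∏ P ∈ A, (D.greedyData t).p P)⁻¹)) 1).ker
      have := (D.finIndex_diff t (Quotient.out (s := Cocycle.setoid _)
        (L₂ * (∏ P ∈ A, (D.greedyData t).p P)⁻¹)) 1).coker
      exact ⟨LinearMap.ker_eq_bot.mp (Submodule.finrank_eq_zero.mp hA0),
        LinearMap.range_eq_top.mp (Submodule.Quotient.subsingleton_iff.mp
          (Module.finrank_zero_iff.mp hA1))⟩
  · have h0 : D.h0 t M 1 = 0 := by
      rw [CurveCover.h0, LinearMap.ker_eq_bot.mpr hM.1, finrank_bot]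
    have h1 : D.h1 t M 1 = 0 := by
      have : Subsingleton (SecOver (pullback.snd c t) M (D.WT t) ⧸
        LinearMap.range (D.diff t M 1)) :=
        Submodule.Quotient.subsingleton_iff.mpr (LinearMap.range_eq_top.mpr hM.2)
      exact Module.finrank_zero_of_subsingleton
    have hchi := D.h0_sub_h1 t M 1
    have hdeg := D.deg_mk t M
    rw [(hfib t).2] at hdeg
    rw [hW, mul_inv, inv_inv, ← mul_assoc]
    have h2 := D.deg_mul_pointClass_pow (constPoint P₀ t)
      (Pic.mk M * (pointClass c (constPoint P₀ t) ^ N)⁻¹) N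
    rw [inv_mul_cancel_right] at h2
    rw [D.deg_mul_prod_pointClass]
    have := A.2.2
    omega

end FLTAgent.RelPicard

end
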