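import Fermat.Agent.RelPicard.AffineSectionsFrame

/-!
# Lifting rank one idempotents and transition matrices along square-zero surjections

`exists_lift_idem` lifts a rank one idempotent matrix and `exists_lift_transition` inverse
transition matrices between two of them.  Used by `Lifting` to lift classes.
-/

set_option autoImplicit false

universe u v

open Matrix

noncomputable section

namespace FLTAgent.RelPicard

variable {A : Type u} {A' : Type v} [CommRing A] [CommRing A'] (φ : A →+* A')

/-- Matrices with entries in a square-zero kernel multiply to zero. -/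
theorem mul_eq_zero_of_map_eq_zero (hsq : ∀ a b, φ a = 0 → φ b = 0 → a * b = 0) {m n o : ℕ}
    {M : Matrix (Fin m) (Fin n) A} {N : Matrix (Fin n) (Fin o) A} (hM : M.map φ = 0)
    (hN : N.map φ = 0) : M * N = 0 := by
  ext i k
  show ∑ j, M i j * N j k = 0
  exact Finset.sum_eq_zero fun j _ => hsq _ _ (congrFun (congrFun hM i) j)
    (congrFun (congrFun hN j) k)

/-- An idempotent which is zero modulo a square-zero ideal is zero. -/
theorem idem_eq_zero_of_map_eq_zero (hsq : ∀ a b, φ a = 0 → φ b = 0 → a * b = 0) {n : ℕ}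
    {E : Matrix (Fin n) (Fin n) A} (hE : E * E = E) (h0 : E.map φ = 0) : E = 0 :=
  hE.symm.trans (mul_eq_zero_of_map_eq_zero φ hsq h0 h0)

theorem exists_map_eq (hφ : Function.Surjective φ) {m n : ℕ} (M' : Matrix (Fin m) (Fin n) A') :
    ∃ M : Matrix (Fin m) (Fin n) A, M.map φ = M' := by
  choose g hg using hφ
  exact ⟨M'.map g, Matrix.ext fun i j => hg _⟩

/-- An idempotent lifting a rank one idempotent is of rank one. -/
theorem isRankOneIdem_of_map (hsq : ∀ a b, φ a = 0 → φ b = 0 → a * b = 0) {n : ℕ}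
    {e : Matrix (Fin n) (Fin n) A} (he : e * e = e) (h : IsRankOneIdem (e.map φ)) :
    IsRankOneIdem e := by
  -- the deviation from the outer product
  let Q : Fin n → Matrix (Fin n) (Fin n) A :=
    fun i => Matrix.of fun k l => e i i * e k l - e k i * e i l
  have hsum : ∀ k l, ∑ j, e k j * e j l = e k l := fun k l => congrFun (congrFun he k) l
  have hQ0 : ∀ i, (Q i).map φ = 0 := fun i => by
    ext k l
    have := h.minor i i k l
    simp only [Matrix.map_apply] at this
    show φ (e i i * e k l - e k i * e i l) = 0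
    rw [map_sub, map_mul, map_mul, this]
    ring
  have hQQ : ∀ i, Q i * Q i = e i i • Q i := fun i => by
    ext k l
    rw [Matrix.mul_apply, Matrix.smul_apply, smul_eq_mul]
    show ∑ j, (e i i * e k j - e k i * e i j) * (e i i * e j l - e j i * e i l) =
      e i i * (e i i * e k l - e k i * e i l)
    rw [show (∑ j, (e i i * e k j - e k i * e i j) * (e i i * e j l - e j i * e i l)) =
      e i i * e i i * (∑ j, e k j * e j l) - e i i * e i l * (∑ j, e k j * e j i) -
        e k i * e i i * (∑ j, e i j * e j l) + e k i * e i l * (∑ j, e i j * e j i) by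
      simp only [Finset.mul_sum, ← Finset.sum_sub_distrib, ← Finset.sum_add_distrib]
      exact Finset.sum_congr rfl fun j _ => by ring, hsum, hsum, hsum, hsum]
    ring
  have hkill : ∀ i k l, e i i * (e i i * e k l - e k i * e i l) = 0 := fun i k l =>
    congrFun (congrFun ((hQQ i).symm.trans (mul_eq_zero_of_map_eq_zero φ hsq (hQ0 i) (hQ0 i))) k) l
  -- the minors
  have hmin : ∀ i j k l, e i j * e k l = e i l * e k j := by
    intro i j k l
    have hspan : Ideal.span (Set.range fun m => e m m) = ⊤ := by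
      refine Ideal.eq_top_of_isUnit_mem _ (Ideal.sum_mem (t := Finset.univ) _
        fun m _ => Ideal.subset_span ⟨m, rfl⟩) ?_
      set t := ∑ m, e m m
      have ht : φ (1 - t) = 0 := by
        rw [map_sub, map_one, map_sum, sub_eq_zero]
        exact h.trace.symm
      exact IsUnit.of_mul_eq_one (1 + (1 - t)) (by linear_combination -(hsq _ _ ht ht))
    have hkey : ∀ m, e m m ^ 4 * (e i j * e k l - e i l * e k j) = 0 := fun m => by
      linear_combination (e m m ^ 2 * e k l) * hkill m i j +
        (e m m * e i m * e m j) * hkill m k l - (e m m ^ 2 * e k j) * hkill m i l -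
        (e m m * e i m * e m l) * hkill m k j
    have hle : (⊤ : Ideal A) ≤ LinearMap.ker
        (LinearMap.toSpanSingleton A A (e i j * e k l - e i l * e k j)) := by
      rw [← Ideal.span_pow_eq_top _ hspan 4, Ideal.span_le]
      rintro _ ⟨_, ⟨m, rfl⟩, rfl⟩
      exact hkey m
    have h1 := hle (Submodule.mem_top (x := (1 : A)))
    rw [LinearMap.mem_ker, LinearMap.toSpanSingleton_apply, one_smul, sub_eq_zero] at h1
    exact h1
  refine ⟨he, ?_, hmin⟩
  set t := ∑ m, e m m with htdef
  have ht : φ (1 - t) = 0 := by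
    rw [map_sub, map_one, map_sum, sub_eq_zero]
    exact h.trace.symm
  have hte : ∀ i l, t * e i l = e i l := fun i l => by
    rw [htdef, Finset.sum_mul]
    calc ∑ m, e m m * e i l = ∑ m, e i m * e m l := Finset.sum_congr rfl fun m _ => by
          rw [hmin m m i l]; ring
      _ = e i l := hsum i l
  have htt : t * t = t := by
    conv_lhs => rw [htdef, Finset.mul_sum]
    exact Finset.sum_congr rfl fun m _ => hte m m
  linear_combination htt - hsq _ _ ht ht

/-- **Rank one idempotents lift.** -/
theorem exists_lift_idem (hφ : Function.Surjective φ) (hsq : ∀ a b, φ a = 0 → φ b = 0 → a * b = 0)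
    {n : ℕ} {e' : Matrix (Fin n) (Fin n) A'} (h : IsRankOneIdem e') :
    ∃ e : Matrix (Fin n) (Fin n) A, IsRankOneIdem e ∧ e.map φ = e' := by
  obtain ⟨s, rfl⟩ := exists_map_eq φ hφ e'
  set d := s * s - s with hd
  have hd0 : d.map φ = 0 := by
    rw [hd, Matrix.map_sub _ (map_sub φ), Matrix.map_mul, h.idem, sub_self]
  have hdd : d * d = 0 := mul_eq_zero_of_map_eq_zero φ hsq hd0 hd0
  set e := s + d - (2 : A) • (s * d) with he
  have hcomm : d * s = s * d := by rw [hd]; noncomm_ring
  have hee : e * e = e := by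
    have h1 : s * s = s + d := by rw [hd]; abel
    have h2 : s * (s * d) = s * d := by rw [← mul_assoc, h1, add_mul, hdd, add_zero]
    have h3 : (s * d) * (s * d) = 0 := by
      rw [mul_assoc, ← mul_assoc d s d, hcomm, mul_assoc s d d, hdd, mul_zero, mul_zero]
    have h4 : s * d * s = s * d := by rw [mul_assoc, hcomm, h2]
    have h5 : d * (s * d) = 0 := by rw [← mul_assoc, hcomm, mul_assoc, hdd, mul_zero]
    have h6 : (s * d) * d = 0 := by rw [mul_assoc, hdd, mul_zero]
    rw [he]
    simp only [mul_add, add_mul, sub_mul, mul_sub, smul_mul_assoc, mul_smul_comm, hcomm, h1, h2, h3,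
      h4, h5, h6, hdd, smul_zero]
    simp only [two_smul]
    abel
  have hmap : e.map φ = s.map φ := by
    rw [he, Matrix.map_sub _ (map_sub φ), Matrix.map_add _ (map_add φ), hd0, two_smul,
      Matrix.map_add _ (map_add φ), Matrix.map_mul, hd0, Matrix.mul_zero, add_zero, add_zero,
      sub_zero]
  exact ⟨e, isRankOneIdem_of_map φ hsq hee (hmap ▸ h), hmap⟩

/-- **Transition matrices lift.** -/
theorem exists_lift_transition (hφ : Function.Surjective φ)
    (hsq : ∀ a b, φ a = 0 → φ b = 0 → a * b = 0) {a b : ℕ} {e : Matrix (Fin a) (Fin a) A}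
    {f : Matrix (Fin b) (Fin b) A} (he : e * e = e) (hf : f * f = f)
    {G' : Matrix (Fin b) (Fin a) A'} {H' : Matrix (Fin a) (Fin b) A'}
    (hGH : G' * H' = f.map φ) (hHG : H' * G' = e.map φ) (hG : f.map φ * G' = G')
    (hH : e.map φ * H' = H') :
    ∃ (G : Matrix (Fin b) (Fin a) A) (H : Matrix (Fin a) (Fin b) A), G * H = f ∧ H * G = e ∧
      f * G = G ∧ e * H = H ∧ G.map φ = G' ∧ H.map φ = H' := by
  obtain ⟨G₀, hG₀⟩ := exists_map_eq φ hφ G'
  obtain ⟨H₀, hH₀⟩ := exists_map_eq φ hφ H'
  have hGe' : G' * e.map φ = G' := by rw [← hHG, ← Matrix.mul_assoc, hGH, hG]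
  have hHf' : H' * f.map φ = H' := by rw [← hGH, ← Matrix.mul_assoc, hHG, hH]
  set G := f * G₀ * e with hGdef
  set H₁ := e * H₀ * f with hH₁def
  have hGmap : G.map φ = G' := by rw [hGdef, Matrix.map_mul, Matrix.map_mul, hG₀, hG, hGe']
  have hH₁map : H₁.map φ = H' := by rw [hH₁def, Matrix.map_mul, Matrix.map_mul, hH₀, hH, hHf']
  have hfG : f * G = G := by rw [hGdef, ← Matrix.mul_assoc, ← Matrix.mul_assoc, hf]
  have hGe : G * e = G := by rw [hGdef, Matrix.mul_assoc, he]
  have heH₁ : e * H₁ = H₁ := by rw [hH₁def, ← Matrix.mul_assoc, ← Matrix.mul_assoc, he]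
  have hH₁f : H₁ * f = H₁ := by rw [hH₁def, Matrix.mul_assoc, hf]
  set ε := G * H₁ - f with hεdef
  have hε : ε.map φ = 0 := by
    rw [hεdef, Matrix.map_sub _ (map_sub φ), Matrix.map_mul, hGmap, hH₁map, hGH, sub_self]
  have hfε : f * ε = ε := by rw [hεdef, Matrix.mul_sub, ← Matrix.mul_assoc, hfG, hf]
  have h2 : G * H₁ = f + ε := by rw [hεdef]; abel
  clear_value ε
  have hεf : ε * f = ε := by rw [hεdef, Matrix.sub_mul, Matrix.mul_assoc, hH₁f, hf]
  have hεε := mul_eq_zero_of_map_eq_zero φ hsq hε hε
  set H := H₁ * (f - ε) with hHdef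
  have hGH₂ : G * H = f := by
    rw [hHdef, ← Matrix.mul_assoc, h2, Matrix.add_mul,
      Matrix.mul_sub, Matrix.mul_sub, hf, hfε, hεf, hεε]
    abel
  have heH : e * H = H := by rw [hHdef, ← Matrix.mul_assoc, heH₁]
  have hHmap : H.map φ = H' := by
    rw [hHdef, Matrix.map_mul, hH₁map, Matrix.map_sub _ (map_sub φ), hε, sub_zero, hHf']
  set E := H * G with hEdef
  have hEE : E * E = E := by
    rw [hEdef, Matrix.mul_assoc, ← Matrix.mul_assoc G H G, hGH₂, hfG]
  have heE : e * E = E := by rw [hEdef, ← Matrix.mul_assoc, heH]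
  have hEe : E * e = E := by rw [hEdef, Matrix.mul_assoc, hGe]
  have hdiff : (e - E) * (e - E) = e - E := by
    rw [Matrix.sub_mul, Matrix.mul_sub, Matrix.mul_sub, he, heE, hEe, hEE]
    abel
  have hzero := idem_eq_zero_of_map_eq_zero φ hsq hdiff (by
    rw [Matrix.map_sub _ (map_sub φ), hEdef, Matrix.map_mul, hHmap, hGmap, hHG, sub_self])
  exact ⟨G, H, hGH₂, (sub_eq_zero.mp hzero).symm, hfG, heH, hGmap, hHmap⟩

end FLTAgent.RelPicard
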