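import Fermat.Agent.RelPicard.Defs
import Fermat.Agent.RelPicard.Representable

/-!
# Smoothness of the charts

A chart of finite presentation is smooth when the classes lift along square-zero surjections.

Main declarations: `LiftsAlongSquareZero`, `smooth_chart`.
-/

set_option autoImplicit false

universe u

open CategoryTheory CategoryTheory.Limits AlgebraicGeometry AlgebraicGeometry.RelPicard
  NeronModelInfra Opposite

noncomputable section

namespace FLTAgent.RelPicard

variable {k : Type u} [Field k] {C : Scheme.{u}} {c : C ⟶ Spec (CommRingCat.of k)}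
  (D : CurveCover k c) (ε : SchemeHomOver (𝟙 (Spec (CommRingCat.of k))) c)

/-- Classes lift along square-zero surjections of rings. -/
def CurveCover.LiftsAlongSquareZero : Prop :=
  ∀ (R R' : Type u) [CommRing R] [CommRing R'] (φ : R →+* R'), Function.Surjective φ →
    RingHom.ker φ ^ 2 = ⊥ → ∀ t : Spec (CommRingCat.of R) ⟶ Spec (CommRingCat.of k),
      Function.Surjective (D.relMap ε (t := t)
        (⟨Spec.map (CommRingCat.ofHom φ), rfl⟩ :
          SchemeHomOver (Spec.map (CommRingCat.ofHom φ) ≫ t) t))

theorem specMap_surjective_of_ker_sq {R R' : Type u} [CommRing R] [CommRing R'] (φ : R →+* R')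
    (hφ : Function.Surjective φ) (h : RingHom.ker φ ^ 2 = ⊥) :
    Function.Surjective (Spec.map (CommRingCat.ofHom φ)) := by
  intro p
  have hp : RingHom.ker φ ≤ p.asIdeal :=
    p.isPrime.le_of_pow_le (n := 2) (h ▸ bot_le)
  have hr : p ∈ Set.range (PrimeSpectrum.comap φ) := by
    rw [range_comap_of_surjective _ φ hφ]
    exact hp
  exact hr

variable {D ε}

/-- A chart of finite presentation is smooth. -/
theorem smooth_chart (hlift : D.LiftsAlongSquareZero ε) (S : ChartSystem (D.relFunctor ε))
    (i : S.ι) {A : Type u} [CommRing A] [Algebra k A] [Algebra.FinitePresentation k A]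
    (e : Over.mk (Spec.map (CommRingCat.ofHom (algebraMap k A))) ≅ S.Z i) :
    Smooth (S.Z i).hom := by
  suffices Algebra.FormallySmooth k A by
    have : Algebra.Smooth k A := ⟨this, inferInstance⟩
    have : Smooth (Spec.map (CommRingCat.ofHom (algebraMap k A))) := by
      rw [HasRingHomProperty.Spec_iff (P := @Smooth)]
      exact RingHom.smooth_algebraMap.mpr inferInstance
    have : IsIso e.inv.left := inferInstanceAs (IsIso ((Over.forget _).map e.inv))
    rw [← Over.w e.inv]
    exact inferInstanceAs (Smooth (e.inv.left ≫ Spec.map (CommRingCat.ofHom (algebraMap k A))))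
  refine Algebra.FormallySmooth.of_comp_surjective fun R _ _ I hI g => ?_
  let t : Spec (CommRingCat.of R) ⟶ Spec (CommRingCat.of k) :=
    Spec.map (CommRingCat.ofHom (algebraMap k R))
  let φ : R →+* R ⧸ I := Ideal.Quotient.mk I
  let T : Over (Spec (CommRingCat.of k)) := Over.mk t
  let T' : Over (Spec (CommRingCat.of k)) :=
    Over.mk (Spec.map (CommRingCat.ofHom φ) ≫ t)
  let j : T' ⟶ T := Over.homMk (Spec.map (CommRingCat.ofHom φ)) rfl
  let f' : T' ⟶ S.Z i := (Over.homMk (Spec.map (CommRingCat.ofHom g.toRingHom)) (by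
    show Spec.map (CommRingCat.ofHom g.toRingHom) ≫ Spec.map (CommRingCat.ofHom (algebraMap k A)) =
      Spec.map (CommRingCat.ofHom φ) ≫ t
    rw [← Spec.map_comp, ← Spec.map_comp, ← CommRingCat.ofHom_comp, ← CommRingCat.ofHom_comp]
    exact congrArg (fun ψ => Spec.map (CommRingCat.ofHom ψ)) (RingHom.ext fun a => g.commutes a)) :
    T' ⟶ Over.mk (Spec.map (CommRingCat.ofHom (algebraMap k A)))) ≫ e.hom
  have hφ : Function.Surjective φ := Ideal.Quotient.mk_surjective
  have hker : RingHom.ker φ ^ 2 = ⊥ := by rw [Ideal.mk_ker, hI]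
  obtain ⟨L, hL⟩ := hlift R (R ⧸ I) φ hφ hker t (pullObj (D.relFunctor ε) f' (S.u i))
  have hL' : pullObj (D.relFunctor ε) j L = pullObj (D.relFunctor ε) f' (S.u i) := hL
  have htop : S.locus i T L = ⊤ := by
    rw [eq_top_iff]
    intro p _
    obtain ⟨q, hq⟩ := specMap_surjective_of_ker_sq φ hφ hker p
    have h : q ∈ j.left ⁻¹ᵁ S.locus i T L := by
      have e' : j.left ⁻¹ᵁ S.locus i T L = ⊤ :=
        (S.locus_pull i j L).symm.trans <| (congrArg (S.locus i T') hL').trans <|
          (S.locus_pull i f' (S.u i)).trans (by rw [S.locus_u]; rfl)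
      rw [e']
      trivial
    rw [← hq]
    exact h
  obtain ⟨f, hf, -⟩ := S.classify i T L htop
  have hjf : j ≫ f = f' := S.chart_hom_ext (by rw [pullObj_comp, hf, hL'])
  let F : T ⟶ Over.mk (Spec.map (CommRingCat.ofHom (algebraMap k A))) := f ≫ e.inv
  obtain ⟨ψ, hψ⟩ := Spec.map_surjective F.left
  have hw : ∀ a : k, ψ.hom (algebraMap k A a) = algebraMap k R a := fun a => by
    have h := Over.w F
    rw [← hψ] at h
    exact congrArg (fun χ => χ.hom a) (Spec.map_injective ((Spec.map_comp _ _).trans h))
  refine ⟨{ ψ.hom with commutes' := hw }, AlgHom.ext fun a => ?_⟩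
  have h : j ≫ F = f' ≫ e.inv := by rw [← Category.assoc, hjf]
  have h' := congrArg CommaMorphism.left h
  simp only [f', Category.assoc, Iso.hom_inv_id, Category.comp_id] at h'
  replace h' : Spec.map (CommRingCat.ofHom φ) ≫ F.left =
      Spec.map (CommRingCat.ofHom g.toRingHom) := h'
  rw [← hψ, ← Spec.map_comp] at h'
  exact congrArg (fun χ => χ.hom a) (Spec.map_injective h')

end FLTAgent.RelPicard
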