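import Fermat.Agent.RelPicard.AffineSectionsGlue
import Fermat.Agent.RelPicard.LiftingAlgebra
import Fermat.Agent.RelPicard.LiftingCharts
import Fermat.Agent.RelPicard.Rigidify
import Fermat.Agent.RelPicard.SmoothCharts

/-!
# Classes lift along square-zero surjections

The glued idempotents of a class lift over the two charts and the overlap, so every class lifts;
geometric points only see the reduced base, so the lift has degree zero.

Main results: `exists_map_mapT_eq`, `liftsAlongSquareZero`; used by S25.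
-/

set_option autoImplicit false

universe u

open CategoryTheory CategoryTheory.Limits AlgebraicGeometry AlgebraicGeometry.RelPicard
  NeronModelInfra

noncomputable section

namespace FLTAgent.RelPicard.CurveCover

variable {k : Type u} [Field k] {C : Scheme.{u}} {c : C ⟶ Spec (CommRingCat.of k)}
  (D : CurveCover k c) {R S : Type u} [CommRing R] [CommRing S]
  (t : Spec (CommRingCat.of R) ⟶ Spec (CommRingCat.of k)) (f : R →+* S)

include D in
/-- **Classes on the product lift along a square-zero surjection of the base.** -/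
theorem exists_map_mapT_eq (hf : Function.Surjective f)
    (hsq : ∀ a b, f a = 0 → f b = 0 → a * b = 0)
    (L' : Pic (pullback c (Spec.map (CommRingCat.ofHom f) ≫ t))) :
    ∃ L : Pic (pullback c t), Pic.map (mapT t f) L = L' := by
  obtain ⟨c', rfl⟩ := Pic.mk_surjective L'
  obtain ⟨F⟩ := c'.nonempty_secFrame (D.isAffineOpen_UT (Spec.map (CommRingCat.ofHom f) ≫ t))
  obtain ⟨F'⟩ := c'.nonempty_secFrame (D.isAffineOpen_VT (Spec.map (CommRingCat.ofHom f) ≫ t))
  let E := Cocycle.gluedIdem F F'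
  have hEe : IsRankOneIdem E.e := F.toFrame.isRankOneIdem
  have hEe' : IsRankOneIdem E.e' := F'.toFrame.isRankOneIdem
  obtain ⟨e, he, hemap⟩ := exists_lift_idem (D.chartMapU t f) (D.chartMapU_surjective t hf)
    (D.chartMapU_sq_zero t hsq) hEe
  obtain ⟨e', he', hemap'⟩ := exists_lift_idem (D.chartMapV t f) (D.chartMapV_surjective t hf)
    (D.chartMapV_sq_zero t hsq) hEe'
  let eW : Matrix (Fin E.a) (Fin E.a) Γ(pullback c t, D.UT t ⊓ D.VT t) :=
    e.map (res (inf_le_left : D.UT t ⊓ D.VT t ≤ D.UT t))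
  let eW' : Matrix (Fin E.b) (Fin E.b) Γ(pullback c t, D.UT t ⊓ D.VT t) :=
    e'.map (res (inf_le_right : D.UT t ⊓ D.VT t ≤ D.VT t))
  have hW : eW.map (D.chartMapW t f) = E.e.map (res inf_le_left) :=
    Matrix.ext fun i j => (D.chartMapW_resU t f (e i j)).trans
      (congrArg _ (congrFun (congrFun hemap i) j))
  have hW' : eW'.map (D.chartMapW t f) = E.e'.map (res inf_le_right) :=
    Matrix.ext fun i j => (D.chartMapW_resV t f (e' i j)).trans
      (congrArg _ (congrFun (congrFun hemap' i) j))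
  obtain ⟨G, H, hGH, hHG, hG, hH, hGmap, hHmap⟩ := exists_lift_transition (D.chartMapW t f)
    (D.chartMapW_surjective t hf) (D.chartMapW_sq_zero t hsq)
    (e := eW) (f := eW') (he.map _).idem (he'.map _).idem
    (G' := E.G) (H' := E.H) (E.GH.trans hW'.symm) (E.HG.trans hW.symm)
    (by rw [hW']; exact E.G_left) (by rw [hW]; exact E.H_left)
  let E₀ : GluedIdem (res (inf_le_left : D.UT t ⊓ D.VT t ≤ D.UT t))
      (res (inf_le_right : D.UT t ⊓ D.VT t ≤ D.VT t)) :=
    { a := E.a, b := E.b, e := e, e' := e', G := G, H := H, e_idem := he.idem,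
      e'_idem := he'.idem, GH := hGH, HG := hHG, G_left := hG, H_left := hH }
  have hE : E = E₀.pullChart (mapT t f) (D.mapT_preimage_UT t f).ge
      (D.mapT_preimage_VT t f).ge :=
    (GluedIdem.mk.injEq ..).mpr ⟨rfl, rfl, heq_of_eq hemap.symm, heq_of_eq hemap'.symm,
      heq_of_eq hGmap.symm, heq_of_eq hHmap.symm⟩
  refine ⟨Pic.mk (E₀.cocycle he he' (D.UT_sup_VT t)), ?_⟩
  refine (E₀.map_mk_cocycle he he' _ (mapT t f) (D.mapT_preimage_UT t f).ge
    (D.mapT_preimage_VT t f).ge (D.UT_sup_VT _)).trans ?_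
  exact (Cocycle.mk_eq_of_gluedIdem_eq (D.UT_sup_VT _) F F' _ _ _ hE).symm

/-- Degree zero is checked after a square-zero surjection of the base. -/
theorem degZero_of_map_mapT (hf : Function.Surjective f)
    (hsq : ∀ a b, f a = 0 → f b = 0 → a * b = 0) {L : Pic (pullback c t)}
    (h : D.DegZero (Pic.map (mapT t f) L)) : D.DegZero L := by
  intro K _ _ s
  obtain ⟨ψ, rfl⟩ := Spec.map_surjective s
  have hker : RingHom.ker f ≤ RingHom.ker ψ.hom := fun a ha =>
    mul_self_eq_zero.mp (by rw [← map_mul, hsq a a ha ha, map_zero])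
  let s' : Spec (CommRingCat.of K) ⟶ Spec (CommRingCat.of S) :=
    Spec.map (CommRingCat.ofHom (f.liftOfSurjective hf ⟨ψ.hom, hker⟩))
  have hs : Spec.map ψ = s' ≫ Spec.map (CommRingCat.ofHom f) := by
    rw [← Spec.map_comp, ← CommRingCat.ofHom_comp,
      show (f.liftOfSurjective hf ⟨ψ.hom, hker⟩).comp f = ψ.hom from
        f.liftOfSurjective_comp hf ⟨ψ.hom, hker⟩]
    rfl
  generalize Spec.map ψ = s at hs ⊢
  subst hs
  have h' := h K s'
  rw [mapT, ← Pic.map_comp, baseChangeSnd_comp] at h'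
  rw [D.deg_congr (Category.assoc s' (Spec.map (CommRingCat.ofHom f)) t) L _]
  exact h'

variable (ε : SchemeHomOver (𝟙 (Spec (CommRingCat.of k))) c)

/-- **Rigidified classes of degree zero lift along square-zero surjections.** -/
theorem liftsAlongSquareZero : D.LiftsAlongSquareZero ε := by
  intro R R' _ _ φ hφ hker t L'
  have hsq : ∀ a b, φ a = 0 → φ b = 0 → a * b = 0 := fun a b ha hb => by
    have h : a * b ∈ RingHom.ker φ ^ 2 := by
      rw [pow_two]
      exact Ideal.mul_mem_mul ha hb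
    rwa [hker, Ideal.mem_bot] at h
  obtain ⟨L₀, hL₀⟩ := D.exists_map_mapT_eq t φ hφ hsq L'.1
  have hdeg : D.DegZero L₀ := D.degZero_of_map_mapT t φ hφ hsq (by rw [hL₀]; exact L'.2.2)
  refine ⟨D.toRelClasses ε L₀ hdeg, (D.relMap_toRelClasses ε _ L₀ hdeg).trans (Subtype.ext ?_)⟩
  show rigidify c ε _ (Pic.map (mapT t φ) L₀) = L'.1
  rw [hL₀, rigidify_of_mem c ε _ L'.2.1]

end FLTAgent.RelPicard.CurveCover
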