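import Fermat.Agent.RelPicard.CurveBasics
import Fermat.Agent.RelPicard.Defs
import Fermat.Agent.RelPicard.Representable
import Fermat.Agent.RelPicard.Descent

/-!
# The functor of rigidified classes of degree zero is a Zariski sheaf

The functions on the preimage in `C ×ₖ T` of an open set of `T` are those on the open set, so
classes trivial along the section descend along open covers of `T`.

Main result: `isZariskiSheaf_relFunctor`; used by S25.
-/

set_option autoImplicit false

universe u

open CategoryTheory CategoryTheory.Limits AlgebraicGeometry AlgebraicGeometry.RelPicard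
  NeronModelInfra TopologicalSpace Opposite

noncomputable section

namespace FLTAgent.RelPicard

variable {k : Type u} [Field k] {C : Scheme.{u}} {c : C ⟶ Spec (CommRingCat.of k)}

theorem bijective_pull_appLE {X Y : Scheme.{u}} (f : X ⟶ Y) (U : Y.Opens) (W : X.Opens)
    (h : W ≤ f ⁻¹ᵁ U) [IsIso (f.appLE U W h)] : Function.Bijective (pull f h) :=
  ConcreteCategory.bijective_of_isIso _

namespace CurveCover

variable (D : CurveCover k c) {T : Scheme.{u}} (t : T ⟶ Spec (CommRingCat.of k))

include D in
/-- If the curve has only constant functions, the functions over an affine open set of the base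
are those on the open set. -/
theorem bijective_pull_snd (hc : Function.Bijective (scalarHom c ⊤)) (V : T.Opens)
    (hV : IsAffineOpen V) :
    Function.Bijective (pull (pullback.snd c t) (le_refl (pullback.snd c t ⁻¹ᵁ V))) := by
  rw [bijective_scalarHom_iff] at hc
  have : IsIso (c.appLE ⊤ ⊤ le_top) := (ConcreteCategory.isIso_iff_bijective _).mpr hc
  have hflat : (t.appLE ⊤ V le_top).hom.Flat := by
    have e : IsField Γ(Spec (CommRingCat.of k), ⊤) :=
      MulEquiv.isField (Field.toIsField k)
        (Scheme.ΓSpecIso (CommRingCat.of k)).commRingCatIsoToRingEquiv.toMulEquiv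
    let := e.toField
    let := (t.appLE ⊤ V le_top).hom.toAlgebra
    exact Module.Flat.of_free
  have hiso : IsIso (pushoutSection (IsPullback.of_hasPullback c t) (US := ⊤) (UT := V) (UX := ⊤)
      le_top le_top (UY := pullback.snd c t ⁻¹ᵁ V) (by simp)) := by
    refine isIso_pushoutSection_of_iSup_eq _ _ _ _
      (fun b : ULift.{u} Bool => bif b.down then D.U else D.V) ?_ ?_ ?_ hflat
    · rw [← D.cover]
      refine le_antisymm (iSup_le fun ⟨b⟩ => by cases b <;> simp) (sup_le ?_ ?_)
      · exact le_iSup_of_le ⟨true⟩ le_rfl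
      · exact le_iSup_of_le ⟨false⟩ le_rfl
    · rintro ⟨b⟩
      refine isIso_pushoutSection_of_isAffineOpen _ _ _ _ (isAffineOpen_top _) hV ?_
      cases b <;> [exact D.isAffineV; exact D.isAffineU]
    · rintro ⟨a⟩ ⟨b⟩
      have hUV : IsAffineOpen (D.U ⊓ D.V) := D.basicOpen_x ▸ D.isAffineU.basicOpen D.x
      have := isIso_pushoutSection_of_isAffineOpen (IsPullback.of_hasPullback c t)
        (US := ⊤) (UT := V) (UX := (bif a then D.U else D.V) ⊓ bif b then D.U else D.V)
        le_top le_top rfl (isAffineOpen_top _) hV (by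
          cases a <;> cases b <;> simp only [cond_true, cond_false, inf_idem]
          · exact D.isAffineV
          · rwa [inf_comm]
          · exact hUV
          · exact D.isAffineU)
      infer_instance
  have := ((isIso_pushoutSection_iff _ _ _ _).mp hiso).isIso_inr_of_isIso
  exact bijective_pull_appLE _ _ _ _

variable (ε : SchemeHomOver (𝟙 (Spec (CommRingCat.of k))) c)

include D in
/-- Units over open sets of the base are detected along the section. -/
theorem unitsAlong (hc : Function.Bijective (scalarHom c ⊤)) :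
    UnitsAlong (pullback.snd c t) (rigSection c t ε) := by
  have sec : rigSection c t ε ≫ pullback.snd c t = 𝟙 T := pullback.lift_snd _ _ _
  refine ⟨sec, fun U a h ha => ?_⟩
  refine unit_eq_of_resU_eq
    (fun V : {V : T.affineOpens // (V : T.Opens) ≤ U} => pullback.snd c t ⁻¹ᵁ (V.1 : T.Opens))
    (fun V => ((Opens.map _).map (homOfLE V.2)).le) (fun p hp => ?_) _ _ fun V => ?_
  · obtain ⟨W, hW, hpW, hWU⟩ := T.isBasis_affineOpens.exists_subset_of_mem_open
      (show pullback.snd c t p ∈ U from hp) U.isOpen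
    obtain ⟨W, hW', rfl⟩ := hW
    exact ⟨⟨⟨W, hW'⟩, hWU⟩, hpW⟩
  obtain ⟨⟨V, hV⟩, hVU⟩ := V
  obtain ⟨v, hv⟩ := (bijective_pull_snd D t hc V hV).2
    (resU (((Opens.map _).map (homOfLE hVU)).le) a : Γ(pullback c t, pullback.snd c t ⁻¹ᵁ V))
  have hV' : V ≤ rigSection c t ε ⁻¹ᵁ (pullback.snd c t ⁻¹ᵁ V) := by
    rw [← Scheme.Hom.comp_preimage, sec, Scheme.Hom.id_preimage]
  have hv' := congrArg (pull (rigSection c t ε) hV') hv
  have ha' := congrArg Units.val (congrArg (resU hVU) ha)
  rw [map_one, Units.val_one] at ha'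
  rw [pull_pull, pull_congr sec _ (le_refl V), pull_id, res_self, coe_resU, pull_res] at hv'
  rw [coe_resU, coe_pullU, res_pull] at ha'
  rw [ha'] at hv'
  rw [hv', map_one] at hv
  exact Units.ext (by rw [map_one, Units.val_one]; exact hv.symm)

end CurveCover

/-- The restriction of the product to an open set of the base. -/
theorem opensRange_baseChangeSnd {T T' : Scheme.{u}} {t : T ⟶ Spec (CommRingCat.of k)}
    {t' : T' ⟶ Spec (CommRingCat.of k)} (ψ : SchemeHomOver t' t) [IsOpenImmersion ψ.1]
    [IsOpenImmersion (baseChangeSnd c ψ)] :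
    (baseChangeSnd c ψ).opensRange = pullback.snd c t ⁻¹ᵁ ψ.1.opensRange := by
  ext1
  simp only [baseChangeSnd, Scheme.Hom.coe_opensRange, Scheme.Pullback.range_map,
    TopologicalSpace.Opens.map_coe, Scheme.Hom.id_base]
  simp

instance isOpenImmersion_baseChangeSnd {T T' : Scheme.{u}} {t : T ⟶ Spec (CommRingCat.of k)}
    {t' : T' ⟶ Spec (CommRingCat.of k)} (ψ : SchemeHomOver t' t) [IsOpenImmersion ψ.1] :
    IsOpenImmersion (baseChangeSnd c ψ) := by
  unfold baseChangeSnd
  infer_instance

/-- A geometric point lands in a member of an open cover. -/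
theorem exists_factor {T : Scheme.{u}} {κ : Type u} (U : κ → T.Opens) (hU : ⨆ i, U i = ⊤)
    {K : Type u} [Field K] (s : Spec (CommRingCat.of K) ⟶ T) :
    ∃ (i : κ) (s' : Spec (CommRingCat.of K) ⟶ (U i).toScheme), s' ≫ (U i).ι = s := by
  have h : s (IsLocalRing.closedPoint K) ∈ ⨆ i, U i := by rw [hU]; trivial
  obtain ⟨i, hi⟩ := Opens.mem_iSup.mp h
  refine ⟨i, IsOpenImmersion.lift (U i).ι s ?_, IsOpenImmersion.lift_fac _ _ _⟩
  rw [Scheme.Opens.range_ι]
  rintro _ ⟨x, rfl⟩
  rw [Subsingleton.elim x (IsLocalRing.closedPoint K)]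
  exact hi

namespace CurveCover

variable (D : CurveCover k c) (ε : SchemeHomOver (𝟙 (Spec (CommRingCat.of k))) c)

/-- The sheaf property, given that the functions on the curve are constant. -/
theorem isZariskiSheaf_relFunctor_of_constants (hc : Function.Bijective (scalarHom c ⊤)) :
    IsZariskiSheaf (D.relFunctor ε) := by
  refine ⟨fun T κ U hU a b hab => Subtype.ext ?_, fun T κ U hU s hs => ?_⟩
  · let ψ : ∀ i, SchemeHomOver ((U i).ι ≫ T.hom) T.hom := fun i => ⟨(U i).ι, rfl⟩
    have : ∀ i, IsOpenImmersion (ψ i).1 := fun i => inferInstanceAs (IsOpenImmersion (U i).ι)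
    refine Pic.eq_of_locally (D.unitsAlong T.hom ε hc) U hU (fun i => baseChangeSnd c (ψ i))
      (fun i => ?_) a.2.1 b.2.1 fun i => congrArg Subtype.val (hab i)
    rw [opensRange_baseChangeSnd, Scheme.Opens.opensRange_ι]
  · let ψ : ∀ i, SchemeHomOver ((U i).ι ≫ T.hom) T.hom := fun i => ⟨(U i).ι, rfl⟩
    let χ : ∀ i i', SchemeHomOver ((U i ⊓ U i').ι ≫ T.hom) T.hom :=
      fun i i' => ⟨(U i ⊓ U i').ι, rfl⟩
    have : ∀ i, IsOpenImmersion (ψ i).1 := fun i => inferInstanceAs (IsOpenImmersion (U i).ι)
    have : ∀ i i', IsOpenImmersion (χ i i').1 := fun i i' =>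
      inferInstanceAs (IsOpenImmersion (U i ⊓ U i').ι)
    let p : ∀ i i', SchemeHomOver ((U i ⊓ U i').ι ≫ T.hom) ((U i).ι ≫ T.hom) := fun i i' =>
      ⟨(openLE T (inf_le_left : U i ⊓ U i' ≤ U i)).left, Over.w (openLE T _)⟩
    let q : ∀ i i', SchemeHomOver ((U i ⊓ U i').ι ≫ T.hom) ((U i').ι ≫ T.hom) := fun i i' =>
      ⟨(openLE T (inf_le_right : U i ⊓ U i' ≤ U i')).left, Over.w (openLE T _)⟩
    obtain ⟨L₀, hL₀, hres⟩ := Pic.exists_glue_locally (D.unitsAlong T.hom ε hc) U hU
      (fun i => baseChangeSnd c (ψ i))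
      (fun i => by rw [opensRange_baseChangeSnd, Scheme.Opens.opensRange_ι])
      (fun i => rigSection c ((U i).ι ≫ T.hom) ε) (fun i => (U i).ι)
      (fun i => rigSection_baseChangeSnd c ε (ψ i))
      (fun i => (U i).opensRange_ι.ge)
      (fun i i' => baseChangeSnd c (p i i')) (fun i i' => baseChangeSnd c (q i i'))
      (fun i i' => baseChangeSnd c (χ i i'))
      (fun i i' => (baseChangeSnd_comp c (ψ i) (p i i')).trans (congrArg (baseChangeSnd c)
        (Subtype.ext (Scheme.homOfLE_ι T.left (inf_le_left : U i ⊓ U i' ≤ U i)))))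
      (fun i i' => (baseChangeSnd_comp c (ψ i') (q i i')).trans (congrArg (baseChangeSnd c)
        (Subtype.ext (Scheme.homOfLE_ι T.left (inf_le_right : U i ⊓ U i' ≤ U i')))))
      (fun i i' => by rw [opensRange_baseChangeSnd, Scheme.Opens.opensRange_ι])
      (fun i => (s i).1) (fun i => (s i).2.1) (fun i i' => congrArg Subtype.val (hs i i'))
    have hdeg : D.DegZero L₀ := by
      intro K _ _ g
      obtain ⟨i, g', rfl⟩ := exists_factor U hU g
      have h := (s i).2.2 K g'
      rw [← hres i, ← Pic.map_comp, baseChangeSnd_comp] at h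
      refine Eq.trans ?_ h
      exact (D.deg_congr (Category.assoc _ _ _) L₀ ⟨g' ≫ (U i).ι, rfl⟩).trans rfl
    exact ⟨⟨L₀, hL₀, hdeg⟩, fun i => Subtype.ext (hres i)⟩

/-- **The functor of rigidified classes of degree zero is a Zariski sheaf.** -/
theorem isZariskiSheaf_relFunctor [IsAlgClosed k] [IsProper c] [IsIntegral C] :
    IsZariskiSheaf (D.relFunctor ε) :=
  D.isZariskiSheaf_relFunctor_of_constants ε (scalarHom_top_bijective c)

end CurveCover

end FLTAgent.RelPicard

end
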