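import Fermat.Agent.RelPicard.ValuationChart
import Fermat.Agent.RelPicard.SecEquiv
import Fermat.Agent.RelPicard.Assembly
import Fermat.Agent.RelPicard.DegreeEffective
import Fermat.Agent.RelPicard.SectionDegree

/-!
# The functor of rigidified classes of degree zero is separated

A class over a valuation ring trivial at the generic point has a section over the whole product
which stays nonzero on the geometric fibre at the closed point.  A section which vanishes nowhere
on that fibre vanishes nowhere, as the product is proper over the valuation ring, so the class is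
trivial.  On that fibre a nonzero section of a class of degree zero vanishes nowhere.

Main result: `isSeparatedFunctor`; used by `Main`.
-/

set_option autoImplicit false

universe u

open CategoryTheory CategoryTheory.Limits AlgebraicGeometry AlgebraicGeometry.RelPicard
  TopologicalSpace NeronModelInfra

noncomputable section

namespace FLTAgent.RelPicard

section General

variable {X Y : Scheme.{u}}

namespace Cocycle

variable (c : Cocycle X)

/-- A global section does not vanish at a point. -/
def IsUnitAt (s : c.Sec ⊤) (z : X) : Prop :=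
  ∃ (z' : X) (P : X.Opens) (hP : P ≤ c.nbhd z'), z ∈ P ∧ IsUnit (c.coord z' le_top hP s)

theorem isOpen_isUnitAt (s : c.Sec ⊤) : IsOpen {z | c.IsUnitAt s z} := by
  rw [isOpen_iff_forall_mem_open]
  rintro z ⟨z', P, hP, hz, hu⟩
  exact ⟨P, fun p hp => ⟨z', P, hP, hp, hu⟩, P.isOpen, hz⟩

/-- The section `1` of the trivial cocycle. -/
def oneSec : (Cocycle.one : Cocycle X).Sec ⊤ :=
  ⟨fun _ => 1, fun x y V hV hx hy => by rw [map_one, gOn_one, Units.val_one, mul_one]⟩

/-- A cocycle with a section vanishing nowhere is trivial. -/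
theorem mk_eq_one_of_isUnitAt (s : c.Sec ⊤) (h : ∀ z, c.IsUnitAt s z) : Pic.mk c = 1 := by
  refine Pic.mk_eq_mk.mpr (c.equiv_of_sections Cocycle.one (fun _ : Unit => s) (fun _ => oneSec)
    fun z => ?_)
  obtain ⟨z', P, hP, hz, hu⟩ := h z
  refine ⟨P ⊓ c.nbhd z, ⟨hz, c.mem z⟩, inf_le_right, le_top, fun _ _ => rfl, (), ?_, ?_⟩
  · rw [c.coord_change z z' le_top inf_le_right (inf_le_left.trans hP)]
    have h1 := hu.map (res (inf_le_left : P ⊓ c.nbhd z ≤ P))
    rw [res_coord] at h1
    exact (Units.isUnit _).mul h1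
  · show IsUnit (res _ (1 : Γ(X, _)))
    rw [map_one]
    exact isUnit_one

theorem isUnitAt_of_pullSec (g : Y ⟶ X) {hle : (⊤ : Y.Opens) ≤ g ⁻¹ᵁ ⊤} (s : c.Sec ⊤) {y : Y}
    (h : (c.pullback g).IsUnitAt (c.pullSec g hle s) y) : c.IsUnitAt s (g.base y) := by
  obtain ⟨y', P, hP, hy, hu⟩ := h
  let Q : X.Opens := ⊤ ⊓ c.nbhd (g.base y')
  let a : Γ(X, Q) := s.1 (g.base y')
  have hPQ : P ≤ g ⁻¹ᵁ Q := fun p hp => ⟨trivial, hP hp⟩
  have hu' : IsUnit (pull g hPQ a) := by
    have e : pull g hPQ a = (c.pullback g).coord y' le_top hP (c.pullSec g hle s) :=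
      (res_pull g (le_inf le_top hP) _ a).symm
    rw [e]
    exact hu
  have hmem : y ∈ Y.basicOpen (pull g hPQ a) := (Y.mem_basicOpen _ y hy).mpr (hu'.map _)
  rw [pull, Scheme.basicOpen_appLE] at hmem
  refine ⟨g.base y', X.basicOpen a, (X.basicOpen_le a).trans inf_le_right, hmem.2, ?_⟩
  exact X.toRingedSpace.isUnit_res_basicOpen a

/-- Sections vanishing nowhere are nonzero. -/
theorem oneSec_ne_zero [Nonempty X] : (oneSec : (Cocycle.one : Cocycle X).Sec ⊤) ≠ 0 := fun h => by
  obtain ⟨x⟩ := ‹Nonempty X›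
  have e : (1 : Γ(X, ⊤ ⊓ ⊤)) = 0 := congrFun (congrArg Subtype.val h) x
  have e' := congrArg (X.presheaf.germ (⊤ ⊓ ⊤) x ⟨trivial, trivial⟩).hom e
  rw [map_one, map_zero] at e'
  exact one_ne_zero e'

theorem exists_ne_zero_of_equiv_one [Nonempty X] (h : Equiv c Cocycle.one) :
    ∃ σ : c.Sec ⊤, σ ≠ 0 := by
  obtain ⟨e⟩ := h.symm.nonempty_isoData
  refine ⟨e.mapSec oneSec, fun h => oneSec_ne_zero (X := X) ?_⟩
  rw [← e.symm_mapSec oneSec, h]
  have h0 := e.symm.mapSec_add (W := ⊤) 0 0
  rw [add_zero] at h0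
  exact left_eq_add.mp h0

theorem resSec_pullSec (g : Y ⟶ X) {W W' : X.Opens} (hW : W' ≤ W) {P P' : Y.Opens} (hP : P' ≤ P)
    (h : P ≤ g ⁻¹ᵁ W) (h' : P' ≤ g ⁻¹ᵁ W') (s : c.Sec W) :
    (c.pullback g).resSec hP (c.pullSec g h s) = c.pullSec g h' (c.resSec hW s) :=
  Subtype.ext (funext fun x => by
    show res _ (pull g _ (s.1 (g.base x))) = pull g _ (res _ (s.1 (g.base x)))
    rw [res_pull, pull_res])

end Cocycle

/-- Over a local ring, an open set missing a point misses a point over the closed point, if the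
structure morphism is closed. -/
theorem exists_closedPoint_notMem {R : Type u} [CommRing R] [IsLocalRing R]
    (π : X ⟶ Spec (CommRingCat.of R)) [UniversallyClosed π] {S : Set X} (hS : IsOpen S) {z : X}
    (hz : z ∉ S) : ∃ w, π.base w = IsLocalRing.closedPoint R ∧ w ∉ S := by
  by_contra hne
  push Not at hne
  let O : TopologicalSpace.Opens (PrimeSpectrum R) :=
    ⟨(π.base '' Sᶜ)ᶜ, (π.isClosedMap _ hS.isClosed_compl).isOpen_compl⟩
  have hO : O = ⊤ := (IsLocalRing.closedPoint_mem_iff O).mp fun ⟨w, hw, hwc⟩ => hw (hne w hwc)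
  have h : π.base z ∈ O := by rw [hO]; trivial
  exact h ⟨z, hz, rfl⟩

end General

section Valuation

variable {k : Type u} [Field k] {C : Scheme.{u}} {c : C ⟶ Spec (CommRingCat.of k)}
  (D : CurveCover k c) {V : Type u} [CommRing V]
  (t : Spec (CommRingCat.of V) ⟶ Spec (CommRingCat.of k)) {F : Type u} [Field F] (f : V →+* F)

theorem CurveCover.bijective_polyComb_pull_UT :
    Function.Bijective (polyComb (pullback.snd c (Spec.map (CommRingCat.ofHom f) ≫ t)) (D.UT _)
      (pull (mapT t f) (D.mapT_preimage_UT t f).ge (D.xT t))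
      fun i => pull (mapT t f) (D.mapT_preimage_UT t f).ge (D.wUT t i)) := by
  simp only [pull, D.mapT_xT, D.mapT_wUT]
  exact D.bijective_polyComb_UT _

theorem CurveCover.bijective_polyComb_pull_VT :
    Function.Bijective (polyComb (pullback.snd c (Spec.map (CommRingCat.ofHom f) ≫ t)) (D.VT _)
      (pull (mapT t f) (D.mapT_preimage_VT t f).ge (D.yT t))
      fun i => pull (mapT t f) (D.mapT_preimage_VT t f).ge (D.wVT t i)) := by
  simp only [pull, D.mapT_yT, D.mapT_wVT]
  exact D.bijective_polyComb_VT _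

theorem CurveCover.WT_le_mapT_preimage :
    D.WT (Spec.map (CommRingCat.ofHom f) ≫ t) ≤ mapT t f ⁻¹ᵁ D.WT t :=
  fun _ hp => ⟨(D.mapT_preimage_UT t f).ge hp.1, (D.mapT_preimage_VT t f).ge hp.2⟩

/-- Functions on the overlap pull back injectively along an injective map of scalars. -/
theorem CurveCover.pull_WT_injective (hf : Function.Injective f) :
    Function.Injective (pull (mapT t f) (D.WT_le_mapT_preimage t f)) := by
  rw [injective_iff_map_eq_zero]
  intro z hz
  set t' := Spec.map (CommRingCat.ofHom f) ≫ t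
  set g := mapT (c := c) t f
  have hUV : D.UT t ⊓ D.VT t ≤ D.UT t := inf_le_left
  obtain ⟨a, n, rfl⟩ := D.exists_overlap_eq t z
  have hxy : pull g (D.WT_le_mapT_preimage t f) (res inf_le_left (D.xT t)) *
      pull g (D.WT_le_mapT_preimage t f) (res inf_le_right (D.yT t)) = 1 := by
    rw [← map_mul, D.xT_mul_yT, map_one]
  have h0 : res (inf_le_left : D.WT t' ≤ D.UT t') (pull g (D.mapT_preimage_UT t f).ge a) = 0 := by
    have h1 := congrArg (fun b => b * pull g (D.WT_le_mapT_preimage t f)
      (res inf_le_left (D.xT t)) ^ n) hz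
    simp only [map_mul, map_pow, zero_mul] at h1
    rw [mul_assoc, ← mul_pow, mul_comm (pull g _ (res inf_le_right (D.yT t))), hxy, one_pow,
      mul_one] at h1
    rw [res_pull, ← pull_res g (inf_le_left : D.WT t ≤ D.UT t) (D.WT_le_mapT_preimage t f) a]
    exact h1
  obtain ⟨m, hm⟩ := res_basicOpen_kill (D.isAffineOpen_UT t') le_rfl (D.xT t')
    (pull g (D.mapT_preimage_UT t f).ge a) (by
      rw [← res_res (show D.UT t' ⊓ (pullback c t').basicOpen (D.xT t') ≤ D.WT t' from
        inf_le_right.trans (D.basicOpen_xT t').le) inf_le_left, h0, map_zero])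
  have hx : pull g (D.mapT_preimage_UT t f).ge (D.xT t) = D.xT t' := D.mapT_xT t f
  rw [res_self, ← hx, ← map_pow, ← map_mul] at hm
  have hinj := pull_injective f (mapT_snd t f) (D.mapT_preimage_UT t f).ge
    (D.bijective_polyComb_UT t) (D.bijective_polyComb_pull_UT t f) hf (hm.trans (map_zero _).symm)
  have h2 := congrArg (res hUV) hinj
  rw [map_mul, map_pow, map_zero] at h2
  have hu : IsUnit (res hUV (D.xT t)) := IsUnit.of_mul_eq_one _ (D.xT_mul_yT t)
  rw [(hu.pow m).mul_right_eq_zero.mp h2, zero_mul]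

/-- Sections over the overlap pull back injectively along an injective map of scalars. -/
theorem CurveCover.pullSec_WT_injective (hf : Function.Injective f)
    (N : Cocycle (pullback c t)) (Fr : N.SecFrame (D.UT t)) :
    Function.Injective (N.pullSec (mapT t f) (D.WT_le_mapT_preimage t f)) := by
  rw [injective_iff_map_eq_zero]
  intro s h
  rw [← (Fr.restrict (inf_le_left : D.WT t ≤ D.UT t)).sum_smul s]
  refine Finset.sum_eq_zero fun i _ => ?_
  have h1 : pull (mapT t f) (D.WT_le_mapT_preimage t f)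
      (N.pair ((Fr.restrict (inf_le_left : D.WT t ≤ D.UT t)).τ i) s) = 0 := by
    rw [← Cocycle.pair_pullSec, h]
    exact map_zero ((N.pullback (mapT t f)).pairL _)
  rw [D.pull_WT_injective t f hf (h1.trans (map_zero _).symm), zero_smul]

/-- Sections over the two charts which agree at the generic point of the base glue. -/
theorem CurveCover.resSec_eq_of_generic (hf : Function.Injective f) (N : Cocycle (pullback c t))
    (Fr : N.SecFrame (D.UT t)) (bU : N.Sec (D.UT t)) (bV : N.Sec (D.VT t))
    (h : (N.pullback (mapT t f)).resSec (inf_le_left : D.WT _ ≤ D.UT _)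
        (N.pullSec (mapT t f) (D.mapT_preimage_UT t f).ge bU) =
      (N.pullback (mapT t f)).resSec (inf_le_right : D.WT _ ≤ D.VT _)
        (N.pullSec (mapT t f) (D.mapT_preimage_VT t f).ge bV)) :
    N.resSec (inf_le_left : D.WT t ≤ D.UT t) bU = N.resSec inf_le_right bV := by
  refine D.pullSec_WT_injective t f hf N Fr ?_
  rw [N.resSec_pullSec (mapT t f) (inf_le_left : D.WT t ≤ D.UT t) inf_le_left
      (D.mapT_preimage_UT t f).ge (D.WT_le_mapT_preimage t f),
    N.resSec_pullSec (mapT t f) (inf_le_right : D.WT t ≤ D.VT t) inf_le_right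
      (D.mapT_preimage_VT t f).ge (D.WT_le_mapT_preimage t f)] at h
  exact h

/-- A section over the fibre at the generic point gives, after scaling, sections over the two
charts which agree on the overlap. -/
theorem CurveCover.exists_scaled_sections [IsDomain V] (K : Type u) [Field K] [Algebra V K]
    [IsFractionRing V K] (N : Cocycle (pullback c t))
    {σ : (N.pullback (mapT t (algebraMap V K))).Sec ⊤} (hσ : σ ≠ 0) :
    ∃ (aU : N.Sec (D.UT t)) (aV : N.Sec (D.VT t)),
      N.resSec (inf_le_left : D.WT t ≤ D.UT t) aU = N.resSec inf_le_right aV ∧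
        (aU ≠ 0 ∨ aV ≠ 0) := by
  obtain ⟨FU⟩ := N.nonempty_secFrame (D.isAffineOpen_UT t)
  obtain ⟨FV⟩ := N.nonempty_secFrame (D.isAffineOpen_VT t)
  obtain ⟨dU, sU, hdU, hsU⟩ := exists_smul_eq_pullSec (algebraMap V K)
    (mapT_snd t (algebraMap V K)) (D.mapT_preimage_UT t (algebraMap V K)).ge
    (D.bijective_polyComb_pull_UT t (algebraMap V K)) rfl N FU
    ((N.pullback (mapT t (algebraMap V K))).resSec le_top σ)
  obtain ⟨dV, sV, hdV, hsV⟩ := exists_smul_eq_pullSec (algebraMap V K)
    (mapT_snd t (algebraMap V K)) (D.mapT_preimage_VT t (algebraMap V K)).ge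
    (D.bijective_polyComb_pull_VT t (algebraMap V K)) rfl N FV
    ((N.pullback (mapT t (algebraMap V K))).resSec le_top σ)
  let e : K := algebraMap V K dV * algebraMap V K dU
  have haU : N.pullSec (mapT t (algebraMap V K)) (D.mapT_preimage_UT t (algebraMap V K)).ge
      (scalarHom (pullback.snd c t) (D.UT t) dV • sU) =
        scalarHom (pullback.snd c (Spec.map (CommRingCat.ofHom (algebraMap V K)) ≫ t))
          (D.UT _) e • (N.pullback (mapT t (algebraMap V K))).resSec le_top σ := by
    rw [pullSec_scalar_smul (algebraMap V K) (mapT_snd t (algebraMap V K)), hsU, ← mul_smul,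
      ← map_mul]
  have haV : N.pullSec (mapT t (algebraMap V K)) (D.mapT_preimage_VT t (algebraMap V K)).ge
      (scalarHom (pullback.snd c t) (D.VT t) dU • sV) =
        scalarHom (pullback.snd c (Spec.map (CommRingCat.ofHom (algebraMap V K)) ≫ t))
          (D.VT _) e • (N.pullback (mapT t (algebraMap V K))).resSec le_top σ := by
    rw [pullSec_scalar_smul (algebraMap V K) (mapT_snd t (algebraMap V K)), hsV, ← mul_smul,
      ← map_mul, mul_comm (algebraMap V K dU)]
  refine ⟨scalarHom (pullback.snd c t) (D.UT t) dV • sU,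
    scalarHom (pullback.snd c t) (D.VT t) dU • sV,
    D.resSec_eq_of_generic t (algebraMap V K) (IsFractionRing.injective V K) N FU _ _
    ?_, ?_⟩
  · rw [haU, haV, Cocycle.resSec_smul, Cocycle.resSec_smul, res_scalarHom, res_scalarHom,
      Cocycle.resSec_resSec, Cocycle.resSec_resSec]
  · by_contra hne
    push Not at hne
    rw [hne.1, map_zero] at haU
    rw [hne.2, map_zero] at haV
    have hu : ∀ W, IsUnit (scalarHom (pullback.snd c
      (Spec.map (CommRingCat.ofHom (algebraMap V K)) ≫ t)) W e) := fun W =>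
      (IsUnit.mk0 _ (mul_ne_zero hdV hdU)).map _
    refine hσ ((N.pullback (mapT t (algebraMap V K))).sec_ext (fun b : Bool =>
      bif b then D.UT _ else D.VT _)
      (fun _ => le_top) (fun p hp => ?_) σ 0 fun b => ?_)
    · rw [← D.UT_sup_VT (Spec.map (CommRingCat.ofHom (algebraMap V K)) ≫ t)] at hp
      exact hp.elim (fun h => ⟨true, h⟩) fun h => ⟨false, h⟩
    · rw [map_zero]
      cases b
      · have h0 := (hu (D.VT _)).smul_left_cancel.mp (haV.symm.trans (smul_zero _).symm)
        exact h0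
      · have h0 := (hu (D.UT _)).smul_left_cancel.mp (haU.symm.trans (smul_zero _).symm)
        exact h0

/-- Sections over the two charts agree if they do so after multiplication by a nonzero scalar. -/
theorem CurveCover.resSec_eq_of_smul [IsDomain V] (N : Cocycle (pullback c t))
    (bU : N.Sec (D.UT t)) (bV : N.Sec (D.VT t)) {d : V} (hd : d ≠ 0)
    (h : N.resSec (inf_le_left : D.WT t ≤ D.UT t) (scalarHom (pullback.snd c t) (D.UT t) d • bU) =
      N.resSec inf_le_right (scalarHom (pullback.snd c t) (D.VT t) d • bV)) :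
    N.resSec (inf_le_left : D.WT t ≤ D.UT t) bU = N.resSec inf_le_right bV := by
  obtain ⟨Fr⟩ := N.nonempty_secFrame (D.isAffineOpen_UT t)
  have hinj : Function.Injective (algebraMap V (FractionRing V)) :=
    IsFractionRing.injective V (FractionRing V)
  refine D.pullSec_WT_injective t (algebraMap V (FractionRing V)) hinj N Fr ?_
  rw [Cocycle.resSec_smul, Cocycle.resSec_smul, res_scalarHom, res_scalarHom] at h
  have h' := congrArg (N.pullSec (mapT t (algebraMap V (FractionRing V)))
    (D.WT_le_mapT_preimage t (algebraMap V (FractionRing V)))) h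
  rw [pullSec_scalar_smul (algebraMap V (FractionRing V)) (mapT_snd t _),
    pullSec_scalar_smul (algebraMap V (FractionRing V)) (mapT_snd t _)] at h'
  exact ((IsUnit.mk0 _ ((map_ne_zero_iff _ hinj).mpr hd)).map _).smul_left_cancel.mp h'

/-- Agreeing sections over the two charts of which one is nonzero on a fibre glue to a global
section nonzero on that fibre. -/
theorem CurveCover.exists_global_ne_zero (N : Cocycle (pullback c t))
    (bU : N.Sec (D.UT t)) (bV : N.Sec (D.VT t))
    (h : N.resSec (inf_le_left : D.WT t ≤ D.UT t) bU = N.resSec inf_le_right bV)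
    (hor : N.pullSec (mapT t f) (D.mapT_preimage_UT t f).ge bU ≠ 0 ∨
      N.pullSec (mapT t f) (D.mapT_preimage_VT t f).ge bV ≠ 0) :
    ∃ s : N.Sec ⊤, N.pullSec (mapT t f) (W := ⊤) (W' := ⊤) (fun _ _ => trivial) s ≠ 0 := by
  obtain ⟨s, hsU', hsV'⟩ := N.exists_glueSec le_top le_top (D.UT_sup_VT t).ge bU bV h
  refine ⟨s, fun h0 => ?_⟩
  rcases hor with hne' | hne'
  · refine hne' ?_
    rw [← hsU', ← N.resSec_pullSec (mapT t f) (le_top : D.UT t ≤ ⊤) le_top (fun _ _ => trivial),
      h0, map_zero]
  · refine hne' ?_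
    rw [← hsV', ← N.resSec_pullSec (mapT t f) (le_top : D.VT t ≤ ⊤) le_top (fun _ _ => trivial),
      h0, map_zero]

/-- Agreeing sections over the two charts, not both zero, give after division by a scalar a
global section nonzero on a fibre at the closed point. -/
theorem CurveCover.exists_divided_section [IsDomain V] [ValuationRing V]
    (N : Cocycle (pullback c t)) (aU : N.Sec (D.UT t)) (aV : N.Sec (D.VT t))
    (hagree : N.resSec (inf_le_left : D.WT t ≤ D.UT t) aU = N.resSec inf_le_right aV)
    (hne : aU ≠ 0 ∨ aV ≠ 0) :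
    ∃ s : N.Sec ⊤, N.pullSec (mapT t f) (W := ⊤) (W' := ⊤) (fun _ _ => trivial) s ≠ 0 := by
  obtain ⟨FU⟩ := N.nonempty_secFrame (D.isAffineOpen_UT t)
  obtain ⟨FV⟩ := N.nonempty_secFrame (D.isAffineOpen_VT t)
  have divU := fun h => exists_eq_smul_pullSec_ne_zero f (mapT_snd t f)
    (D.mapT_preimage_UT t f).ge (D.bijective_polyComb_UT t) (D.bijective_polyComb_pull_UT t f)
    N FU (s := aU) h
  have divV := fun h => exists_eq_smul_pullSec_ne_zero f (mapT_snd t f)
    (D.mapT_preimage_VT t f).ge (D.bijective_polyComb_VT t) (D.bijective_polyComb_pull_VT t f)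
    N FV (s := aV) h
  have fin : ∀ (bU : N.Sec (D.UT t)) (bV : N.Sec (D.VT t)) (d : V), d ≠ 0 →
      aU = scalarHom (pullback.snd c t) (D.UT t) d • bU →
        aV = scalarHom (pullback.snd c t) (D.VT t) d • bV →
      (N.pullSec (mapT t f) (D.mapT_preimage_UT t f).ge bU ≠ 0 ∨
        N.pullSec (mapT t f) (D.mapT_preimage_VT t f).ge bV ≠ 0) → _ :=
    fun bU bV d hd hU hV => D.exists_global_ne_zero t f N bU bV
      (D.resSec_eq_of_smul t N bU bV hd (hU ▸ hV ▸ hagree))
  by_cases hU0 : aU = 0
  · obtain ⟨d, b, hd, hb, hb'⟩ := divV (hne.resolve_left (not_not.mpr hU0))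
    exact fin 0 b d hd (by rw [hU0, smul_zero]) hb (Or.inr hb')
  obtain ⟨d, b, hd, hb, hb'⟩ := divU hU0
  by_cases hV0 : aV = 0
  · exact fin b 0 d hd hb (by rw [hV0, smul_zero]) (Or.inl hb')
  obtain ⟨d', b', hd', hb₂, hb₂'⟩ := divV hV0
  rcases ValuationRing.dvd_total d d' with ⟨e', he⟩ | ⟨e', he⟩
  · exact fin b (scalarHom (pullback.snd c t) _ e' • b') d hd hb
      (by rw [hb₂, he, map_mul, mul_smul]) (Or.inl hb')
  · exact fin (scalarHom (pullback.snd c t) _ e' • b) b' d' hd'
      (by rw [hb, he, map_mul, mul_smul]) hb₂ (Or.inr hb₂')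

include D in
/-- A class trivial at the generic point has a global section which is nonzero on the fibre over
any field at the closed point. -/
theorem CurveCover.exists_section_ne_zero [IsDomain V] [ValuationRing V] (K : Type u) [Field K]
    [Algebra V K] [IsFractionRing V K] (N : Cocycle (pullback c t))
    [Nonempty ↑(pullback c (Spec.map (CommRingCat.ofHom (algebraMap V K)) ≫ t))]
    (hgen : Pic.map (mapT t (algebraMap V K)) (Pic.mk N) = 1) :
    ∃ s : N.Sec ⊤, N.pullSec (mapT t f) (W := ⊤) (W' := ⊤) (fun _ _ => trivial) s ≠ 0 := by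
  rw [Pic.map_mk, Pic.one_def, Pic.mk_eq_mk] at hgen
  obtain ⟨σ, hσ⟩ := Cocycle.exists_ne_zero_of_equiv_one _ hgen
  obtain ⟨aU, aV, hagree, hne⟩ := D.exists_scaled_sections t K N hσ
  exact D.exists_divided_section t f N aU aV hagree hne

omit D in
theorem CurveCover.isPullback_mapT : IsPullback (mapT (c := c) t f)
    (pullback.snd c (Spec.map (CommRingCat.ofHom f) ≫ t)) (pullback.snd c t)
    (Spec.map (CommRingCat.ofHom f)) :=
  IsPullback.of_right (v₁₃ := c) (h₁₂ := pullback.fst c t) (h₂₂ := t)
    (by rw [mapT_fst]; exact IsPullback.of_hasPullback c _) (mapT_snd t f)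
    (IsPullback.of_hasPullback c t)

omit D t in
theorem specMap_closedPoint [IsLocalRing V] (hf : ∀ d, ¬IsUnit d → f d = 0) :
    (Spec.map (CommRingCat.ofHom f)).base (IsLocalRing.closedPoint F) =
      IsLocalRing.closedPoint V := by
  refine PrimeSpectrum.ext ?_
  show (IsLocalRing.maximalIdeal F).comap f = IsLocalRing.maximalIdeal V
  refine le_antisymm (IsLocalRing.le_maximalIdeal (Ideal.IsPrime.comap f).ne_top) fun d hd => ?_
  rw [Ideal.mem_comap, hf d hd]
  exact zero_mem _

/-- A section vanishing nowhere on a fibre at the closed point vanishes nowhere. -/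
theorem CurveCover.isUnitAt_of_closed_fibre [IsLocalRing V] [UniversallyClosed c]
    (hf : ∀ d, ¬IsUnit d → f d = 0) (N : Cocycle (pullback c t)) (s : N.Sec ⊤)
    (h : ∀ y, (N.pullback (mapT t f)).IsUnitAt
      (N.pullSec (mapT t f) (W := ⊤) (W' := ⊤) (fun _ _ => trivial) s) y) (z : ↑(pullback c t)) :
    N.IsUnitAt s z := by
  by_contra hz
  obtain ⟨w, hwc, hw⟩ := exists_closedPoint_notMem (pullback.snd c t) (N.isOpen_isUnitAt s) hz
  obtain ⟨y, hy, -⟩ := Scheme.exists_preimage_of_isPullback (CurveCover.isPullback_mapT t f) w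
    (IsLocalRing.closedPoint F) (hwc.trans (specMap_closedPoint f hf).symm)
  exact hw (hy ▸ N.isUnitAt_of_pullSec (mapT t f) s (h y))

end Valuation

attribute [local instance] isIntegral_fibre

/-- A rigidified class of degree zero over a valuation ring is determined by the generic point. -/
theorem CurveCover.isSeparatedFunctor {k : Type u} [Field k] [IsAlgClosed k] {C : Scheme.{u}}
    {c : C ⟶ Spec (CommRingCat.of k)} [IsProper c] [SmoothOfRelativeDimension 1 c] [IsIntegral C]
    (D : CurveCover k c) (ε : SchemeHomOver (𝟙 (Spec (CommRingCat.of k))) c) :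
    D.IsSeparatedFunctor ε := by
  intro V K _ _ _ _ _ _ t L L' hLL
  refine Subtype.ext ?_
  have hgen : Pic.map (mapT t (algebraMap V K)) (L.1 * L'.1⁻¹) = 1 := by
    rw [map_mul, map_inv, show Pic.map (mapT t (algebraMap V K)) L.1 =
      Pic.map (mapT t (algebraMap V K)) L'.1 from congrArg Subtype.val hLL, mul_inv_cancel]
  obtain ⟨N, hN⟩ := Pic.mk_surjective (L.1 * L'.1⁻¹)
  rw [← mul_inv_eq_one, ← hN]
  have : Nonempty ↑(pullback c (Spec.map (CommRingCat.ofHom (algebraMap V K)) ≫ t)) := by
    obtain ⟨z, -, -⟩ := Scheme.Pullback.exists_preimage_pullback (f := c)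
      (g := Spec.map (CommRingCat.ofHom (algebraMap V K)) ≫ t)
      ((D.pt ⟨0, D.r_pos⟩).1 (IsLocalRing.closedPoint k)) (IsLocalRing.closedPoint K)
      (Subsingleton.elim _ _)
    exact ⟨z⟩
  let κ := AlgebraicClosure (IsLocalRing.ResidueField V)
  let f : V →+* κ := (algebraMap (IsLocalRing.ResidueField V) κ).comp (IsLocalRing.residue V)
  obtain ⟨s, hs⟩ := D.exists_section_ne_zero t f K N (hN.symm ▸ hgen)
  refine N.mk_eq_one_of_isUnitAt s (CurveCover.isUnitAt_of_closed_fibre t f (fun d hd => ?_) N s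
    fun y => ⟨y, _, le_rfl, Cocycle.mem _ y, D.isUnit_coord_of_deg_eq_zero _ _ _ hs ?_ y le_rfl⟩)
  · show algebraMap (IsLocalRing.ResidueField V) κ (IsLocalRing.residue V d) = 0
    rw [(IsLocalRing.residue_eq_zero_iff d).mpr hd, map_zero]
  · rw [← Pic.map_mk, hN, map_mul, map_inv]
    have h := D.deg_mul (t := Spec.map (CommRingCat.ofHom f) ≫ t)
      (Pic.map (mapT t f) L.1 * (Pic.map (mapT t f) L'.1)⁻¹) (Pic.map (mapT t f) L'.1)
    have hL : D.deg _ (Pic.map (mapT t f) L.1) = 0 := L.2.2 κ (Spec.map (CommRingCat.ofHom f))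
    have hL' : D.deg _ (Pic.map (mapT t f) L'.1) = 0 := L'.2.2 κ (Spec.map (CommRingCat.ofHom f))
    rw [inv_mul_cancel_right, hL, hL', add_zero] at h
    exact h.symm

end FLTAgent.RelPicard
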