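import Fermat.Agent.RelPicard.CoverExists
import Fermat.Agent.RelPicard.PicSheaf
import Fermat.Agent.RelPicard.CutBridge
import Fermat.Agent.RelPicard.Lifting
import Fermat.Agent.RelPicard.AbelMap
import Fermat.Agent.RelPicard.GreedyTwists
import Fermat.Agent.RelPicard.SeparatedCore
import Fermat.Agent.RelPicard.ChartInputOfFrames

/-!
# The Jacobian of a curve over an algebraically closed field

`exists_representsRelSubPic`: the functor of rigidified classes of degree zero is a separated sheaf
covered by finitely many smooth charts, so it is represented by a smooth proper geometrically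
connected scheme.  Used by S25.
-/

set_option autoImplicit false

universe u

open CategoryTheory CategoryTheory.Limits AlgebraicGeometry AlgebraicGeometry.RelPicard
  NeronModelInfra GoodReductionJacobian

noncomputable section

namespace FLTAgent.RelPicard

/-- **`Pic⁰` of a smooth proper curve is representable.** -/
theorem exists_representsRelSubPic (k : Type u) [Field k] [IsAlgClosed k] {C : Scheme.{u}}
    (c : C ⟶ Spec (CommRingCat.of k)) [IsProper c] [SmoothOfRelativeDimension 1 c] [IsIntegral C]
    (ε : SchemeHomOver (𝟙 (Spec (CommRingCat.of k))) c) :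
    ∃ D : RelativePic0Designation k c,
      Nonempty (RepresentsRelSubPic c ε (algEquivZeroCut c ε) D) ∧
        Smooth D.toBase ∧ IsProper D.toBase ∧ GeometricallyConnected D.toBase := by
  obtain ⟨D⟩ := exists_curveCover k c
  obtain ⟨Tw⟩ := D.nonempty_twists
  let I := CurveCover.chartInput Tw
  have hG := D.isZariskiSheaf_relFunctor ε
  let S := I.chartSystem ε hG
  have : ∀ i, CompactSpace (S.Z i).left := fun i =>
    inferInstanceAs (CompactSpace (Spec (CommRingCat.of (I.spec.ChartRing (Prod.snd i).1))))
  obtain ⟨P, p, hp, hP, a, ha⟩ := D.exists_class_family ε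
  exact exists_of_inputs (classDictionary D) hG S
    (fun i => smooth_chart (D.liftsAlongSquareZero ε) S i
      (A := I.spec.ChartRing (Prod.snd i).1) (eqToIso (I.chartSystem_Z hG i).symm))
    (D.isSeparatedFunctor ε) a ha

end FLTAgent.RelPicard

end
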