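import Fermat.Agent.RelPicard.DiagonalClass
import Fermat.Agent.RelPicard.AffineSections

/-!
# Evaluation of sections at a rational point

For a section `σ` of a scheme over a field, the value at `σ` of a section of a cocycle in the
frame at the point. A section of a curve is never cut out by zero.

Main declarations: `pointValue`, `secValue`, `secValue_surjective`, `ker_app_ne_bot`.
-/

set_option autoImplicit false

universe u

open CategoryTheory CategoryTheory.Limits AlgebraicGeometry TopologicalSpace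

noncomputable section

namespace FLTAgent.RelPicard

variable {K : Type u} [Field K] {X : Scheme.{u}} {π : X ⟶ Spec (CommRingCat.of K)}
  (σ : Spec (CommRingCat.of K) ⟶ X)

theorem top_le_preimage_point {V : X.Opens} (h : σ.base (IsLocalRing.closedPoint K) ∈ V) :
    ⊤ ≤ σ ⁻¹ᵁ V := fun p _ => by
  rw [Subsingleton.elim p (IsLocalRing.closedPoint K)]
  exact h

theorem preimage_eq_bot_of_notMem {V : X.Opens} (h : σ.base (IsLocalRing.closedPoint K) ∉ V) :
    σ ⁻¹ᵁ V = ⊥ :=
  le_bot_iff.mp fun p hp =>
    (h (by rwa [Subsingleton.elim p (IsLocalRing.closedPoint K)] at hp)).elim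

/-- The value of a function at the point. -/
def pointValue {V : X.Opens} (h : σ.base (IsLocalRing.closedPoint K) ∈ V) : Γ(X, V) →+* K :=
  (Scheme.ΓSpecIso (CommRingCat.of K)).hom.hom.comp (pull σ (top_le_preimage_point σ h))

theorem pointValue_res {V V' : X.Opens} (hV : V' ≤ V) (h : σ.base (IsLocalRing.closedPoint K) ∈ V')
    (a : Γ(X, V)) : pointValue σ h (res hV a) = pointValue σ (hV h) a :=
  congrArg _ (pull_res σ hV _ a)

theorem pointValue_scalarHom (hσ : σ ≫ π = 𝟙 _) {V : X.Opens}
    (h : σ.base (IsLocalRing.closedPoint K) ∈ V) (a : K) :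
    pointValue σ h (scalarHom π V a) = a := by
  show (Scheme.ΓSpecIso (CommRingCat.of K)).hom (pull σ _ (pull π le_top
    ((Scheme.ΓSpecIso (CommRingCat.of K)).inv a))) = a
  rw [pull_pull, pull_congr (U := ⊤) hσ _ (fun _ _ => trivial), pull_id, res_self]
  exact DFunLike.congr_fun (congrArg CommRingCat.Hom.hom
    (Scheme.ΓSpecIso (CommRingCat.of K)).inv_hom_id) a

theorem pointValue_eq_zero_iff_pull {V : X.Opens} (h : σ.base (IsLocalRing.closedPoint K) ∈ V)
    (a : Γ(X, V)) : pointValue σ h a = 0 ↔ pull σ (top_le_preimage_point σ h) a = 0 :=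
  map_eq_zero_iff _
    (ConcreteCategory.bijective_of_isIso (Scheme.ΓSpecIso (CommRingCat.of K)).hom).1

theorem pointValue_eq_zero_iff_app {V : X.Opens} (h : σ.base (IsLocalRing.closedPoint K) ∈ V)
    (a : Γ(X, V)) : pointValue σ h a = 0 ↔ (σ.app V).hom a = 0 := by
  rw [pointValue_eq_zero_iff_pull]
  exact map_eq_zero_iff (res (top_le_preimage_point σ h))
    (res_injective_of_le _ le_top)

/-- The value is zero exactly when the point is outside the nonvanishing locus. -/
theorem pointValue_eq_zero_iff_notMem {V : X.Opens} (h : σ.base (IsLocalRing.closedPoint K) ∈ V)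
    (a : Γ(X, V)) : pointValue σ h a = 0 ↔ σ.base (IsLocalRing.closedPoint K) ∉ X.basicOpen a := by
  rw [pointValue_eq_zero_iff_app, ← basicOpen_eq_bot_iff, ← Scheme.preimage_basicOpen]
  exact ⟨fun hb hm => (hb.le hm : _ ∈ (⊥ : (Spec (CommRingCat.of K)).Opens)).elim,
    preimage_eq_bot_of_notMem σ⟩

variable (hσ : σ ≫ π = 𝟙 _)

/-- The value at the point of a section, in the frame at the point. -/
def secValue (M : Cocycle X) (W : X.Opens) (h : σ.base (IsLocalRing.closedPoint K) ∈ W) :
    SecOver π M W →ₗ[K] K where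
  toFun s := pointValue σ (V := W ⊓ M.nbhd _) ⟨h, M.mem _⟩ ((show M.Sec W from s).1 _)
  map_add' s s' := map_add (pointValue σ _) _ _
  map_smul' a s := by
    show pointValue σ _ (res inf_le_left (scalarHom π W a) * _) = _
    rw [map_mul, res_scalarHom, pointValue_scalarHom σ hσ]
    rfl

variable (M : Cocycle X) {W : X.Opens} (h : σ.base (IsLocalRing.closedPoint K) ∈ W)

theorem secValue_secRes {W' : X.Opens} (hW : W' ≤ W) (h' : σ.base (IsLocalRing.closedPoint K) ∈ W')
    (s : SecOver π M W) :
    secValue σ hσ M W' h' (secRes π M hW s) = secValue σ hσ M W (hW h') s :=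
  pointValue_res σ _ (V' := W' ⊓ M.nbhd _) ⟨h', M.mem _⟩ _

theorem secValue_secMul (b : Γ(X, W)) (s : SecOver π M W) :
    secValue σ hσ M W h (secMul π M b s) = pointValue σ h b * secValue σ hσ M W h s := by
  show pointValue σ (V := W ⊓ M.nbhd _) ⟨h, M.mem _⟩ (res inf_le_left b * _) = _
  rw [map_mul, pointValue_res]
  rfl

/-- The value vanishes iff any coordinate does. -/
theorem secValue_eq_zero_iff (s : SecOver π M W) (p : X) {P : X.Opens} (hP : P ≤ W)
    (hp : P ≤ M.nbhd p) (hxP : σ.base (IsLocalRing.closedPoint K) ∈ P) :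
    secValue σ hσ M W h s = 0 ↔ pointValue σ hxP (M.coord p hP hp (show M.Sec W from s)) = 0 := by
  set x₀ := σ.base (IsLocalRing.closedPoint K)
  set Q : X.Opens := P ⊓ M.nbhd x₀
  have hQ : x₀ ∈ Q := ⟨hxP, M.mem _⟩
  have e : pointValue σ hxP (M.coord p hP hp (show M.Sec W from s)) =
      pointValue σ hQ ((↑(M.gOn p x₀ (inf_le_left.trans hp) inf_le_right) : Γ(X, Q))) *
        secValue σ hσ M W h s := by
    rw [← pointValue_res σ (inf_le_left : Q ≤ P) hQ, Cocycle.res_coord,
      M.coord_change p x₀ (inf_le_left.trans hP) (inf_le_left.trans hp) inf_le_right, map_mul]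
    exact congrArg _ (pointValue_res σ _ hQ _)
  rw [e, mul_eq_zero]
  refine ⟨Or.inr, fun H => H.resolve_left ?_⟩
  exact ((Units.isUnit _).map (pointValue σ hQ)).ne_zero

theorem secValue_eq_zero_iff_notMem (s : SecOver π M W) (p : X) {P : X.Opens} (hP : P ≤ W)
    (hp : P ≤ M.nbhd p) (hxP : σ.base (IsLocalRing.closedPoint K) ∈ P) :
    secValue σ hσ M W h s = 0 ↔
      σ.base (IsLocalRing.closedPoint K) ∉ X.basicOpen (M.coord p hP hp (show M.Sec W from s)) :=
  (secValue_eq_zero_iff σ hσ M h s p hP hp hxP).trans (pointValue_eq_zero_iff_notMem σ hxP _)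

theorem vanishesOn_iff_secValue (s : SecOver π M W) :
    M.VanishesOn σ (show M.Sec W from s) ↔ secValue σ hσ M W h s = 0 := by
  set x₀ := σ.base (IsLocalRing.closedPoint K)
  refine ⟨fun hv => ?_, fun hs p V hV hp => ?_⟩
  · refine (secValue_eq_zero_iff σ hσ M h s x₀ (P := W ⊓ M.nbhd x₀) inf_le_left inf_le_right
      ⟨h, M.mem _⟩).mpr ((pointValue_eq_zero_iff_app σ _ _).mpr ?_)
    exact hv x₀ _ inf_le_left inf_le_right
  · by_cases hx : x₀ ∈ V
    · exact (pointValue_eq_zero_iff_app σ hx _).mp
        ((secValue_eq_zero_iff σ hσ M h s p hV hp hx).mp hs)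
    · have : Subsingleton Γ(Spec (CommRingCat.of K), σ ⁻¹ᵁ V) := by
        rw [preimage_eq_bot_of_notMem σ hx]
        infer_instance
      exact Subsingleton.elim _ _

/-- Over an affine open set the evaluation is onto. -/
theorem secValue_surjective (hW : IsAffineOpen W) : Function.Surjective (secValue σ hσ M W h) := by
  obtain ⟨F⟩ := M.nonempty_secFrame hW
  obtain ⟨i, hi⟩ : ∃ i, secValue σ hσ M W h (show SecOver π M W from F.σ i) ≠ 0 := by
    by_contra hall
    push Not at hall
    have e := congrArg (pointValue σ h) F.sum_pair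
    rw [map_sum, map_one, Finset.sum_eq_zero fun i _ => ?_] at e
    · exact zero_ne_one e
    · rw [← pointValue_res σ (inf_le_left : W ⊓ M.nbhd (σ.base (IsLocalRing.closedPoint K)) ≤ W)
          ⟨h, M.mem _⟩, Cocycle.res_pair, map_mul]
      exact mul_eq_zero_of_right _ (hall i)
  intro r
  refine ⟨(r / secValue σ hσ M W h (show SecOver π M W from F.σ i)) •
    (show SecOver π M W from F.σ i), ?_⟩
  rw [map_smul, smul_eq_mul, div_mul_cancel₀ r hi]

/-- The multiples of the equation of the point are the sections with value zero. -/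
theorem IsEquation.range_mulLin_eq_ker {σ : Spec (CommRingCat.of K) ⟶ X} {D : Cocycle X}
    {v : D.Sec ⊤} (he : IsEquation σ D v) (hσ : σ ≫ π = 𝟙 _) (N : Cocycle X) (W : X.Opens)
    (h : σ.base (IsLocalRing.closedPoint K) ∈ W) :
    LinearMap.range (he.mulLin N π W) = LinearMap.ker (secValue σ hσ (N.mul D) W h) := by
  ext t
  rw [LinearMap.mem_ker, ← vanishesOn_iff_secValue σ hσ (N.mul D) h t]
  exact he.range_mulEq N t

omit hσ h in
/-- A section of a curve is not cut out by zero on a nonempty affine open set. -/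
theorem ker_app_ne_bot [SmoothOfRelativeDimension 1 π] (hσ : σ ≫ π = 𝟙 _) {W : X.Opens}
    (hW : IsAffineOpen W) [Nonempty W] : RingHom.ker (σ.app W).hom ≠ ⊥ := by
  intro hbot
  have hinj : Function.Injective (σ.app W).hom := (RingHom.injective_iff_ker_eq_bot _).mpr hbot
  by_cases hx : σ.base (IsLocalRing.closedPoint K) ∈ W
  swap
  · have : Subsingleton Γ(Spec (CommRingCat.of K), σ ⁻¹ᵁ W) := by
      rw [preimage_eq_bot_of_notMem σ hx]
      infer_instance
    have : Subsingleton Γ(X, W) := hinj.subsingleton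
    exact false_of_nontrivial_of_subsingleton Γ(X, W)
  have hle : W ≤ π ⁻¹ᵁ ⊤ := fun _ _ => trivial
  set φ : Γ(Spec (CommRingCat.of K), ⊤) →+* Γ(X, W) := (π.appLE ⊤ W hle).hom
  have hφ : Function.Surjective φ := fun a => by
    refine ⟨res (top_le_preimage_point σ hx) ((σ.app W).hom a), hinj ?_⟩
    rw [Scheme.Hom.app_eq_appLE]
    show pull σ le_rfl (pull π hle _) = _
    rw [pull_pull, pull_congr (U := ⊤) hσ _ (fun _ _ => trivial), pull_id, res_res]
    exact res_self _ _
  obtain ⟨S, hS, hloc⟩ :=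
    HasRingHomProperty.appLE (@SmoothOfRelativeDimension 1) π ‹_› ⟨⊤, isAffineOpen_top _⟩ ⟨W, hW⟩
      hle
  obtain ⟨a, haS, ha0⟩ : ∃ a ∈ S, a ≠ 0 := by
    by_contra hall
    push Not at hall
    exact top_ne_bot (hS.symm.trans (Ideal.span_eq_bot.mpr hall))
  have haunit : IsUnit a := by
    obtain ⟨r, rfl⟩ := hφ a
    refine ((isUnit_map_iff
      (Scheme.ΓSpecIso (CommRingCat.of K)).commRingCatIsoToRingEquiv r).mp ?_).map φ
    exact isUnit_iff_ne_zero.mpr fun hr => ha0 (by
      rw [(map_eq_zero_iff _ (RingEquiv.injective _)).mp hr, map_zero])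
  let e := IsLocalization.atUnit Γ(X, W) (Localization.Away a) a haunit
  have hsurj : Function.Surjective ((algebraMap Γ(X, W) (Localization.Away a)).comp φ) := by
    intro y
    obtain ⟨z, rfl⟩ := e.surjective y
    obtain ⟨r, rfl⟩ := hφ z
    exact ⟨r, (e.commutes (φ r)).symm⟩
  have hsmooth := hloc a haS
  let := ((algebraMap Γ(X, W) (Localization.Away a)).comp φ).toAlgebra
  have : Algebra.IsStandardSmoothOfRelativeDimension 1 Γ(Spec (CommRingCat.of K), ⊤)
      (Localization.Away a) := hsmooth
  have : Nontrivial (Localization.Away a) := e.symm.toEquiv.nontrivial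
  have := KaehlerDifferential.subsingleton_of_surjective Γ(Spec (CommRingCat.of K), ⊤)
    (Localization.Away a) hsurj
  have hr := Algebra.IsStandardSmoothOfRelativeDimension.rank_kaehlerDifferential
    (R := Γ(Spec (CommRingCat.of K), ⊤)) (S := Localization.Away a) 1
  rw [rank_subsingleton'] at hr
  exact absurd hr (by norm_num)

end FLTAgent.RelPicard

end
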