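import Mathlib

/-!
# Splitting of a pair of lattices with vanishing cohomology

An automorphism `x` of a module `W`, a submodule `M` stable under `x` and a submodule `M'` stable
under `x⁻¹`, both exhaustive, with `W = M ⊕ x⁻¹ M'`. Then `M` consists of the polynomials in `x`
with coefficients in `M ⊓ M'`, and `M'` of the polynomials in `x⁻¹`.

Main declarations: `SplitPair`, `polyM_bijective`, `frameM_bijective`; used by `FrameExists`.
-/

set_option autoImplicit false

universe u v

open Polynomial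

noncomputable section

namespace FLTAgent.RelPicard

/-- A pair of lattices for an automorphism, with vanishing cohomology. -/
structure SplitPair (R : Type u) [CommRing R] (W : Type v) [AddCommGroup W] [Module R W] where
  x : W ≃ₗ[R] W
  M : Submodule R W
  M' : Submodule R W
  x_mem : ∀ m ∈ M, x m ∈ M
  symm_mem : ∀ m ∈ M', x.symm m ∈ M'
  exhaust : ∀ w, ∃ n : ℕ, (⇑x)^[n] w ∈ M
  exhaust' : ∀ w, ∃ n : ℕ, (⇑x.symm)^[n] w ∈ M'
  bij : Function.Bijective fun p : M × M' => (p.1 : W) - x.symm p.2

namespace SplitPair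

variable {R : Type u} [CommRing R] {W : Type v} [AddCommGroup W] [Module R W] (P : SplitPair R W)

/-- The common part of the two lattices. -/
def V0 : Submodule R W := P.M ⊓ P.M'

theorem iterate_mem (n : ℕ) {m : W} (hm : m ∈ P.M) : (⇑P.x)^[n] m ∈ P.M := by
  induction n with
  | zero => exact hm
  | succ n ih =>
    rw [Function.iterate_succ_apply']
    exact P.x_mem _ ih

theorem symm_iterate_mem (n : ℕ) {m : W} (hm : m ∈ P.M') : (⇑P.x.symm)^[n] m ∈ P.M' := by
  induction n with
  | zero => exact hm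
  | succ n ih =>
    rw [Function.iterate_succ_apply']
    exact P.symm_mem _ ih

theorem symm_iterate_iterate (n : ℕ) (w : W) : (⇑P.x.symm)^[n] ((⇑P.x)^[n] w) = w :=
  Function.LeftInverse.iterate P.x.symm_apply_apply n w

/-- The same pair seen from the other end. -/
def swap : SplitPair R W where
  x := P.x.symm
  M := P.M'
  M' := P.M
  x_mem := P.symm_mem
  symm_mem := by
    intro m hm
    rw [LinearEquiv.symm_symm]
    exact P.x_mem m hm
  exhaust := P.exhaust'
  exhaust' := by
    rw [LinearEquiv.symm_symm]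
    exact P.exhaust
  bij := by
    refine ⟨fun p q h => ?_, fun w => ?_⟩
    · have h' : (fun p : P.M × P.M' => (p.1 : W) - P.x.symm p.2) (p.2, p.1) =
          (fun p : P.M × P.M' => (p.1 : W) - P.x.symm p.2) (q.2, q.1) := by
        simp only [LinearEquiv.symm_symm] at h
        simpa [map_sub] using (congrArg (fun t => -P.x.symm t) h)
      have := P.bij.1 h'
      exact Prod.ext (Prod.ext_iff.mp this).2 (Prod.ext_iff.mp this).1
    · obtain ⟨p, hp⟩ := P.bij.2 (-P.x.symm w)
      refine ⟨(p.2, p.1), ?_⟩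
      have := congrArg (fun t => -P.x t) hp
      simpa [map_sub] using this

theorem swap_V0 : P.swap.V0 = P.V0 := inf_comm _ _

theorem eq_zero_of_add_x {v : W} (hv : v ∈ P.V0) {m : W} (hm : m ∈ P.M) (h : v + P.x m = 0) :
    v = 0 ∧ m = 0 := by
  have h2 : ((⟨m, hm⟩ : P.M), (⟨-v, neg_mem hv.2⟩ : P.M')) = 0 := by
    apply P.bij.1
    show m - P.x.symm (-v) = ((0 : P.M) : W) - P.x.symm ((0 : P.M') : W)
    rw [← eq_neg_of_add_eq_zero_right h]
    simp
  have hm0 : m = 0 := congrArg (fun p : P.M × P.M' => (p.1 : W)) h2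
  refine ⟨?_, hm0⟩
  rwa [hm0, map_zero, add_zero] at h

theorem exists_add_x {m : W} (hm : m ∈ P.M) : ∃ v ∈ P.V0, ∃ m₁ ∈ P.M, m = v + P.x m₁ := by
  obtain ⟨⟨⟨m₁, h₁⟩, ⟨m', h'⟩⟩, hp⟩ := P.bij.2 (P.x.symm m)
  have hp' : P.x m₁ - m' = m := by simpa [map_sub] using congrArg P.x hp
  refine ⟨-m', ⟨?_, neg_mem h'⟩, m₁, h₁, ?_⟩
  · rw [show -m' = m - P.x m₁ by rw [← hp']; abel]
    exact sub_mem hm (P.x_mem _ h₁)
  · rw [← hp']; abel

/-- The combination `∑_{i < n} x ^ i v i`. -/
def comb (n : ℕ) (v : ℕ → W) : W := ∑ i ∈ Finset.range n, (⇑P.x)^[i] (v i)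

theorem comb_succ (n : ℕ) (v : ℕ → W) :
    P.comb (n + 1) v = P.x (P.comb n fun i => v (i + 1)) + v 0 := by
  simp only [comb, Finset.sum_range_succ', Function.iterate_zero_apply, map_sum,
    Function.iterate_succ_apply']

theorem comb_mem (n : ℕ) {v : ℕ → W} (hv : ∀ i, v i ∈ P.V0) : P.comb n v ∈ P.M :=
  sum_mem fun i _ => P.iterate_mem i (hv i).1

theorem comb_eq_zero (n : ℕ) : ∀ {v : ℕ → W}, (∀ i, v i ∈ P.V0) → P.comb n v = 0 →
    ∀ i < n, v i = 0 := by
  induction n with
  | zero => intro v _ _ i hi; omega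
  | succ n ih =>
    intro v hv h i hi
    rw [comb_succ, add_comm] at h
    obtain ⟨h0, h1⟩ := P.eq_zero_of_add_x (hv 0) (P.comb_mem n fun i => hv (i + 1)) h
    rcases i with _ | i
    · exact h0
    · exact ih (fun i => hv (i + 1)) h1 i (by omega)

theorem exists_comb (n : ℕ) : ∀ {m : W}, m ∈ P.M → (⇑P.x.symm)^[n] m ∈ P.M' →
    ∃ v : ℕ → W, (∀ i, v i ∈ P.V0) ∧ m = P.comb (n + 1) v := by
  induction n with
  | zero =>
    intro m hm hm'
    exact ⟨fun _ => m, fun _ => ⟨hm, hm'⟩, by simp [comb]⟩
  | succ n ih =>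
    intro m hm hm'
    obtain ⟨v, hv, m₁, h₁, rfl⟩ := P.exists_add_x hm
    have hm₁ : (⇑P.x.symm)^[n] m₁ ∈ P.M' := by
      rw [iterate_map_add, Function.iterate_succ_apply _ n (P.x m₁),
        LinearEquiv.symm_apply_apply] at hm'
      simpa using sub_mem hm' (P.symm_iterate_mem (n + 1) hv.2)
    obtain ⟨w, hw, rfl⟩ := ih h₁ hm₁
    refine ⟨fun i => Nat.casesOn i v w, ?_, ?_⟩
    · intro i
      rcases i with _ | i
      · exact hv
      · exact hw i
    · rw [P.comb_succ (n + 1), add_comm]
      rfl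

theorem symm_iterate_comb_mem (n : ℕ) {v : ℕ → W} (hv : ∀ i, v i ∈ P.V0) :
    (⇑P.x.symm)^[n] (P.comb (n + 1) v) ∈ P.M' := by
  show _ ∈ P.M'
  have : (⇑P.x.symm)^[n] (P.comb (n + 1) v) =
      (P.x.symm.toLinearMap ^ n) (P.comb (n + 1) v) := by
    rw [Module.End.pow_apply]; rfl
  rw [this, comb, map_sum]
  refine sum_mem fun i hi => ?_
  rw [Module.End.pow_apply]
  show (⇑P.x.symm)^[n] _ ∈ P.M'
  obtain ⟨j, rfl⟩ : ∃ j, n = j + i :=
    ⟨n - i, by have := Finset.mem_range.mp hi; omega⟩
  rw [Function.iterate_add_apply, symm_iterate_iterate]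
  exact P.symm_iterate_mem j (hv i).2

/-- Polynomials in `x` with coefficients in the common part. -/
def poly : (ℕ →₀ P.V0) →ₗ[R] W :=
  Finsupp.lsum R fun i => (P.x.toLinearMap ^ i).comp P.V0.subtype

theorem poly_apply {f : ℕ →₀ P.V0} {n : ℕ} (hn : f.support ⊆ Finset.range n) :
    P.poly f = P.comb n fun i => (f i : W) := by
  rw [poly, Finsupp.lsum_apply, Finsupp.sum_of_support_subset f hn _ (by simp), comb]
  refine Finset.sum_congr rfl fun i _ => ?_
  simp [Module.End.pow_apply]

theorem exists_range (f : ℕ →₀ P.V0) : ∃ n, f.support ⊆ Finset.range n :=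
  ⟨f.support.sup id + 1, fun i hi => Finset.mem_range.mpr (by
    have := Finset.le_sup (f := id) hi; simp only [id] at this; omega)⟩

theorem poly_mem (f : ℕ →₀ P.V0) : P.poly f ∈ P.M := by
  obtain ⟨n, hn⟩ := P.exists_range f
  rw [P.poly_apply hn]
  exact P.comb_mem n fun i => (f i).2

theorem poly_injective : Function.Injective P.poly := by
  refine (injective_iff_map_eq_zero P.poly).mpr fun f h => ?_
  obtain ⟨n, hn⟩ := P.exists_range f
  rw [P.poly_apply hn] at h
  ext i
  by_cases hi : i ∈ f.support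
  · simpa using P.comb_eq_zero n (fun j => (f j).2) h i (Finset.mem_range.mp (hn hi))
  · simp [Finsupp.notMem_support_iff.mp hi]

theorem mem_symm_iterate_iff (n : ℕ) {m : W} :
    (m ∈ P.M ∧ (⇑P.x.symm)^[n] m ∈ P.M') ↔
      ∃ f : ℕ →₀ P.V0, P.poly f = m ∧ ∀ i, n < i → f i = 0 := by
  constructor
  · rintro ⟨h, h'⟩
    obtain ⟨v, hv, rfl⟩ := P.exists_comb n h h'
    refine ⟨Finsupp.onFinset (Finset.range (n + 1))
      (fun i => if i ≤ n then (⟨v i, hv i⟩ : P.V0) else 0) ?_, ?_, ?_⟩
    · intro i hi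
      by_contra hc
      rw [Finset.mem_range] at hc
      exact hi (if_neg (by omega))
    · rw [P.poly_apply Finsupp.support_onFinset_subset, comb, comb]
      refine Finset.sum_congr rfl fun i hi => ?_
      rw [Finset.mem_range] at hi
      simp [show i ≤ n by omega]
    · intro i hi
      simp [show ¬ i ≤ n by omega]
  · rintro ⟨f, rfl, hf⟩
    have hn : f.support ⊆ Finset.range (n + 1) := fun i hi => by
      rw [Finset.mem_range]
      by_contra hc
      exact Finsupp.mem_support_iff.mp hi (hf i (by omega))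
    refine ⟨P.poly_mem f, ?_⟩
    rw [P.poly_apply hn]
    exact P.symm_iterate_comb_mem n fun i => (f i).2

/-- `M` is the module of polynomials in `x` over the common part. -/
def polyM : (ℕ →₀ P.V0) →ₗ[R] P.M := P.poly.codRestrict P.M P.poly_mem

theorem polyM_bijective : Function.Bijective P.polyM := by
  refine ⟨fun f g h => P.poly_injective (congrArg Subtype.val h), fun m => ?_⟩
  obtain ⟨n, hn⟩ := P.exhaust' m.1
  obtain ⟨f, hf, -⟩ := (P.mem_symm_iterate_iff n).mp ⟨m.2, hn⟩
  exact ⟨f, Subtype.ext hf⟩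

/-- Reduction modulo `x - t`: `M = V0 ⊕ (x - t) M`. -/
theorem bijective_add_sub_smul (t : R) :
    Function.Bijective fun p : P.V0 × P.M =>
      (⟨(p.1 : W) + (P.x p.2 - t • (p.2 : W)), add_mem p.1.2.1
        (sub_mem (P.x_mem _ p.2.2) (P.M.smul_mem t p.2.2))⟩ : P.M) := by
  constructor
  · intro p q h
    have h' : ((p.1 - q.1 : P.V0) : W) +
      (P.x (p.2 - q.2 : P.M) - t • ((p.2 - q.2 : P.M) : W)) = 0 := by
      have := congrArg Subtype.val h
      simp only [Submodule.coe_sub, map_sub, smul_sub] at this ⊢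
      linear_combination (norm := abel) this
    obtain ⟨f, hf⟩ := P.polyM_bijective.2 (p.2 - q.2)
    obtain ⟨n, hn⟩ := P.exists_range f
    have hfm : P.comb n (fun i => (f i : W)) = ((p.2 - q.2 : P.M) : W) := by
      rw [← P.poly_apply hn]; exact congrArg Subtype.val hf
    let g : ℕ → W := fun i => Nat.casesOn i ((p.1 - q.1 : P.V0) : W) (fun j => (f j : W))
    let g' : ℕ → W := fun i => g i - t • (f i : W)
    have hg : ∀ i, g' i ∈ P.V0 := by
      intro i
      refine sub_mem ?_ (P.V0.smul_mem t (f i).2)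
      rcases i with _ | i
      · exact (p.1 - q.1).2
      · exact (f i).2
    have hzero : P.comb (n + 1) g' = 0 := by
      have h1 : P.comb (n + 1) g' = P.comb (n + 1) g - t • P.comb (n + 1) (fun i => (f i : W)) := by
        simp only [comb, g', Finset.smul_sum, ← Finset.sum_sub_distrib]
        refine Finset.sum_congr rfl fun i _ => ?_
        show (⇑P.x)^[i] (g i - t • (f i : W)) = _
        have hpow : ∀ w : W, (⇑P.x)^[i] w = (P.x.toLinearMap ^ i) w := fun w => by
          rw [Module.End.pow_apply]; rfl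
        rw [hpow, hpow, hpow, map_sub, map_smul]
      have h2 : P.comb (n + 1) (fun i => (f i : W)) = P.comb n (fun i => (f i : W)) := by
        rw [← P.poly_apply (hn.trans (Finset.range_mono (by omega))), P.poly_apply hn]
      rw [h1, h2, P.comb_succ, hfm]
      show P.x ((p.2 - q.2 : P.M) : W) + ((p.1 - q.1 : P.V0) : W) - _ = 0
      linear_combination (norm := abel) h'
    have hz : ∀ i, i < n + 1 → g' i = 0 := P.comb_eq_zero (n + 1) hg hzero
    have hfz : ∀ k, k ≤ n → (f (n - k) : W) = 0 := by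
      intro k
      induction k with
      | zero =>
        intro _
        have : f n = 0 := Finsupp.notMem_support_iff.mp fun hc => by
          have := Finset.mem_range.mp (hn hc); omega
        simp [this]
      | succ k ih =>
        intro hk
        have h3 := hz (n - (k + 1) + 1) (by omega)
        simp only [g', g] at h3
        rw [show n - (k + 1) + 1 = n - k by omega, ih (by omega), smul_zero, sub_zero] at h3
        exact h3
    have hf0 : f = 0 := by
      ext i
      by_cases hi : i ≤ n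
      · simpa [show n - (n - i) = i by omega] using hfz (n - i) (by omega)
      · simp [Finsupp.notMem_support_iff.mp fun hc => hi (Finset.mem_range.mp (hn hc)).le]
    have h20 : p.2 = q.2 := sub_eq_zero.mp (by rw [← hf, hf0, map_zero])
    have h10 := hz 0 (by omega)
    simp only [g', g, hf0, Finsupp.coe_zero, Pi.zero_apply, Submodule.coe_zero, smul_zero,
      sub_zero, Submodule.coe_sub] at h10
    exact Prod.ext (Subtype.ext (sub_eq_zero.mp h10)) h20
  · intro m
    suffices key : ∀ n, ∀ v : ℕ → W, (∀ i, v i ∈ P.V0) → ∃ a ∈ P.V0, ∃ b ∈ P.M,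
        P.comb n v = a + (P.x b - t • b) by
      obtain ⟨f, hf⟩ := P.polyM_bijective.2 m
      obtain ⟨n, hn⟩ := P.exists_range f
      obtain ⟨a, ha, b, hb, he⟩ := key n (fun i => (f i : W)) fun i => (f i).2
      refine ⟨(⟨a, ha⟩, ⟨b, hb⟩), Subtype.ext ?_⟩
      rw [← hf]
      show a + (P.x b - t • b) = P.poly f
      rw [P.poly_apply hn, he]
    intro n
    induction n with
    | zero => intro v _; exact ⟨0, zero_mem _, 0, zero_mem _, by simp [comb]⟩
    | succ n ih =>
      intro v hv
      obtain ⟨a, ha, b, hb, he⟩ := ih (fun i => v (i + 1)) fun i => hv (i + 1)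
      refine ⟨t • a + v 0, add_mem (P.V0.smul_mem t ha) (hv 0), a + (P.x b), add_mem ha.1
        (P.x_mem _ hb), ?_⟩
      rw [P.comb_succ, he]
      simp only [map_add, map_sub, map_smul, smul_add]
      abel

section Frame

variable {r : ℕ} (b : Module.Basis (Fin r) R P.V0)

/-- The identification of `r`-tuples of polynomials with `M` given by a frame of the common
part. -/
def frame : (Fin r → R[X]) →ₗ[R] W :=
  ∑ i, (LinearMap.applyₗ (b i : W)).comp
    ((Polynomial.aeval (P.x.toLinearMap : Module.End R W)).toLinearMap.comp (LinearMap.proj i))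

theorem frame_apply (p : Fin r → R[X]) :
    P.frame b p = ∑ i, Polynomial.aeval (P.x.toLinearMap : Module.End R W) (p i) (b i : W) := by
  simp [frame]

theorem frame_eq_comb (p : Fin r → R[X]) {n : ℕ} (hn : ∀ i, (p i).natDegree < n) :
    P.frame b p = P.comb n fun j => ∑ i, (p i).coeff j • (b i : W) := by
  simp only [frame_apply, comb]
  have h : ∀ (j : ℕ) (w : Fin r → W), (⇑P.x)^[j] (∑ i, w i) = ∑ i, (⇑P.x)^[j] (w i) := by
    intro j w
    have hp : ∀ z : W, (⇑P.x)^[j] z = (P.x.toLinearMap ^ j) z := fun z => by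
      rw [Module.End.pow_apply]; rfl
    simp only [hp, map_sum]
  simp only [h]
  rw [Finset.sum_comm]
  refine Finset.sum_congr rfl fun i _ => ?_
  rw [Polynomial.aeval_eq_sum_range' (hn i)]
  simp only [LinearMap.sum_apply, LinearMap.smul_apply, Module.End.pow_apply]
  refine Finset.sum_congr rfl fun j _ => ?_
  have := (P.x.toLinearMap ^ j).map_smul ((p i).coeff j) (b i : W)
  simp only [Module.End.pow_apply] at this
  exact this.symm

theorem exists_natDegree_lt (p : Fin r → R[X]) : ∃ n, ∀ i, (p i).natDegree < n :=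
  ⟨(Finset.univ.sup fun i => (p i).natDegree) + 1, fun i =>
    Nat.lt_succ_of_le (Finset.le_sup (f := fun i => (p i).natDegree) (Finset.mem_univ i))⟩

theorem frame_mem (p : Fin r → R[X]) : P.frame b p ∈ P.M := by
  obtain ⟨n, hn⟩ := exists_natDegree_lt p
  rw [P.frame_eq_comb b p hn]
  exact P.comb_mem n fun j => sum_mem fun i _ => P.V0.smul_mem _ (b i).2

theorem frame_injective : Function.Injective (P.frame b) := by
  refine (injective_iff_map_eq_zero (P.frame b)).mpr fun p h => ?_
  obtain ⟨n, hn⟩ := exists_natDegree_lt p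
  rw [P.frame_eq_comb b p hn] at h
  funext i
  ext j
  by_cases hj : j < n
  · have h0 := P.comb_eq_zero n (fun j => sum_mem fun i _ => P.V0.smul_mem _ (b i).2) h j hj
    have h1 : ∑ i, (p i).coeff j • b i = 0 := Subtype.ext (by simpa using h0)
    simpa using Fintype.linearIndependent_iff.mp b.linearIndependent (fun i => (p i).coeff j) h1 i
  · simpa using Polynomial.coeff_eq_zero_of_natDegree_lt (lt_of_lt_of_le (hn i) (by omega))

theorem exists_frame (n : ℕ) {m : W} (hm : m ∈ P.M) (hm' : (⇑P.x.symm)^[n] m ∈ P.M') :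
    ∃ p : Fin r → R[X], P.frame b p = m ∧ ∀ i, (p i).natDegree ≤ n := by
  obtain ⟨v, hv, rfl⟩ := P.exists_comb n hm hm'
  refine ⟨fun i => ∑ j ∈ Finset.range (n + 1), monomial j (b.repr ⟨v j, hv j⟩ i), ?_, fun i => ?_⟩
  · have hdeg : ∀ i, (∑ j ∈ Finset.range (n + 1),
        monomial j (b.repr ⟨v j, hv j⟩ i) : R[X]).natDegree < n + 1 := fun i =>
      Nat.lt_succ_of_le (natDegree_sum_le_of_forall_le _ _ fun j hj =>
        (natDegree_monomial_le _).trans (Nat.le_of_lt_succ (Finset.mem_range.mp hj)))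
    rw [P.frame_eq_comb b _ hdeg, comb, comb]
    refine Finset.sum_congr rfl fun j hj => congrArg _ ?_
    simp only [finsetSum_coeff, coeff_monomial, Finset.sum_ite_eq', hj, if_true]
    have h := congrArg P.V0.subtype (b.sum_repr ⟨v j, hv j⟩)
    simp only [map_sum, map_smul, Submodule.subtype_apply] at h
    exact h
  · exact natDegree_sum_le_of_forall_le _ _ fun j hj =>
      (natDegree_monomial_le _).trans (Nat.le_of_lt_succ (Finset.mem_range.mp hj))

/-- The frame, onto `M`. -/
def frameM : (Fin r → R[X]) →ₗ[R] P.M := (P.frame b).codRestrict P.M (P.frame_mem b)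

theorem frameM_bijective : Function.Bijective (P.frameM b) := by
  refine ⟨fun p q h => P.frame_injective b (congrArg Subtype.val h), fun m => ?_⟩
  obtain ⟨n, hn⟩ := P.exhaust' m.1
  obtain ⟨p, hp, -⟩ := P.exists_frame b n m.2 hn
  exact ⟨p, Subtype.ext hp⟩

end Frame

end SplitPair

end FLTAgent.RelPicard
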