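import Fermat.Agent.RelPicard.AffineSections
import Fermat.Agent.RelPicard.Defs

/-!
# Sections on a chart over a valuation ring

Functions on a chart are vectors of polynomials, so a section over a chart of a curve over a
valuation ring is a scalar times a section which does not vanish on any fibre at the closed point,
and every section over the fraction field is a scalar multiple of a section over the valuation ring.

Main results: `exists_smul_eq_pullSec`, `exists_eq_smul_pullSec_ne_zero`.
-/

set_option autoImplicit false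

universe u

open CategoryTheory CategoryTheory.Limits AlgebraicGeometry TopologicalSpace Polynomial

noncomputable section

namespace FLTAgent.RelPicard

/-- In a valuation ring some member of a nonempty finite set divides all of them. -/
theorem exists_dvd_forall {R : Type u} [CommRing R] [IsDomain R] [ValuationRing R] {S : Finset R}
    (hS : S.Nonempty) : ∃ d ∈ S, ∀ x ∈ S, d ∣ x := by
  induction hS using Finset.Nonempty.cons_induction with
  | singleton x => exact ⟨x, Finset.mem_singleton_self x, fun y hy => by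
      rw [Finset.mem_singleton.mp hy]⟩
  | cons x s hx hs ih =>
    obtain ⟨d, hds, hd⟩ := ih
    rcases ValuationRing.dvd_total x d with h | h
    · exact ⟨x, Finset.mem_cons_self x s, fun y hy => (Finset.mem_cons.mp hy).elim
        (fun e => by rw [e]) fun e => h.trans (hd y e)⟩
    · exact ⟨d, Finset.mem_cons_of_mem hds, fun y hy => (Finset.mem_cons.mp hy).elim
        (fun e => by rw [e]; exact h) fun e => hd y e⟩

section Poly

variable {R : Type u} [CommRing R] {X : Scheme.{u}} (π : X ⟶ Spec (CommRingCat.of R))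
  {W : X.Opens} (z : Γ(X, W)) {r : ℕ} (w : Fin r → Γ(X, W))

theorem polyComb_smul (d : R) (p : Fin r → R[X]) :
    polyComb π W z w (fun j => Polynomial.C d * p j) = scalarHom π W d * polyComb π W z w p := by
  simp only [polyComb, Finset.mul_sum, eval₂_mul, eval₂_C, mul_assoc]

theorem polyComb_zero : polyComb π W z w 0 = 0 := by
  simp [polyComb]

theorem scalarHom_mul_eq_zero_iff [IsDomain R] (hb : Function.Bijective (polyComb π W z w))
    {d : R} (hd : d ≠ 0) (a : Γ(X, W)) : scalarHom π W d * a = 0 ↔ a = 0 := by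
  refine ⟨fun h => ?_, fun h => by rw [h, mul_zero]⟩
  obtain ⟨p, rfl⟩ := hb.2 a
  rw [← polyComb_smul, ← polyComb_zero π z w] at h
  have hp : p = 0 := funext fun j => by
    have := congrFun (hb.1 h) j
    simpa [hd] using this
  rw [hp, polyComb_zero]

/-- A finite family of functions over a valuation ring is a scalar times a family with a unit
coefficient. -/
theorem exists_content [IsDomain R] [ValuationRing R]
    (hb : Function.Bijective (polyComb π W z w)) {n : ℕ} (a : Fin n → Γ(X, W)) {i₀ : Fin n}
    (ha : a i₀ ≠ 0) :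
    ∃ (d : R) (p : Fin n → Fin r → R[X]), d ≠ 0 ∧
      (∀ i, a i = scalarHom π W d * polyComb π W z w (p i)) ∧
      ∃ i j m, IsUnit ((p i j).coeff m) := by
  classical
  choose q hq using fun i => hb.2 (a i)
  let S : Finset R := Finset.univ.biUnion fun i : Fin n =>
    Finset.univ.biUnion fun j : Fin r => (q i j).support.image fun m => (q i j).coeff m
  have hS : ∀ i j m, (q i j).coeff m = 0 ∨ (q i j).coeff m ∈ S := fun i j m => by
    by_cases h : (q i j).coeff m = 0
    · exact Or.inl h
    · exact Or.inr (Finset.mem_biUnion.mpr ⟨i, Finset.mem_univ _, Finset.mem_biUnion.mpr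
        ⟨j, Finset.mem_univ _, Finset.mem_image.mpr ⟨m, mem_support_iff.mpr h, rfl⟩⟩⟩)
  have hne : S.Nonempty := by
    by_contra hS'
    refine ha ?_
    have hq0 : q i₀ = 0 := funext fun j => Polynomial.ext fun m => by
      rcases hS i₀ j m with h | h
      · simpa using h
      · exact absurd ⟨_, h⟩ hS'
    rw [← hq i₀, hq0, polyComb_zero]
  obtain ⟨d, hdS, hd⟩ := exists_dvd_forall hne
  have hdvd : ∀ i j, Polynomial.C d ∣ q i j := fun i j => C_dvd_iff_dvd_coeff d (q i j) |>.mpr
    fun m => (hS i j m).elim (fun h => by rw [h]; exact dvd_zero _) fun h => hd _ h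
  choose p hp using hdvd
  obtain ⟨i, hi⟩ := Finset.mem_biUnion.mp hdS
  obtain ⟨j, hj⟩ := Finset.mem_biUnion.mp hi.2
  obtain ⟨m, hm, hmd⟩ := Finset.mem_image.mp hj.2
  have hd0 : d ≠ 0 := hmd ▸ mem_support_iff.mp hm
  refine ⟨d, p, hd0, fun i => ?_, i, j, m, ?_⟩
  · rw [← polyComb_smul, ← funext (hp i), hq]
  · have h := congrArg (fun f => f.coeff m) (hp i j)
    simp only [coeff_C_mul, hmd] at h
    rw [mul_left_cancel₀ hd0 (h.symm.trans (mul_one d).symm)]
    exact isUnit_one

end Poly

section Chart

variable {R : Type u} [CommRing R] {F : Type u} [Field F] (f : R →+* F) {X Y : Scheme.{u}}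
  {π : X ⟶ Spec (CommRingCat.of R)} {π' : Y ⟶ Spec (CommRingCat.of F)} {g : Y ⟶ X}
  (hg : g ≫ π = π' ≫ Spec.map (CommRingCat.ofHom f)) {W : X.Opens} {W' : Y.Opens}
  (hW : W' ≤ g ⁻¹ᵁ W) {z : Γ(X, W)} {r : ℕ} {w : Fin r → Γ(X, W)}
  (hb : Function.Bijective (polyComb π W z w))
  (hb' : Function.Bijective (polyComb π' W' (pull g hW z) fun i => pull g hW (w i)))

include hg

theorem pull_scalarHom (d : R) : pull g hW (scalarHom π W d) = scalarHom π' W' (f d) :=
  appLE_scalarHom π π' g f hg hW d

theorem pullSec_scalar_smul (N : Cocycle X) (d : R) (s : N.Sec W) :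
    N.pullSec g hW (scalarHom π W d • s) = scalarHom π' W' (f d) • N.pullSec g hW s := by
  rw [N.pullSec_smul, pull_scalarHom f hg hW]

include hb'

theorem pull_polyComb_ne_zero {p : Fin r → R[X]} {j : Fin r} {m : ℕ}
    (hu : IsUnit ((p j).coeff m)) : pull g hW (polyComb π W z w p) ≠ 0 := fun h => by
  have e := map_polyComb π π' g f hg hW z w p
  have e' : polyComb π' W' (pull g hW z) (fun i => pull g hW (w i)) (fun i => (p i).map f) =
      polyComb π' W' (pull g hW z) (fun i => pull g hW (w i)) 0 :=
    (e.symm.trans h).trans (polyComb_zero π' _ _).symm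
  have := congrArg (fun q => q.coeff m) (congrFun (hb'.1 e') j)
  simp only [coeff_map, Pi.zero_apply, coeff_zero] at this
  exact (hu.map f).ne_zero this

include hb

theorem pull_injective (hf : Function.Injective f) : Function.Injective (pull g hW) := by
  rw [injective_iff_map_eq_zero]
  intro a h
  obtain ⟨p, rfl⟩ := hb.2 a
  have e := map_polyComb π π' g f hg hW z w p
  have e' : polyComb π' W' (pull g hW z) (fun i => pull g hW (w i)) (fun i => (p i).map f) =
      polyComb π' W' (pull g hW z) (fun i => pull g hW (w i)) 0 :=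
    (e.symm.trans h).trans (polyComb_zero π' _ _).symm
  have hp : p = 0 := funext fun i => Polynomial.map_injective f hf (by
    simpa using congrFun (hb'.1 e') i)
  rw [hp, polyComb_zero]

omit hb in
/-- Up to a scalar every section over the chart of the fibre at the fraction field extends. -/
theorem exists_smul_eq_pullSec [Algebra R F] [IsFractionRing R F] (hf : f = algebraMap R F)
    (N : Cocycle X) (Fr : N.SecFrame W) (σ : (N.pullback g).Sec W') :
    ∃ (d : R) (s : N.Sec W), f d ≠ 0 ∧ N.pullSec g hW s = scalarHom π' W' (f d) • σ := by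
  classical
  subst hf
  have hcoord : ∀ i, ∃ (d : nonZeroDivisors R) (p : Fin r → R[X]),
      polyComb π' W' (pull g hW z) (fun i => pull g hW (w i))
          (fun j => (p j).map (algebraMap R F)) =
        scalarHom π' W' (algebraMap R F d) *
          (N.pullback g).pair (N.pullInvSec g hW (Fr.τ i)) σ := by
    intro i
    obtain ⟨q, hq⟩ := hb'.2 ((N.pullback g).pair (N.pullInvSec g hW (Fr.τ i)) σ)
    choose b hb₁ hp₁ using fun j => IsLocalization.integerNormalization_spec
      (nonZeroDivisors R) (q j)
    refine ⟨∏ j, ⟨b j, hb₁ j⟩, fun j => Polynomial.C (∏ l ∈ Finset.univ.erase j, b l) *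
      IsLocalization.integerNormalization (nonZeroDivisors R) (q j), ?_⟩
    rw [← hq, ← polyComb_smul]
    refine congrArg _ (funext fun j => Polynomial.ext fun m => ?_)
    have h1 := congrArg (fun P => P.coeff m) (hp₁ j)
    simp only [Polynomial.coeff_map, Algebra.smul_def, IsScalarTower.algebraMap_apply R F F[X],
      Polynomial.algebraMap_eq, coeff_C_mul] at h1
    rw [Polynomial.coeff_map, coeff_C_mul, map_mul, h1, coeff_C_mul,
      ← mul_assoc, ← map_mul, mul_comm _ (b j), Submonoid.coe_finsetProd,
      Finset.mul_prod_erase _ _ (Finset.mem_univ j)]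
  choose d p hp using hcoord
  let D : R := ((∏ i, d i : nonZeroDivisors R) : R)
  let E : Fin Fr.n → R := fun i => ∏ l ∈ Finset.univ.erase i, (d l : R)
  refine ⟨D, ∑ i, (scalarHom π W (E i) * polyComb π W z w (p i)) • Fr.σ i,
    (IsLocalization.map_units F (∏ i, d i)).ne_zero, ?_⟩
  conv_rhs => rw [← (Fr.pull g hW).sum_smul σ, Finset.smul_sum]
  rw [map_sum]
  refine Finset.sum_congr rfl fun i _ => ?_
  rw [N.pullSec_smul, map_mul, pull_scalarHom _ hg hW, ← mul_smul]
  refine congrArg (· • N.pullSec g hW (Fr.σ i)) ?_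
  rw [show pull g hW (polyComb π W z w (p i)) = _ from
    map_polyComb π π' g (algebraMap R F) hg hW z w (p i)]
  refine (congrArg (scalarHom π' W' (algebraMap R F (E i)) * ·) (hp i)).trans ?_
  rw [← mul_assoc, ← map_mul, ← map_mul, mul_comm (E i)]
  simp only [E, D, Submonoid.coe_finsetProd]
  rw [Finset.mul_prod_erase _ (fun l => (d l : R)) (Finset.mem_univ i)]
  rfl

omit hb'

/-- A nonzero section over a chart is a scalar times one which stays nonzero in every fibre at the
closed point. -/
theorem exists_eq_smul_pullSec_ne_zero [IsDomain R] [ValuationRing R]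
    (hb' : Function.Bijective (polyComb π' W' (pull g hW z) fun i => pull g hW (w i)))
    (N : Cocycle X) (Fr : N.SecFrame W) {s : N.Sec W} (hs : s ≠ 0) :
    ∃ (d : R) (s₁ : N.Sec W), d ≠ 0 ∧ s = scalarHom π W d • s₁ ∧ N.pullSec g hW s₁ ≠ 0 := by
  obtain ⟨i₀, hi₀⟩ : ∃ i, N.pair (Fr.τ i) s ≠ 0 := by
    by_contra hne
    push Not at hne
    exact hs (by rw [← Fr.sum_smul s]; simp [hne])
  obtain ⟨d, p, hd, hp, i, j, m, hu⟩ :=
    exists_content π z w hb (fun i => N.pair (Fr.τ i) s) hi₀
  let s₁ : N.Sec W := ∑ l, polyComb π W z w (p l) • Fr.σ l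
  have h1 : s = scalarHom π W d • s₁ := by
    conv_lhs => rw [← Fr.sum_smul s]
    simp only [s₁, Finset.smul_sum, ← mul_smul, ← hp]
  refine ⟨d, s₁, hd, h1, fun h => ?_⟩
  have hcoord : N.pair (Fr.τ i) s₁ = polyComb π W z w (p i) := by
    refine sub_eq_zero.mp ((scalarHom_mul_eq_zero_iff π z w hb hd _).mp ?_)
    rw [mul_sub, ← N.pair_smul, ← h1, ← hp i, sub_self]
  refine pull_polyComb_ne_zero f hg hW hb' hu ?_
  rw [← hcoord, ← Cocycle.pair_pullSec, h]
  exact map_zero ((N.pullback g).pairL _)

end Chart

end FLTAgent.RelPicard
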